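/-
S40 (row 38), (W3) leaf **W-F4** (helper26), abstract part.

Setting of `P3G/UCrit`, `P4/TwistRoots`: `O` a discrete valuation ring with fraction field `K`, `F ⊇ K`
the function field, `R` a chart (noetherian integrally closed domain over `O` with fraction field `F`),
`V₁ V₂` the two vertical valuation rings (`TwistRoots.Setup R π V₁ V₂`).

* `isUnitAt_of_oneBranch` : the unit criterion at a closed point `𝔫` through which only `V₁` passes:
  a `V₁`-unit without zero or pole centred at `𝔫` is a unit of `R_𝔫` (`UCrit.hcrit_weak`);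
* `isUnitAt_of_node` : the same at any closed point for a unit of both `V₁` and `V₂`;
* `exists_unit_mul_pow_oneBranch` : **(F4), abstract form**: a `V₁`-unit `f` whose orders at the places
  centred at the one-branch point `𝔫` are divisible by `e`, with (Loc-P) on its support, is
  `f = u · β ^ e` with `u ∈ R_𝔫ˣ`, `β` a unit of `V₁` and `V₂` and `e · ord_Q β = ord_Q f` for `Q`
  centred at `𝔫` (`TwistRoots.exists_generator`, `exists_normalise`).
-/
import Mathlib
import Fermat.Agent.P4.TwistRoots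

set_option autoImplicit false
set_option linter.unusedSectionVars false
set_option linter.style.haveILetI false

namespace Fermat.Agent.S40.W.F4Abs

open Fermat.Agent.P4.TwistRoots Fermat.Agent.P3G.UCrit Fermat.Agent.P3G.LocalRootsAt
open AlgebraicCurve

section Abs

variable {O K F R : Type*}
  [CommRing O] [IsDomain O] [IsDiscreteValuationRing O]
  [Field K] [Algebra O K] [IsFractionRing O K]
  [Field F] [Algebra K F] [Algebra O F] [IsScalarTower O K F]
  [CommRing R] [IsDomain R] [IsNoetherianRing R] [IsIntegrallyClosed R]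
  [Algebra R F] [IsFractionRing R F] [Algebra O R] [IsScalarTower O R F]

/-- The unit criterion at a point on the branch `V₁` only. -/
theorem isUnitAt_of_oneBranch {π : O} (hπ : Irreducible π) {V₁ V₂ : ValuationSubring F}
    (hS : Setup R π V₁ V₂) (𝔫 : Ideal R) [𝔫.IsPrime] (ht₂ : ¬ Through V₂ 𝔫)
    {x : F} (hx0 : x ≠ 0) (hx₁ : V₁.valuation x = 1)
    (hC : ∀ Q ∈ centredSet K 𝔫, Q.ord x = 0) : IsUnitAt 𝔫 x := by
  have hV : ∀ (b : Bool) (r : R), algebraMap R F r ∈ fam V₁ V₂ b := by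
    intro b r; cases b
    · exact hS.mem₂ r
    · exact hS.mem₁ r
  refine hcrit_weak (K := K) (fam V₁ V₂) hV hπ ?_ ?_ 𝔫 x hx0 hC ?_
  · intro b; cases b
    · exact hS.pi₂
    · exact hS.pi₁
  · intro r hr
    exact hS.sat r (hr true) (hr false)
  · intro b hb
    cases b
    · exact absurd ((mem_throughSet_iff (fam V₁ V₂) hV).1 hb) ht₂
    · exact hx₁

/-- **(F4), abstract one-branch form.**  `𝔫` a closed point of the special fibre through which only
`V₁` passes; `f ≠ 0` a unit of `V₁` whose orders at the places centred at `𝔫` are divisible by `e`,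
with (Loc-P) at the places of its support centred at `𝔫`.  Then `f = u · β ^ e` with `u` a unit of
the local ring `R_𝔫` and `β` a unit of both `V₁` and `V₂`. -/
theorem exists_unit_mul_pow_oneBranch {π : O} (hπ : Irreducible π) {V₁ V₂ : ValuationSubring F}
    (hS : Setup R π V₁ V₂) (𝔫 : Ideal R) [h𝔫 : 𝔫.IsPrime] (hπ𝔫 : algebraMap O R π ∈ 𝔫)
    (ht₁ : Through V₁ 𝔫) (ht₂ : ¬ Through V₂ 𝔫)
    {f : F} (hf0 : f ≠ 0) (hf₁ : V₁.valuation f = 1) {e : ℕ}
    (hdiv : ∀ Q ∈ centredSet K 𝔫, (e : ℤ) ∣ Q.ord f)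
    (S₀ : Finset (Place K F)) (hS₀ : ∀ Q : Place K F, Q.ord f ≠ 0 → Q ∈ S₀)
    (hLocP : ∀ Q ∈ centredSet K 𝔫, Q.ord f ≠ 0 →
      ∃ b : F, b ≠ 0 ∧ Q.ord b = 1 ∧ ∀ Q' ∈ centredSet K 𝔫, Q' ≠ Q → Q'.ord b = 0) :
    ∃ β u : F, β ≠ 0 ∧ V₁.valuation β = 1 ∧ V₂.valuation β = 1 ∧
      (∀ Q ∈ centredSet K 𝔫, (e : ℤ) * Q.ord β = Q.ord f) ∧ IsUnitAt 𝔫 u ∧ f = u * β ^ e := by
  have hπ0 : algebraMap R F (algebraMap O R π) ≠ 0 := by
    have h1 : algebraMap R F (algebraMap O R π) = algebraMap O F π :=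
      (IsScalarTower.algebraMap_apply O R F π).symm
    rw [h1, IsScalarTower.algebraMap_apply O K F π]
    exact (map_ne_zero _).2 ((map_ne_zero_iff _ (IsFractionRing.injective O K)).2 hπ.ne_zero)
  have hconst : ∀ Q : Place K F, Q.ord (algebraMap R F (algebraMap O R π)) = 0 := fun Q => by
    have h1 : algebraMap R F (algebraMap O R π) = algebraMap O F π :=
      (IsScalarTower.algebraMap_apply O R F π).symm
    rw [h1]
    exact ord_algebraMap_eq_zero Q hπ.ne_zero
  obtain ⟨β₀, hβ₀0, hβ₀⟩ := exists_generator (K := K) (h := f) (e := e) S₀ hS₀ 𝔫 hLocP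
  obtain ⟨e₂, he₂, he₂𝔫⟩ := not_through_iff.1 ht₂
  obtain ⟨β, hβ0, hβ₁, hβ₂, hβ⟩ := exists_normalise (K := K) V₁ V₂ hS.mem₁ hπ0 hS.unif₂ hS.disc₁
    hS.disc₂ hconst hπ𝔫 ht₁ he₂ he₂𝔫 hβ₀0
  have hβe0 : β ^ e ≠ 0 := pow_ne_zero e hβ0
  have hordβ : ∀ Q ∈ centredSet K 𝔫, (e : ℤ) * Q.ord β = Q.ord f := by
    intro Q hQ
    rw [hβ Q hQ, hβ₀ Q hQ]
    exact Int.mul_ediv_cancel' (hdiv Q hQ)
  refine ⟨β, f / β ^ e, hβ0, hβ₁, hβ₂, hordβ, ?_, by field_simp⟩
  refine isUnitAt_of_oneBranch (K := K) hπ hS 𝔫 ht₂ (div_ne_zero hf0 hβe0) ?_ ?_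
  · rw [map_div₀, map_pow, hβ₁, one_pow, div_one, hf₁]
  · intro Q hQ
    have hord := ordMul_place (K := K) (F := F)
    have h1 : Q.ord (f / β ^ e) = Q.ord f - Q.ord (β ^ e) := hord.div Q hf0 hβe0
    have h2 : Q.ord (β ^ e) = e * Q.ord β := hord.pow Q hβ0 e
    rw [h1, h2, hordβ Q hQ, sub_self]

/-- The unit criterion at an arbitrary closed point, for a unit of both vertical valuation rings. -/
theorem isUnitAt_of_node {π : O} (hπ : Irreducible π) {V₁ V₂ : ValuationSubring F}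
    (hS : Setup R π V₁ V₂) (𝔫 : Ideal R) [𝔫.IsPrime]
    {x : F} (hx0 : x ≠ 0) (hx₁ : V₁.valuation x = 1) (hx₂ : V₂.valuation x = 1)
    (hC : ∀ Q ∈ centredSet K 𝔫, Q.ord x = 0) : IsUnitAt 𝔫 x := by
  have hV : ∀ (b : Bool) (r : R), algebraMap R F r ∈ fam V₁ V₂ b := by
    intro b r; cases b
    · exact hS.mem₂ r
    · exact hS.mem₁ r
  refine hcrit_strong (K := K) (fam V₁ V₂) hV hπ ?_ ?_ 𝔫 x hx0 hC ?_
  · intro b; cases b
    · exact hS.pi₂
    · exact hS.pi₁
  · intro r hr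
    exact hS.sat r (hr true) (hr false)
  · intro b
    cases b
    · exact hx₂
    · exact hx₁

end Abs

end Fermat.Agent.S40.W.F4Abs
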