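/-
S40 (row 38), (W3) leaf **W-F4** (helper26), at a level `(K, O)`.

Setting of `P4/BranchNormalLevel(Inf)`: level `N ℓ` (`ℓ ∤ N`, `ℓ` = residue characteristic of the
discrete valuation ring `O`), charts `Rfin K (N ℓ) O`, `Rinf K (N ℓ) O`, vertical valuation rings
`V₁ = gaussVS K (N ℓ) O` (the Gauss valuation at the cusp `∞`), `V₂ = S₂.V`.

* `exists_unit_mul_pow_fin`, `exists_unit_mul_pow_inf` : characteristic-zero form of (F4) at a closed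
  point `𝔫` of the special fibre of either chart lying on the Gauss branch only: a `V₁`-unit `f` with
  `e ∣ ord_Q f` for `Q` centred at `𝔫` and `K`-rational support there is `f = u · β ^ e`, `u ∈ R_𝔫ˣ`,
  `β` a unit of `V₁` and `V₂` (`F4Abs.exists_unit_mul_pow_oneBranch` + `locPRat_fin/inf` +
  `BranchNormalLevel(Inf).setup_fin/inf`);
* `redG : gaussSubalgebra K (N ℓ) O →+* FF κ N` : the Gauss reduction of `V₁` with values in `FF κ N`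
  (`SecondValBridge.theta_mem_full`); `redFinL`, `redInfL` its restrictions to the charts;
  `redFinS : Rfin K (N ℓ) O →+* SigmaFin κ N`, `redInfS : Rinf K (N ℓ) O →+* SigmaInf κ N` the
  corestrictions, both surjective (`redFinS_surjective`, `redInfS_surjective`), with kernel
  `𝔪_{V₁} ∩ R` (`redFinS_eq_zero_iff`, `redInfS_eq_zero_iff`);
* `f4_fin_at`, `f4_inf_at` : reduced form at `𝔫`: `redG f = ū · s̄ ^ e`, `ū · redL a = redL r`,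
  `a r ∉ 𝔫`;
* `f4_fin`, `f4_inf` : **(F4)** at a maximal ideal `𝔮` of `SigmaFin κ N` (`SigmaInf κ N`) which is not
  in the image of the second component (`hns`: some `r ∈ 𝔪_{V₂} ∩ R` has `redS r ∉ 𝔮`):
  `redG f = ū · s̄ ^ e` with `ū · a = r`, `a r ∈ Sigma ∖ 𝔮` (so `e ∣ ord_𝔮 (redG f)`).
-/
import Mathlib
import Fermat.Agent.P4.BranchNormalLevel
import Fermat.Agent.P4.BranchNormalLevelInf
import Fermat.Agent.S40.W.F4Abs

set_option autoImplicit false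
set_option linter.unusedSectionVars false
set_option linter.style.haveILetI false

open ModularCurve Fermat.Agent.S28.Gauss Fermat.Agent.N4.Setting Fermat.Agent.N4.FibreEmbedding
open Fermat.Agent.N4.Chart
open Fermat.Agent.N4F.E.DegreeLevelRaise Fermat.Agent.N4F.E.GaussDVR AlgebraicCurve Polynomial
open Fermat.Agent.N4F.E IsLocalRing Fermat.Agent.P3G.RbarFin Fermat.Agent.P3G.TwoComponents
open Fermat.Agent.P3G.RbarInf Fermat.Agent.P3G.TwoComponentsInf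
open Fermat.Agent.P3G.TwoComponentsFinal Fermat.Agent.P3G.TwoComponentsInfFinal
open Fermat.Agent.P3G Fermat.Agent.P4
open Fermat.Agent.P4.TwistRoots Fermat.Agent.P3G.UCrit Fermat.Agent.P3G.Glue.LevelRoots
open Fermat.Agent.S40.W.F4Abs
open IntermediateField

noncomputable section

namespace Fermat.Agent.S40.W.F4Level

variable (K : Type) [Field K] [CharZero K] (N : ℕ) [NeZero N] (ℓ : ℕ) [Fact ℓ.Prime]
  (O : Subring K) [IsDiscreteValuationRing ↥O] [IsFractionRing ↥O K]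
  [CharP (IsLocalRing.ResidueField ↥O) ℓ] [PerfectRing (IsLocalRing.ResidueField ↥O) ℓ]

set_option quotPrecheck false in
local notation "κ" => IsLocalRing.ResidueField ↥O

set_option synthInstance.maxHeartbeats 400000

variable (hN : IsUnit ((N : ℕ) : ↥O)) (ι : K →+* ℂ) (hℓN : ¬ ℓ ∣ N)
  (hprime : (fibreIdeal K N O (Rfin K N O)).IsPrime)
  (hsmooth : IsDedekindDomain (↥(Rfin K N O) ⧸ fibreIdeal K N O (Rfin K N O)))
  (hprimeInf : (fibreIdeal K N O (Rinf K N O)).IsPrime)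
  (hsmoothInf : IsDedekindDomain (↥(Rinf K N O) ⧸ fibreIdeal K N O (Rinf K N O)))
  (hA2 : ∀ x : ↥(gaussSubalgebra K N O),
    theta K N O x ∈ modularFunctionFieldFullC (IsLocalRing.ResidueField ↥O) N)
  (S₂ : FibreTwo.SecondVal K N ℓ O)
  {ϖ : ↥O} (hϖ : Irreducible ϖ)

/-! ### Characteristic zero: `f = u · β ^ e` at the one-branch points of both charts -/

include hN ι hℓN hprime hsmooth hA2 hϖ in
/-- **(F4), finite chart, characteristic-zero form.** -/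
theorem exists_unit_mul_pow_fin (𝔫 : Ideal ↥(Rfin K (N * ℓ) O)) [h𝔫 : 𝔫.IsMaximal]
    (hϖ𝔫 : algebraMap ↥O ↥(Rfin K (N * ℓ) O) ϖ ∈ 𝔫)
    (ht₁ : Through (gaussVS K (N * ℓ) O) 𝔫) (ht₂ : ¬ Through S₂.V 𝔫)
    {f : FF K (N * ℓ)} (hf0 : f ≠ 0) (hf₁ : (gaussVS K (N * ℓ) O).valuation f = 1) {e : ℕ}
    (hdiv : ∀ Q ∈ centredSet (F := FF K (N * ℓ)) K 𝔫, (e : ℤ) ∣ Q.ord f)
    (S₀ : Finset (Place K (FF K (N * ℓ))))
    (hS₀ : ∀ Q : Place K (FF K (N * ℓ)), Q.ord f ≠ 0 → Q ∈ S₀)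
    (hrat : ∀ Q ∈ centredSet (F := FF K (N * ℓ)) K 𝔫, Q.ord f ≠ 0 →
      Function.Bijective (algebraMap K Q.ResidueField)) :
    ∃ β u : FF K (N * ℓ), β ≠ 0 ∧ (gaussVS K (N * ℓ) O).valuation β = 1 ∧
      S₂.V.valuation β = 1 ∧
      (∀ Q ∈ centredSet (F := FF K (N * ℓ)) K 𝔫, (e : ℤ) * Q.ord β = Q.ord f) ∧
      IsUnitAt 𝔫 u ∧ f = u * β ^ e := by
  haveI := Fermat.Agent.N4.ModPolySetting.finiteDimensional_FF K (N * ℓ)
  have hj := Fermat.Agent.N4.FFAlgebraic.transcendental_jF K (N * ℓ)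
  haveI : IsNoetherianRing ↥(Rfin K (N * ℓ) O) :=
    Fermat.Agent.N4.IntClosure.isNoetherianRing_chartAlg (K := K) (jF K (N * ℓ)) hj
  haveI : IsFractionRing ↥(Rfin K (N * ℓ) O) (FF K (N * ℓ)) :=
    Fermat.Agent.N4.Cover.Main.isFractionRing_chartAlg (O := ↥O) (K₀ := K) (jF K (N * ℓ)) hj
  haveI : IsIntegrallyClosed ↥(Rfin K (N * ℓ) O) :=
    Fermat.Agent.N4.Cover.Main.isIntegrallyClosed_chartAlg (O := ↥O) (K₀ := K) (jF K (N * ℓ)) hj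
  have hS := BranchNormalLevel.setup_fin K N ℓ O hN ι hℓN hprime hsmooth hA2 S₂ hϖ
  have hLocP := locPRat_fin K N ℓ O hN ι hℓN hprime hsmooth hA2 hϖ
  exact exists_unit_mul_pow_oneBranch (K := K) hϖ hS 𝔫 hϖ𝔫 ht₁ ht₂ hf0 hf₁ hdiv S₀ hS₀
    (fun Q hQ hQf => hLocP 𝔫 h𝔫 hϖ𝔫 Q hQ (hrat Q hQ hQf))

include hN ι hℓN hprime hprimeInf hsmoothInf hA2 hϖ in
/-- **(F4), chart at infinity, characteristic-zero form.** -/
theorem exists_unit_mul_pow_inf (𝔫 : Ideal ↥(Rinf K (N * ℓ) O)) [h𝔫 : 𝔫.IsMaximal]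
    (hϖ𝔫 : algebraMap ↥O ↥(Rinf K (N * ℓ) O) ϖ ∈ 𝔫)
    (ht₁ : Through (gaussVS K (N * ℓ) O) 𝔫) (ht₂ : ¬ Through S₂.V 𝔫)
    {f : FF K (N * ℓ)} (hf0 : f ≠ 0) (hf₁ : (gaussVS K (N * ℓ) O).valuation f = 1) {e : ℕ}
    (hdiv : ∀ Q ∈ centredSet (F := FF K (N * ℓ)) K 𝔫, (e : ℤ) ∣ Q.ord f)
    (S₀ : Finset (Place K (FF K (N * ℓ))))
    (hS₀ : ∀ Q : Place K (FF K (N * ℓ)), Q.ord f ≠ 0 → Q ∈ S₀)
    (hrat : ∀ Q ∈ centredSet (F := FF K (N * ℓ)) K 𝔫, Q.ord f ≠ 0 →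
      Function.Bijective (algebraMap K Q.ResidueField)) :
    ∃ β u : FF K (N * ℓ), β ≠ 0 ∧ (gaussVS K (N * ℓ) O).valuation β = 1 ∧
      S₂.V.valuation β = 1 ∧
      (∀ Q ∈ centredSet (F := FF K (N * ℓ)) K 𝔫, (e : ℤ) * Q.ord β = Q.ord f) ∧
      IsUnitAt 𝔫 u ∧ f = u * β ^ e := by
  haveI := Fermat.Agent.N4.ModPolySetting.finiteDimensional_FF K (N * ℓ)
  have hj := Fermat.Agent.N4.FFAlgebraic.transcendental_jF K (N * ℓ)
  have hjinv : Transcendental K (jF K (N * ℓ))⁻¹ := fun h => hj (by simpa using h.inv)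
  haveI : FiniteDimensional K⟮(jF K (N * ℓ))⁻¹⟯ (FF K (N * ℓ)) := by
    rw [Fermat.Agent.N4.Cover.Main.adjoin_inv_eq]; infer_instance
  haveI : IsNoetherianRing ↥(Rinf K (N * ℓ) O) :=
    Fermat.Agent.N4.IntClosure.isNoetherianRing_chartAlg (K := K) (jF K (N * ℓ))⁻¹ hjinv
  haveI : IsFractionRing ↥(Rinf K (N * ℓ) O) (FF K (N * ℓ)) :=
    Fermat.Agent.N4.Cover.Main.isFractionRing_chartAlg (O := ↥O) (K₀ := K) (jF K (N * ℓ))⁻¹ hjinv
  haveI : IsIntegrallyClosed ↥(Rinf K (N * ℓ) O) :=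
    Fermat.Agent.N4.Cover.Main.isIntegrallyClosed_chartAlg (O := ↥O) (K₀ := K)
      (jF K (N * ℓ))⁻¹ hjinv
  have hS := BranchNormalLevelInf.setup_inf K N ℓ O hN ι hℓN hprime hprimeInf hsmoothInf hA2 S₂ hϖ
  have hLocP := locPRat_inf K N ℓ O hN ι hℓN hprime hprimeInf hsmoothInf hA2 hϖ
  exact exists_unit_mul_pow_oneBranch (K := K) hϖ hS 𝔫 hϖ𝔫 ht₁ ht₂ hf0 hf₁ hdiv S₀ hS₀
    (fun Q hQ hQf => hLocP 𝔫 h𝔫 hϖ𝔫 Q hQ (hrat Q hQ hQf))

/-! ### The Gauss reduction of level `N ℓ` with values in `FF κ N` -/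

/-- The Gauss reduction of `G_{N ℓ}` (= the valuation ring `V₁`), with values in `FF κ N`. -/
def redG : ↥(gaussSubalgebra K (N * ℓ) O) →+* FF κ N :=
  (theta K (N * ℓ) O).codRestrict (modularFunctionFieldFullC κ N)
    (fun x => SecondValBridge.theta_mem_full K N ℓ O S₂ ι hℓN hA2 x.1 x.2)

theorem coe_redG (x : ↥(gaussSubalgebra K (N * ℓ) O)) :
    ((redG K N ℓ O ι hℓN hA2 S₂ x : FF κ N) : LaurentSeries κ) = theta K (N * ℓ) O x := rfl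

theorem redG_eq_zero_iff (x : ↥(gaussSubalgebra K (N * ℓ) O)) :
    redG K N ℓ O ι hℓN hA2 S₂ x = 0 ↔ (x : FF K (N * ℓ)) ∈ (gaussVS K (N * ℓ) O).nonunits := by
  rw [FibreTwo.mem_nonunits_gaussVS_iff K (N * ℓ) O x.2]
  constructor
  · intro h
    have := congrArg (fun z : FF κ N => (z : LaurentSeries κ)) h
    simpa [coe_redG] using this
  · intro h
    apply Subtype.ext
    rw [coe_redG]
    exact h

/-- The reduction of the finite chart of level `N ℓ` along the Gauss valuation. -/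
def redFinL : ↥(Rfin K (N * ℓ) O) →+* FF κ N :=
  (redG K N ℓ O ι hℓN hA2 S₂).comp
    (Subalgebra.inclusion
      (chartAlg_le_gaussSubalgebra K (N * ℓ) O (sFin_le_gauss K (N * ℓ) O))).toRingHom

theorem coe_redFinL (r : ↥(Rfin K (N * ℓ) O)) :
    ((redFinL K N ℓ O ι hℓN hA2 S₂ r : FF κ N) : LaurentSeries κ) = thetaFin K (N * ℓ) O r := rfl

/-- The reduction of the chart at infinity of level `N ℓ` along the Gauss valuation. -/
def redInfL : ↥(Rinf K (N * ℓ) O) →+* FF κ N :=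
  (redG K N ℓ O ι hℓN hA2 S₂).comp
    (Subalgebra.inclusion
      (chartAlg_le_gaussSubalgebra K (N * ℓ) O (sInf_le_gauss K (N * ℓ) O))).toRingHom

theorem coe_redInfL (r : ↥(Rinf K (N * ℓ) O)) :
    ((redInfL K N ℓ O ι hℓN hA2 S₂ r : FF κ N) : LaurentSeries κ) = thetaInf K (N * ℓ) O r := rfl

open Fermat.Agent.N4F.C.ChartFibre in
/-- The reduction of the finite chart of level `N ℓ` lies in `SigmaFin κ N`. -/
theorem redFinL_mem (r : ↥(Rfin K (N * ℓ) O)) :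
    redFinL K N ℓ O ι hℓN hA2 S₂ r ∈ SigmaFin κ N := by
  have h := SecondValBridge.theta_mem_RbarFin K N ℓ O S₂ ι hℓN hA2 r.2
    (chartAlg_le_gaussSubalgebra K (N * ℓ) O (sFin_le_gauss K (N * ℓ) O) r.2)
  obtain ⟨x, hx, hxe⟩ := (SigmaFrob.mem_Rbar_iff κ N _).1 h
  have : x = redFinL K N ℓ O ι hℓN hA2 S₂ r := Subtype.ext hxe
  rw [← this]
  exact hx

open Fermat.Agent.N4F.C.ChartFibre in
/-- The reduction of the chart at infinity of level `N ℓ` lies in `SigmaInf κ N`. -/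
theorem redInfL_mem (r : ↥(Rinf K (N * ℓ) O)) :
    redInfL K N ℓ O ι hℓN hA2 S₂ r ∈ SigmaInf κ N := by
  have h := SecondValBridge.theta_mem_RbarInf K N ℓ O S₂ ι hℓN hA2 r.2
    (chartAlg_le_gaussSubalgebra K (N * ℓ) O (sInf_le_gauss K (N * ℓ) O) r.2)
  obtain ⟨x, hx, hxe⟩ := (SigmaFrob.mem_Rbar_iff κ N _).1 h
  have : x = redInfL K N ℓ O ι hℓN hA2 S₂ r := Subtype.ext hxe
  rw [← this]
  exact hx

open Fermat.Agent.N4F.C.ChartFibre in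
include hN hprime hsmooth in
/-- The reduction of the finite chart of level `N ℓ` is onto `SigmaFin κ N`. -/
theorem exists_redFinL_eq {z : FF κ N} (hz : z ∈ SigmaFin κ N) :
    ∃ r : ↥(Rfin K (N * ℓ) O), redFinL K N ℓ O ι hℓN hA2 S₂ r = z := by
  have hD := crossingData_fin K N ℓ O hN ι hℓN hprime hsmooth hA2 S₂
  have hz' : (z : LaurentSeries κ) ∈ RbarFin K N O := by
    rw [TwoComponentsB.rbarFin_eq K N O hN hprime hsmooth]
    exact SigmaFrob.coe_mem_Rbar κ N _ hz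
  obtain ⟨r, hr⟩ := hD.surj₁ ⟨(z : LaurentSeries κ), hz'⟩
  refine ⟨r, Subtype.ext ?_⟩
  rw [coe_redFinL]
  exact congrArg Subtype.val hr

open Fermat.Agent.N4F.C.ChartFibre in
include hN hprime hprimeInf hsmoothInf in
/-- The reduction of the chart at infinity of level `N ℓ` is onto `SigmaInf κ N`. -/
theorem exists_redInfL_eq {z : FF κ N} (hz : z ∈ SigmaInf κ N) :
    ∃ r : ↥(Rinf K (N * ℓ) O), redInfL K N ℓ O ι hℓN hA2 S₂ r = z := by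
  have hD := crossingData_inf K N ℓ O hN ι hℓN hprime hprimeInf hsmoothInf hA2 S₂
  have hz' : (z : LaurentSeries κ) ∈ RbarInf K N O := by
    rw [TwoComponentsInfB.rbarInf_eq K N O hN hprimeInf hsmoothInf]
    exact SigmaFrob.coe_mem_Rbar κ N _ hz
  obtain ⟨r, hr⟩ := hD.surj₁ ⟨(z : LaurentSeries κ), hz'⟩
  refine ⟨r, Subtype.ext ?_⟩
  rw [coe_redInfL]
  exact congrArg Subtype.val hr

/-! ### (F4) in reduced form -/

theorem mem_gauss_of_valuation_eq_one {x : FF K (N * ℓ)}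
    (h : (gaussVS K (N * ℓ) O).valuation x = 1) : x ∈ gaussSubalgebra K (N * ℓ) O :=
  (mem_gaussVS_iff K (N * ℓ) O).1 (((gaussVS K (N * ℓ) O).valuation_le_one_iff x).1 h.le)

/-- A unit of the local ring `R_𝔫` is a unit of every valuation ring `V ⊇ R` through `𝔫`. -/
theorem valuation_eq_one_of_isUnitAt {F R : Type*} [Field F] [CommRing R] [IsDomain R]
    [Algebra R F] [IsFractionRing R F] {V : ValuationSubring F}
    (hV : ∀ r : R, algebraMap R F r ∈ V) {𝔫 : Ideal R} (ht : Through V 𝔫) {u : F}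
    (hu : IsUnitAt 𝔫 u) : V.valuation u = 1 := by
  obtain ⟨a, r, ha, hr, har⟩ := hu
  have h1 := valuation_eq_one_of_notMem hV ht ha
  have h2 := valuation_eq_one_of_notMem hV ht hr
  have := congrArg V.valuation har
  rwa [map_mul, h1, h2, mul_one] at this

include hN ι hℓN hprime hsmooth hA2 hϖ in
/-- **(F4), finite chart, reduced form at a closed point `𝔫` of the chart of level `N ℓ`** lying on
the Gauss branch only: the Gauss reduction of `f` is `ū · s̄ ^ e` with `ū = r̄ / ā`, `a r ∉ 𝔫`. -/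
theorem f4_fin_at (𝔫 : Ideal ↥(Rfin K (N * ℓ) O)) [h𝔫 : 𝔫.IsMaximal]
    (hϖ𝔫 : algebraMap ↥O ↥(Rfin K (N * ℓ) O) ϖ ∈ 𝔫)
    (ht₁ : Through (gaussVS K (N * ℓ) O) 𝔫) (ht₂ : ¬ Through S₂.V 𝔫)
    {f : FF K (N * ℓ)} (hf0 : f ≠ 0) (hf₁ : (gaussVS K (N * ℓ) O).valuation f = 1) {e : ℕ}
    (hdiv : ∀ Q ∈ centredSet (F := FF K (N * ℓ)) K 𝔫, (e : ℤ) ∣ Q.ord f)
    (S₀ : Finset (Place K (FF K (N * ℓ))))
    (hS₀ : ∀ Q : Place K (FF K (N * ℓ)), Q.ord f ≠ 0 → Q ∈ S₀)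
    (hrat : ∀ Q ∈ centredSet (F := FF K (N * ℓ)) K 𝔫, Q.ord f ≠ 0 →
      Function.Bijective (algebraMap K Q.ResidueField)) :
    ∃ (u s : FF κ N) (a r : ↥(Rfin K (N * ℓ) O)), a ∉ 𝔫 ∧ r ∉ 𝔫 ∧
      redG K N ℓ O ι hℓN hA2 S₂ ⟨f, mem_gauss_of_valuation_eq_one K N ℓ O hf₁⟩ = u * s ^ e ∧
      u * redFinL K N ℓ O ι hℓN hA2 S₂ a = redFinL K N ℓ O ι hℓN hA2 S₂ r := by
  haveI := Fermat.Agent.N4.ModPolySetting.finiteDimensional_FF K (N * ℓ)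
  have hj := Fermat.Agent.N4.FFAlgebraic.transcendental_jF K (N * ℓ)
  haveI : IsFractionRing ↥(Rfin K (N * ℓ) O) (FF K (N * ℓ)) :=
    Fermat.Agent.N4.Cover.Main.isFractionRing_chartAlg (O := ↥O) (K₀ := K) (jF K (N * ℓ)) hj
  have hS := BranchNormalLevel.setup_fin K N ℓ O hN ι hℓN hprime hsmooth hA2 S₂ hϖ
  obtain ⟨β, u, -, hβ₁, -, -, hu, hfe⟩ := exists_unit_mul_pow_fin K N ℓ O hN ι hℓN hprime hsmooth
    hA2 S₂ hϖ 𝔫 hϖ𝔫 ht₁ ht₂ hf0 hf₁ hdiv S₀ hS₀ hrat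
  have hu₁ : (gaussVS K (N * ℓ) O).valuation u = 1 := valuation_eq_one_of_isUnitAt hS.mem₁ ht₁ hu
  obtain ⟨a, r, ha, hr, har⟩ := hu
  have hβG := mem_gauss_of_valuation_eq_one K N ℓ O hβ₁
  have huG := mem_gauss_of_valuation_eq_one K N ℓ O hu₁
  refine ⟨redG K N ℓ O ι hℓN hA2 S₂ ⟨u, huG⟩, redG K N ℓ O ι hℓN hA2 S₂ ⟨β, hβG⟩, a, r, ha, hr,
    ?_, ?_⟩
  · rw [← map_pow, ← map_mul]
    exact congrArg _ (Subtype.ext hfe)
  · unfold redFinL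
    rw [RingHom.comp_apply, RingHom.comp_apply, ← map_mul]
    exact congrArg _ (Subtype.ext har)

include hN ι hℓN hprime hprimeInf hsmoothInf hA2 hϖ in
/-- **(F4), chart at infinity, reduced form at a closed point `𝔫` of the chart of level `N ℓ`** lying
on the Gauss branch only. -/
theorem f4_inf_at (𝔫 : Ideal ↥(Rinf K (N * ℓ) O)) [h𝔫 : 𝔫.IsMaximal]
    (hϖ𝔫 : algebraMap ↥O ↥(Rinf K (N * ℓ) O) ϖ ∈ 𝔫)
    (ht₁ : Through (gaussVS K (N * ℓ) O) 𝔫) (ht₂ : ¬ Through S₂.V 𝔫)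
    {f : FF K (N * ℓ)} (hf0 : f ≠ 0) (hf₁ : (gaussVS K (N * ℓ) O).valuation f = 1) {e : ℕ}
    (hdiv : ∀ Q ∈ centredSet (F := FF K (N * ℓ)) K 𝔫, (e : ℤ) ∣ Q.ord f)
    (S₀ : Finset (Place K (FF K (N * ℓ))))
    (hS₀ : ∀ Q : Place K (FF K (N * ℓ)), Q.ord f ≠ 0 → Q ∈ S₀)
    (hrat : ∀ Q ∈ centredSet (F := FF K (N * ℓ)) K 𝔫, Q.ord f ≠ 0 →
      Function.Bijective (algebraMap K Q.ResidueField)) :
    ∃ (u s : FF κ N) (a r : ↥(Rinf K (N * ℓ) O)), a ∉ 𝔫 ∧ r ∉ 𝔫 ∧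
      redG K N ℓ O ι hℓN hA2 S₂ ⟨f, mem_gauss_of_valuation_eq_one K N ℓ O hf₁⟩ = u * s ^ e ∧
      u * redInfL K N ℓ O ι hℓN hA2 S₂ a = redInfL K N ℓ O ι hℓN hA2 S₂ r := by
  haveI := Fermat.Agent.N4.ModPolySetting.finiteDimensional_FF K (N * ℓ)
  have hj := Fermat.Agent.N4.FFAlgebraic.transcendental_jF K (N * ℓ)
  have hjinv : Transcendental K (jF K (N * ℓ))⁻¹ := fun h => hj (by simpa using h.inv)
  haveI : FiniteDimensional K⟮(jF K (N * ℓ))⁻¹⟯ (FF K (N * ℓ)) := by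
    rw [Fermat.Agent.N4.Cover.Main.adjoin_inv_eq]; infer_instance
  haveI : IsFractionRing ↥(Rinf K (N * ℓ) O) (FF K (N * ℓ)) :=
    Fermat.Agent.N4.Cover.Main.isFractionRing_chartAlg (O := ↥O) (K₀ := K) (jF K (N * ℓ))⁻¹ hjinv
  have hS := BranchNormalLevelInf.setup_inf K N ℓ O hN ι hℓN hprime hprimeInf hsmoothInf hA2 S₂ hϖ
  obtain ⟨β, u, -, hβ₁, -, -, hu, hfe⟩ := exists_unit_mul_pow_inf K N ℓ O hN ι hℓN hprime
    hprimeInf hsmoothInf hA2 S₂ hϖ 𝔫 hϖ𝔫 ht₁ ht₂ hf0 hf₁ hdiv S₀ hS₀ hrat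
  have hu₁ : (gaussVS K (N * ℓ) O).valuation u = 1 := valuation_eq_one_of_isUnitAt hS.mem₁ ht₁ hu
  obtain ⟨a, r, ha, hr, har⟩ := hu
  have hβG := mem_gauss_of_valuation_eq_one K N ℓ O hβ₁
  have huG := mem_gauss_of_valuation_eq_one K N ℓ O hu₁
  refine ⟨redG K N ℓ O ι hℓN hA2 S₂ ⟨u, huG⟩, redG K N ℓ O ι hℓN hA2 S₂ ⟨β, hβG⟩, a, r, ha, hr,
    ?_, ?_⟩
  · rw [← map_pow, ← map_mul]
    exact congrArg _ (Subtype.ext hfe)
  · unfold redInfL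
    rw [RingHom.comp_apply, RingHom.comp_apply, ← map_mul]
    exact congrArg _ (Subtype.ext har)

/-! ### (F4) at the maximal ideals of the charts `SigmaFin κ N`, `SigmaInf κ N` of the special fibre -/

open Fermat.Agent.N4F.C.ChartFibre

/-- The reduction of the finite chart of level `N ℓ`, corestricted to `SigmaFin κ N`. -/
def redFinS : ↥(Rfin K (N * ℓ) O) →+* ↥(SigmaFin κ N) :=
  (redFinL K N ℓ O ι hℓN hA2 S₂).codRestrict (SigmaFin κ N) (redFinL_mem K N ℓ O ι hℓN hA2 S₂)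

/-- The reduction of the chart at infinity of level `N ℓ`, corestricted to `SigmaInf κ N`. -/
def redInfS : ↥(Rinf K (N * ℓ) O) →+* ↥(SigmaInf κ N) :=
  (redInfL K N ℓ O ι hℓN hA2 S₂).codRestrict (SigmaInf κ N) (redInfL_mem K N ℓ O ι hℓN hA2 S₂)

theorem coe_redFinS (r : ↥(Rfin K (N * ℓ) O)) :
    ((redFinS K N ℓ O ι hℓN hA2 S₂ r : ↥(SigmaFin κ N)) : FF κ N) =
      redFinL K N ℓ O ι hℓN hA2 S₂ r := rfl

theorem coe_redInfS (r : ↥(Rinf K (N * ℓ) O)) :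
    ((redInfS K N ℓ O ι hℓN hA2 S₂ r : ↥(SigmaInf κ N)) : FF κ N) =
      redInfL K N ℓ O ι hℓN hA2 S₂ r := rfl

include hN hprime hsmooth in
theorem redFinS_surjective : Function.Surjective (redFinS K N ℓ O ι hℓN hA2 S₂) := by
  intro z
  obtain ⟨r, hr⟩ := exists_redFinL_eq K N ℓ O hN ι hℓN hprime hsmooth hA2 S₂ z.2
  exact ⟨r, Subtype.ext hr⟩

include hN hprime hprimeInf hsmoothInf in
theorem redInfS_surjective : Function.Surjective (redInfS K N ℓ O ι hℓN hA2 S₂) := by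
  intro z
  obtain ⟨r, hr⟩ := exists_redInfL_eq K N ℓ O hN ι hℓN hprime hprimeInf hsmoothInf hA2 S₂ z.2
  exact ⟨r, Subtype.ext hr⟩

/-- The reduction of a chart element vanishes iff the element is a non-unit of `V₁`. -/
theorem redFinS_eq_zero_iff (r : ↥(Rfin K (N * ℓ) O)) :
    redFinS K N ℓ O ι hℓN hA2 S₂ r = 0 ↔
      algebraMap ↥(Rfin K (N * ℓ) O) (FF K (N * ℓ)) r ∈ (gaussVS K (N * ℓ) O).nonunits := by
  have key := redG_eq_zero_iff K N ℓ O ι hℓN hA2 S₂ ⟨(r : FF K (N * ℓ)),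
    chartAlg_le_gaussSubalgebra K (N * ℓ) O (sFin_le_gauss K (N * ℓ) O) r.2⟩
  refine Iff.trans ?_ key
  constructor
  · intro h
    have := congrArg (fun z : ↥(SigmaFin κ N) => (z : FF κ N)) h
    exact this
  · intro h
    exact Subtype.ext h

theorem redInfS_eq_zero_iff (r : ↥(Rinf K (N * ℓ) O)) :
    redInfS K N ℓ O ι hℓN hA2 S₂ r = 0 ↔
      algebraMap ↥(Rinf K (N * ℓ) O) (FF K (N * ℓ)) r ∈ (gaussVS K (N * ℓ) O).nonunits := by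
  have key := redG_eq_zero_iff K N ℓ O ι hℓN hA2 S₂ ⟨(r : FF K (N * ℓ)),
    chartAlg_le_gaussSubalgebra K (N * ℓ) O (sInf_le_gauss K (N * ℓ) O) r.2⟩
  refine Iff.trans ?_ key
  constructor
  · intro h
    have := congrArg (fun z : ↥(SigmaInf κ N) => (z : FF κ N)) h
    exact this
  · intro h
    exact Subtype.ext h

include hN ι hℓN hprime hsmooth hA2 hϖ in
/-- **(F4) at a maximal ideal `𝔮` of `SigmaFin κ N` off the second component.**  `f ≠ 0` a unit of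
the Gauss valuation ring of level `N ℓ` with `e ∣ ord_Q f` at every place, zeros and poles
`K`-rational.  If `𝔮` is not in the image of the second component (`hns`), the Gauss reduction
`f̄ ∈ FF κ N` of `f` is `ū · s̄ ^ e` with `ū` a unit of the local ring of `SigmaFin κ N` at `𝔮`. -/
theorem f4_fin (𝔮 : Ideal ↥(SigmaFin κ N)) [h𝔮 : 𝔮.IsMaximal]
    (hns : ∃ r : ↥(Rfin K (N * ℓ) O),
      algebraMap ↥(Rfin K (N * ℓ) O) (FF K (N * ℓ)) r ∈ S₂.V.nonunits ∧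
        redFinS K N ℓ O ι hℓN hA2 S₂ r ∉ 𝔮)
    {f : FF K (N * ℓ)} (hf0 : f ≠ 0) (hf₁ : (gaussVS K (N * ℓ) O).valuation f = 1) {e : ℕ}
    (hdiv : ∀ Q : Place K (FF K (N * ℓ)), (e : ℤ) ∣ Q.ord f)
    (S₀ : Finset (Place K (FF K (N * ℓ))))
    (hS₀ : ∀ Q : Place K (FF K (N * ℓ)), Q.ord f ≠ 0 → Q ∈ S₀)
    (hrat : ∀ Q : Place K (FF K (N * ℓ)), Q.ord f ≠ 0 →
      Function.Bijective (algebraMap K Q.ResidueField)) :
    ∃ (u s : FF κ N) (a r : ↥(SigmaFin κ N)), a ∉ 𝔮 ∧ r ∉ 𝔮 ∧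
      redG K N ℓ O ι hℓN hA2 S₂ ⟨f, mem_gauss_of_valuation_eq_one K N ℓ O hf₁⟩ = u * s ^ e ∧
      u * (a : FF κ N) = (r : FF κ N) := by
  have hS := BranchNormalLevel.setup_fin K N ℓ O hN ι hℓN hprime hsmooth hA2 S₂ hϖ
  set φ := redFinS K N ℓ O ι hℓN hA2 S₂ with hφ
  have hsurj : Function.Surjective φ := redFinS_surjective K N ℓ O hN ι hℓN hprime hsmooth hA2 S₂
  haveI h𝔫 : (𝔮.comap φ).IsMaximal := Ideal.comap_isMaximal_of_surjective φ hsurj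
  have ht₁ : Through (gaussVS K (N * ℓ) O) (𝔮.comap φ) := by
    intro r hr
    rw [Ideal.mem_comap, (redFinS_eq_zero_iff K N ℓ O ι hℓN hA2 S₂ r).2 hr]
    exact 𝔮.zero_mem
  have ht₂ : ¬ Through S₂.V (𝔮.comap φ) := by
    obtain ⟨r, hr, hrq⟩ := hns
    exact not_through_iff.2 ⟨r, hr, fun h => hrq (Ideal.mem_comap.1 h)⟩
  have hϖ𝔫 : algebraMap ↥O ↥(Rfin K (N * ℓ) O) ϖ ∈ 𝔮.comap φ := ht₁ _ hS.pi₁
  obtain ⟨u, s, a, r, ha, hr, h1, h2⟩ := f4_fin_at K N ℓ O hN ι hℓN hprime hsmooth hA2 S₂ hϖ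
    (𝔮.comap φ) hϖ𝔫 ht₁ ht₂ hf0 hf₁ (fun Q _ => hdiv Q) S₀ hS₀ (fun Q _ => hrat Q)
  exact ⟨u, s, φ a, φ r, fun h => ha (Ideal.mem_comap.2 h), fun h => hr (Ideal.mem_comap.2 h),
    h1, h2⟩

include hN ι hℓN hprime hprimeInf hsmoothInf hA2 hϖ in
/-- **(F4) at a maximal ideal `𝔮` of `SigmaInf κ N` off the second component.** -/
theorem f4_inf (𝔮 : Ideal ↥(SigmaInf κ N)) [h𝔮 : 𝔮.IsMaximal]
    (hns : ∃ r : ↥(Rinf K (N * ℓ) O),
      algebraMap ↥(Rinf K (N * ℓ) O) (FF K (N * ℓ)) r ∈ S₂.V.nonunits ∧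
        redInfS K N ℓ O ι hℓN hA2 S₂ r ∉ 𝔮)
    {f : FF K (N * ℓ)} (hf0 : f ≠ 0) (hf₁ : (gaussVS K (N * ℓ) O).valuation f = 1) {e : ℕ}
    (hdiv : ∀ Q : Place K (FF K (N * ℓ)), (e : ℤ) ∣ Q.ord f)
    (S₀ : Finset (Place K (FF K (N * ℓ))))
    (hS₀ : ∀ Q : Place K (FF K (N * ℓ)), Q.ord f ≠ 0 → Q ∈ S₀)
    (hrat : ∀ Q : Place K (FF K (N * ℓ)), Q.ord f ≠ 0 →
      Function.Bijective (algebraMap K Q.ResidueField)) :
    ∃ (u s : FF κ N) (a r : ↥(SigmaInf κ N)), a ∉ 𝔮 ∧ r ∉ 𝔮 ∧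
      redG K N ℓ O ι hℓN hA2 S₂ ⟨f, mem_gauss_of_valuation_eq_one K N ℓ O hf₁⟩ = u * s ^ e ∧
      u * (a : FF κ N) = (r : FF κ N) := by
  have hS := BranchNormalLevelInf.setup_inf K N ℓ O hN ι hℓN hprime hprimeInf hsmoothInf hA2 S₂ hϖ
  set φ := redInfS K N ℓ O ι hℓN hA2 S₂ with hφ
  have hsurj : Function.Surjective φ :=
    redInfS_surjective K N ℓ O hN ι hℓN hprime hprimeInf hsmoothInf hA2 S₂
  haveI h𝔫 : (𝔮.comap φ).IsMaximal := Ideal.comap_isMaximal_of_surjective φ hsurj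
  have ht₁ : Through (gaussVS K (N * ℓ) O) (𝔮.comap φ) := by
    intro r hr
    rw [Ideal.mem_comap, (redInfS_eq_zero_iff K N ℓ O ι hℓN hA2 S₂ r).2 hr]
    exact 𝔮.zero_mem
  have ht₂ : ¬ Through S₂.V (𝔮.comap φ) := by
    obtain ⟨r, hr, hrq⟩ := hns
    exact not_through_iff.2 ⟨r, hr, fun h => hrq (Ideal.mem_comap.1 h)⟩
  have hϖ𝔫 : algebraMap ↥O ↥(Rinf K (N * ℓ) O) ϖ ∈ 𝔮.comap φ := ht₁ _ hS.pi₁
  obtain ⟨u, s, a, r, ha, hr, h1, h2⟩ := f4_inf_at K N ℓ O hN ι hℓN hprime hprimeInf hsmoothInf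
    hA2 S₂ hϖ (𝔮.comap φ) hϖ𝔫 ht₁ ht₂ hf0 hf₁ (fun Q _ => hdiv Q) S₀ hS₀ (fun Q _ => hrat Q)
  exact ⟨u, s, φ a, φ r, fun h => ha (Ideal.mem_comap.2 h), fun h => hr (Ideal.mem_comap.2 h),
    h1, h2⟩

end Fermat.Agent.S40.W.F4Level
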