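/-
S40 / (W3), leaf W1 (helper28): the MATRIX LEMMA.

`L / F₀` a finite extension of fields, `D` a derivation of `L` extending a derivation `D₀` of `F₀`,
`w` an `F₀`-basis of `L`, `M b := Algebra.leftMulMatrix w b` the matrix of multiplication by `b`,
`Γ := gam w D` the matrix of `D` on the basis (`D (w j) = ∑ i, Γ i j • w i`).  Then

  `M (D b) = (M b).map D₀ + Γ * M b - M b * Γ`                        (`leftMulMatrix_deriv`)

and therefore, `L` being commutative,

  `trace (b' * D b) = Matrix.trace (M b' * (M b).map D₀)`              (`trace_mul_deriv`).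

Consequence (`trace_mul_deriv_mem`): if `A ⊆ F₀` is a subring stable under `D₀` and the
multiplication matrices of `b, b'` have entries in `A` (e.g. `b, b'` in an `A`-free order with
basis `w`), then `trace (b' * D b) ∈ A`: a derivation maps a free order into its trace dual —
globally, in any characteristic, with no monogenicity hypothesis and no different.

Mathlib only.
-/
import Mathlib

set_option autoImplicit false
set_option linter.unusedSectionVars false

namespace Fermat.Agent.S40.W.TraceDeriv

open Matrix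

variable {F₀ L ι : Type*} [Field F₀] [Field L] [Algebra F₀ L] [Fintype ι] [DecidableEq ι]

/-- The matrix of the derivation `D` on the basis `w`: `D (w j) = ∑ i, gam w D i j • w i`. -/
noncomputable def gam (w : Module.Basis ι F₀ L) (D : Derivation ℤ L L) : Matrix ι ι F₀ :=
  Matrix.of fun i j => w.repr (D (w j)) i

theorem gam_apply (w : Module.Basis ι F₀ L) (D : Derivation ℤ L L) (i j : ι) :
    gam w D i j = w.repr (D (w j)) i := rfl

section Compat

variable (D₀ : Derivation ℤ F₀ F₀) (D : Derivation ℤ L L)
  (hext : ∀ a : F₀, D (algebraMap F₀ L a) = algebraMap F₀ L (D₀ a))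

include hext in
/-- Leibniz rule for scalars from `F₀`. -/
theorem deriv_smul (a : F₀) (x : L) : D (a • x) = D₀ a • x + a • D x := by
  rw [Algebra.smul_def, D.leibniz, hext, smul_eq_mul, smul_eq_mul, Algebra.smul_def,
    Algebra.smul_def]
  ring

include hext in
/-- `D` of a linear combination of the basis. -/
theorem deriv_sum_smul (w : Module.Basis ι F₀ L) (c : ι → F₀) :
    D (∑ l, c l • w l) = ∑ l, (D₀ (c l) • w l + c l • D (w l)) := by
  rw [map_sum]
  exact Finset.sum_congr rfl fun l _ => deriv_smul D₀ D hext (c l) (w l)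

include hext in
/-- **The matrix lemma.** -/
theorem leftMulMatrix_deriv (w : Module.Basis ι F₀ L) (b : L) :
    Algebra.leftMulMatrix w (D b) =
      (Algebra.leftMulMatrix w b).map D₀ + gam w D * Algebra.leftMulMatrix w b
        - Algebra.leftMulMatrix w b * gam w D := by
  ext i j
  set M : Matrix ι ι F₀ := Algebra.leftMulMatrix w b with hM
  -- `b * w l = ∑ i, M i l • w i`
  have hbw : ∀ l, b * w l = ∑ i, M i l • w i := fun l => by
    conv_lhs => rw [← w.sum_repr (b * w l)]
    exact Finset.sum_congr rfl fun i _ => by rw [hM, Algebra.leftMulMatrix_eq_repr_mul]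
  -- `D (w l) = ∑ i, Γ i l • w i`
  have hDw : ∀ l, D (w l) = ∑ i, gam w D i l • w i := fun l => by
    conv_lhs => rw [← w.sum_repr (D (w l))]
    rfl
  -- Leibniz
  have hleib : D b * w j = D (b * w j) - b * D (w j) := by
    rw [D.leibniz, smul_eq_mul, smul_eq_mul]
    ring
  -- second term: `b * D (w j) = ∑ l, Γ l j • (b * w l)`
  have hb2 : b * D (w j) = ∑ l, gam w D l j • (b * w l) := by
    rw [hDw j, Finset.mul_sum]
    exact Finset.sum_congr rfl fun l _ => by rw [mul_smul_comm]
  have key : D b * w j =
      ∑ l, (D₀ (M l j) • w l + M l j • ∑ i, gam w D i l • w i)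
        - ∑ l, gam w D l j • ∑ i, M i l • w i := by
    rw [hleib, hb2, hbw j, deriv_sum_smul D₀ D hext]
    congr 1
    · exact Finset.sum_congr rfl fun l _ => by rw [hDw l]
    · exact Finset.sum_congr rfl fun l _ => by rw [hbw l]
  rw [Algebra.leftMulMatrix_eq_repr_mul, key]
  simp only [map_sub, map_sum, map_add, map_smul, Finsupp.coe_sub, Finsupp.coe_finsetSum,
    Finsupp.coe_add, Finsupp.coe_smul, Pi.sub_apply, Finset.sum_apply, Pi.add_apply, Pi.smul_apply,
    smul_eq_mul, Module.Basis.repr_self, Finsupp.single_apply, mul_ite, mul_one, mul_zero,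
    Finset.sum_ite_eq', Finset.mem_univ, if_true]
  rw [Matrix.sub_apply, Matrix.add_apply, Matrix.map_apply, Matrix.mul_apply, Matrix.mul_apply,
    Finset.sum_add_distrib, Finset.sum_ite_eq' Finset.univ i, if_pos (Finset.mem_univ i)]
  have h1 : ∑ x, M x j * gam w D i x = ∑ x, gam w D i x * M x j :=
    Finset.sum_congr rfl fun x _ => mul_comm (M x j) (gam w D i x)
  have h2 : ∑ x, gam w D x j * M i x = ∑ x, M i x * gam w D x j :=
    Finset.sum_congr rfl fun x _ => mul_comm (gam w D x j) (M i x)
  rw [h1, h2]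

include hext in
/-- **Trace form of the matrix lemma**: the commutator term disappears because `L` is
commutative. -/
theorem trace_mul_deriv (w : Module.Basis ι F₀ L) (b b' : L) :
    Algebra.trace F₀ L (b' * D b) =
      Matrix.trace (Algebra.leftMulMatrix w b' * (Algebra.leftMulMatrix w b).map D₀) := by
  rw [Algebra.trace_eq_matrix_trace w, map_mul, leftMulMatrix_deriv D₀ D hext w b, Matrix.mul_sub,
    Matrix.mul_add, Matrix.trace_sub, Matrix.trace_add]
  have hcomm : Algebra.leftMulMatrix w b' * Algebra.leftMulMatrix w b =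
      Algebra.leftMulMatrix w b * Algebra.leftMulMatrix w b' := by
    rw [← map_mul, ← map_mul, mul_comm]
  have h1 : Matrix.trace (Algebra.leftMulMatrix w b' * (gam w D * Algebra.leftMulMatrix w b)) =
      Matrix.trace (Algebra.leftMulMatrix w b' * (Algebra.leftMulMatrix w b * gam w D)) := by
    rw [← Matrix.mul_assoc, ← Matrix.mul_assoc, Matrix.trace_mul_cycle, hcomm,
      Matrix.trace_mul_comm, ← Matrix.mul_assoc]
  rw [h1]
  ring

end Compat

/-- **A derivation maps a free order into its trace dual.**  `A ⊆ F₀` a subring stable under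
`D₀`; if the multiplication matrices of `b` and `b'` (in the basis `w`) have entries in `A`, then
`trace (b' * D b) ∈ A`. -/
theorem trace_mul_deriv_mem (D₀ : Derivation ℤ F₀ F₀) (D : Derivation ℤ L L)
    (hext : ∀ a : F₀, D (algebraMap F₀ L a) = algebraMap F₀ L (D₀ a))
    (A : Subring F₀) (hA : ∀ a ∈ A, D₀ a ∈ A) (w : Module.Basis ι F₀ L) {b b' : L}
    (hb : ∀ i j, Algebra.leftMulMatrix w b i j ∈ A)
    (hb' : ∀ i j, Algebra.leftMulMatrix w b' i j ∈ A) :
    Algebra.trace F₀ L (b' * D b) ∈ A := by
  rw [trace_mul_deriv D₀ D hext w b b', Matrix.trace]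
  refine Subring.sum_mem A fun i _ => ?_
  rw [Matrix.diag_apply, Matrix.mul_apply]
  refine Subring.sum_mem A fun l _ => ?_
  rw [Matrix.map_apply]
  exact A.mul_mem (hb' i l) (hA _ (hb l i))

/-- Entries of the multiplication matrix lie in `A` as soon as the structure constants of the
basis and the coordinates of `b` do. -/
theorem leftMulMatrix_mem (A : Subring F₀) (w : Module.Basis ι F₀ L)
    (hmul : ∀ i j l, w.repr (w i * w j) l ∈ A) {b : L} (hb : ∀ i, w.repr b i ∈ A) (i j : ι) :
    Algebra.leftMulMatrix w b i j ∈ A := by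
  have hbw : b * w j = ∑ l, w.repr b l • (w l * w j) := by
    conv_lhs => rw [← w.sum_repr b, Finset.sum_mul]
    exact Finset.sum_congr rfl fun l _ => smul_mul_assoc _ _ _
  rw [Algebra.leftMulMatrix_eq_repr_mul, hbw, map_sum, Finsupp.coe_finsetSum, Finset.sum_apply]
  refine Subring.sum_mem A fun l _ => ?_
  rw [map_smul, Finsupp.coe_smul, Pi.smul_apply, smul_eq_mul]
  exact A.mul_mem (hb l) (hmul l j i)

/-- **W1, order form.**  `w` a basis of `L / F₀` whose structure constants lie in the
`D₀`-stable subring `A` (i.e. `⊕ A • w i` is an `A`-free order); for `b, b'` with coordinates in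
`A`, `trace (b' * D b) ∈ A`. -/
theorem trace_mul_deriv_mem_of_repr (D₀ : Derivation ℤ F₀ F₀) (D : Derivation ℤ L L)
    (hext : ∀ a : F₀, D (algebraMap F₀ L a) = algebraMap F₀ L (D₀ a))
    (A : Subring F₀) (hA : ∀ a ∈ A, D₀ a ∈ A) (w : Module.Basis ι F₀ L)
    (hmul : ∀ i j l, w.repr (w i * w j) l ∈ A) {b b' : L}
    (hb : ∀ i, w.repr b i ∈ A) (hb' : ∀ i, w.repr b' i ∈ A) :
    Algebra.trace F₀ L (b' * D b) ∈ A :=
  trace_mul_deriv_mem D₀ D hext A hA w (leftMulMatrix_mem A w hmul hb)
    (leftMulMatrix_mem A w hmul hb')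

/-- **W1, trace-dual form** (the shape `M2/DWMain` uses: `exists_basis_span_eq` provides `w`, `hw`).
`A → F₀` with `D₀`-stable image, `B` an `A`-algebra inside `L` which is `A`-free on an `F₀`-basis
`w` of `L`.  Then `D b ∈ Submodule.traceDual A F₀ (1 : Submodule B L)` for every `b ∈ B`. -/
theorem deriv_mem_traceDual {A B : Type*} [CommRing A] [CommRing B] [Algebra A F₀] [Algebra B L]
    [Algebra A B] [Algebra A L] [IsScalarTower A F₀ L] [IsScalarTower A B L]
    (D₀ : Derivation ℤ F₀ F₀) (D : Derivation ℤ L L)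
    (hext : ∀ a : F₀, D (algebraMap F₀ L a) = algebraMap F₀ L (D₀ a))
    (hA : ∀ a : A, D₀ (algebraMap A F₀ a) ∈ (algebraMap A F₀).range)
    (w : Module.Basis ι F₀ L)
    (hw : (1 : Submodule B L).restrictScalars A = Submodule.span A (Set.range w))
    {b : L} (hb : b ∈ (1 : Submodule B L)) :
    D b ∈ Submodule.traceDual A F₀ (1 : Submodule B L) := by
  -- membership in `B` in coordinates
  have hspan : ∀ x : L, x ∈ Submodule.span A (Set.range w) →
      ∀ i, w.repr x i ∈ (algebraMap A F₀).range := by
    intro x h1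
    induction h1 using Submodule.span_induction with
    | mem y hy =>
      obtain ⟨l, rfl⟩ := hy
      intro i
      rw [Module.Basis.repr_self, Finsupp.single_apply]
      split_ifs
      · exact Subring.one_mem _
      · exact Subring.zero_mem _
    | zero => intro i; rw [map_zero, Finsupp.coe_zero, Pi.zero_apply]; exact Subring.zero_mem _
    | add y z _ _ hy hz =>
      intro i
      rw [map_add, Finsupp.coe_add, Pi.add_apply]
      exact Subring.add_mem _ (hy i) (hz i)
    | smul a y _ hy =>
      intro i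
      rw [← algebraMap_smul F₀ a y, map_smul, Finsupp.coe_smul, Pi.smul_apply, smul_eq_mul]
      exact Subring.mul_mem _ ⟨a, rfl⟩ (hy i)
  have hcoord : ∀ x : L, x ∈ (1 : Submodule B L) → ∀ i, w.repr x i ∈ (algebraMap A F₀).range := by
    intro x hx
    refine hspan x ?_
    rw [← hw]
    exact hx
  have hmulmem : ∀ x y : L, x ∈ (1 : Submodule B L) → y ∈ (1 : Submodule B L) →
      x * y ∈ (1 : Submodule B L) := by
    intro x y hx hy
    obtain ⟨x', rfl⟩ := Submodule.mem_one.mp hx
    obtain ⟨y', rfl⟩ := Submodule.mem_one.mp hy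
    exact Submodule.mem_one.mpr ⟨x' * y', map_mul _ _ _⟩
  have hwmem : ∀ i, w i ∈ (1 : Submodule B L) := fun i => by
    have : w i ∈ (1 : Submodule B L).restrictScalars A := by
      rw [hw]; exact Submodule.subset_span (Set.mem_range_self i)
    exact this
  have hAsub : ∀ a ∈ (algebraMap A F₀).range, D₀ a ∈ (algebraMap A F₀).range := by
    rintro _ ⟨a, rfl⟩
    exact hA a
  rw [Submodule.mem_traceDual]
  intro a ha
  rw [Algebra.traceForm_apply, mul_comm]
  exact trace_mul_deriv_mem_of_repr D₀ D hext (algebraMap A F₀).range hAsub w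
    (fun i j l => hcoord _ (hmulmem _ _ (hwmem i) (hwmem j)) l)
    (hcoord b hb) (hcoord a ha)

end Fermat.Agent.S40.W.TraceDeriv
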