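/-
S40 / (W3), leaf W0a (helper2): **the derivation `d/dx` in the Dedekind–Weber setting, in every
characteristic**, and its compatibility with the two orders `B`, `Binf`.

Setting of `Fermat/Agent/M2/DWMain.lean`: `k` a field, `K / k(x)` finite separable (`k(x) = RatFunc k`).

* `derivX k K : Derivation k K K` (`= d/dx`), `derivX_X`, `derivX_algebraMap_poly`,
  `derivX_algebraMap_ratFunc` (compatibility with `d/dx` on `k(x)`);
* `vInf_derivX_le : v_∞(df/dx) ≤ v_∞(f) · e^{-1}` on `k(x)`, hence `x² d/dx` preserves `O_∞`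
  (`X_sq_mul_derivX_mem_Oinf`);
* `derivX_mem_traceDual_B`   : `b ∈ B ⟹ db/dx ∈ B^∨` (trace dual over `k[x]`);
* `derivX_mem_traceDual_Binf`: `c ∈ Binf ⟹ x²·dc/dx ∈ Binf^∨` (trace dual over `O_∞`)
  — both from the matrix lemma `TraceDeriv.deriv_mem_traceDual` (helper28).
-/
import Fermat.Agent.M2.DWMain
import Fermat.Agent.S40.W.TraceDeriv

set_option autoImplicit false
set_option linter.unusedSectionVars false
set_option linter.style.haveILetI false

open Polynomial WithZero Module KaehlerDifferential TensorProduct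

namespace Fermat.Agent.S40.W.DerivX

open Fermat.Agent.M2.DW

noncomputable section

universe u v

variable (k : Type u) [Field k]
variable (K : Type v) [Field K] [Algebra (RatFunc k) K] [FiniteDimensional (RatFunc k) K]
  [Algebra.IsSeparable (RatFunc k) K]
variable [Algebra k[X] K] [IsScalarTower k[X] (RatFunc k) K]
variable [Algebra k K] [IsScalarTower k (RatFunc k) K]

attribute [local instance] isScalarTower_poly isScalarTower_Oinf

/-- `K` is formally étale over `k[x]` (localisation, then finite separable). -/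
theorem formallyEtale_poly : Algebra.FormallyEtale k[X] K := by
  haveI : Algebra.FormallyEtale k[X] (RatFunc k) :=
    Algebra.FormallyEtale.of_isLocalization (nonZeroDivisors k[X])
  haveI : Algebra.FormallyEtale (RatFunc k) K := Algebra.FormallyEtale.of_isSeparable (RatFunc k) K
  exact Algebra.FormallyEtale.comp k[X] (RatFunc k) K

/-- `Ω[K⁄k] ≃ K`, sending `dx` to `1`. -/
def kaehlerEquivX : Ω[K⁄k] ≃ₗ[K] K :=
  haveI := formallyEtale_poly k K
  (tensorKaehlerEquivOfFormallyEtale k k[X] K).symm ≪≫ₗ
    (TensorProduct.AlgebraTensorModule.congr (LinearEquiv.refl K K) (polynomialEquiv k)) ≪≫ₗ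
    (TensorProduct.AlgebraTensorModule.rid k[X] K K)

/-- `x`, as an element of `K`. -/
def xK : K := algebraMap k[X] K X

theorem xK_eq_ratFunc : xK k K = algebraMap (RatFunc k) K RatFunc.X := by
  rw [xK, IsScalarTower.algebraMap_apply k[X] (RatFunc k) K, RatFunc.algebraMap_X]

theorem kaehlerEquivX_D : kaehlerEquivX k K (D k K (xK k K)) = 1 := by
  haveI := formallyEtale_poly k K
  have h1 : (tensorKaehlerEquivOfFormallyEtale k k[X] K).symm (D k K (xK k K)) =
      1 ⊗ₜ D k k[X] X :=
    tensorKaehlerEquivOfFormallyEtale_symm_D_algebraMap k k[X] K X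
  simp only [kaehlerEquivX, LinearEquiv.trans_apply]
  rw [h1]
  simp [polynomialEquiv_D]

/-- **`d/dx` on `K`.** -/
def derivX : Derivation k K K :=
  (kaehlerEquivX k K).toLinearMap.compDer (D k K)

@[simp] theorem derivX_X : derivX k K (xK k K) = 1 := kaehlerEquivX_D k K

theorem algebraMap_poly_eq_aeval (a : k[X]) : algebraMap k[X] K a = aeval (xK k K) a := by
  conv_lhs => rw [← aeval_X_left_apply a]
  rw [xK, ← aeval_algebraMap_apply]

theorem derivX_algebraMap_poly (a : k[X]) :
    derivX k K (algebraMap k[X] K a) = algebraMap k[X] K (derivative a) := by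
  rw [algebraMap_poly_eq_aeval, Derivation.map_aeval, derivX_X, smul_eq_mul, mul_one,
    algebraMap_poly_eq_aeval]

/-! ### compatibility with `d/dx` on `k(x)` -/

/-- `d/dx` on `k(x)` itself. -/
abbrev derivRat : Derivation k (RatFunc k) (RatFunc k) := derivX k (RatFunc k)

theorem derivRat_algebraMap_poly (a : k[X]) :
    derivRat k (algebraMap k[X] (RatFunc k) a) = algebraMap k[X] (RatFunc k) (derivative a) :=
  derivX_algebraMap_poly k (RatFunc k) a

theorem derivX_algebraMap_ratFunc (f : RatFunc k) :
    derivX k K (algebraMap (RatFunc k) K f) = algebraMap (RatFunc k) K (derivRat k f) := by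
  have hf : f = algebraMap k[X] (RatFunc k) f.num / algebraMap k[X] (RatFunc k) f.denom :=
    (RatFunc.num_div_denom f).symm
  have hK : ∀ a : k[X], algebraMap (RatFunc k) K (algebraMap k[X] (RatFunc k) a) =
      algebraMap k[X] K a := fun a => (IsScalarTower.algebraMap_apply k[X] (RatFunc k) K a).symm
  conv_lhs => rw [hf]
  conv_rhs => rw [hf]
  rw [map_div₀, Derivation.leibniz_div, Derivation.leibniz_div, hK, hK, derivX_algebraMap_poly,
    derivX_algebraMap_poly, derivRat_algebraMap_poly, derivRat_algebraMap_poly]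
  simp only [smul_eq_mul, map_mul, map_sub, map_pow, map_inv₀, hK]

/-! ### the valuation at infinity -/

theorem vInf_derivative_le (a : k[X]) :
    vInf k (algebraMap k[X] (RatFunc k) (derivative a)) ≤
      exp (-1) * vInf k (algebraMap k[X] (RatFunc k) a) := by
  by_cases hd : derivative a = 0
  · rw [hd, map_zero, map_zero]; exact zero_le
  have ha : a ≠ 0 := fun h => hd (by rw [h, derivative_zero])
  have hnd : a.natDegree ≠ 0 := by
    intro h0
    apply hd
    rw [Polynomial.eq_C_of_natDegree_eq_zero h0, derivative_C]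
  have hlt := Polynomial.natDegree_derivative_lt hnd
  rw [vInf_algebraMap hd, vInf_algebraMap ha, ← exp_add, exp_le_exp]
  omega

/-- `d/dx` lowers the degree at infinity by at least one. -/
theorem vInf_derivRat_le (f : RatFunc k) : vInf k (derivRat k f) ≤ exp (-1) * vInf k f := by
  have hf : f = algebraMap k[X] (RatFunc k) f.num / algebraMap k[X] (RatFunc k) f.denom :=
    (RatFunc.num_div_denom f).symm
  set A := algebraMap k[X] (RatFunc k) f.num with hA
  set Bq := algebraMap k[X] (RatFunc k) f.denom with hBq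
  have hB0 : Bq ≠ 0 := by
    rw [hBq]; simpa using f.denom_ne_zero
  have hβ : vInf k Bq ≠ 0 := (Valuation.ne_zero_iff _).mpr hB0
  have h1 : vInf k (derivRat k A) ≤ exp (-1) * vInf k A := by
    rw [hA, derivRat_algebraMap_poly]; exact vInf_derivative_le k f.num
  have h2 : vInf k (derivRat k Bq) ≤ exp (-1) * vInf k Bq := by
    rw [hBq, derivRat_algebraMap_poly]; exact vInf_derivative_le k f.denom
  have h3 : vInf k (Bq • derivRat k A - A • derivRat k Bq) ≤
      exp (-1) * vInf k A * vInf k Bq := by
    refine (Valuation.map_sub _ _ _).trans (max_le ?_ ?_)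
    · rw [smul_eq_mul, map_mul]
      calc vInf k Bq * vInf k (derivRat k A) ≤ vInf k Bq * (exp (-1) * vInf k A) :=
            mul_le_mul_right h1 _
        _ = exp (-1) * vInf k A * vInf k Bq := by ac_rfl
    · rw [smul_eq_mul, map_mul]
      calc vInf k A * vInf k (derivRat k Bq) ≤ vInf k A * (exp (-1) * vInf k Bq) :=
            mul_le_mul_right h2 _
        _ = exp (-1) * vInf k A * vInf k Bq := by ac_rfl
  conv_lhs => rw [hf, Derivation.leibniz_div]
  conv_rhs => rw [hf, map_div₀]
  rw [smul_eq_mul, map_mul, map_pow, map_inv₀]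
  calc (vInf k Bq)⁻¹ ^ 2 * vInf k (Bq • derivRat k A - A • derivRat k Bq)
      ≤ (vInf k Bq)⁻¹ ^ 2 * (exp (-1) * vInf k A * vInf k Bq) := mul_le_mul_right h3 _
    _ = exp (-1) * (vInf k A / vInf k Bq) := by
        rw [div_eq_mul_inv, pow_two]
        have : (vInf k Bq)⁻¹ * (vInf k Bq)⁻¹ * (exp (-1) * vInf k A * vInf k Bq) =
            exp (-1) * (vInf k A * (vInf k Bq)⁻¹) * ((vInf k Bq)⁻¹ * vInf k Bq) := by ac_rfl
        rw [this, inv_mul_cancel₀ hβ, mul_one]

/-- `x² d/dx` preserves `O_∞`. -/
theorem X_sq_mul_derivRat_mem_Oinf {c : RatFunc k} (hc : c ∈ Oinf k) :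
    (RatFunc.X : RatFunc k) ^ 2 * derivRat k c ∈ Oinf k := by
  obtain ⟨a, ha⟩ := exists_const_sub_lt_one (mem_Oinf_iff.mp hc)
  rw [← exp_zero, lt_exp_iff_le_exp_sub_one] at ha
  have hCa : derivRat k (RatFunc.C a) = 0 := by
    rw [← RatFunc.algebraMap_eq_C]; exact (derivRat k).map_algebraMap a
  have hsplit : derivRat k c = derivRat k (c - RatFunc.C a) := by
    rw [map_sub, hCa, sub_zero]
  have h1 : vInf k (derivRat k c) ≤ exp (-2) := by
    rw [hsplit]
    refine (vInf_derivRat_le k _).trans ?_
    calc exp (-1) * vInf k (c - RatFunc.C a) ≤ exp (-1) * exp (0 - 1) := mul_le_mul_right ha _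
      _ = exp (-2) := by rw [← exp_add]; norm_num
  rw [mem_Oinf_iff, map_mul, map_pow]
  have hX : vInf k (RatFunc.X : RatFunc k) = exp 1 := by
    have := vInf_X_zpow (k := k) 1
    rwa [zpow_one] at this
  rw [hX, ← exp_nsmul]
  calc exp ((2 : ℕ) • (1 : ℤ)) * vInf k (derivRat k c) ≤ exp ((2 : ℕ) • (1 : ℤ)) * exp (-2) :=
        mul_le_mul_right h1 _
    _ = 1 := by rw [← exp_add]; norm_num

/-- Forget the base ring of a derivation (stated with the canonical `ℤ`-algebra structure of a
generic ring, which is the one `TraceDeriv` uses). -/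
def toIntDer {R A : Type*} [CommRing R] [CommRing A] [Algebra R A] (D : Derivation R A A) :
    Derivation ℤ A A where
  toLinearMap := D.toLinearMap.toAddMonoidHom.toIntLinearMap
  map_one_eq_zero' := D.map_one_eq_zero
  leibniz' := D.leibniz

theorem toIntDer_apply {R A : Type*} [CommRing R] [CommRing A] [Algebra R A]
    (D : Derivation R A A) (x : A) : toIntDer D x = D x := rfl

/-! ### `d/dx` and the trace duals of the two orders -/

variable (B : Type*) [CommRing B] [Algebra k[X] B] [Algebra B K] [IsScalarTower k[X] B K]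
  [IsIntegralClosure B k[X] K]
variable (Binf : Type*) [CommRing Binf] [Algebra (Oinf k) Binf] [Algebra Binf K]
  [IsScalarTower (Oinf k) Binf K] [IsIntegralClosure Binf (Oinf k) K]

/-- **`d/dx` maps `B` into its trace dual over `k[x]`** (any characteristic, wild ramification
allowed). -/
theorem derivX_mem_traceDual_B {b : K} (hb : b ∈ (1 : Submodule B K)) :
    derivX k K b ∈ Submodule.traceDual k[X] (RatFunc k) (1 : Submodule B K) := by
  obtain ⟨w, hw⟩ := exists_basis_span_eq k[X] (RatFunc k) K B
  have h := TraceDeriv.deriv_mem_traceDual (A := k[X]) (B := B)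
    (D₀ := toIntDer (derivRat k)) (D := toIntDer (derivX k K))
    (fun a => by
      rw [toIntDer_apply, toIntDer_apply]
      exact derivX_algebraMap_ratFunc k K a)
    (fun a => ⟨derivative a, by
      rw [toIntDer_apply]
      exact (derivRat_algebraMap_poly k a).symm⟩) w hw hb
  rwa [toIntDer_apply] at h

/-- The derivation `-x² d/dx = d/d(1/x)` on `k(x)`. -/
def derivRatInf : Derivation k (RatFunc k) (RatFunc k) :=
  (-(RatFunc.X : RatFunc k) ^ 2) • derivRat k

/-- The derivation `-x² d/dx = d/d(1/x)` on `K`. -/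
def derivXInf : Derivation k K K := (-(xK k K) ^ 2) • derivX k K

theorem derivXInf_apply (y : K) : derivXInf k K y = -(xK k K) ^ 2 * derivX k K y := rfl

theorem derivRatInf_apply (f : RatFunc k) :
    derivRatInf k f = -(RatFunc.X : RatFunc k) ^ 2 * derivRat k f := rfl

theorem derivXInf_algebraMap_ratFunc (f : RatFunc k) :
    derivXInf k K (algebraMap (RatFunc k) K f) = algebraMap (RatFunc k) K (derivRatInf k f) := by
  rw [derivXInf_apply, derivRatInf_apply, derivX_algebraMap_ratFunc, xK_eq_ratFunc, map_mul,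
    map_neg, map_pow]

/-- **`x² d/dx` maps `Binf` into its trace dual over `O_∞`.** -/
theorem derivX_mem_traceDual_Binf {c : K} (hc : c ∈ (1 : Submodule Binf K)) :
    (xK k K) ^ 2 * derivX k K c ∈
      Submodule.traceDual (Oinf k) (RatFunc k) (1 : Submodule Binf K) := by
  obtain ⟨w, hw⟩ := exists_basis_span_eq (Oinf k) (RatFunc k) K Binf
  have h := TraceDeriv.deriv_mem_traceDual (A := Oinf k) (B := Binf)
    (D₀ := toIntDer (derivRatInf k)) (D := toIntDer (derivXInf k K))
    (fun a => by
      rw [toIntDer_apply, toIntDer_apply]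
      exact derivXInf_algebraMap_ratFunc k K a)
    (fun a => by
      have hmem := X_sq_mul_derivRat_mem_Oinf k a.2
      refine ⟨⟨_, neg_mem hmem⟩, ?_⟩
      rw [toIntDer_apply, derivRatInf_apply, neg_mul]
      rfl) w hw hc
  rw [toIntDer_apply, derivXInf_apply, neg_mul] at h
  have := (Submodule.traceDual (Oinf k) (RatFunc k) (1 : Submodule Binf K)).neg_mem h
  rwa [neg_neg] at this

end

end Fermat.Agent.S40.W.DerivX
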