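/-
S40 (row 38), (W3) leaf W0b, generic input (helper6): **separability from a derivation.**

`k` a perfect field, `F = k(t)` (any field generated over `k` by one element `t`), `L/F` algebraic,
`φ : L → Ω` a `k`-embedding into a field carrying a `k`-derivation `D` with `D (φ t) ≠ 0`.
Then `L/F` is separable (`isSeparable_of_derivation`).

Use: `F = RatFunc k`, `t = X ↦ j`, `L = FF k N ⊆ Ω = k((q))`, `D = q d/dq`: the function field of the
modular curve is separable over `k(j)` in every characteristic, because `j = q⁻¹ + ⋯` is not a `p`-th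
power in `k((q))`.  No modular polynomial, no level, no irreducibility statement.

Proof in characteristic `p`: let `E` be the separable closure of `F` in `L`.  Then `E = F(E^p)`
(Mathlib) `= E^p(t)` since `k = k^p ⊆ E^p`; `t ∉ E^p` (as `D` kills `p`-th powers), so
`X^p - t^p` is irreducible over `E^p`, `[E : E^p] = p` is prime, there is no intermediate field,
and `ker (D ∘ φ) ∩ E = E^p` (`exists_pow_eq_of_derivation_eq_zero`).  If `a ∈ L` and `a ^ p ∈ E` then
`D (φ (a ^ p)) = 0`, so `a ^ p = c ^ p` with `c ∈ E` and `a = c ∈ E`; since `L/E` is purely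
inseparable, `L = E`.
-/
import Mathlib

set_option autoImplicit false
set_option linter.unusedSectionVars false
set_option linter.style.longLine false
set_option linter.style.haveILetI false

namespace Fermat.Agent.S40.W.SepLaurent

open IntermediateField Polynomial

/-! ### The kernel of a derivation on a field `E = E^p(t)` -/

section Kernel

variable {E Ω R : Type*} [Field E] [Field Ω] [CommRing R] [Algebra R Ω]
  (p : ℕ) [hp : Fact p.Prime] [CharP E p] [CharP Ω p] (ψ : E →+* Ω) (D : Derivation R Ω Ω)

/-- `D` kills the `p`-th powers. -/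
theorem derivation_pow_char (z : Ω) : D (z ^ p) = 0 := by
  rw [Derivation.leibniz_pow]
  have h : ((p : ℕ) : Ω) = 0 := CharP.cast_eq_zero Ω p
  rw [← Nat.cast_smul_eq_nsmul Ω, h, zero_smul]

/-- The subfield of `E` of elements killed by `D ∘ ψ`. -/
def kerSubfield : Subfield E where
  carrier := {x | D (ψ x) = 0}
  mul_mem' := by
    intro a b ha hb
    simp only [Set.mem_ofPred_eq] at ha hb ⊢
    rw [map_mul, Derivation.leibniz, ha, hb, smul_zero, smul_zero, add_zero]
  one_mem' := by
    simp only [Set.mem_ofPred_eq]
    rw [map_one, Derivation.map_one_eq_zero]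
  add_mem' := by
    intro a b ha hb
    simp only [Set.mem_ofPred_eq] at ha hb ⊢
    rw [map_add, map_add, ha, hb, add_zero]
  zero_mem' := by
    simp only [Set.mem_ofPred_eq]
    rw [map_zero, map_zero]
  neg_mem' := by
    intro a ha
    simp only [Set.mem_ofPred_eq] at ha ⊢
    rw [map_neg, map_neg, ha, neg_zero]
  inv_mem' := by
    intro a ha
    simp only [Set.mem_ofPred_eq] at ha ⊢
    rw [map_inv₀, Derivation.leibniz_inv, ha, smul_zero]

theorem mem_kerSubfield {x : E} : x ∈ kerSubfield ψ D ↔ D (ψ x) = 0 := Iff.rfl

/-- **The kernel of `D ∘ ψ` on a field `E = E^p(t)` with `D (ψ t) ≠ 0` is `E^p`.** -/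
theorem exists_pow_eq_of_derivation_eq_zero (t : E)
    (hgen : Subfield.closure (((frobenius E p).fieldRange : Set E) ∪ {t}) = ⊤)
    (hDt : D (ψ t) ≠ 0) {x : E} (hx : D (ψ x) = 0) : ∃ y : E, y ^ p = x := by
  classical
  set K' : Subfield E := (frobenius E p).fieldRange with hK'
  have hpow_mem : ∀ y : E, y ^ p ∈ K' := fun y => ⟨y, rfl⟩
  -- `t ∉ E^p`
  have htK : t ∉ K' := by
    rintro ⟨y, rfl⟩
    apply hDt
    rw [frobenius_def, map_pow]
    exact derivation_pow_char p D _
  -- the minimal polynomial of `t` over `K'`
  let c : K' := ⟨t ^ p, hpow_mem t⟩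
  have hc : ∀ b : K', b ^ p ≠ c := by
    intro b hb
    apply htK
    have h1 : ((b : E)) ^ p = t ^ p := congrArg Subtype.val hb
    have h2 : (b : E) = t := frobenius_inj E p h1
    rw [← h2]
    exact b.2
  have hirr : Irreducible (X ^ p - C c : K'[X]) := X_pow_sub_C_irreducible_of_prime hp.out hc
  have hmonic : (X ^ p - C c : K'[X]).Monic := monic_X_pow_sub_C c hp.out.ne_zero
  have haeval : aeval t (X ^ p - C c : K'[X]) = 0 := by
    rw [map_sub, map_pow, aeval_X, aeval_C]
    show t ^ p - (c : E) = 0
    exact sub_self _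
  have hmin : (X ^ p - C c : K'[X]) = minpoly K' t :=
    minpoly.eq_of_irreducible_of_monic hirr haeval hmonic
  have hint : IsIntegral K' t := ⟨_, hmonic, by rw [← aeval_def]; exact haeval⟩
  -- `K'(t) = E`
  have htop : K'⟮t⟯ = ⊤ := by
    apply IntermediateField.toSubfield_injective
    rw [adjoin_toSubfield]
    have : Set.range (algebraMap K' E) = (K' : Set E) := Subtype.range_coe
    rw [this, hgen]
    rfl
  -- `[E : K'] = p`
  have hfin : Module.finrank K' E = p := by
    rw [← IntermediateField.finrank_top', ← htop, adjoin.finrank hint, ← hmin,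
      natDegree_X_pow_sub_C]
  haveI : IsSimpleOrder (IntermediateField K' E) :=
    isSimpleOrder_of_finrank_prime K' E (hfin ▸ hp.out)
  -- the kernel as an intermediate field
  let CE : IntermediateField K' E := (kerSubfield ψ D).toIntermediateField (by
    rintro ⟨_, y, rfl⟩
    show D (ψ (frobenius E p y)) = 0
    rw [frobenius_def, map_pow]
    exact derivation_pow_char p D _)
  rcases eq_bot_or_eq_top CE with h | h
  · have hxCE : x ∈ CE := hx
    rw [h, IntermediateField.mem_bot] at hxCE
    obtain ⟨⟨_, y, rfl⟩, rfl⟩ := hxCE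
    exact ⟨y, rfl⟩
  · exfalso
    have htCE : t ∈ CE := by rw [h]; exact IntermediateField.mem_top
    exact hDt htCE

end Kernel

/-! ### Separable extensions of `k(t)`, `k` perfect, are generated by `p`-th powers and `t` -/

section Gen

variable {k F E : Type*} [Field k] [Field F] [Field E] [Algebra k F] [Algebra F E] [Algebra k E]
  [IsScalarTower k F E] (p : ℕ) [hp : Fact p.Prime] [CharP k p] [PerfectField k]
  [Algebra.IsSeparable F E]

/-- `E = E^p(t)` for a separable algebraic extension `E` of `F = k(t)`, `k` perfect. -/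
theorem closure_frobenius_range_union (t : F) (ht : IntermediateField.adjoin k {t} = ⊤) [CharP E p] :
    Subfield.closure (((frobenius E p).fieldRange : Set E) ∪ {algebraMap F E t}) = ⊤ := by
  classical
  set M : Subfield E := Subfield.closure (((frobenius E p).fieldRange : Set E) ∪ {algebraMap F E t})
    with hM
  have hpowM : ∀ y : E, y ^ p ∈ M := fun y =>
    Subfield.subset_closure (Or.inl ⟨y, rfl⟩)
  haveI : CharP F p := charP_of_injective_algebraMap (algebraMap k F).injective p
  haveI : PerfectRing k p := PerfectField.toPerfectRing p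
  -- `k ⊆ M`
  have hkM : ∀ c : k, algebraMap k E c ∈ M := by
    intro c
    obtain ⟨c', rfl⟩ := surjective_frobenius k p c
    rw [frobenius_def, map_pow]
    exact hpowM _
  -- `F ⊆ M`
  have hFM : ∀ f : F, algebraMap F E f ∈ M := by
    have h1 : (IntermediateField.adjoin k {t}).toSubfield ≤ M.comap (algebraMap F E) := by
      rw [adjoin_toSubfield]
      apply Subfield.closure_le.2
      rintro f (⟨c, rfl⟩ | hf)
      · show algebraMap F E (algebraMap k F c) ∈ M
        rw [← IsScalarTower.algebraMap_apply k F E]
        exact hkM c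
      · rw [Set.mem_singleton_iff] at hf
        subst hf
        exact Subfield.subset_closure (Or.inr rfl)
    intro f
    have : f ∈ (IntermediateField.adjoin k {t}).toSubfield := by
      rw [ht]
      exact IntermediateField.mem_top (F := k) (E := F)
    exact h1 this
  -- `E = F(E^p)`
  have h2 := IntermediateField.adjoin_eq_adjoin_pow_expChar_of_isSeparable' F E Set.univ p
  rw [IntermediateField.adjoin_univ] at h2
  have h3 : (⊤ : IntermediateField F E).toSubfield ≤ M := by
    rw [h2, adjoin_toSubfield]
    apply Subfield.closure_le.2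
    rintro _ (⟨f, rfl⟩ | ⟨y, -, rfl⟩)
    · exact hFM f
    · exact hpowM y
  exact top_le_iff.1 fun x _ => h3 (IntermediateField.mem_top (F := F) (E := E))

end Gen

/-! ### The theorem -/

section Main

variable {k F L Ω : Type*} [Field k] [Field F] [Field L] [Field Ω] [Algebra k F] [Algebra F L]
  [Algebra k L] [IsScalarTower k F L] [Algebra k Ω] [PerfectField k] [Algebra.IsAlgebraic F L]

/-- Characteristic `p` case of `isSeparable_of_derivation`. -/
theorem isSeparable_of_derivation_charP (p : ℕ) [hp : Fact p.Prime] [CharP k p]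
    (φ : L →ₐ[k] Ω) (D : Derivation k Ω Ω) (t : F) (ht : IntermediateField.adjoin k {t} = ⊤)
    (hDt : D (φ (algebraMap F L t)) ≠ 0) : Algebra.IsSeparable F L := by
  classical
  haveI : CharP F p := charP_of_injective_algebraMap (algebraMap k F).injective p
  haveI : CharP L p := charP_of_injective_algebraMap (algebraMap k L).injective p
  haveI : CharP Ω p := charP_of_injective_algebraMap (algebraMap k Ω).injective p
  rw [← separableClosure.eq_top_iff]
  set E : IntermediateField F L := separableClosure F L with hE
  haveI : CharP E p := charP_of_injective_algebraMap (algebraMap F E).injective p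
  haveI : Algebra.IsSeparable F E := separableClosure.isSeparable F L
  let ψ : E →+* Ω := (φ : L →+* Ω).comp (algebraMap E L)
  have hgen := closure_frobenius_range_union (k := k) (F := F) (E := E) p t ht
  have hDt' : D (ψ (algebraMap F E t)) ≠ 0 := hDt
  have key : ∀ x : E, D (ψ x) = 0 → ∃ y : E, y ^ p = x := fun x hx =>
    exists_pow_eq_of_derivation_eq_zero p ψ D (algebraMap F E t) hgen hDt' hx
  -- `a ^ p ∈ E → a ∈ E`
  have step : ∀ a : L, a ^ p ∈ E → a ∈ E := by
    intro a ha
    have h0 : D (ψ ⟨a ^ p, ha⟩) = 0 := by
      show D (φ (a ^ p)) = 0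
      rw [map_pow]
      exact derivation_pow_char p D _
    obtain ⟨y, hy⟩ := key ⟨a ^ p, ha⟩ h0
    have h1 : (y : L) ^ p = a ^ p := congrArg Subtype.val hy
    have h2 : (y : L) = a := frobenius_inj L p h1
    rw [← h2]
    exact y.2
  have steps : ∀ (n : ℕ) (a : L), a ^ p ^ n ∈ E → a ∈ E := by
    intro n
    induction n with
    | zero => intro a ha; simpa using ha
    | succ n ih =>
      intro a ha
      apply step
      apply ih
      rw [← pow_mul, ← pow_succ']
      exact ha
  haveI : IsPurelyInseparable E L := separableClosure.isPurelyInseparable F L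
  rw [eq_top_iff]
  intro a _
  obtain ⟨n, y, hy⟩ := IsPurelyInseparable.pow_mem E p a
  apply steps n
  rw [← hy]
  exact y.2

/-- **Separability from a derivation.**  `k` perfect, `F = k(t)`, `L/F` algebraic, `φ : L → Ω` a
`k`-embedding into a field with a `k`-derivation `D` such that `D (φ t) ≠ 0`: then `L/F` is
separable. -/
theorem isSeparable_of_derivation (φ : L →ₐ[k] Ω) (D : Derivation k Ω Ω) (t : F)
    (ht : IntermediateField.adjoin k {t} = ⊤) (hDt : D (φ (algebraMap F L t)) ≠ 0) :
    Algebra.IsSeparable F L := by
  obtain ⟨p, hchar⟩ := CharP.exists k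
  rcases CharP.char_is_prime_or_zero k p with hp | hp
  · haveI : Fact p.Prime := ⟨hp⟩
    exact isSeparable_of_derivation_charP p φ D t ht hDt
  · subst hp
    haveI : CharZero k := CharP.charP_to_charZero k
    haveI : CharZero F := charZero_of_injective_algebraMap (algebraMap k F).injective
    infer_instance

/-- The case `F = RatFunc k`, `t = X`. -/
theorem isSeparable_ratFunc_of_derivation {k L Ω : Type*} [Field k] [PerfectField k] [Field L]
    [Field Ω] [Algebra k L] [Algebra (RatFunc k) L] [IsScalarTower k (RatFunc k) L] [Algebra k Ω]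
    [Algebra.IsAlgebraic (RatFunc k) L] (φ : L →ₐ[k] Ω) (D : Derivation k Ω Ω)
    (hDt : D (φ (algebraMap (RatFunc k) L RatFunc.X)) ≠ 0) : Algebra.IsSeparable (RatFunc k) L :=
  isSeparable_of_derivation φ D RatFunc.X RatFunc.adjoin_X hDt

end Main

end Fermat.Agent.S40.W.SepLaurent
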