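/-
S40 / (W3), leaf W2 (helper2): **logarithmic derivatives of local `p`-th powers are regular
differentials** (in the trace-dual form `DW.holoSpace` of `M2/DWMain`), in characteristic `p`.

Setting of `M2/DWMain` + `S40/W/DerivX`: `k` a field of characteristic `p`, `K / k(x)` finite
separable, `B`, `Binf` the integral closures of `k[x]`, `O_∞` in `K`.

* `derivation_apply_eq_derivX_smul` : every `k`-derivation `D' : K → M` into a `K`-module is
  `D' y = (dy/dx) • D' x`;  `derivX_unique`;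
* `IsLocPthPower k K p g` : at every place `g` is a unit times a `p`-th power
  (i.e. `div g ∈ p · Div`), stated without valuations;
* **`dlog_mem_holoSpace`** : `g ≠ 0`, `IsLocPthPower k K p g` ⟹ `(dg/dx)/g ∈ holoSpace k K B Binf`;
* **`eq_pow_of_derivX_eq_zero`** : (`k` perfect) `dg/dx = 0` ⟹ `g` is a `p`-th power
  (from helper6's `SepLaurent`).
-/
import Fermat.Agent.S40.W.DerivX
import Fermat.Agent.S40.W.SepLaurent

set_option autoImplicit false
set_option linter.unusedSectionVars false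
set_option linter.style.haveILetI false

open Polynomial Module KaehlerDifferential

namespace Fermat.Agent.S40.W.DlogHolo

open Fermat.Agent.M2.DW Fermat.Agent.S40.W.DerivX

noncomputable section

universe u v

/-- Local-to-global for membership in a submodule: if for every maximal ideal `P` some `d ∉ P`
multiplies `x` into `N`, then `x ∈ N`. -/
theorem mem_of_forall_maximal_exists_smul_mem {R M : Type*} [CommRing R] [AddCommGroup M]
    [Module R M] (N : Submodule R M) (x : M)
    (h : ∀ P : Ideal R, P.IsMaximal → ∃ d : R, d ∉ P ∧ d • x ∈ N) : x ∈ N := by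
  let I : Ideal R := N.comap (LinearMap.toSpanSingleton R M x)
  have hI : ∀ d : R, d ∈ I ↔ d • x ∈ N := fun d => by
    simp only [I, Submodule.mem_comap, LinearMap.toSpanSingleton_apply]
  by_contra hx
  have hne : I ≠ ⊤ := by
    intro htop
    apply hx
    have h1 : (1 : R) ∈ I := by rw [htop]; trivial
    rw [hI, one_smul] at h1
    exact h1
  obtain ⟨P, hP, hIP⟩ := Ideal.exists_le_maximal I hne
  obtain ⟨d, hdP, hd⟩ := h P hP
  exact hdP (hIP ((hI d).mpr hd))

variable (k : Type u) [Field k]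
variable (K : Type v) [Field K] [Algebra (RatFunc k) K] [FiniteDimensional (RatFunc k) K]
  [Algebra.IsSeparable (RatFunc k) K]
variable [Algebra k[X] K] [IsScalarTower k[X] (RatFunc k) K]
variable [Algebra k K] [IsScalarTower k (RatFunc k) K]

attribute [local instance] isScalarTower_poly isScalarTower_Oinf

/-! ### every derivation is a multiple of `d/dx` -/

theorem kaehlerEquivX_symm_one : (kaehlerEquivX k K).symm 1 = D k K (xK k K) := by
  rw [LinearEquiv.symm_apply_eq, kaehlerEquivX_D]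

theorem kaehler_eq_smul (ω : Ω[K⁄k]) : ω = kaehlerEquivX k K ω • D k K (xK k K) := by
  rw [← kaehlerEquivX_symm_one, ← map_smul, smul_eq_mul, mul_one, LinearEquiv.symm_apply_apply]

/-- **Every `k`-derivation of `K` is `(d/dx) • D' x`.** -/
theorem derivation_apply_eq_derivX_smul {M : Type*} [AddCommGroup M] [Module K M] [Module k M]
    [IsScalarTower k K M] (D' : Derivation k K M) (y : K) :
    D' y = derivX k K y • D' (xK k K) := by
  have h1 : D' y = D'.liftKaehlerDifferential (D k K y) := by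
    rw [Derivation.liftKaehlerDifferential_comp_D]
  have h2 : D' (xK k K) = D'.liftKaehlerDifferential (D k K (xK k K)) := by
    rw [Derivation.liftKaehlerDifferential_comp_D]
  rw [h1, h2, ← map_smul]
  congr 1
  exact kaehler_eq_smul k K (D k K y)

theorem derivX_unique (D' : Derivation k K K) (h : D' (xK k K) = 1) : D' = derivX k K := by
  ext y
  rw [derivation_apply_eq_derivX_smul k K D' y, h, smul_eq_mul, mul_one]

/-! ### characteristic `p` -/

theorem charP_of_charP (p : ℕ) [CharP k p] : CharP K p :=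
  charP_of_injective_algebraMap (algebraMap k K).injective p

/-- `d/dx` kills the `p`-th powers. -/
theorem derivX_pow_char (p : ℕ) [CharP k p] (s : K) : derivX k K (s ^ p) = 0 := by
  haveI : CharP K p := charP_of_charP k K p
  rw [Derivation.leibniz_pow]
  have h : ((p : ℕ) : K) = 0 := CharP.cast_eq_zero K p
  rw [← Nat.cast_smul_eq_nsmul K, h, zero_smul]

/-- `dlog (u · s^p) = dlog u`. -/
theorem dlog_mul_pow_char (p : ℕ) [CharP k p] {u s : K} (hu : u ≠ 0) (hsp : s ^ p ≠ 0) :
    derivX k K (u * s ^ p) / (u * s ^ p) = derivX k K u / u := by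
  rw [Derivation.leibniz, derivX_pow_char, smul_zero, zero_add, smul_eq_mul]
  field_simp

/-- **`dg/dx = 0` implies that `g` is a `p`-th power** (`k` perfect of characteristic `p`). -/
theorem eq_pow_of_derivX_eq_zero (p : ℕ) [hp : Fact p.Prime] [CharP k p] [PerfectField k]
    {g : K} (h : derivX k K g = 0) : ∃ e : K, g = e ^ p := by
  haveI : CharP K p := charP_of_charP k K p
  have hgen := SepLaurent.closure_frobenius_range_union (k := k) (F := RatFunc k) (E := K) p
    (RatFunc.X : RatFunc k) RatFunc.adjoin_X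
  rw [← xK_eq_ratFunc] at hgen
  obtain ⟨y, hy⟩ := SepLaurent.exists_pow_eq_of_derivation_eq_zero (E := K) (Ω := K) p
    (RingHom.id K) (derivX k K) (xK k K) hgen
    (by rw [RingHom.id_apply, derivX_X]; exact one_ne_zero) (x := g) h
  exact ⟨y, hy.symm⟩

/-- Conversely. -/
theorem derivX_eq_zero_iff (p : ℕ) [hp : Fact p.Prime] [CharP k p] [PerfectField k] {g : K} :
    derivX k K g = 0 ↔ ∃ e : K, g = e ^ p :=
  ⟨eq_pow_of_derivX_eq_zero k K p, fun ⟨e, he⟩ => by rw [he, derivX_pow_char]⟩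

/-! ### local `p`-th powers -/

/-- `g` is, at every closed point of `Spec C` (`C` an order of `K`), a unit of the local ring times
a `p`-th power: `g = u s^p` with `u = r / a`, `a, r ∈ C ∖ 𝔮`.  (For `C` Dedekind with fraction
field `K` this says `p ∣ ord_𝔮 g` for all `𝔮`.)  This is literally the shape of the output of
`(F4)` (`S40/W/F4Level.f4_fin`, `f4_inf`). -/
def IsLocPthPowerOn (C : Type*) [CommRing C] [Algebra C K] (p : ℕ) (g : K) : Prop :=
  ∀ 𝔮 : Ideal C, 𝔮.IsMaximal → ∃ (u s : K) (a r : C), a ∉ 𝔮 ∧ r ∉ 𝔮 ∧ g = u * s ^ p ∧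
    u * algebraMap C K a = algebraMap C K r

section LocOn

variable {K}
variable {C : Type*} [CommRing C] [Algebra C K]

theorem isLocPthPowerOn_pow (p : ℕ) (s : K) : IsLocPthPowerOn K C p (s ^ p) := by
  intro 𝔮 h𝔮
  have h1 : (1 : C) ∉ 𝔮 := fun h => h𝔮.ne_top ((Ideal.eq_top_iff_one _).mpr h)
  exact ⟨1, s, 1, 1, h1, h1, (one_mul _).symm, by rw [map_one, mul_one]⟩

theorem isLocPthPowerOn_one (p : ℕ) : IsLocPthPowerOn K C p (1 : K) := by
  have := isLocPthPowerOn_pow (K := K) (C := C) p 1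
  rwa [one_pow] at this

theorem isLocPthPowerOn_algebraMap_of_isUnit (p : ℕ) {c : C} (hc : IsUnit c) :
    IsLocPthPowerOn K C p (algebraMap C K c) := by
  intro 𝔮 h𝔮
  have h1 : (1 : C) ∉ 𝔮 := fun h => h𝔮.ne_top ((Ideal.eq_top_iff_one _).mpr h)
  have h2 : c ∉ 𝔮 := fun h => h𝔮.ne_top (Ideal.eq_top_of_isUnit_mem _ h hc)
  exact ⟨algebraMap C K c, 1, 1, c, h1, h2, by rw [one_pow, mul_one], by rw [map_one, mul_one]⟩

theorem IsLocPthPowerOn.mul {p : ℕ} {g₁ g₂ : K} (h₁ : IsLocPthPowerOn K C p g₁)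
    (h₂ : IsLocPthPowerOn K C p g₂) : IsLocPthPowerOn K C p (g₁ * g₂) := by
  intro 𝔮 h𝔮
  obtain ⟨u₁, s₁, a₁, r₁, ha₁, hr₁, rfl, e₁⟩ := h₁ 𝔮 h𝔮
  obtain ⟨u₂, s₂, a₂, r₂, ha₂, hr₂, rfl, e₂⟩ := h₂ 𝔮 h𝔮
  refine ⟨u₁ * u₂, s₁ * s₂, a₁ * a₂, r₁ * r₂, ?_, ?_, by ring, ?_⟩
  · exact fun h => (h𝔮.isPrime.mem_or_mem h).elim ha₁ ha₂
  · exact fun h => (h𝔮.isPrime.mem_or_mem h).elim hr₁ hr₂
  · rw [map_mul, map_mul, ← e₁, ← e₂]; ring

theorem IsLocPthPowerOn.inv {p : ℕ} {g : K} (hg : g ≠ 0) (h : IsLocPthPowerOn K C p g) :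
    IsLocPthPowerOn K C p g⁻¹ := by
  intro 𝔮 h𝔮
  obtain ⟨u, s, a, r, ha, hr, rfl, e⟩ := h 𝔮 h𝔮
  have hu : u ≠ 0 := left_ne_zero_of_mul hg
  refine ⟨u⁻¹, s⁻¹, r, a, hr, ha, by rw [mul_inv, inv_pow], ?_⟩
  rw [← e]
  field_simp

theorem IsLocPthPowerOn.mul_pow {p : ℕ} {g : K} (h : IsLocPthPowerOn K C p g) (t : K) :
    IsLocPthPowerOn K C p (g * t ^ p) :=
  h.mul (isLocPthPowerOn_pow p t)

/-- Transport along a ring homomorphism `C → C'` of orders of `K` under which maximal ideals
contract to maximal ideals (e.g. a localisation followed by an integral extension). -/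
theorem IsLocPthPowerOn.of_ringHom {C' : Type*} [CommRing C'] [Algebra C' K] (φ : C →+* C')
    (hφ : ∀ c, algebraMap C' K (φ c) = algebraMap C K c)
    (hmax : ∀ 𝔮 : Ideal C', 𝔮.IsMaximal → (𝔮.comap φ).IsMaximal) {p : ℕ} {g : K}
    (h : IsLocPthPowerOn K C p g) : IsLocPthPowerOn K C' p g := by
  intro 𝔮 h𝔮
  obtain ⟨u, s, a, r, ha, hr, hg, e⟩ := h (𝔮.comap φ) (hmax 𝔮 h𝔮)
  exact ⟨u, s, φ a, φ r, fun h => ha (Ideal.mem_comap.mpr h), fun h => hr (Ideal.mem_comap.mpr h),
    hg, by rw [hφ, hφ, e]⟩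

end LocOn

/-- **Generic local computation.**  `C` an order of `K` (injecting into `K`), `N` a `C`-submodule
of `K` and `m : K` such that `m · dc/dx ∈ N` for all `c ∈ C`.  If `g ≠ 0` is locally on `Spec C`
a unit times a `p`-th power, then `m · (dg/dx)/g ∈ N`. -/
theorem mul_dlog_mem_of_isLocPthPowerOn {C : Type*} [CommRing C] [Algebra C K]
    (hinj : Function.Injective (algebraMap C K)) (N : Submodule C K) (m : K)
    (hN : ∀ c : C, m * derivX k K (algebraMap C K c) ∈ N) (p : ℕ) [CharP k p] {g : K}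
    (hg : g ≠ 0) (h : IsLocPthPowerOn K C p g) : m * (derivX k K g / g) ∈ N := by
  refine mem_of_forall_maximal_exists_smul_mem N _ fun 𝔮 h𝔮 => ?_
  obtain ⟨u, s, a, r, ha, hr, rfl, e⟩ := h 𝔮 h𝔮
  have hu : u ≠ 0 := left_ne_zero_of_mul hg
  have hsp : s ^ p ≠ 0 := right_ne_zero_of_mul hg
  rw [dlog_mul_pow_char k K p hu hsp]
  have ha0 : algebraMap C K a ≠ 0 := fun h0 => ha (by
    rw [← map_zero (algebraMap C K)] at h0
    rw [hinj h0]; exact 𝔮.zero_mem)
  refine ⟨r * a, fun hmem => (h𝔮.isPrime.mem_or_mem hmem).elim hr ha, ?_⟩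
  have hid : (r * a) • (m * (derivX k K u / u)) =
      a • (m * derivX k K (algebraMap C K r)) - r • (m * derivX k K (algebraMap C K a)) := by
    rw [Algebra.smul_def, Algebra.smul_def, Algebra.smul_def, map_mul, ← e, Derivation.leibniz,
      smul_eq_mul, smul_eq_mul]
    field_simp
    ring
  rw [hid]
  exact sub_mem (N.smul_mem a (hN r)) (N.smul_mem r (hN a))

/-! ### the logarithmic derivative of a local `p`-th power is regular -/

variable (B : Type*) [CommRing B] [Algebra k[X] B] [Algebra B K] [IsScalarTower k[X] B K]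
  [IsIntegralClosure B k[X] K]
variable (Binf : Type*) [CommRing Binf] [Algebra (Oinf k) Binf] [Algebra Binf K]
  [IsScalarTower (Oinf k) Binf K] [IsIntegralClosure Binf (Oinf k) K]

/-- `g` is everywhere locally a unit times a `p`-th power (`div g ∈ p · Div`). -/
def IsLocPthPower (p : ℕ) (g : K) : Prop :=
  IsLocPthPowerOn K B p g ∧ IsLocPthPowerOn K Binf p g

/-- Finite places: `du/u ∈ B^∨` for `g` a local `p`-th power on `Spec B`. -/
theorem dlog_mem_traceDual_B (p : ℕ) [CharP k p] {g : K} (hg : g ≠ 0)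
    (h : IsLocPthPowerOn K B p g) :
    derivX k K g / g ∈ Submodule.traceDual k[X] (RatFunc k) (1 : Submodule B K) := by
  have := mul_dlog_mem_of_isLocPthPowerOn k K
    (IsIntegralClosure.algebraMap_injective B k[X] K)
    (Submodule.traceDual k[X] (RatFunc k) (1 : Submodule B K)) 1
    (fun c => by
      rw [one_mul]
      exact derivX_mem_traceDual_B k K B (Submodule.mem_one.mpr ⟨c, rfl⟩)) p hg h
  rwa [one_mul] at this

/-- The places at infinity: `x² du/u ∈ Binf^∨` for `g` a local `p`-th power on `Spec Binf`. -/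
theorem dlog_mem_traceDual_Binf (p : ℕ) [CharP k p] {g : K} (hg : g ≠ 0)
    (h : IsLocPthPowerOn K Binf p g) :
    (RatFunc.X : RatFunc k) ^ (2 : ℤ) • (derivX k K g / g) ∈
      Submodule.traceDual (Oinf k) (RatFunc k) (1 : Submodule Binf K) := by
  have := mul_dlog_mem_of_isLocPthPowerOn k K
    (IsIntegralClosure.algebraMap_injective Binf (Oinf k) K)
    (Submodule.traceDual (Oinf k) (RatFunc k) (1 : Submodule Binf K)) (xK k K ^ 2)
    (fun c => derivX_mem_traceDual_Binf k K Binf (Submodule.mem_one.mpr ⟨c, rfl⟩)) p hg h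
  rwa [Algebra.smul_def, zpow_ofNat, map_pow, ← xK_eq_ratFunc]

/-- **The logarithmic derivative of a local `p`-th power is a regular differential.** -/
theorem dlog_mem_holoSpace (p : ℕ) [CharP k p] {g : K} (hg : g ≠ 0)
    (h : IsLocPthPower K B Binf p g) : derivX k K g / g ∈ holoSpace k K B Binf :=
  mem_holoSpace_iff.mpr
    ⟨dlog_mem_traceDual_B k K B p hg h.1, dlog_mem_traceDual_Binf k K Binf p hg h.2⟩

end

end Fermat.Agent.S40.W.DlogHolo
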