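/-
S40 (row 38), leaf **W-F4**, part (CUSP-1B) (helper26): **the cusp points of the special fibre of the
chart at infinity of level `N ℓ` lie on ONE branch only.**

* Part 1 (abstract, vocabulary of `S36/Cusp/Dichotomy`): `B` a local subring integrally closed in the
  field `F`, `a b ∈ 𝔪_B` with the modular relation `a^(q+1) + b^(q+1) = a b U`, `U ∈ Bˣ`.  Then
  `a^q / b ∈ B` (`pow_div_mem`), and there are no two valuation rings `V₁ V₂` centred at the closed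
  point of `B` with `a ∈ V₁ˣ`, `b ≡ a^q` on `V₁` and `b ∈ V₂ˣ`, `a ≡ b^q` on `V₂` (`not_centre_both`):
  `e' = a^q/b ≡ 1` on `V₁`, `e = b^q/a ≡ 1` on `V₂`, both lie in `B`, hence both are units of `B`, but
  `e e' = (a b)^(q-1) ∈ 𝔪_B`.
* Part 2 (level `(K, O)`): `not_through_both_of_cusp` : a prime `𝔫 ∋ ϖ, 1/j` of `Rinf K (N ℓ) O`
  is not a crossing point of `V₁ = gaussVS K (N ℓ) O` and `V₂ = S₂.V`
  (`a = 1/j`, `b = 1/j(q^ℓ)`, modular relation = `S36/Cusp/Package.exists_rel`).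
-/
import Mathlib
import Fermat.Agent.S36.Cusp.Regular
import Fermat.Agent.S36.Cusp.RelThreeVal
import Fermat.Agent.S40.W.F4Level

set_option autoImplicit false
set_option linter.unusedSectionVars false
set_option linter.style.haveILetI false

namespace Fermat.Agent.S40.W.F4Cusp

open Fermat.Agent.S36.Cusp.Dichotomy Fermat.Agent.S36.Cusp.Principal

/-! ### Part 1: the abstract pair lemma -/

section Pair

variable {F : Type*} [Field F] {B : LocalSubring F} [IsIntegrallyClosedIn B.toSubring F]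

/-- `a^q / b ∈ B`. -/
theorem pow_div_mem {q : ℕ} (hq : 2 ≤ q) {a b U : F} (ha : InMax B a) (hb : InMax B b)
    (ha0 : a ≠ 0) (hb0 : b ≠ 0) (hU : IsUnitIn B U)
    (h : a ^ (q + 1) + b ^ (q + 1) = a * b * U) : a ^ q / b ∈ B.toSubring := by
  refine mem_of_forall_dominating fun V hV => ?_
  have hva := valuation_lt_one_of_inMax hV ha
  have hvb := valuation_lt_one_of_inMax hV hb
  have hvb0 : V.valuation b ≠ 0 := (Valuation.ne_zero_iff _).2 hb0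
  rw [map_div₀, map_pow]
  rcases val_dichotomy V.valuation hq hva hvb ha0 hb0 (valuation_eq_one_of_isUnitIn hV hU) h
    with h1 | h1
  · rw [← h1, div_self hvb0]
  · rw [h1, ← pow_mul, div_le_one₀ (zero_lt_iff.2 hvb0)]
    have hqq : 1 ≤ q * q := by nlinarith
    calc V.valuation b ^ (q * q) ≤ V.valuation b ^ 1 :=
          pow_le_pow_of_le_one zero_le hvb.le hqq
      _ = V.valuation b := pow_one _

/-- On a component through the point on which `a` is a unit and `b ≡ a^q`: `a^q/b ∈ Bˣ`. -/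
theorem pow_div_isUnitIn {q : ℕ} (hq : 2 ≤ q) {a b U : F} (ha : InMax B a) (hb : InMax B b)
    (ha0 : a ≠ 0) (hb0 : b ≠ 0) (hU : IsUnitIn B U)
    (h : a ^ (q + 1) + b ^ (q + 1) = a * b * U) {V : ValuationSubring F} (hV : Centre B V)
    (haV : V.valuation a = 1) (hba : V.valuation (b - a ^ q) < 1) : IsUnitIn B (a ^ q / b) := by
  have hmem := pow_div_mem hq ha hb ha0 hb0 hU h
  apply isUnitIn_of_sub_one_inMax
  refine hV.centre _ (B.toSubring.sub_mem hmem B.toSubring.one_mem) ?_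
  have hvaq : V.valuation (a ^ q) = 1 := by rw [map_pow, haV, one_pow]
  have hvb : V.valuation b = 1 := by
    have h2 : b = (b - a ^ q) + a ^ q := by ring
    rw [h2, Valuation.map_add_eq_of_lt_right _ (by rw [hvaq]; exact hba), hvaq]
  have hid : a ^ q / b - 1 = -(b - a ^ q) / b := by field_simp; ring
  rw [hid, map_div₀, Valuation.map_neg, hvb, div_one]
  exact hba

/-- **A cusp point does not lie on both components.** -/
theorem not_centre_both {q : ℕ} (hq : 2 ≤ q) {a b U : F} (ha : InMax B a) (hb : InMax B b)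
    (ha0 : a ≠ 0) (hb0 : b ≠ 0) (hU : IsUnitIn B U)
    (h : a ^ (q + 1) + b ^ (q + 1) = a * b * U) {V₁ V₂ : ValuationSubring F}
    (h₁ : Centre B V₁) (ha₁ : V₁.valuation a = 1) (hb₁ : V₁.valuation (b - a ^ q) < 1)
    (h₂ : Centre B V₂) (hb₂ : V₂.valuation b = 1) (ha₂ : V₂.valuation (a - b ^ q) < 1) :
    False := by
  have h' : b ^ (q + 1) + a ^ (q + 1) = b * a * U := by rw [add_comm, h]; ring
  have hu' := pow_div_isUnitIn hq ha hb ha0 hb0 hU h h₁ ha₁ hb₁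
  have hu := pow_div_isUnitIn hq hb ha hb0 ha0 hU h' h₂ hb₂ ha₂
  -- `e e' = (a b)^(q-1) ∈ 𝔪_B`
  have hprod : a ^ q / b * (b ^ q / a) = a ^ (q - 1) * b ^ (q - 1) := by
    obtain ⟨m, rfl⟩ : ∃ m, q = m + 1 := ⟨q - 1, by omega⟩
    rw [Nat.add_sub_cancel, pow_succ, pow_succ]
    field_simp
  have hmax : InMax B (a ^ q / b * (b ^ q / a)) := by
    rw [hprod]
    exact (ha.pow (by omega)).mul_mem (B.toSubring.pow_mem hb.mem _)
  have hinv := inv_mem_of_isUnitIn hu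
  have hne : b ^ q / a ≠ 0 := div_ne_zero (pow_ne_zero _ hb0) ha0
  have h3 : InMax B (a ^ q / b * (b ^ q / a) * (b ^ q / a)⁻¹) := hmax.mul_mem hinv
  rw [mul_assoc, mul_inv_cancel₀ hne, mul_one] at h3
  exact h3.not_isUnitIn hu'

end Pair

/-! ### Part 2: the chart at infinity of level `N ℓ` -/

section Level

open ModularCurve Fermat.Agent.S28.Gauss Fermat.Agent.N4.Setting Fermat.Agent.N4.FibreEmbedding
open Fermat.Agent.N4.Chart Fermat.Agent.N4.Kronecker Fermat.Agent.N4.ModPolyDescent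
open Fermat.Agent.N4F.E.DegreeLevelRaise Fermat.Agent.N4F.E.GaussDVR AlgebraicCurve
open Fermat.Agent.N4F.E IsLocalRing Fermat.Agent.P3G Fermat.Agent.P3G.Krull
open Fermat.Agent.P4.TwistRoots Fermat.Agent.S36.Cusp.Regular Fermat.Agent.S36.Cusp.Package
open Fermat.Agent.S36.Cusp.RelThreeVal IntermediateField

variable (K : Type) [Field K] [CharZero K] (N : ℕ) [NeZero N] (ℓ : ℕ) [hℓ : Fact ℓ.Prime]
  (O : Subring K) [IsDiscreteValuationRing ↥O] [IsFractionRing ↥O K]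
  [CharP (IsLocalRing.ResidueField ↥O) ℓ]

set_option quotPrecheck false in
local notation "κ" => IsLocalRing.ResidueField ↥O

set_option synthInstance.maxHeartbeats 400000

variable (S₂ : FibreTwo.SecondVal K N ℓ O) {ϖ : ↥O} (hϖ : Irreducible ϖ)

/-- `j = α j_N` and `j(q^ℓ) = β j_N` at level `N ℓ`. -/
theorem evZ_jF_beta :
    evZ (jF K (N * ℓ)) (betaF K N ℓ (jF K N)) (modPoly ℓ) = 0 := by
  have h := Fermat.Agent.N4F.E.Integrality.evZ_modPoly_alpha_beta K N ℓ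
  rwa [alphaF_jF] at h

theorem beta_jF_mem : betaF K N ℓ (jF K N) ∈ gaussSubalgebra K (N * ℓ) O :=
  betaF_mem K O N ℓ (jF_mem_gaussSubalgebra K N O)

theorem theta_beta_jF :
    theta K (N * ℓ) O ⟨betaF K N ℓ (jF K N), beta_jF_mem K N ℓ O⟩ = jqModC κ ^ ℓ := by
  have h := theta_betaF K O N ℓ ⟨jF K N, jF_mem_gaussSubalgebra K N O⟩
  rw [theta_jF, qExpand_jqModC K ℓ O] at h
  exact h

include hϖ in
/-- The residue characteristic lies in every prime of the special fibre. -/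
theorem natCast_mem_of_unif_mem {R : Type*} [CommRing R] [Algebra ↥O R] (𝔫 : Ideal R)
    (hϖ𝔫 : algebraMap ↥O R ϖ ∈ 𝔫) : ((ℓ : ℕ) : R) ∈ 𝔫 := by
  have h0 : IsLocalRing.residue ↥O ((ℓ : ℕ) : ↥O) = 0 := by
    rw [map_natCast]; exact CharP.cast_eq_zero κ ℓ
  have h1 : ((ℓ : ℕ) : ↥O) ∈ Ideal.span {ϖ} := by
    rw [← hϖ.maximalIdeal_eq]
    exact (IsLocalRing.residue_eq_zero_iff _).1 h0
  obtain ⟨y, hy⟩ := Ideal.mem_span_singleton'.1 h1
  have h2 : ((ℓ : ℕ) : R) = algebraMap ↥O R y * algebraMap ↥O R ϖ := by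
    rw [← map_mul, hy, map_natCast]
  rw [h2]
  exact Ideal.mul_mem_left _ _ hϖ𝔫

include hϖ in
/-- **(CUSP-1B)** A prime `𝔫 ∋ ϖ, 1/j` of the chart at infinity of level `N ℓ` is not a crossing
point of the two vertical valuation rings. -/
theorem not_through_both_of_cusp (𝔫 : Ideal ↥(Rinf K (N * ℓ) O)) [h𝔫 : 𝔫.IsPrime]
    (hϖ𝔫 : algebraMap ↥O ↥(Rinf K (N * ℓ) O) ϖ ∈ 𝔫) (hj𝔫 : jInvInf K (N * ℓ) O ∈ 𝔫) :
    ¬ (Through (gaussVS K (N * ℓ) O) 𝔫 ∧ Through S₂.V 𝔫) := by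
  rintro ⟨ht₁, ht₂⟩
  haveI := Fermat.Agent.N4.ModPolySetting.finiteDimensional_FF K (N * ℓ)
  have hj := Fermat.Agent.N4.FFAlgebraic.transcendental_jF K (N * ℓ)
  have hjinv : Transcendental K (jF K (N * ℓ))⁻¹ := fun h => hj (by simpa using h.inv)
  haveI : FiniteDimensional K⟮(jF K (N * ℓ))⁻¹⟯ (FF K (N * ℓ)) := by
    rw [Fermat.Agent.N4.Cover.Main.adjoin_inv_eq]; infer_instance
  haveI : IsNoetherianRing ↥(Rinf K (N * ℓ) O) :=
    Fermat.Agent.N4.IntClosure.isNoetherianRing_chartAlg (K := K) (jF K (N * ℓ))⁻¹ hjinv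
  haveI : IsFractionRing ↥(Rinf K (N * ℓ) O) (FF K (N * ℓ)) :=
    Fermat.Agent.N4.Cover.Main.isFractionRing_chartAlg (O := ↥O) (K₀ := K) (jF K (N * ℓ))⁻¹ hjinv
  haveI : IsIntegrallyClosed ↥(Rinf K (N * ℓ) O) :=
    Fermat.Agent.N4.Cover.Main.isIntegrallyClosed_chartAlg (O := ↥O) (K₀ := K)
      (jF K (N * ℓ))⁻¹ hjinv
  haveI := isIntegrallyClosedIn_locSub (F := FF K (N * ℓ)) 𝔫
  -- the two valuation rings contain the chart
  have hV₁ : ∀ r : ↥(Rinf K (N * ℓ) O),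
      algebraMap ↥(Rinf K (N * ℓ) O) (FF K (N * ℓ)) r ∈ gaussVS K (N * ℓ) O := fun r =>
    chartAlg_le_gaussSubalgebra K (N * ℓ) O (Fermat.Agent.P3G.RbarInf.sInf_le_gauss K (N * ℓ) O) r.2
  have hV₂ : ∀ r : ↥(Rinf K (N * ℓ) O),
      algebraMap ↥(Rinf K (N * ℓ) O) (FF K (N * ℓ)) r ∈ S₂.V := fun r =>
    SecondValBridge.Rinf_le_V K N ℓ O S₂ r.2
  have hC₁ : Centre (locSub (F := FF K (N * ℓ)) 𝔫) (gaussVS K (N * ℓ) O) :=
    centre_locSub 𝔫 _ hV₁ (fun r hr => ht₁ r ((mem_vCentre_iff _ hV₁).1 hr))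
  have hC₂ : Centre (locSub (F := FF K (N * ℓ)) 𝔫) S₂.V :=
    centre_locSub 𝔫 _ hV₂ (fun r hr => ht₂ r ((mem_vCentre_iff _ hV₂).1 hr))
  -- the modular data
  set j : FF K (N * ℓ) := jF K (N * ℓ) with hjdef
  set j' : FF K (N * ℓ) := betaF K N ℓ (jF K N) with hj'def
  have hj0 : j ≠ 0 := jF_ne_zero K (N * ℓ)
  have hj'0 : j' ≠ 0 := (map_ne_zero _).2 (jF_ne_zero K N)
  have hmod : evZ j j' (modPoly ℓ) = 0 := evZ_jF_beta K N ℓ
  have hqB : InMax (locSub (F := FF K (N * ℓ)) 𝔫) ((ℓ : ℕ) : FF K (N * ℓ)) := by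
    have h1 := inMax_of_mem (F := FF K (N * ℓ)) 𝔫 (natCast_mem_of_unif_mem K ℓ O hϖ 𝔫 hϖ𝔫)
    rwa [map_natCast] at h1
  have ha : InMax (locSub (F := FF K (N * ℓ)) 𝔫) j⁻¹ :=
    inMax_of_mem (F := FF K (N * ℓ)) 𝔫 hj𝔫
  have hb : InMax (locSub (F := FF K (N * ℓ)) 𝔫) j'⁻¹ :=
    inMax_inv_of_inMax_inv ℓ hj0 hj'0 hmod ha
  obtain ⟨U, hU, hrel⟩ := exists_rel ℓ hj0 hj'0 hmod hqB ha hb
  -- the values of the two places
  have hjG : j ∈ gaussVS K (N * ℓ) O := jF_mem_gaussSubalgebra K (N * ℓ) O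
  have hj'G : j' ∈ gaussVS K (N * ℓ) O := beta_jF_mem K N ℓ O
  have hJ0 : jqModC κ ≠ 0 := jqModC_ne_zero_of_nontrivial κ
  have e1 : evG K O (N * ℓ) ⟨j, hjG⟩ = jqModC κ := theta_jF K (N * ℓ) O
  have e2 : evG K O (N * ℓ) ⟨j', hj'G⟩ = jqModC κ ^ ℓ := theta_beta_jF K N ℓ O
  have hjα : j = alphaF K N ℓ (jF K N) := (alphaF_jF K N ℓ).symm
  have hjV : j ∈ S₂.V := by
    rw [hjα]; exact S₂.alpha_mem _ (jF_mem_gaussSubalgebra K N O)
  have hj'V : j' ∈ S₂.V := S₂.beta_mem _ (jF_mem_gaussSubalgebra K N O)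
  have e3 : S₂.ev ⟨j', hj'V⟩ = jqModC κ := by
    rw [← theta_jF K N O]
    exact S₂.ev_beta _ (jF_mem_gaussSubalgebra K N O)
  have e4 : S₂.ev ⟨j, hjV⟩ = jqModC κ ^ ℓ := by
    have h := S₂.ev_alpha _ (jF_mem_gaussSubalgebra K N O)
    rw [theta_jF, qExpand_jqModC K ℓ O] at h
    rw [← h]
    exact congrArg S₂.ev (Subtype.ext hjα)
  refine not_centre_both hℓ.out.two_le ha hb (inv_ne_zero hj0) (inv_ne_zero hj'0) hU hrel
    hC₁ ?_ ?_ hC₂ ?_ ?_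
  · exact valuation_inv_eq_one_of_ev_ne_zero _ (evG K O (N * ℓ)) (evG_eq_zero_iff K O (N * ℓ))
      hjG (by rw [e1]; exact hJ0)
  · exact valuation_inv_sub_inv_pow_lt_one _ (evG K O (N * ℓ)) (evG_eq_zero_iff K O (N * ℓ))
      hjG hj'G (by rw [e1]; exact hJ0) ℓ (by rw [e1, e2])
  · exact valuation_inv_eq_one_of_ev_ne_zero _ S₂.ev S₂.ev_eq_zero_iff hj'V
      (by rw [e3]; exact hJ0)
  · exact valuation_inv_sub_inv_pow_lt_one _ S₂.ev S₂.ev_eq_zero_iff hj'V hjV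
      (by rw [e3]; exact hJ0) ℓ (by rw [e3, e4])

end Level

/-! ### Part 3: (F4) at the cusps of the special fibre -/

section Cusp

open ModularCurve Fermat.Agent.S28.Gauss Fermat.Agent.N4.Setting Fermat.Agent.N4.FibreEmbedding
open Fermat.Agent.N4.Chart AlgebraicCurve
open Fermat.Agent.N4F.E.DegreeLevelRaise Fermat.Agent.N4F.E.GaussDVR
open Fermat.Agent.N4F.E IsLocalRing Fermat.Agent.P3G Fermat.Agent.P4
open Fermat.Agent.P3G.RbarFin Fermat.Agent.P3G.RbarInf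
open Fermat.Agent.P4.TwistRoots Fermat.Agent.N4F.C.ChartFibre Fermat.Agent.S40.W.F4Level

variable (K : Type) [Field K] [CharZero K] (N : ℕ) [NeZero N] (ℓ : ℕ) [Fact ℓ.Prime]
  (O : Subring K) [IsDiscreteValuationRing ↥O] [IsFractionRing ↥O K]
  [CharP (IsLocalRing.ResidueField ↥O) ℓ] [PerfectRing (IsLocalRing.ResidueField ↥O) ℓ]

set_option quotPrecheck false in
local notation "κ" => IsLocalRing.ResidueField ↥O

set_option synthInstance.maxHeartbeats 400000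

variable (hN : IsUnit ((N : ℕ) : ↥O)) (ι : K →+* ℂ) (hℓN : ¬ ℓ ∣ N)
  (hprime : (fibreIdeal K N O (Rfin K N O)).IsPrime)
  (hprimeInf : (fibreIdeal K N O (Rinf K N O)).IsPrime)
  (hsmoothInf : IsDedekindDomain (↥(Rinf K N O) ⧸ fibreIdeal K N O (Rinf K N O)))
  (hA2 : ∀ x : ↥(gaussSubalgebra K N O),
    theta K N O x ∈ modularFunctionFieldFullC (IsLocalRing.ResidueField ↥O) N)
  (S₂ : FibreTwo.SecondVal K N ℓ O)
  {ϖ : ↥O} (hϖ : Irreducible ϖ)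

/-- The reduction of the coordinate `1/j` of the chart at infinity of level `N ℓ` is `1/j̄`. -/
theorem coe_redInfS_jInvInf :
    ((redInfS K N ℓ O ι hℓN hA2 S₂ (jInvInf K (N * ℓ) O) : ↥(SigmaInf κ N)) : FF κ N) =
      (jF κ N)⁻¹ := by
  apply Subtype.ext
  rw [coe_redInfS, coe_redInfL, thetaInf_apply]
  have hjG := jF_mem_gaussSubalgebra K (N * ℓ) O
  have hinvG : (jF K (N * ℓ))⁻¹ ∈ gaussSubalgebra K (N * ℓ) O :=
    chartAlg_le_gaussSubalgebra K (N * ℓ) O (sInf_le_gauss K (N * ℓ) O) (jInvInf K (N * ℓ) O).2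
  have h1 : (⟨(jF K (N * ℓ))⁻¹, hinvG⟩ : ↥(gaussSubalgebra K (N * ℓ) O)) *
      ⟨jF K (N * ℓ), hjG⟩ = 1 :=
    Subtype.ext (inv_mul_cancel₀ (jF_ne_zero K (N * ℓ)))
  have h2 := congrArg (theta K (N * ℓ) O) h1
  rw [map_mul, map_one, theta_jF] at h2
  show theta K (N * ℓ) O ⟨(jF K (N * ℓ))⁻¹, hinvG⟩ = (((jF κ N)⁻¹ : FF κ N) : LaurentSeries κ)
  rw [eq_inv_of_mul_eq_one_left h2]
  rfl

include hN ι hℓN hprime hprimeInf hsmoothInf hA2 hϖ in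
/-- **At a cusp of the special fibre, `hns` of `F4Level.f4_inf` is automatic.** -/
theorem hns_of_cusp (𝔮 : Ideal ↥(SigmaInf κ N)) [h𝔮 : 𝔮.IsPrime]
    (hj𝔮 : redInfS K N ℓ O ι hℓN hA2 S₂ (jInvInf K (N * ℓ) O) ∈ 𝔮) :
    ∃ r : ↥(Rinf K (N * ℓ) O),
      algebraMap ↥(Rinf K (N * ℓ) O) (FF K (N * ℓ)) r ∈ S₂.V.nonunits ∧
        redInfS K N ℓ O ι hℓN hA2 S₂ r ∉ 𝔮 := by
  have hS := BranchNormalLevelInf.setup_inf K N ℓ O hN ι hℓN hprime hprimeInf hsmoothInf hA2 S₂ hϖ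
  set φ := redInfS K N ℓ O ι hℓN hA2 S₂ with hφ
  haveI : (𝔮.comap φ).IsPrime := Ideal.comap_isPrime φ 𝔮
  have ht₁ : Through (gaussVS K (N * ℓ) O) (𝔮.comap φ) := by
    intro r hr
    rw [Ideal.mem_comap, (redInfS_eq_zero_iff K N ℓ O ι hℓN hA2 S₂ r).2 hr]
    exact 𝔮.zero_mem
  have hϖ𝔫 : algebraMap ↥O ↥(Rinf K (N * ℓ) O) ϖ ∈ 𝔮.comap φ := ht₁ _ hS.pi₁
  have hnot := not_through_both_of_cusp K N ℓ O S₂ hϖ (𝔮.comap φ) hϖ𝔫 (Ideal.mem_comap.2 hj𝔮)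
  have ht₂ : ¬ Through S₂.V (𝔮.comap φ) := fun h => hnot ⟨ht₁, h⟩
  obtain ⟨r, hr, hr𝔫⟩ := not_through_iff.1 ht₂
  exact ⟨r, hr, fun h => hr𝔫 (Ideal.mem_comap.2 h)⟩

include hN ι hℓN hprime hprimeInf hsmoothInf hA2 hϖ in
/-- **(F4) at the cusps of the special fibre**: `f4_inf` with `hns` discharged by (CUSP-1B). -/
theorem f4_cusp (𝔮 : Ideal ↥(SigmaInf κ N)) [h𝔮 : 𝔮.IsMaximal]
    (hj𝔮 : redInfS K N ℓ O ι hℓN hA2 S₂ (jInvInf K (N * ℓ) O) ∈ 𝔮)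
    {f : FF K (N * ℓ)} (hf0 : f ≠ 0) (hf₁ : (gaussVS K (N * ℓ) O).valuation f = 1) {e : ℕ}
    (hdiv : ∀ Q : Place K (FF K (N * ℓ)), (e : ℤ) ∣ Q.ord f)
    (S₀ : Finset (Place K (FF K (N * ℓ))))
    (hS₀ : ∀ Q : Place K (FF K (N * ℓ)), Q.ord f ≠ 0 → Q ∈ S₀)
    (hrat : ∀ Q : Place K (FF K (N * ℓ)), Q.ord f ≠ 0 →
      Function.Bijective (algebraMap K Q.ResidueField)) :
    ∃ (u s : FF κ N) (a r : ↥(SigmaInf κ N)), a ∉ 𝔮 ∧ r ∉ 𝔮 ∧
      redG K N ℓ O ι hℓN hA2 S₂ ⟨f, mem_gauss_of_valuation_eq_one K N ℓ O hf₁⟩ = u * s ^ e ∧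
      u * (a : FF κ N) = (r : FF κ N) :=
  f4_inf K N ℓ O hN ι hℓN hprime hprimeInf hsmoothInf hA2 S₂ hϖ 𝔮
    (hns_of_cusp K N ℓ O hN ι hℓN hprime hprimeInf hsmoothInf hA2 S₂ hϖ 𝔮 hj𝔮)
    hf0 hf₁ hdiv S₀ hS₀ hrat

end Cusp

end Fermat.Agent.S40.W.F4Cusp
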