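/-
S40, (W3) sub-row, leaf W-LAMBDA, generic part 1 (helper3): **the angular component of a discrete
valuation ring along a place.**

`R` a discrete valuation ring with fraction field `F`, `π` a uniformiser, `ev : R →+* L` a ring
homomorphism to a field.  Every `f ≠ 0` of `F` is uniquely `u * π ^ n`, `u ∈ Rˣ`, `n : ℤ`;

* `ordPi hπ f = n`   (`ordPi hπ 0 = 0`);
* `unitPart hπ f = u` (`unitPart hπ 0 = 1`);
* `ac ev hπ f = ev u` (`ac ev hπ 0 = 0`): the ANGULAR COMPONENT, i.e. the reduction of the normalised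
  element `π ^ (-n) * f`.

For a fixed uniformiser `ac` is multiplicative (`ac_mul`), sends `Rˣ` to `ev` (`ac_of_isUnit`), `π` to
`1`; changing the uniformiser multiplies `ac f` by `ev w ^ (- ord f)` (`ac_change`).  Mathlib only.
-/
import Mathlib

set_option autoImplicit false
set_option linter.unusedSectionVars false

namespace Fermat.Agent.S40.W.AngComp

variable {R F L : Type*} [CommRing R] [IsDomain R] [IsDiscreteValuationRing R]
  [Field F] [Algebra R F] [IsFractionRing R F] [Field L]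

section Decomp

variable {π : R} (hπ : Irreducible π)

include hπ in
theorem algebraMap_pi_ne_zero : algebraMap R F π ≠ 0 := by
  simpa using hπ.ne_zero

include hπ in
/-- Existence of the decomposition `f = u * π ^ n`. -/
theorem exists_decomp {f : F} (hf : f ≠ 0) :
    ∃ (n : ℤ) (u : Rˣ), f = algebraMap R F (u : R) * algebraMap R F π ^ n := by
  obtain ⟨n, u, hu⟩ :=
    IsDiscreteValuationRing.exists_units_eq_smul_zpow_of_irreducible (K := F) hπ hf
  refine ⟨n, u, ?_⟩
  rw [hu, Units.smul_def, Algebra.smul_def]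

include hπ in
/-- Uniqueness of the decomposition `f = u * π ^ n`. -/
theorem decomp_unique {n m : ℤ} {u v : Rˣ}
    (h : algebraMap R F (u : R) * algebraMap R F π ^ n =
      algebraMap R F (v : R) * algebraMap R F π ^ m) : n = m ∧ u = v := by
  have hπF : algebraMap R F π ≠ 0 := algebraMap_pi_ne_zero (F := F) hπ
  have hinj : Function.Injective (algebraMap R F) := IsFractionRing.injective R F
  -- a one-sided lemma
  have key : ∀ {n m : ℤ} {u v : Rˣ}, m ≤ n →
      algebraMap R F (u : R) * algebraMap R F π ^ n =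
        algebraMap R F (v : R) * algebraMap R F π ^ m → n = m ∧ u = v := by
    intro n m u v hmn h
    obtain ⟨k, rfl⟩ : ∃ k : ℕ, n = m + k := ⟨(n - m).toNat, by omega⟩
    rw [zpow_add₀ hπF, zpow_natCast, ← mul_assoc, mul_right_comm] at h
    have h2 := mul_right_cancel₀ (zpow_ne_zero m hπF) h
    rw [← map_pow, ← map_mul] at h2
    have h3 : (u : R) * π ^ k = (v : R) := hinj h2
    have hk : k = 0 := by
      by_contra hk
      have hdvd : π ∣ (v : R) := by
        rw [← h3]
        exact Dvd.dvd.mul_left (dvd_pow_self π hk) _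
      exact hπ.not_isUnit (isUnit_of_dvd_unit hdvd v.isUnit)
    subst hk
    refine ⟨by simp, Units.ext ?_⟩
    simpa using h3
  rcases le_total m n with hmn | hnm
  · exact key hmn h
  · obtain ⟨h1, h2⟩ := key hnm h.symm
    exact ⟨h1.symm, h2.symm⟩

end Decomp

section Defs

variable {π : R} (hπ : Irreducible π)

open Classical in
/-- The `π`-adic order of `f ∈ F` (`0` at `f = 0`). -/
noncomputable def ordPi (f : F) : ℤ :=
  if hf : f = 0 then 0 else (exists_decomp (F := F) hπ hf).choose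

open Classical in
/-- The unit part `u` of `f = u * π ^ n` (`1` at `f = 0`). -/
noncomputable def unitPart (f : F) : Rˣ :=
  if hf : f = 0 then 1 else (exists_decomp (F := F) hπ hf).choose_spec.choose

theorem ordPi_zero : ordPi hπ (0 : F) = 0 := by
  simp [ordPi]

theorem unitPart_zero : unitPart hπ (0 : F) = 1 := by
  simp [unitPart]

/-- The defining decomposition. -/
theorem eq_unitPart_mul {f : F} (hf : f ≠ 0) :
    f = algebraMap R F (unitPart hπ f : R) * algebraMap R F π ^ ordPi hπ f := by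
  have h := (exists_decomp (F := F) hπ hf).choose_spec.choose_spec
  simp only [ordPi, unitPart, dif_neg hf]
  exact h

/-- Recognising the order and the unit part. -/
theorem ordPi_unitPart_of_eq {f : F} {n : ℤ} {u : Rˣ}
    (h : f = algebraMap R F (u : R) * algebraMap R F π ^ n) :
    ordPi hπ f = n ∧ unitPart hπ f = u := by
  have hf : f ≠ 0 := by
    rw [h]
    refine mul_ne_zero ?_ (zpow_ne_zero n (algebraMap_pi_ne_zero (F := F) hπ))
    simp
  exact decomp_unique (F := F) hπ ((eq_unitPart_mul hπ hf).symm.trans h)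

theorem ordPi_of_eq {f : F} {n : ℤ} {u : Rˣ}
    (h : f = algebraMap R F (u : R) * algebraMap R F π ^ n) : ordPi hπ f = n :=
  (ordPi_unitPart_of_eq hπ h).1

theorem unitPart_of_eq {f : F} {n : ℤ} {u : Rˣ}
    (h : f = algebraMap R F (u : R) * algebraMap R F π ^ n) : unitPart hπ f = u :=
  (ordPi_unitPart_of_eq hπ h).2

theorem ordPi_mul {f g : F} (hf : f ≠ 0) (hg : g ≠ 0) :
    ordPi hπ (f * g) = ordPi hπ f + ordPi hπ g := by
  refine ordPi_of_eq (u := unitPart hπ f * unitPart hπ g) hπ ?_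
  have hπF : algebraMap R F π ≠ 0 := algebraMap_pi_ne_zero (F := F) hπ
  conv_lhs => rw [eq_unitPart_mul hπ hf, eq_unitPart_mul hπ hg]
  rw [zpow_add₀ hπF, Units.val_mul, map_mul]
  ring

theorem unitPart_mul {f g : F} (hf : f ≠ 0) (hg : g ≠ 0) :
    unitPart hπ (f * g) = unitPart hπ f * unitPart hπ g := by
  refine unitPart_of_eq (n := ordPi hπ f + ordPi hπ g) hπ ?_
  have hπF : algebraMap R F π ≠ 0 := algebraMap_pi_ne_zero (F := F) hπ
  conv_lhs => rw [eq_unitPart_mul hπ hf, eq_unitPart_mul hπ hg]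
  rw [zpow_add₀ hπF, Units.val_mul, map_mul]
  ring

theorem ordPi_one : ordPi hπ (1 : F) = 0 :=
  ordPi_of_eq (u := 1) hπ (by simp)

theorem unitPart_one : unitPart hπ (1 : F) = 1 :=
  unitPart_of_eq (n := 0) hπ (by simp)

theorem ordPi_inv (f : F) : ordPi hπ f⁻¹ = - ordPi hπ f := by
  rcases eq_or_ne f 0 with rfl | hf
  · simp [ordPi_zero]
  · have h := ordPi_mul hπ hf (inv_ne_zero hf)
    rw [mul_inv_cancel₀ hf, ordPi_one] at h
    omega

theorem unitPart_inv {f : F} (hf : f ≠ 0) : unitPart hπ f⁻¹ = (unitPart hπ f)⁻¹ := by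
  have h := unitPart_mul hπ hf (inv_ne_zero hf)
  rw [mul_inv_cancel₀ hf, unitPart_one] at h
  exact eq_inv_of_mul_eq_one_right h.symm

theorem ordPi_pow (f : F) (n : ℕ) : ordPi hπ (f ^ n) = n * ordPi hπ f := by
  rcases eq_or_ne f 0 with rfl | hf
  · rcases Nat.eq_zero_or_pos n with rfl | hn
    · simp [ordPi_one]
    · simp [zero_pow hn.ne', ordPi_zero]
  · induction n with
    | zero => simp [ordPi_one]
    | succ n ih =>
      rw [pow_succ, ordPi_mul hπ (pow_ne_zero n hf) hf, ih]
      push_cast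
      ring

theorem ordPi_algebraMap_of_isUnit {x : R} (hx : IsUnit x) : ordPi hπ (algebraMap R F x) = 0 :=
  ordPi_of_eq (u := hx.unit) hπ (by simp)

theorem ordPi_pi : ordPi hπ (algebraMap R F π) = 1 :=
  ordPi_of_eq (u := 1) hπ (by simp)

/-- `f ∈ R` (image) iff `0 ≤ ord f`, for `f ≠ 0`. -/
theorem ordPi_nonneg_of_algebraMap {x : R} (hx : x ≠ 0) : 0 ≤ ordPi hπ (algebraMap R F x) := by
  obtain ⟨n, u, hu⟩ := IsDiscreteValuationRing.eq_unit_mul_pow_irreducible hx hπ
  have : ordPi hπ (algebraMap R F x) = (n : ℤ) := by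
    refine ordPi_of_eq (u := u) hπ ?_
    rw [hu, map_mul, map_pow, zpow_natCast]
  omega

theorem exists_algebraMap_of_ordPi_nonneg {f : F} (hf : f ≠ 0) (h : 0 ≤ ordPi hπ f) :
    ∃ x : R, algebraMap R F x = f := by
  obtain ⟨k, hk⟩ := Int.eq_ofNat_of_zero_le h
  refine ⟨(unitPart hπ f : R) * π ^ k, ?_⟩
  conv_rhs => rw [eq_unitPart_mul hπ hf, hk]
  rw [map_mul, map_pow, zpow_natCast]

end Defs

section Ac

variable (ev : R →+* L) {π : R} (hπ : Irreducible π)

open Classical in
/-- **The angular component**: `ac f = ev u` for `f = u * π ^ n`, `u ∈ Rˣ`; `ac 0 = 0`. -/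
noncomputable def ac (f : F) : L :=
  if f = 0 then 0 else ev (unitPart hπ f : R)

theorem ac_zero : ac ev hπ (0 : F) = 0 := by
  simp [ac]

theorem ac_of_ne_zero {f : F} (hf : f ≠ 0) : ac ev hπ f = ev (unitPart hπ f : R) := by
  simp [ac, hf]

theorem ac_ne_zero {f : F} (hf : f ≠ 0) : ac ev hπ f ≠ 0 := by
  rw [ac_of_ne_zero ev hπ hf]
  exact ((unitPart hπ f).isUnit.map ev).ne_zero

theorem ac_eq_zero_iff {f : F} : ac ev hπ f = 0 ↔ f = 0 :=
  ⟨fun h => by_contra fun hf => ac_ne_zero ev hπ hf h, fun h => by rw [h, ac_zero]⟩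

/-- Recognising the angular component: `f = x * π ^ n` with `x` a unit of `R`. -/
theorem ac_eq_ev_of {f : F} {n : ℤ} {x : R} (hx : IsUnit x)
    (h : f = algebraMap R F x * algebraMap R F π ^ n) : ac ev hπ f = ev x := by
  have h' : f = algebraMap R F (hx.unit : R) * algebraMap R F π ^ n := by
    rw [h, IsUnit.unit_spec]
  have hf : f ≠ 0 := by
    rw [h]
    refine mul_ne_zero ?_ (zpow_ne_zero n (algebraMap_pi_ne_zero (F := F) hπ))
    have : x ≠ 0 := hx.ne_zero
    simpa using this
  rw [ac_of_ne_zero ev hπ hf, unitPart_of_eq hπ h', IsUnit.unit_spec]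

/-- The normalised element `f * π ^ (- ord f)` is (the image of) the unit part. -/
theorem mul_zpow_neg_ordPi {f : F} (hf : f ≠ 0) :
    f * algebraMap R F π ^ (- ordPi hπ f) = algebraMap R F (unitPart hπ f : R) := by
  have hπF : algebraMap R F π ≠ 0 := algebraMap_pi_ne_zero (F := F) hπ
  have h := eq_unitPart_mul hπ hf
  calc f * algebraMap R F π ^ (- ordPi hπ f)
      = (algebraMap R F (unitPart hπ f : R) * algebraMap R F π ^ ordPi hπ f) *
          algebraMap R F π ^ (- ordPi hπ f) := by rw [← h]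
    _ = algebraMap R F (unitPart hπ f : R) := by
        rw [mul_assoc, ← zpow_add₀ hπF, add_neg_cancel, zpow_zero, mul_one]

theorem ac_of_isUnit {x : R} (hx : IsUnit x) : ac ev hπ (algebraMap R F x) = ev x :=
  ac_eq_ev_of (n := 0) ev hπ hx (by simp)

theorem ac_one : ac ev hπ (1 : F) = 1 := by
  have h := ac_of_isUnit (F := F) ev hπ isUnit_one
  rwa [map_one, map_one] at h

theorem ac_pi : ac ev hπ (algebraMap R F π) = 1 := by
  have h := ac_eq_ev_of (F := F) (f := algebraMap R F π) (n := 1) ev hπ isUnit_one (by simp)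
  rwa [map_one] at h

theorem ac_pi_zpow (n : ℤ) : ac ev hπ (algebraMap R F π ^ n) = 1 := by
  have h := ac_eq_ev_of (F := F) (f := algebraMap R F π ^ n) (n := n) ev hπ isUnit_one (by simp)
  rwa [map_one] at h

theorem ac_mul (f g : F) : ac ev hπ (f * g) = ac ev hπ f * ac ev hπ g := by
  rcases eq_or_ne f 0 with rfl | hf
  · simp [ac_zero]
  rcases eq_or_ne g 0 with rfl | hg
  · simp [ac_zero]
  rw [ac_of_ne_zero ev hπ (mul_ne_zero hf hg), ac_of_ne_zero ev hπ hf, ac_of_ne_zero ev hπ hg,
    unitPart_mul hπ hf hg, Units.val_mul, map_mul]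

/-- `ac` as a monoid-with-zero homomorphism. -/
noncomputable def acHom : F →*₀ L where
  toFun := ac ev hπ
  map_zero' := ac_zero ev hπ
  map_one' := ac_one ev hπ
  map_mul' := ac_mul ev hπ

@[simp] theorem acHom_apply (f : F) : acHom ev hπ f = ac ev hπ f := rfl

theorem ac_inv (f : F) : ac ev hπ f⁻¹ = (ac ev hπ f)⁻¹ :=
  map_inv₀ (acHom ev hπ) f

theorem ac_div (f g : F) : ac ev hπ (f / g) = ac ev hπ f / ac ev hπ g :=
  map_div₀ (acHom ev hπ) f g

theorem ac_pow (f : F) (n : ℕ) : ac ev hπ (f ^ n) = ac ev hπ f ^ n :=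
  map_pow (acHom ev hπ) f n

theorem ac_zpow (f : F) (n : ℤ) : ac ev hπ (f ^ n) = ac ev hπ f ^ n :=
  map_zpow₀ (acHom ev hπ) f n

theorem ac_prod {ι : Type*} (s : Finset ι) (f : ι → F) :
    ac ev hπ (∏ i ∈ s, f i) = ∏ i ∈ s, ac ev hπ (f i) :=
  map_prod (acHom ev hπ) f s

/-- Multiplying by a power of the uniformiser does not change the angular component. -/
theorem ac_mul_pi_zpow (f : F) (n : ℤ) :
    ac ev hπ (f * algebraMap R F π ^ n) = ac ev hπ f := by
  rw [ac_mul, ac_pi_zpow, mul_one]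

/-- The angular component is the reduction of the normalised element. -/
theorem ac_eq_ev_normalised {f : F} (hf : f ≠ 0) :
    ∃ x : R, IsUnit x ∧ algebraMap R F x = f * algebraMap R F π ^ (- ordPi hπ f) ∧
      ac ev hπ f = ev x :=
  ⟨(unitPart hπ f : R), (unitPart hπ f).isUnit, (mul_zpow_neg_ordPi hπ hf).symm,
    ac_of_ne_zero ev hπ hf⟩

/-- For `f` in (the image of) `R` with `ev f ≠ 0`, where `ev` kills the uniformiser: `ac f = ev f`. -/
theorem ac_of_ev_ne_zero (hev : ev π = 0) {x : R} (hx : ev x ≠ 0) :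
    ac ev hπ (algebraMap R F x) = ev x := by
  refine ac_of_isUnit ev hπ ?_
  by_contra hu
  have hmem : x ∈ IsLocalRing.maximalIdeal R := (IsLocalRing.mem_maximalIdeal x).2 hu
  rw [hπ.maximalIdeal_eq, Ideal.mem_span_singleton] at hmem
  obtain ⟨y, rfl⟩ := hmem
  exact hx (by rw [map_mul, hev, zero_mul])

end Ac

section Change

variable (ev : R →+* L) {π π' : R} (hπ : Irreducible π) (hπ' : Irreducible π')

theorem algebraMap_units_zpow (w : Rˣ) (n : ℤ) :
    algebraMap R F ((w ^ n : Rˣ) : R) = algebraMap R F (w : R) ^ n := by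
  have h := map_zpow (Units.map ((algebraMap R F : R →+* F) : R →* F)) w n
  have h2 : ((Units.map ((algebraMap R F : R →+* F) : R →* F) (w ^ n) : Fˣ) : F) =
      ((Units.map ((algebraMap R F : R →+* F) : R →* F) w ^ n : Fˣ) : F) := congrArg Units.val h
  rw [Units.val_zpow_eq_zpow_val] at h2
  exact h2

theorem ev_units_zpow (w : Rˣ) (n : ℤ) : ev ((w ^ n : Rˣ) : R) = ev (w : R) ^ n := by
  have h := map_zpow (Units.map ((ev : R →+* L) : R →* L)) w n
  have h2 : ((Units.map ((ev : R →+* L) : R →* L) (w ^ n) : Lˣ) : L) =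
      ((Units.map ((ev : R →+* L) : R →* L) w ^ n : Lˣ) : L) := congrArg Units.val h
  rw [Units.val_zpow_eq_zpow_val] at h2
  exact h2

include hπ hπ' in
/-- Two uniformisers differ by a unit. -/
theorem exists_unit_mul_eq : ∃ w : Rˣ, π' = (w : R) * π := by
  obtain ⟨w, hw⟩ := (IsDiscreteValuationRing.associated_of_irreducible R hπ hπ')
  exact ⟨w, by rw [← hw, mul_comm]⟩

/-- The decomposition with respect to another uniformiser `π' = w π`. -/
theorem ordPi_unitPart_change {w : Rˣ} (hw : π' = (w : R) * π) {f : F} (hf : f ≠ 0) :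
    ordPi hπ' f = ordPi hπ f ∧
      unitPart hπ' f = unitPart hπ f * w ^ (- ordPi hπ f) := by
  have hπF : algebraMap R F π ≠ 0 := algebraMap_pi_ne_zero (F := F) hπ
  have hwF : algebraMap R F (w : R) ≠ 0 := by
    simp
  refine ordPi_unitPart_of_eq hπ' ?_
  conv_lhs => rw [eq_unitPart_mul hπ hf]
  rw [hw, map_mul, mul_zpow, Units.val_mul, map_mul, algebraMap_units_zpow, zpow_neg]
  field_simp

/-- The order does not depend on the uniformiser. -/
theorem ordPi_change (f : F) : ordPi hπ' f = ordPi hπ f := by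
  rcases eq_or_ne f 0 with rfl | hf
  · rw [ordPi_zero, ordPi_zero]
  obtain ⟨w, hw⟩ := exists_unit_mul_eq hπ hπ'
  exact (ordPi_unitPart_change hπ hπ' hw hf).1

/-- Changing the uniformiser to `π' = w π` multiplies the angular component by `(ev w) ^ (- ord f)`. -/
theorem ac_change {w : Rˣ} (hw : π' = (w : R) * π) (f : F) :
    ac ev hπ' f = ac ev hπ f * ev (w : R) ^ (- ordPi hπ f) := by
  rcases eq_or_ne f 0 with rfl | hf
  · simp [ac_zero]
  rw [ac_of_ne_zero ev hπ' hf, ac_of_ne_zero ev hπ hf, (ordPi_unitPart_change hπ hπ' hw hf).2,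
    Units.val_mul, map_mul, ev_units_zpow]

end Change

end Fermat.Agent.S40.W.AngComp
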