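/-
S40, (W3) sub-row, generic part (helper3): **the derivation `θ = q · d/dq` of Laurent series and the
logarithmic derivative `dlog g = θ g / g`.**

THE definition of record of `θ` for W0 (`theta_eq`), W9 (`HeckeDlog`), W10 (`dlog_mem_cuspSpan`),
W-LAMBDA and M3-SERIES.  Mathlib + the two Prelude modules defining `coeffMap` and `qExpand`.

* `thetaD k : Derivation k (LaurentSeries k) (LaurentSeries k)`, any commutative ring `k`;
  `thetaD_coeff : (thetaD k f).coeff n = (n : k) * f.coeff n`;
  `thetaD_single`, `thetaD_C`, `thetaD_map` / `thetaD_coeffMap` (coefficientwise ring homomorphisms),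
  `thetaD_qExpand : θ (f(q^m)) = m • (θ f)(q^m)`, `thetaD_ofPowerSeries_X`;
  `thetaD_pow_char : θ (f ^ p) = 0` in characteristic `p`;
  `thetaD_eq_zero_iff : θ f = 0 ↔ every exponent of f is divisible by p` (char `p`, no zero divisors);
* `dlog g := thetaD k g / g` over a field: `dlog_mul`, `dlog_inv`, `dlog_div`, `dlog_pow`, `dlog_zpow`,
  `dlog_prod`, `dlog_C`, `dlog_C_mul`, `dlog_pow_char`, `dlog_mul_pow_char`, `dlog_eq_zero_iff`,
  `dlog_coeffMap`, `dlog_qExpand`.
-/
import Mathlib
import Fermat.Prelude.Def_ModularCurve_X0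
import Fermat.Prelude.Def_ModularCurve_LaurentCoeff

set_option autoImplicit false
set_option linter.unusedSectionVars false

open HahnSeries ModularCurve

noncomputable section

namespace Fermat.Agent.S40.W.ThetaLog

/-! ### The derivation `θ = q d/dq` -/

section Theta

variable (k : Type*) [CommRing k]

/-- `θ f = Σ n a_n q^n` as an additive map. -/
def thetaAdd : LaurentSeries k →+ LaurentSeries k where
  toFun f :=
    { coeff := fun n => (n : k) * f.coeff n
      isPWO_support' := f.isPWO_support.mono (by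
        intro n hn
        simp only [Function.mem_support, ne_eq] at hn
        exact fun h => hn (by rw [h, mul_zero])) }
  map_zero' := by
    ext n
    simp
  map_add' f g := by
    ext n
    simp [mul_add]

theorem thetaAdd_coeff (f : LaurentSeries k) (n : ℤ) :
    (thetaAdd k f).coeff n = (n : k) * f.coeff n := rfl

theorem support_thetaAdd_subset (f : LaurentSeries k) : (thetaAdd k f).support ⊆ f.support := by
  intro n hn
  simp only [HahnSeries.mem_support, thetaAdd_coeff, ne_eq] at hn ⊢
  exact fun h => hn (by rw [h, mul_zero])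

theorem thetaAdd_mul (f g : LaurentSeries k) :
    thetaAdd k (f * g) = f * thetaAdd k g + g * thetaAdd k f := by
  ext n
  rw [thetaAdd_coeff, HahnSeries.coeff_add, mul_comm g (thetaAdd k f),
    HahnSeries.coeff_mul_right' g.isPWO_support (support_thetaAdd_subset k g),
    HahnSeries.coeff_mul_left' f.isPWO_support (support_thetaAdd_subset k f),
    HahnSeries.coeff_mul, Finset.mul_sum, ← Finset.sum_add_distrib]
  refine Finset.sum_congr rfl fun ij hij => ?_
  have h := (Finset.mem_antidiagonal.mp hij).2.2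
  rw [thetaAdd_coeff, thetaAdd_coeff, ← h]
  push_cast
  ring

theorem thetaAdd_single (n : ℤ) (a : k) :
    thetaAdd k (HahnSeries.single n a) = HahnSeries.single n ((n : k) * a) := by
  ext m
  rw [thetaAdd_coeff]
  by_cases h : m = n
  · subst h
    rw [HahnSeries.coeff_single_same, HahnSeries.coeff_single_same]
  · rw [HahnSeries.coeff_single_of_ne h, HahnSeries.coeff_single_of_ne h, mul_zero]

theorem thetaAdd_C (a : k) : thetaAdd k (HahnSeries.C a) = 0 := by
  have h := thetaAdd_single k 0 a
  rw [Int.cast_zero, zero_mul, HahnSeries.single_eq_zero] at h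
  exact h

/-- The structure map of `k((q))` (whatever instance is found) is `a ↦ a q^0`. -/
theorem algebraMap_eq_C (a : k) : algebraMap k (LaurentSeries k) a = HahnSeries.C a := by
  have h1 : algebraMap k (PowerSeries k) a = PowerSeries.C a := by
    simp
  rw [HahnSeries.algebraMap_apply', h1, HahnSeries.ofPowerSeries_C]

/-- **The derivation `θ = q · d/dq` of `k((q))`.** -/
def thetaD : Derivation k (LaurentSeries k) (LaurentSeries k) where
  toFun := thetaAdd k
  map_add' := (thetaAdd k).map_add
  map_smul' c f := by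
    rw [Algebra.smul_def, algebraMap_eq_C, thetaAdd_mul, thetaAdd_C, mul_zero, add_zero,
      HahnSeries.C_mul_eq_smul]
    rfl
  map_one_eq_zero' := by
    show thetaAdd k 1 = 0
    have h := thetaAdd_C k 1
    rwa [map_one] at h
  leibniz' f g := by
    show thetaAdd k (f * g) = f • thetaAdd k g + g • thetaAdd k f
    rw [smul_eq_mul, smul_eq_mul]
    exact thetaAdd_mul k f g

@[simp] theorem thetaD_coeff (f : LaurentSeries k) (n : ℤ) :
    (thetaD k f).coeff n = (n : k) * f.coeff n := rfl

theorem thetaD_mul (f g : LaurentSeries k) :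
    thetaD k (f * g) = f * thetaD k g + g * thetaD k f :=
  thetaAdd_mul k f g

theorem support_thetaD_subset (f : LaurentSeries k) : (thetaD k f).support ⊆ f.support :=
  support_thetaAdd_subset k f

theorem thetaD_single (n : ℤ) (a : k) :
    thetaD k (HahnSeries.single n a) = HahnSeries.single n ((n : k) * a) :=
  thetaAdd_single k n a

theorem thetaD_C (a : k) : thetaD k (HahnSeries.C a) = 0 :=
  thetaAdd_C k a

theorem thetaD_algebraMap (a : k) : thetaD k (algebraMap k (LaurentSeries k) a) = 0 := by
  rw [algebraMap_eq_C, thetaD_C]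

theorem thetaD_smul (a : k) (f : LaurentSeries k) : thetaD k (a • f) = a • thetaD k f := by
  ext n
  simp [mul_left_comm]

/-- `θ q = q`. -/
theorem thetaD_single_one : thetaD k (HahnSeries.single 1 (1 : k)) = HahnSeries.single 1 (1 : k) := by
  rw [thetaD_single, Int.cast_one, one_mul]

/-- `θ` commutes with coefficientwise ring homomorphisms. -/
theorem thetaD_coeffMap {k' : Type*} [CommRing k'] (φ : k →+* k') (f : LaurentSeries k) :
    thetaD k' (coeffMap φ f) = coeffMap φ (thetaD k f) := by
  ext n
  rw [thetaD_coeff, coeffMap_coeff, coeffMap_coeff, thetaD_coeff, map_mul, map_intCast]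

/-- `θ` commutes with `HahnSeries.map` of a ring homomorphism. -/
theorem thetaD_map {k' : Type*} [CommRing k'] (φ : k →+* k') (f : LaurentSeries k) :
    thetaD k' (f.map φ) = (thetaD k f).map φ :=
  thetaD_coeffMap k φ f

/-- `θ (f(q^m)) = m · (θ f)(q^m)`. -/
theorem thetaD_qExpand (m : ℕ) [NeZero m] (f : LaurentSeries k) :
    thetaD k (qExpand k m f) = (m : k) • qExpand k m (thetaD k f) := by
  ext n
  rw [thetaD_coeff, HahnSeries.coeff_smul, smul_eq_mul]
  by_cases hn : (m : ℤ) ∣ n
  · obtain ⟨j, rfl⟩ := hn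
    rw [qExpand_coeff_mul, qExpand_coeff_mul, thetaD_coeff]
    push_cast
    ring
  · rw [qExpand_coeff_of_not_dvd m f hn, qExpand_coeff_of_not_dvd m _ hn, mul_zero, mul_zero]

/-- `θ` of a `p`-th power vanishes in characteristic `p`. -/
theorem thetaD_pow_char (p : ℕ) [CharP k p] (f : LaurentSeries k) : thetaD k (f ^ p) = 0 := by
  rw [Derivation.leibniz_pow, ← Nat.cast_smul_eq_nsmul k, CharP.cast_eq_zero, zero_smul]

/-- `θ (f · g^p) = (θ f) · g^p` in characteristic `p`. -/
theorem thetaD_mul_pow_char (p : ℕ) [CharP k p] (f g : LaurentSeries k) :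
    thetaD k (f * g ^ p) = thetaD k f * g ^ p := by
  rw [thetaD_mul, thetaD_pow_char, mul_zero, zero_add, mul_comm]

/-- In characteristic `p` (no zero divisors): `θ f = 0` iff `f ∈ k((q^p))`. -/
theorem thetaD_eq_zero_iff [NoZeroDivisors k] (p : ℕ) [CharP k p] (f : LaurentSeries k) :
    thetaD k f = 0 ↔ ∀ n : ℤ, f.coeff n ≠ 0 → (p : ℤ) ∣ n := by
  constructor
  · intro h n hn
    have h1 : (thetaD k f).coeff n = 0 := by rw [h, HahnSeries.coeff_zero]
    rw [thetaD_coeff] at h1
    rcases mul_eq_zero.mp h1 with h2 | h2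
    · exact (CharP.intCast_eq_zero_iff k p n).mp h2
    · exact absurd h2 hn
  · intro h
    ext n
    rw [thetaD_coeff, HahnSeries.coeff_zero]
    by_cases hn : f.coeff n = 0
    · rw [hn, mul_zero]
    · rw [(CharP.intCast_eq_zero_iff k p n).mpr (h n hn), zero_mul]

end Theta

/-! ### The logarithmic derivative -/

section Dlog

variable (k : Type*) [Field k]

/-- **`dlog g = θ g / g`**, the logarithmic `q d/dq`-derivative (`dlog 0 = 0`). -/
def dlog (g : LaurentSeries k) : LaurentSeries k := thetaD k g / g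

theorem dlog_def (g : LaurentSeries k) : dlog k g = thetaD k g / g := rfl

@[simp] theorem dlog_zero : dlog k 0 = 0 := by
  rw [dlog_def, div_zero]

@[simp] theorem dlog_one : dlog k 1 = 0 := by
  rw [dlog_def, div_one]
  exact (thetaD k).map_one_eq_zero

theorem mul_dlog {g : LaurentSeries k} (hg : g ≠ 0) : g * dlog k g = thetaD k g := by
  rw [dlog_def, mul_div_cancel₀ _ hg]

theorem dlog_eq_zero_iff {g : LaurentSeries k} (hg : g ≠ 0) : dlog k g = 0 ↔ thetaD k g = 0 := by
  rw [dlog_def, div_eq_zero_iff]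
  exact ⟨fun h => h.resolve_right hg, Or.inl⟩

theorem dlog_mul {g h : LaurentSeries k} (hg : g ≠ 0) (hh : h ≠ 0) :
    dlog k (g * h) = dlog k g + dlog k h := by
  rw [dlog_def, dlog_def, dlog_def, thetaD_mul]
  field_simp
  ring

theorem dlog_inv (g : LaurentSeries k) : dlog k g⁻¹ = - dlog k g := by
  rcases eq_or_ne g 0 with rfl | hg
  · simp
  · have h := dlog_mul k hg (inv_ne_zero hg)
    rw [mul_inv_cancel₀ hg, dlog_one] at h
    exact eq_neg_of_add_eq_zero_right h.symm

theorem dlog_div {g h : LaurentSeries k} (hg : g ≠ 0) (hh : h ≠ 0) :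
    dlog k (g / h) = dlog k g - dlog k h := by
  rw [div_eq_mul_inv, dlog_mul k hg (inv_ne_zero hh), dlog_inv, sub_eq_add_neg]

theorem dlog_pow (g : LaurentSeries k) (n : ℕ) : dlog k (g ^ n) = n • dlog k g := by
  rcases eq_or_ne g 0 with rfl | hg
  · rcases Nat.eq_zero_or_pos n with rfl | hn
    · simp
    · simp [zero_pow hn.ne']
  · induction n with
    | zero => simp
    | succ n ih => rw [pow_succ, dlog_mul k (pow_ne_zero n hg) hg, ih, succ_nsmul]

theorem dlog_zpow (g : LaurentSeries k) (n : ℤ) : dlog k (g ^ n) = n • dlog k g := by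
  cases n with
  | ofNat n => simp [dlog_pow]
  | negSucc n =>
    rw [zpow_negSucc, dlog_inv, dlog_pow, negSucc_zsmul]

theorem dlog_prod {ι : Type*} (s : Finset ι) (g : ι → LaurentSeries k) (hg : ∀ i ∈ s, g i ≠ 0) :
    dlog k (∏ i ∈ s, g i) = ∑ i ∈ s, dlog k (g i) := by
  classical
  induction s using Finset.induction_on with
  | empty => simp
  | insert a s ha ih =>
    rw [Finset.prod_insert ha, Finset.sum_insert ha,
      dlog_mul k (hg a (Finset.mem_insert_self a s))
        (Finset.prod_ne_zero_iff.mpr fun i hi => hg i (Finset.mem_insert_of_mem hi)),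
      ih fun i hi => hg i (Finset.mem_insert_of_mem hi)]

@[simp] theorem dlog_C (a : k) : dlog k (HahnSeries.C a) = 0 := by
  rw [dlog_def, thetaD_C, zero_div]

theorem dlog_C_mul {a : k} (ha : a ≠ 0) (g : LaurentSeries k) :
    dlog k (HahnSeries.C a * g) = dlog k g := by
  rcases eq_or_ne g 0 with rfl | hg
  · simp
  · have hC : (HahnSeries.C a : LaurentSeries k) ≠ 0 := by
      intro h
      exact ha (HahnSeries.C_injective (h.trans (map_zero _).symm))
    rw [dlog_mul k hC hg, dlog_C, zero_add]

theorem dlog_smul {a : k} (ha : a ≠ 0) (g : LaurentSeries k) : dlog k (a • g) = dlog k g := by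
  rw [← HahnSeries.C_mul_eq_smul, dlog_C_mul k ha]

/-- `dlog` of a `p`-th power vanishes in characteristic `p`. -/
theorem dlog_pow_char (p : ℕ) [CharP k p] (g : LaurentSeries k) : dlog k (g ^ p) = 0 := by
  rw [dlog_def, thetaD_pow_char, zero_div]

/-- **Invariance**: `dlog (c · f · g^p) = dlog f` in characteristic `p`. -/
theorem dlog_mul_pow_char (p : ℕ) [CharP k p] (f : LaurentSeries k) {g : LaurentSeries k}
    (hg : g ≠ 0) : dlog k (f * g ^ p) = dlog k f := by
  rcases eq_or_ne f 0 with rfl | hf
  · simp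
  · rw [dlog_mul k hf (pow_ne_zero p hg), dlog_pow_char, add_zero]

theorem dlog_C_mul_mul_pow_char (p : ℕ) [CharP k p] {a : k} (ha : a ≠ 0) (f : LaurentSeries k)
    {g : LaurentSeries k} (hg : g ≠ 0) : dlog k (HahnSeries.C a * f * g ^ p) = dlog k f := by
  rw [dlog_mul_pow_char k p _ hg, dlog_C_mul k ha]

/-- In characteristic `p`: `dlog g = 0` iff `g ∈ k((q^p))`. -/
theorem dlog_eq_zero_iff_char (p : ℕ) [CharP k p] {g : LaurentSeries k} (hg : g ≠ 0) :
    dlog k g = 0 ↔ ∀ n : ℤ, g.coeff n ≠ 0 → (p : ℤ) ∣ n := by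
  rw [dlog_eq_zero_iff k hg, thetaD_eq_zero_iff k p]

/-- `dlog` commutes with coefficientwise field homomorphisms. -/
theorem dlog_coeffMap {k' : Type*} [Field k'] (φ : k →+* k') (g : LaurentSeries k) :
    dlog k' (coeffMap φ g) = coeffMap φ (dlog k g) := by
  rw [dlog_def, dlog_def, map_div₀, thetaD_coeffMap]

/-- `dlog (g(q^m)) = m · (dlog g)(q^m)`. -/
theorem dlog_qExpand (m : ℕ) [NeZero m] (g : LaurentSeries k) :
    dlog k (qExpand k m g) = (m : k) • qExpand k m (dlog k g) := by
  rw [dlog_def, dlog_def, thetaD_qExpand, map_div₀, ← HahnSeries.C_mul_eq_smul,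
    ← HahnSeries.C_mul_eq_smul, mul_div_assoc]

end Dlog

end Fermat.Agent.S40.W.ThetaLog
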