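/-
S40, (W3) sub-row, leaf W-LAMBDA (helper3): **the reductions `f̄_∞`, `f̄_0` of a function of level
`N ℓ` (`ℓ = char κ ∤ N`) on the two components of the special fibre, their logarithmic
`θ`-derivatives `Λ_∞`, `Λ_0` and their orders `m_s` modulo `ℓ`.**

Level `(K, O)` (Setting language), `κ` the residue field of `O`, `ϖ` a FIXED uniformiser of `O`.

* any level `M`: `ordG hϖ f : ℤ`, `acG hϖ f : κ((q))` — order and angular component of `f ∈ FF K M`
  for the Gauss valuation (`AngComp` at `R = gaussSubalgebra K M O`, `ev = theta K M O`):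
  `f = ϖ ^ ordG f * u`, `u` a Gauss unit, `acG f = θ u`.  `acG` is multiplicative; constants go to
  constants; `acG (α g) = acG g`, `acG (β g) = (acG g)(q^m)`;
* level `N ℓ`, first component: `acInf := acG` at level `N ℓ`, with values in `FF κ N`
  (`FibreComp.theta_mem_full`): `acInfF : FF K (N ℓ) →*₀ FF κ N`;
* level `N ℓ`, second component (`S : SecondVal K N ℓ O`, `[IsDiscreteValuationRing S.V]` — supply it by
  `haveI := Fermat.Agent.S36.V.CountAlong.isDiscreteValuationRing_secondVal ι hℓN S`):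
  `ordZero`, `acZero`, `acZeroF : FF K (N ℓ) →*₀ FF κ N` (`AngComp` at `R = S.V`, `ev = S.ev`);
  `acZero (β g) = acG g`, `acZero (α g) = (acG g)(q^ℓ)`;
* `lamInf f := dlog κ (acInf f)`, `lamZero f := dlog κ (acZero f)`: additive on products, vanish on
  constants and on `ℓ`-th powers, INVARIANT under `f ↦ c · f · g ^ ℓ`, independent of `ϖ`;
* `mInf s f := (s.ord (acInfF f) : ZMod ℓ)` for a place `s` of `FF κ N`, same for `mZero`: additive,
  invariant under `f ↦ c · f · g ^ ℓ`.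
-/
import Mathlib
import Fermat.Agent.P3G.FibreComp
import Fermat.Agent.S40.W.AngComp
import Fermat.Agent.S40.W.ThetaLog

set_option autoImplicit false
set_option linter.unusedSectionVars false
set_option linter.style.haveILetI false

open ModularCurve AlgebraicCurve
open Fermat.Agent.S28.Gauss Fermat.Agent.N4.Setting Fermat.Agent.N4.FibreEmbedding
open Fermat.Agent.N4F.E.DegreeLevelRaise Fermat.Agent.N4F.E.GaussDVR
open Fermat.Agent.N4F.E Fermat.Agent.P3G.SecondValuation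
open Fermat.Agent.S40.W.AngComp Fermat.Agent.S40.W.ThetaLog

noncomputable section

namespace Fermat.Agent.S40.W.Lambda

/-! ### The Gauss angular component at an arbitrary level -/

section AnyLevel

variable (K : Type) [Field K] (M : ℕ) (O : Subring K) [IsDiscreteValuationRing ↥O]
  [IsFractionRing ↥O K]

set_option quotPrecheck false in
local notation "κ" => IsLocalRing.ResidueField ↥O

variable {ϖ : ↥O} (hϖ : Irreducible ϖ)

/-- The Gauss order of `f ∈ FF K M` (`0` at `f = 0`). -/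
def ordG (f : FF K M) : ℤ := ordPi (irreducible_unif K M O hϖ) f

/-- **The Gauss angular component** of `f ∈ FF K M`: the Gauss reduction of `ϖ ^ (- ord f) * f`. -/
def acG (f : FF K M) : LaurentSeries κ := ac (theta K M O) (irreducible_unif K M O hϖ) f

theorem algebraMap_unif :
    algebraMap ↥(gaussSubalgebra K M O) (FF K M) (unif K M O ϖ) =
      algebraMap K (FF K M) (ϖ : K) := rfl

theorem acG_zero : acG K M O hϖ 0 = 0 := ac_zero _ _

theorem acG_one : acG K M O hϖ 1 = 1 := ac_one _ _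

theorem acG_mul (f g : FF K M) : acG K M O hϖ (f * g) = acG K M O hϖ f * acG K M O hϖ g :=
  ac_mul _ _ f g

theorem acG_inv (f : FF K M) : acG K M O hϖ f⁻¹ = (acG K M O hϖ f)⁻¹ := ac_inv _ _ f

theorem acG_div (f g : FF K M) : acG K M O hϖ (f / g) = acG K M O hϖ f / acG K M O hϖ g :=
  ac_div _ _ f g

theorem acG_pow (f : FF K M) (n : ℕ) : acG K M O hϖ (f ^ n) = acG K M O hϖ f ^ n :=
  ac_pow _ _ f n

theorem acG_zpow (f : FF K M) (n : ℤ) : acG K M O hϖ (f ^ n) = acG K M O hϖ f ^ n :=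
  ac_zpow _ _ f n

theorem acG_prod {ι : Type*} (s : Finset ι) (f : ι → FF K M) :
    acG K M O hϖ (∏ i ∈ s, f i) = ∏ i ∈ s, acG K M O hϖ (f i) :=
  ac_prod _ _ s f

theorem acG_ne_zero {f : FF K M} (hf : f ≠ 0) : acG K M O hϖ f ≠ 0 := ac_ne_zero _ _ hf

theorem acG_eq_zero_iff {f : FF K M} : acG K M O hϖ f = 0 ↔ f = 0 := ac_eq_zero_iff _ _

/-- A Gauss-integral element with nonzero reduction is its own normalisation. -/
theorem acG_of_theta_ne_zero {f : FF K M} (hf : f ∈ gaussSubalgebra K M O)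
    (h : theta K M O ⟨f, hf⟩ ≠ 0) : acG K M O hϖ f = theta K M O ⟨f, hf⟩ :=
  ac_of_isUnit (F := FF K M) (theta K M O) (irreducible_unif K M O hϖ)
    (isUnit_of_theta_ne_zero K M O ⟨f, hf⟩ h)

theorem ordG_of_theta_ne_zero {f : FF K M} (hf : f ∈ gaussSubalgebra K M O)
    (h : theta K M O ⟨f, hf⟩ ≠ 0) : ordG K M O hϖ f = 0 :=
  ordPi_algebraMap_of_isUnit (F := FF K M) (irreducible_unif K M O hϖ)
    (isUnit_of_theta_ne_zero K M O ⟨f, hf⟩ h)

/-- **Normal form**: `f = ϖ ^ ordG f * u` with `u` a Gauss unit and `acG f = θ u`. -/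
theorem exists_normal_form {f : FF K M} (hf : f ≠ 0) :
    ∃ (u : FF K M) (hu : u ∈ gaussSubalgebra K M O), theta K M O ⟨u, hu⟩ ≠ 0 ∧
      f = algebraMap K (FF K M) (ϖ : K) ^ ordG K M O hϖ f * u ∧
      acG K M O hϖ f = theta K M O ⟨u, hu⟩ := by
  set u := unitPart (F := FF K M) (irreducible_unif K M O hϖ) f with hu
  refine ⟨((u : ↥(gaussSubalgebra K M O)) : FF K M), (u : ↥(gaussSubalgebra K M O)).2,
    theta_ne_zero_of_isUnit K M O _ u.isUnit, ?_, ?_⟩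
  · have h := eq_unitPart_mul (F := FF K M) (irreducible_unif K M O hϖ) hf
    rw [mul_comm] at h
    exact h
  · exact ac_of_ne_zero _ _ hf

/-- Recognising order and angular component. -/
theorem ordG_acG_of_eq {f u : FF K M} {n : ℤ} (hu : u ∈ gaussSubalgebra K M O)
    (h : theta K M O ⟨u, hu⟩ ≠ 0) (hf : f = algebraMap K (FF K M) (ϖ : K) ^ n * u) :
    ordG K M O hϖ f = n ∧ acG K M O hϖ f = theta K M O ⟨u, hu⟩ := by
  have hunit := isUnit_of_theta_ne_zero K M O ⟨u, hu⟩ h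
  have hf' : f = algebraMap ↥(gaussSubalgebra K M O) (FF K M) (hunit.unit : ↥(gaussSubalgebra K M O)) *
      algebraMap ↥(gaussSubalgebra K M O) (FF K M) (unif K M O ϖ) ^ n := by
    rw [IsUnit.unit_spec, hf, mul_comm]
    rfl
  refine ⟨ordPi_of_eq (F := FF K M) (irreducible_unif K M O hϖ) hf', ?_⟩
  have h2 := ac_eq_ev_of (F := FF K M) (theta K M O) (irreducible_unif K M O hϖ) hunit
    (f := f) (n := n) (by rw [hf, mul_comm]; rfl)
  exact h2

theorem acG_unif : acG K M O hϖ (algebraMap K (FF K M) (ϖ : K)) = 1 :=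
  ac_pi (F := FF K M) (theta K M O) (irreducible_unif K M O hϖ)

theorem acG_unif_zpow_mul (n : ℤ) (f : FF K M) :
    acG K M O hϖ (algebraMap K (FF K M) (ϖ : K) ^ n * f) = acG K M O hϖ f := by
  rw [mul_comm]
  exact ac_mul_pi_zpow (F := FF K M) (theta K M O) (irreducible_unif K M O hϖ) f n

theorem ordG_mul {f g : FF K M} (hf : f ≠ 0) (hg : g ≠ 0) :
    ordG K M O hϖ (f * g) = ordG K M O hϖ f + ordG K M O hϖ g :=
  ordPi_mul _ hf hg

theorem ordG_inv (f : FF K M) : ordG K M O hϖ f⁻¹ = - ordG K M O hϖ f := ordPi_inv _ f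

theorem ordG_pow (f : FF K M) (n : ℕ) : ordG K M O hϖ (f ^ n) = n * ordG K M O hϖ f :=
  ordPi_pow _ f n

theorem ordG_one : ordG K M O hϖ 1 = 0 := ordPi_one _

theorem ordG_unif : ordG K M O hϖ (algebraMap K (FF K M) (ϖ : K)) = 1 :=
  ordPi_pi (F := FF K M) (irreducible_unif K M O hϖ)

/-- `f` is Gauss-integral iff `0 ≤ ordG f` (`f ≠ 0`). -/
theorem mem_gaussSubalgebra_iff_ordG {f : FF K M} (hf : f ≠ 0) :
    f ∈ gaussSubalgebra K M O ↔ 0 ≤ ordG K M O hϖ f := by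
  constructor
  · intro h
    have h0 : (⟨f, h⟩ : ↥(gaussSubalgebra K M O)) ≠ 0 := fun h1 => hf (congrArg Subtype.val h1)
    exact ordPi_nonneg_of_algebraMap (F := FF K M) (irreducible_unif K M O hϖ) h0
  · intro h
    obtain ⟨x, hx⟩ := exists_algebraMap_of_ordPi_nonneg (F := FF K M)
      (irreducible_unif K M O hϖ) hf h
    rw [← hx]
    exact x.2

/-- Nonzero constants have constant angular component. -/
theorem acG_const {c : K} (hc : c ≠ 0) :
    ∃ a : κ, a ≠ 0 ∧ acG K M O hϖ (algebraMap K (FF K M) c) = HahnSeries.C a := by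
  obtain ⟨n, u, hu⟩ := IsDiscreteValuationRing.exists_units_eq_smul_zpow_of_irreducible
    (K := K) hϖ hc
  rw [Units.smul_def, Algebra.smul_def] at hu
  have hures : IsLocalRing.residue ↥O (u : ↥O) ≠ 0 := by
    rw [Ne, IsLocalRing.residue_eq_zero_iff, IsLocalRing.mem_maximalIdeal, mem_nonunits_iff,
      not_not]
    exact u.isUnit
  have hmem : algebraMap K (FF K M) ((u : ↥O) : K) ∈ gaussSubalgebra K M O :=
    (algebraMap ↥O ↥(gaussSubalgebra K M O) (u : ↥O)).2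
  have hth : theta K M O ⟨algebraMap K (FF K M) ((u : ↥O) : K), hmem⟩ =
      HahnSeries.C (IsLocalRing.residue ↥O (u : ↥O)) := theta_algebraMap K M O (u : ↥O)
  have hne : theta K M O ⟨algebraMap K (FF K M) ((u : ↥O) : K), hmem⟩ ≠ 0 := by
    rw [hth]
    intro h0
    exact hures (HahnSeries.C_injective (h0.trans (map_zero _).symm))
  refine ⟨IsLocalRing.residue ↥O (u : ↥O), hures, ?_⟩
  have hf : algebraMap K (FF K M) c =
      algebraMap K (FF K M) (ϖ : K) ^ n * algebraMap K (FF K M) ((u : ↥O) : K) := by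
    rw [hu, map_mul, map_zpow₀, mul_comm]
    rfl
  rw [(ordG_acG_of_eq K M O hϖ hmem hne hf).2, hth]

end AnyLevel

/-! ### The level maps -/

section LevelMaps

variable (K : Type) [Field K] (O : Subring K) [IsDiscreteValuationRing ↥O]
  [IsFractionRing ↥O K] (N m : ℕ) [NeZero N] [NeZero m]

set_option quotPrecheck false in
local notation "κ" => IsLocalRing.ResidueField ↥O

variable {ϖ : ↥O} (hϖ : Irreducible ϖ)

/-- `acG (α g) = acG g`. -/
theorem acG_alphaF (g : FF K N) :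
    acG K (N * m) O hϖ (alphaF K N m g) = acG K N O hϖ g := by
  rcases eq_or_ne g 0 with rfl | hg
  · rw [map_zero, acG_zero, acG_zero]
  obtain ⟨u, hu, hθ, hf, hac⟩ := exists_normal_form K N O hϖ hg
  have hmem := alphaF_mem K O N m hu
  have hθ' : theta K (N * m) O ⟨alphaF K N m u, hmem⟩ = theta K N O ⟨u, hu⟩ :=
    theta_alphaF K O N m ⟨u, hu⟩
  have hf' : alphaF K N m g =
      algebraMap K (FF K (N * m)) (ϖ : K) ^ ordG K N O hϖ g * alphaF K N m u := by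
    conv_lhs => rw [hf]
    rw [map_mul, map_zpow₀, AlgHom.commutes]
  rw [(ordG_acG_of_eq K (N * m) O hϖ hmem (by rw [hθ']; exact hθ) hf').2, hθ', hac]

theorem ordG_alphaF {g : FF K N} (hg : g ≠ 0) :
    ordG K (N * m) O hϖ (alphaF K N m g) = ordG K N O hϖ g := by
  obtain ⟨u, hu, hθ, hf, hac⟩ := exists_normal_form K N O hϖ hg
  have hmem := alphaF_mem K O N m hu
  have hθ' : theta K (N * m) O ⟨alphaF K N m u, hmem⟩ = theta K N O ⟨u, hu⟩ :=
    theta_alphaF K O N m ⟨u, hu⟩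
  have hf' : alphaF K N m g =
      algebraMap K (FF K (N * m)) (ϖ : K) ^ ordG K N O hϖ g * alphaF K N m u := by
    conv_lhs => rw [hf]
    rw [map_mul, map_zpow₀, AlgHom.commutes]
  exact (ordG_acG_of_eq K (N * m) O hϖ hmem (by rw [hθ']; exact hθ) hf').1

/-- `acG (β g) = (acG g)(q^m)`. -/
theorem acG_betaF (g : FF K N) :
    acG K (N * m) O hϖ (betaF K N m g) = qExpand κ m (acG K N O hϖ g) := by
  rcases eq_or_ne g 0 with rfl | hg
  · rw [map_zero, acG_zero, acG_zero, map_zero]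
  obtain ⟨u, hu, hθ, hf, hac⟩ := exists_normal_form K N O hϖ hg
  have hmem := betaF_mem K O N m hu
  have hθ' : theta K (N * m) O ⟨betaF K N m u, hmem⟩ = qExpand κ m (theta K N O ⟨u, hu⟩) :=
    theta_betaF K O N m ⟨u, hu⟩
  have hne : theta K (N * m) O ⟨betaF K N m u, hmem⟩ ≠ 0 := by
    rw [hθ']
    exact fun h0 => hθ (qExpand_injective m (h0.trans (map_zero _).symm))
  have hf' : betaF K N m g =
      algebraMap K (FF K (N * m)) (ϖ : K) ^ ordG K N O hϖ g * betaF K N m u := by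
    conv_lhs => rw [hf]
    rw [map_mul, map_zpow₀, AlgHom.commutes]
  rw [(ordG_acG_of_eq K (N * m) O hϖ hmem hne hf').2, hθ', hac]

theorem ordG_betaF {g : FF K N} (hg : g ≠ 0) :
    ordG K (N * m) O hϖ (betaF K N m g) = ordG K N O hϖ g := by
  obtain ⟨u, hu, hθ, hf, hac⟩ := exists_normal_form K N O hϖ hg
  have hmem := betaF_mem K O N m hu
  have hθ' : theta K (N * m) O ⟨betaF K N m u, hmem⟩ = qExpand κ m (theta K N O ⟨u, hu⟩) :=
    theta_betaF K O N m ⟨u, hu⟩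
  have hne : theta K (N * m) O ⟨betaF K N m u, hmem⟩ ≠ 0 := by
    rw [hθ']
    exact fun h0 => hθ (qExpand_injective m (h0.trans (map_zero _).symm))
  have hf' : betaF K N m g =
      algebraMap K (FF K (N * m)) (ϖ : K) ^ ordG K N O hϖ g * betaF K N m u := by
    conv_lhs => rw [hf]
    rw [map_mul, map_zpow₀, AlgHom.commutes]
  exact (ordG_acG_of_eq K (N * m) O hϖ hmem hne hf').1

end LevelMaps

/-! ### Level `N ℓ`: the first component -/

section Inf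

open Fermat.Agent.P3G.FibreComp

variable (K : Type) [Field K] [CharZero K] (N : ℕ) [NeZero N] (ℓ : ℕ) [hℓ : Fact ℓ.Prime]
  (O : Subring K) [IsDiscreteValuationRing ↥O] [IsFractionRing ↥O K]
  [CharP (IsLocalRing.ResidueField ↥O) ℓ] (S : SecondVal K N ℓ O)
  (ι : K →+* ℂ) (hℓN : ¬ ℓ ∣ N)
  (hA2 : ∀ x : ↥(gaussSubalgebra K N O),
    theta K N O x ∈ modularFunctionFieldFullC (IsLocalRing.ResidueField ↥O) N)

set_option quotPrecheck false in
local notation "κ" => IsLocalRing.ResidueField ↥O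

variable {ϖ : ↥O} (hϖ : Irreducible ϖ)

/-- **`f̄_∞`**: the angular component of `f ∈ FF K (N ℓ)` on the first component (`V₁ = gaussVS`), as a
Laurent series. -/
abbrev acInf (f : FF K (N * ℓ)) : LaurentSeries κ := acG K (N * ℓ) O hϖ f

/-- The Gauss order at level `N ℓ`. -/
abbrev ordInf (f : FF K (N * ℓ)) : ℤ := ordG K (N * ℓ) O hϖ f

include S ι hℓN hA2 in
/-- `f̄_∞` is a function of level `N`. -/
theorem acInf_mem_full (f : FF K (N * ℓ)) :
    acInf K N ℓ O hϖ f ∈ modularFunctionFieldFullC κ N := by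
  rcases eq_or_ne f 0 with rfl | hf
  · rw [acInf, acG_zero]
    exact zero_mem _
  obtain ⟨u, hu, -, -, hac⟩ := exists_normal_form K (N * ℓ) O hϖ hf
  rw [acInf, hac]
  exact theta_mem_full K N ℓ O S ι hℓN hA2 u hu

/-- **`f̄_∞ ∈ FF κ N`**, as a multiplicative map. -/
def acInfF : FF K (N * ℓ) →*₀ FF κ N where
  toFun f := ⟨acInf K N ℓ O hϖ f, acInf_mem_full K N ℓ O S ι hℓN hA2 hϖ f⟩
  map_zero' := Subtype.ext (acG_zero K (N * ℓ) O hϖ)
  map_one' := Subtype.ext (acG_one K (N * ℓ) O hϖ)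
  map_mul' f g := Subtype.ext (acG_mul K (N * ℓ) O hϖ f g)

@[simp] theorem coe_acInfF (f : FF K (N * ℓ)) :
    ((acInfF K N ℓ O S ι hℓN hA2 hϖ f : FF κ N) : LaurentSeries κ) = acInf K N ℓ O hϖ f := rfl

theorem acInfF_ne_zero {f : FF K (N * ℓ)} (hf : f ≠ 0) : acInfF K N ℓ O S ι hℓN hA2 hϖ f ≠ 0 :=
  fun h => acG_ne_zero K (N * ℓ) O hϖ hf (congrArg Subtype.val h)

end Inf

/-! ### Level `N ℓ`: the second component -/

section Zero

open Fermat.Agent.P3G.FibreComp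

variable (K : Type) [Field K] [CharZero K] (N : ℕ) [NeZero N] (ℓ : ℕ) [hℓ : Fact ℓ.Prime]
  (O : Subring K) [IsDiscreteValuationRing ↥O] [IsFractionRing ↥O K]
  [CharP (IsLocalRing.ResidueField ↥O) ℓ] (S : SecondVal K N ℓ O)
  [hdvr : IsDiscreteValuationRing ↥S.V]
  (hA2 : ∀ x : ↥(gaussSubalgebra K N O),
    theta K N O x ∈ modularFunctionFieldFullC (IsLocalRing.ResidueField ↥O) N)

set_option quotPrecheck false in
local notation "κ" => IsLocalRing.ResidueField ↥O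

variable {ϖ : ↥O} (hϖ : Irreducible ϖ)

include hϖ in
theorem unif_mem_nonunits_V : algebraMap K (FF K (N * ℓ)) (ϖ : K) ∈ S.V.nonunits := by
  have hmem : algebraMap K (FF K N) (ϖ : K) ∈ gaussSubalgebra K N O := (unif K N O ϖ).2
  have h1 := S.ev_beta _ hmem
  have h2 : theta K N O ⟨algebraMap K (FF K N) (ϖ : K), hmem⟩ = 0 := theta_unif K N O hϖ
  rw [h2, S.ev_eq_zero_iff] at h1
  have e : betaF K N ℓ (algebraMap K (FF K N) (ϖ : K)) = algebraMap K (FF K (N * ℓ)) (ϖ : K) :=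
    AlgHom.commutes _ _
  rw [← e]
  exact h1

/-- The uniformiser of `O` as an element of `S.V`. -/
def unifV : ↥S.V :=
  ⟨algebraMap K (FF K (N * ℓ)) (ϖ : K), S.V.nonunits_subset (unif_mem_nonunits_V K N ℓ O S hϖ)⟩

theorem coe_unifV : ((unifV K N ℓ O S hϖ : ↥S.V) : FF K (N * ℓ)) =
    algebraMap K (FF K (N * ℓ)) (ϖ : K) := rfl

theorem algebraMap_unifV :
    algebraMap ↥S.V (FF K (N * ℓ)) (unifV K N ℓ O S hϖ) = algebraMap K (FF K (N * ℓ)) (ϖ : K) :=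
  rfl

theorem ev_unifV : S.ev (unifV K N ℓ O S hϖ) = 0 :=
  (S.ev_eq_zero_iff _).2 (unif_mem_nonunits_V K N ℓ O S hϖ)

theorem unifV_ne_zero : unifV K N ℓ O S hϖ ≠ 0 := by
  intro h
  have h1 : algebraMap K (FF K (N * ℓ)) (ϖ : K) = 0 := congrArg Subtype.val h
  rw [map_eq_zero] at h1
  exact hϖ.ne_zero (Subtype.ext h1)

/-- `ϖ` is a uniformiser of `S.V` (`ram_one`). -/
theorem irreducible_unifV : Irreducible (unifV K N ℓ O S hϖ) := by
  rw [IsDiscreteValuationRing.irreducible_iff_uniformizer]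
  apply le_antisymm
  · intro y hy
    rw [IsLocalRing.mem_maximalIdeal, mem_nonunits_iff] at hy
    have hy' : (y : FF K (N * ℓ)) ∈ S.V.nonunits := by
      rw [ValuationSubring.mem_nonunits_iff_exists_mem_maximalIdeal]
      exact ⟨y.2, (IsLocalRing.mem_maximalIdeal _).2 hy⟩
    have h := S.ram_one ϖ hϖ y hy'
    rw [Ideal.mem_span_singleton']
    refine ⟨⟨_, h⟩, Subtype.ext ?_⟩
    have hϖF : algebraMap K (FF K (N * ℓ)) (ϖ : K) ≠ 0 := by
      rw [Ne, map_eq_zero]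
      exact fun h0 => hϖ.ne_zero (Subtype.ext h0)
    show (y : FF K (N * ℓ)) * (algebraMap K (FF K (N * ℓ)) (ϖ : K))⁻¹ *
      algebraMap K (FF K (N * ℓ)) (ϖ : K) = y
    rw [inv_mul_cancel_right₀ hϖF]
  · rw [Ideal.span_le, Set.singleton_subset_iff, SetLike.mem_coe, IsLocalRing.mem_maximalIdeal,
      mem_nonunits_iff]
    intro hu
    exact (hu.map S.ev).ne_zero (ev_unifV K N ℓ O S hϖ)

/-- The order of `f ∈ FF K (N ℓ)` at the second vertical valuation. -/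
def ordZero (f : FF K (N * ℓ)) : ℤ := ordPi (irreducible_unifV K N ℓ O S hϖ) f

/-- **`f̄_0`**: the angular component of `f ∈ FF K (N ℓ)` on the second component (`V₂ = S.V`), as a
Laurent series. -/
def acZero (f : FF K (N * ℓ)) : LaurentSeries κ := ac S.ev (irreducible_unifV K N ℓ O S hϖ) f

theorem acZero_zero : acZero K N ℓ O S hϖ 0 = 0 := ac_zero _ _

theorem acZero_one : acZero K N ℓ O S hϖ 1 = 1 := ac_one _ _

theorem acZero_mul (f g : FF K (N * ℓ)) :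
    acZero K N ℓ O S hϖ (f * g) = acZero K N ℓ O S hϖ f * acZero K N ℓ O S hϖ g :=
  ac_mul _ _ f g

theorem acZero_inv (f : FF K (N * ℓ)) : acZero K N ℓ O S hϖ f⁻¹ = (acZero K N ℓ O S hϖ f)⁻¹ :=
  ac_inv _ _ f

theorem acZero_div (f g : FF K (N * ℓ)) :
    acZero K N ℓ O S hϖ (f / g) = acZero K N ℓ O S hϖ f / acZero K N ℓ O S hϖ g :=
  ac_div _ _ f g

theorem acZero_pow (f : FF K (N * ℓ)) (n : ℕ) :
    acZero K N ℓ O S hϖ (f ^ n) = acZero K N ℓ O S hϖ f ^ n :=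
  ac_pow _ _ f n

theorem acZero_zpow (f : FF K (N * ℓ)) (n : ℤ) :
    acZero K N ℓ O S hϖ (f ^ n) = acZero K N ℓ O S hϖ f ^ n :=
  ac_zpow _ _ f n

theorem acZero_prod {ι' : Type*} (s : Finset ι') (f : ι' → FF K (N * ℓ)) :
    acZero K N ℓ O S hϖ (∏ i ∈ s, f i) = ∏ i ∈ s, acZero K N ℓ O S hϖ (f i) :=
  ac_prod _ _ s f

theorem acZero_ne_zero {f : FF K (N * ℓ)} (hf : f ≠ 0) : acZero K N ℓ O S hϖ f ≠ 0 :=
  ac_ne_zero _ _ hf

theorem acZero_eq_zero_iff {f : FF K (N * ℓ)} : acZero K N ℓ O S hϖ f = 0 ↔ f = 0 :=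
  ac_eq_zero_iff _ _

theorem isUnit_of_ev_ne_zero (y : ↥S.V) (h : S.ev y ≠ 0) : IsUnit y := by
  by_contra hu
  apply h
  rw [S.ev_eq_zero_iff, ValuationSubring.mem_nonunits_iff_exists_mem_maximalIdeal]
  exact ⟨y.2, (IsLocalRing.mem_maximalIdeal _).2 hu⟩

/-- An element of `S.V` with nonzero residue is its own normalisation. -/
theorem acZero_of_ev_ne_zero {f : FF K (N * ℓ)} (hf : f ∈ S.V) (h : S.ev ⟨f, hf⟩ ≠ 0) :
    acZero K N ℓ O S hϖ f = S.ev ⟨f, hf⟩ :=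
  ac_of_isUnit (F := FF K (N * ℓ)) S.ev (irreducible_unifV K N ℓ O S hϖ)
    (isUnit_of_ev_ne_zero K N ℓ O S ⟨f, hf⟩ h)

theorem ordZero_of_ev_ne_zero {f : FF K (N * ℓ)} (hf : f ∈ S.V) (h : S.ev ⟨f, hf⟩ ≠ 0) :
    ordZero K N ℓ O S hϖ f = 0 :=
  ordPi_algebraMap_of_isUnit (F := FF K (N * ℓ)) (irreducible_unifV K N ℓ O S hϖ)
    (isUnit_of_ev_ne_zero K N ℓ O S ⟨f, hf⟩ h)

/-- **Normal form at `V₂`**: `f = ϖ ^ ordZero f * u`, `u` a unit of `S.V`, `acZero f = ev u`. -/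
theorem exists_normal_form_zero {f : FF K (N * ℓ)} (hf : f ≠ 0) :
    ∃ (u : FF K (N * ℓ)) (hu : u ∈ S.V), S.ev ⟨u, hu⟩ ≠ 0 ∧
      f = algebraMap K (FF K (N * ℓ)) (ϖ : K) ^ ordZero K N ℓ O S hϖ f * u ∧
      acZero K N ℓ O S hϖ f = S.ev ⟨u, hu⟩ := by
  set u := unitPart (F := FF K (N * ℓ)) (irreducible_unifV K N ℓ O S hϖ) f with hu
  refine ⟨((u : ↥S.V) : FF K (N * ℓ)), (u : ↥S.V).2, (u.isUnit.map S.ev).ne_zero, ?_, ?_⟩
  · exact (eq_unitPart_mul (F := FF K (N * ℓ)) (irreducible_unifV K N ℓ O S hϖ) hf).trans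
      (mul_comm _ _)
  · exact ac_of_ne_zero _ _ hf

/-- Recognising order and angular component at `V₂`. -/
theorem ordZero_acZero_of_eq {f u : FF K (N * ℓ)} {n : ℤ} (hu : u ∈ S.V)
    (h : S.ev ⟨u, hu⟩ ≠ 0) (hf : f = algebraMap K (FF K (N * ℓ)) (ϖ : K) ^ n * u) :
    ordZero K N ℓ O S hϖ f = n ∧ acZero K N ℓ O S hϖ f = S.ev ⟨u, hu⟩ := by
  have hunit := isUnit_of_ev_ne_zero K N ℓ O S ⟨u, hu⟩ h
  have hf' : f = algebraMap ↥S.V (FF K (N * ℓ)) (hunit.unit : ↥S.V) *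
      algebraMap ↥S.V (FF K (N * ℓ)) (unifV K N ℓ O S hϖ) ^ n := by
    rw [IsUnit.unit_spec, hf]
    exact mul_comm _ _
  refine ⟨ordPi_of_eq (F := FF K (N * ℓ)) (irreducible_unifV K N ℓ O S hϖ) hf', ?_⟩
  exact ac_eq_ev_of (F := FF K (N * ℓ)) S.ev (irreducible_unifV K N ℓ O S hϖ) hunit
    (f := f) (n := n) (by rw [hf]; exact mul_comm _ _)

theorem acZero_unif : acZero K N ℓ O S hϖ (algebraMap K (FF K (N * ℓ)) (ϖ : K)) = 1 :=
  ac_pi (F := FF K (N * ℓ)) S.ev (irreducible_unifV K N ℓ O S hϖ)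

theorem acZero_unif_zpow_mul (n : ℤ) (f : FF K (N * ℓ)) :
    acZero K N ℓ O S hϖ (algebraMap K (FF K (N * ℓ)) (ϖ : K) ^ n * f) =
      acZero K N ℓ O S hϖ f := by
  rw [mul_comm (algebraMap K (FF K (N * ℓ)) (ϖ : K) ^ n) f]
  exact ac_mul_pi_zpow (F := FF K (N * ℓ)) S.ev (irreducible_unifV K N ℓ O S hϖ) f n

theorem ordZero_mul {f g : FF K (N * ℓ)} (hf : f ≠ 0) (hg : g ≠ 0) :
    ordZero K N ℓ O S hϖ (f * g) = ordZero K N ℓ O S hϖ f + ordZero K N ℓ O S hϖ g :=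
  ordPi_mul _ hf hg

theorem ordZero_inv (f : FF K (N * ℓ)) : ordZero K N ℓ O S hϖ f⁻¹ = - ordZero K N ℓ O S hϖ f :=
  ordPi_inv _ f

theorem ordZero_pow (f : FF K (N * ℓ)) (n : ℕ) :
    ordZero K N ℓ O S hϖ (f ^ n) = n * ordZero K N ℓ O S hϖ f :=
  ordPi_pow _ f n

theorem ordZero_one : ordZero K N ℓ O S hϖ 1 = 0 := ordPi_one _

theorem ordZero_unif : ordZero K N ℓ O S hϖ (algebraMap K (FF K (N * ℓ)) (ϖ : K)) = 1 :=
  ordPi_pi (F := FF K (N * ℓ)) (irreducible_unifV K N ℓ O S hϖ)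

/-- `f ∈ S.V` iff `0 ≤ ordZero f` (`f ≠ 0`). -/
theorem mem_V_iff_ordZero {f : FF K (N * ℓ)} (hf : f ≠ 0) :
    f ∈ S.V ↔ 0 ≤ ordZero K N ℓ O S hϖ f := by
  constructor
  · intro h
    have h0 : (⟨f, h⟩ : ↥S.V) ≠ 0 := fun h1 => hf (congrArg Subtype.val h1)
    exact ordPi_nonneg_of_algebraMap (F := FF K (N * ℓ)) (irreducible_unifV K N ℓ O S hϖ) h0
  · intro h
    obtain ⟨x, hx⟩ := exists_algebraMap_of_ordPi_nonneg (F := FF K (N * ℓ))
      (irreducible_unifV K N ℓ O S hϖ) hf h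
    rw [← hx]
    exact x.2

/-- `acZero (β g) = acG g`. -/
theorem acZero_betaF (g : FF K N) :
    acZero K N ℓ O S hϖ (betaF K N ℓ g) = acG K N O hϖ g := by
  rcases eq_or_ne g 0 with rfl | hg
  · rw [map_zero, acZero_zero, acG_zero]
  obtain ⟨u, hu, hθ, hf, hac⟩ := exists_normal_form K N O hϖ hg
  have hmem := S.beta_mem u hu
  have hθ' : S.ev ⟨betaF K N ℓ u, hmem⟩ = theta K N O ⟨u, hu⟩ := S.ev_beta u hu
  have hf' : betaF K N ℓ g =
      algebraMap K (FF K (N * ℓ)) (ϖ : K) ^ ordG K N O hϖ g * betaF K N ℓ u := by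
    conv_lhs => rw [hf]
    rw [map_mul, map_zpow₀, AlgHom.commutes]
  rw [(ordZero_acZero_of_eq K N ℓ O S hϖ hmem (by rw [hθ']; exact hθ) hf').2, hθ', hac]

theorem ordZero_betaF {g : FF K N} (hg : g ≠ 0) :
    ordZero K N ℓ O S hϖ (betaF K N ℓ g) = ordG K N O hϖ g := by
  obtain ⟨u, hu, hθ, hf, hac⟩ := exists_normal_form K N O hϖ hg
  have hmem := S.beta_mem u hu
  have hθ' : S.ev ⟨betaF K N ℓ u, hmem⟩ = theta K N O ⟨u, hu⟩ := S.ev_beta u hu
  have hf' : betaF K N ℓ g =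
      algebraMap K (FF K (N * ℓ)) (ϖ : K) ^ ordG K N O hϖ g * betaF K N ℓ u := by
    conv_lhs => rw [hf]
    rw [map_mul, map_zpow₀, AlgHom.commutes]
  exact (ordZero_acZero_of_eq K N ℓ O S hϖ hmem (by rw [hθ']; exact hθ) hf').1

/-- `acZero (α g) = (acG g)(q^ℓ)`. -/
theorem acZero_alphaF (g : FF K N) :
    acZero K N ℓ O S hϖ (alphaF K N ℓ g) = qExpand κ ℓ (acG K N O hϖ g) := by
  rcases eq_or_ne g 0 with rfl | hg
  · rw [map_zero, acZero_zero, acG_zero, map_zero]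
  obtain ⟨u, hu, hθ, hf, hac⟩ := exists_normal_form K N O hϖ hg
  have hmem := S.alpha_mem u hu
  have hθ' : S.ev ⟨alphaF K N ℓ u, hmem⟩ = qExpand κ ℓ (theta K N O ⟨u, hu⟩) := S.ev_alpha u hu
  have hne : S.ev ⟨alphaF K N ℓ u, hmem⟩ ≠ 0 := by
    rw [hθ']
    exact fun h0 => hθ (qExpand_injective ℓ (h0.trans (map_zero _).symm))
  have hf' : alphaF K N ℓ g =
      algebraMap K (FF K (N * ℓ)) (ϖ : K) ^ ordG K N O hϖ g * alphaF K N ℓ u := by
    conv_lhs => rw [hf]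
    rw [map_mul, map_zpow₀, AlgHom.commutes]
  rw [(ordZero_acZero_of_eq K N ℓ O S hϖ hmem hne hf').2, hθ', hac]

theorem ordZero_alphaF {g : FF K N} (hg : g ≠ 0) :
    ordZero K N ℓ O S hϖ (alphaF K N ℓ g) = ordG K N O hϖ g := by
  obtain ⟨u, hu, hθ, hf, hac⟩ := exists_normal_form K N O hϖ hg
  have hmem := S.alpha_mem u hu
  have hθ' : S.ev ⟨alphaF K N ℓ u, hmem⟩ = qExpand κ ℓ (theta K N O ⟨u, hu⟩) := S.ev_alpha u hu
  have hne : S.ev ⟨alphaF K N ℓ u, hmem⟩ ≠ 0 := by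
    rw [hθ']
    exact fun h0 => hθ (qExpand_injective ℓ (h0.trans (map_zero _).symm))
  have hf' : alphaF K N ℓ g =
      algebraMap K (FF K (N * ℓ)) (ϖ : K) ^ ordG K N O hϖ g * alphaF K N ℓ u := by
    conv_lhs => rw [hf]
    rw [map_mul, map_zpow₀, AlgHom.commutes]
  exact (ordZero_acZero_of_eq K N ℓ O S hϖ hmem hne hf').1

/-- Nonzero constants have constant angular component at `V₂`. -/
theorem acZero_const {c : K} (hc : c ≠ 0) :
    ∃ a : κ, a ≠ 0 ∧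
      acZero K N ℓ O S hϖ (algebraMap K (FF K (N * ℓ)) c) = HahnSeries.C a := by
  obtain ⟨a, ha, h⟩ := acG_const K N O hϖ hc
  refine ⟨a, ha, ?_⟩
  have e : algebraMap K (FF K (N * ℓ)) c = betaF K N ℓ (algebraMap K (FF K N) c) :=
    (AlgHom.commutes _ _).symm
  rw [e, acZero_betaF, h]

include hA2 in
/-- `f̄_0` is a function of level `N`. -/
theorem acZero_mem_full (f : FF K (N * ℓ)) :
    acZero K N ℓ O S hϖ f ∈ modularFunctionFieldFullC κ N := by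
  rcases eq_or_ne f 0 with rfl | hf
  · rw [acZero_zero]
    exact zero_mem _
  obtain ⟨u, hu, -, -, hac⟩ := exists_normal_form_zero K N ℓ O S hϖ hf
  rw [hac]
  exact ev_mem_full K N ℓ O S hA2 ⟨u, hu⟩

/-- **`f̄_0 ∈ FF κ N`**, as a multiplicative map. -/
def acZeroF : FF K (N * ℓ) →*₀ FF κ N where
  toFun f := ⟨acZero K N ℓ O S hϖ f, acZero_mem_full K N ℓ O S hA2 hϖ f⟩
  map_zero' := Subtype.ext (acZero_zero K N ℓ O S hϖ)
  map_one' := Subtype.ext (acZero_one K N ℓ O S hϖ)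
  map_mul' f g := Subtype.ext (acZero_mul K N ℓ O S hϖ f g)

@[simp] theorem coe_acZeroF (f : FF K (N * ℓ)) :
    ((acZeroF K N ℓ O S hA2 hϖ f : FF κ N) : LaurentSeries κ) = acZero K N ℓ O S hϖ f := rfl

theorem acZeroF_ne_zero {f : FF K (N * ℓ)} (hf : f ≠ 0) : acZeroF K N ℓ O S hA2 hϖ f ≠ 0 :=
  fun h => acZero_ne_zero K N ℓ O S hϖ hf (congrArg Subtype.val h)

end Zero

/-! ### Independence of the uniformiser -/

section Change

variable (K : Type) [Field K] (M : ℕ) (O : Subring K) [IsDiscreteValuationRing ↥O]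
  [IsFractionRing ↥O K]

set_option quotPrecheck false in
local notation "κ" => IsLocalRing.ResidueField ↥O

variable {ϖ ϖ' : ↥O} (hϖ : Irreducible ϖ) (hϖ' : Irreducible ϖ')

/-- The Gauss order does not depend on the uniformiser. -/
theorem ordG_change (f : FF K M) : ordG K M O hϖ' f = ordG K M O hϖ f :=
  ordPi_change (F := FF K M) (irreducible_unif K M O hϖ) (irreducible_unif K M O hϖ') f

/-- Changing the uniformiser multiplies `acG f` by a nonzero constant. -/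
theorem exists_acG_change (f : FF K M) :
    ∃ a : κ, a ≠ 0 ∧ acG K M O hϖ' f = acG K M O hϖ f * HahnSeries.C a := by
  obtain ⟨w, hw⟩ := exists_unit_mul_eq hϖ hϖ'
  have hwG : IsUnit (algebraMap ↥O ↥(gaussSubalgebra K M O) (w : ↥O)) :=
    w.isUnit.map (algebraMap ↥O ↥(gaussSubalgebra K M O))
  have hw' : unif K M O ϖ' = (hwG.unit : ↥(gaussSubalgebra K M O)) * unif K M O ϖ := by
    rw [IsUnit.unit_spec, unif, unif, hw, map_mul]
  have hres : IsLocalRing.residue ↥O (w : ↥O) ≠ 0 := by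
    rw [Ne, IsLocalRing.residue_eq_zero_iff, IsLocalRing.mem_maximalIdeal, mem_nonunits_iff,
      not_not]
    exact w.isUnit
  have h := ac_change (F := FF K M) (theta K M O) (irreducible_unif K M O hϖ)
    (irreducible_unif K M O hϖ') hw' f
  rw [IsUnit.unit_spec, theta_algebraMap, ← map_zpow₀] at h
  exact ⟨_, zpow_ne_zero _ hres, h⟩

end Change

/-! ### `Λ_∞`, `Λ_0` and the orders modulo `ℓ` -/

section Lam

open Fermat.Agent.P3G.FibreComp

variable (K : Type) [Field K] [CharZero K] (N : ℕ) [NeZero N] (ℓ : ℕ) [hℓ : Fact ℓ.Prime]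
  (O : Subring K) [IsDiscreteValuationRing ↥O] [IsFractionRing ↥O K]
  [CharP (IsLocalRing.ResidueField ↥O) ℓ] (S : SecondVal K N ℓ O)
  [hdvr : IsDiscreteValuationRing ↥S.V]
  (ι : K →+* ℂ) (hℓN : ¬ ℓ ∣ N)
  (hA2 : ∀ x : ↥(gaussSubalgebra K N O),
    theta K N O x ∈ modularFunctionFieldFullC (IsLocalRing.ResidueField ↥O) N)

set_option quotPrecheck false in
local notation "κ" => IsLocalRing.ResidueField ↥O

variable {ϖ : ↥O} (hϖ : Irreducible ϖ)

/-- **`Λ_∞(f) = θ f̄_∞ / f̄_∞`.** -/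
def lamInf (f : FF K (N * ℓ)) : LaurentSeries κ := dlog κ (acInf K N ℓ O hϖ f)

/-- **`Λ_0(f) = θ f̄_0 / f̄_0`.** -/
def lamZero (f : FF K (N * ℓ)) : LaurentSeries κ := dlog κ (acZero K N ℓ O S hϖ f)

theorem lamInf_def (f : FF K (N * ℓ)) :
    lamInf K N ℓ O hϖ f = dlog κ (acInf K N ℓ O hϖ f) := rfl

theorem lamZero_def (f : FF K (N * ℓ)) :
    lamZero K N ℓ O S hϖ f = dlog κ (acZero K N ℓ O S hϖ f) := rfl

theorem lamInf_mul {f g : FF K (N * ℓ)} (hf : f ≠ 0) (hg : g ≠ 0) :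
    lamInf K N ℓ O hϖ (f * g) = lamInf K N ℓ O hϖ f + lamInf K N ℓ O hϖ g := by
  simp only [lamInf_def, acInf]
  rw [acG_mul, dlog_mul κ (acG_ne_zero K (N * ℓ) O hϖ hf) (acG_ne_zero K (N * ℓ) O hϖ hg)]

theorem lamZero_mul {f g : FF K (N * ℓ)} (hf : f ≠ 0) (hg : g ≠ 0) :
    lamZero K N ℓ O S hϖ (f * g) = lamZero K N ℓ O S hϖ f + lamZero K N ℓ O S hϖ g := by
  simp only [lamZero_def]
  rw [acZero_mul,
    dlog_mul κ (acZero_ne_zero K N ℓ O S hϖ hf) (acZero_ne_zero K N ℓ O S hϖ hg)]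

theorem lamInf_inv (f : FF K (N * ℓ)) : lamInf K N ℓ O hϖ f⁻¹ = - lamInf K N ℓ O hϖ f := by
  simp only [lamInf_def, acInf]
  rw [acG_inv, dlog_inv]

theorem lamZero_inv (f : FF K (N * ℓ)) :
    lamZero K N ℓ O S hϖ f⁻¹ = - lamZero K N ℓ O S hϖ f := by
  simp only [lamZero_def]
  rw [acZero_inv, dlog_inv]

theorem lamInf_pow (f : FF K (N * ℓ)) (n : ℕ) :
    lamInf K N ℓ O hϖ (f ^ n) = n • lamInf K N ℓ O hϖ f := by
  simp only [lamInf_def, acInf]
  rw [acG_pow, dlog_pow]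

theorem lamZero_pow (f : FF K (N * ℓ)) (n : ℕ) :
    lamZero K N ℓ O S hϖ (f ^ n) = n • lamZero K N ℓ O S hϖ f := by
  simp only [lamZero_def]
  rw [acZero_pow, dlog_pow]

/-- `Λ_∞` kills `ℓ`-th powers. -/
theorem lamInf_pow_char (g : FF K (N * ℓ)) : lamInf K N ℓ O hϖ (g ^ ℓ) = 0 := by
  rw [lamInf_def, acInf, acG_pow, dlog_pow_char]

/-- `Λ_0` kills `ℓ`-th powers. -/
theorem lamZero_pow_char (g : FF K (N * ℓ)) : lamZero K N ℓ O S hϖ (g ^ ℓ) = 0 := by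
  rw [lamZero_def, acZero_pow, dlog_pow_char]

/-- `Λ_∞` kills constants. -/
theorem lamInf_const (c : K) : lamInf K N ℓ O hϖ (algebraMap K (FF K (N * ℓ)) c) = 0 := by
  rcases eq_or_ne c 0 with rfl | hc
  · rw [map_zero, lamInf_def, acInf, acG_zero, dlog_zero]
  · obtain ⟨a, -, h⟩ := acG_const K (N * ℓ) O hϖ hc
    rw [lamInf_def, acInf, h, dlog_C]

/-- `Λ_0` kills constants. -/
theorem lamZero_const (c : K) : lamZero K N ℓ O S hϖ (algebraMap K (FF K (N * ℓ)) c) = 0 := by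
  rcases eq_or_ne c 0 with rfl | hc
  · rw [map_zero, lamZero_def, acZero_zero, dlog_zero]
  · obtain ⟨a, -, h⟩ := acZero_const K N ℓ O S hϖ hc
    rw [lamZero_def, h, dlog_C]

/-- **Invariance of `Λ_∞`**: `Λ_∞ (c · f · g ^ ℓ) = Λ_∞ f`. -/
theorem lamInf_invariant {c : K} (hc : c ≠ 0) (f : FF K (N * ℓ)) {g : FF K (N * ℓ)} (hg : g ≠ 0) :
    lamInf K N ℓ O hϖ (algebraMap K (FF K (N * ℓ)) c * f * g ^ ℓ) = lamInf K N ℓ O hϖ f := by
  obtain ⟨a, ha, h⟩ := acG_const K (N * ℓ) O hϖ hc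
  simp only [lamInf_def, acInf]
  rw [acG_mul, acG_mul, acG_pow, h]
  exact dlog_C_mul_mul_pow_char κ ℓ ha _ (acG_ne_zero K (N * ℓ) O hϖ hg)

/-- **Invariance of `Λ_0`**: `Λ_0 (c · f · g ^ ℓ) = Λ_0 f`. -/
theorem lamZero_invariant {c : K} (hc : c ≠ 0) (f : FF K (N * ℓ)) {g : FF K (N * ℓ)}
    (hg : g ≠ 0) :
    lamZero K N ℓ O S hϖ (algebraMap K (FF K (N * ℓ)) c * f * g ^ ℓ) =
      lamZero K N ℓ O S hϖ f := by
  obtain ⟨a, ha, h⟩ := acZero_const K N ℓ O S hϖ hc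
  simp only [lamZero_def]
  rw [acZero_mul, acZero_mul, acZero_pow, h]
  exact dlog_C_mul_mul_pow_char κ ℓ ha _ (acZero_ne_zero K N ℓ O S hϖ hg)

/-- `Λ_∞ f = 0` iff `f̄_∞ ∈ κ((q^ℓ))`. -/
theorem lamInf_eq_zero_iff {f : FF K (N * ℓ)} (hf : f ≠ 0) :
    lamInf K N ℓ O hϖ f = 0 ↔
      ∀ n : ℤ, (acInf K N ℓ O hϖ f).coeff n ≠ 0 → (ℓ : ℤ) ∣ n :=
  dlog_eq_zero_iff_char κ ℓ (acG_ne_zero K (N * ℓ) O hϖ hf)

/-- `Λ_0 f = 0` iff `f̄_0 ∈ κ((q^ℓ))`. -/
theorem lamZero_eq_zero_iff {f : FF K (N * ℓ)} (hf : f ≠ 0) :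
    lamZero K N ℓ O S hϖ f = 0 ↔
      ∀ n : ℤ, (acZero K N ℓ O S hϖ f).coeff n ≠ 0 → (ℓ : ℤ) ∣ n :=
  dlog_eq_zero_iff_char κ ℓ (acZero_ne_zero K N ℓ O S hϖ hf)

/-- `Λ_∞` does not depend on the uniformiser. -/
theorem lamInf_change {ϖ' : ↥O} (hϖ' : Irreducible ϖ') (f : FF K (N * ℓ)) :
    lamInf K N ℓ O hϖ' f = lamInf K N ℓ O hϖ f := by
  obtain ⟨a, ha, h⟩ := exists_acG_change K (N * ℓ) O hϖ hϖ' f
  simp only [lamInf_def, acInf]
  rw [h, mul_comm, dlog_C_mul κ ha]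

/-- `Λ_∞ (α g)` is `dlog` of the level-`N` angular component. -/
theorem lamInf_alphaF (g : FF K N) :
    lamInf K N ℓ O hϖ (alphaF K N ℓ g) = dlog κ (acG K N O hϖ g) := by
  rw [lamInf_def, acInf, acG_alphaF]

/-- `Λ_∞ (β g) = 0` (characteristic `ℓ`: `ℓ · (…)(q^ℓ) = 0`). -/
theorem lamInf_betaF (g : FF K N) : lamInf K N ℓ O hϖ (betaF K N ℓ g) = 0 := by
  rw [lamInf_def, acInf, acG_betaF, dlog_qExpand, CharP.cast_eq_zero, zero_smul]

/-- `Λ_0 (β g)` is `dlog` of the level-`N` angular component. -/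
theorem lamZero_betaF (g : FF K N) :
    lamZero K N ℓ O S hϖ (betaF K N ℓ g) = dlog κ (acG K N O hϖ g) := by
  rw [lamZero_def, acZero_betaF]

/-- `Λ_0 (α g) = 0`. -/
theorem lamZero_alphaF (g : FF K N) : lamZero K N ℓ O S hϖ (alphaF K N ℓ g) = 0 := by
  rw [lamZero_def, acZero_alphaF, dlog_qExpand, CharP.cast_eq_zero, zero_smul]

/-! #### Orders modulo `ℓ` -/

set_option synthInstance.maxHeartbeats 400000

/-- **`m^∞_s(f) = ord_s(f̄_∞) mod ℓ`** at a place `s` of `FF κ N`. -/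
def mInf (s : Place κ (FF κ N)) (f : FF K (N * ℓ)) : ZMod ℓ :=
  ((s.ord (acInfF K N ℓ O S ι hℓN hA2 hϖ f) : ℤ) : ZMod ℓ)

/-- **`m^0_s(f) = ord_s(f̄_0) mod ℓ`** at a place `s` of `FF κ N`. -/
def mZero (s : Place κ (FF κ N)) (f : FF K (N * ℓ)) : ZMod ℓ :=
  ((s.ord (acZeroF K N ℓ O S hA2 hϖ f) : ℤ) : ZMod ℓ)

theorem mInf_mul (s : Place κ (FF κ N)) {f g : FF K (N * ℓ)} (hf : f ≠ 0) (hg : g ≠ 0) :
    mInf K N ℓ O S ι hℓN hA2 hϖ s (f * g) =
      mInf K N ℓ O S ι hℓN hA2 hϖ s f + mInf K N ℓ O S ι hℓN hA2 hϖ s g := by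
  unfold mInf
  rw [map_mul, s.ord_mul (acInfF_ne_zero K N ℓ O S ι hℓN hA2 hϖ hf)
    (acInfF_ne_zero K N ℓ O S ι hℓN hA2 hϖ hg)]
  push_cast
  rfl

theorem mZero_mul (s : Place κ (FF κ N)) {f g : FF K (N * ℓ)} (hf : f ≠ 0) (hg : g ≠ 0) :
    mZero K N ℓ O S hA2 hϖ s (f * g) =
      mZero K N ℓ O S hA2 hϖ s f + mZero K N ℓ O S hA2 hϖ s g := by
  unfold mZero
  rw [map_mul, s.ord_mul (acZeroF_ne_zero K N ℓ O S hA2 hϖ hf)
    (acZeroF_ne_zero K N ℓ O S hA2 hϖ hg)]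
  push_cast
  rfl

theorem mInf_pow_char (s : Place κ (FF κ N)) (g : FF K (N * ℓ)) :
    mInf K N ℓ O S ι hℓN hA2 hϖ s (g ^ ℓ) = 0 := by
  unfold mInf
  rw [map_pow, ← zpow_natCast, s.ord_zpow]
  push_cast
  rw [ZMod.natCast_self, zero_mul]

theorem mZero_pow_char (s : Place κ (FF κ N)) (g : FF K (N * ℓ)) :
    mZero K N ℓ O S hA2 hϖ s (g ^ ℓ) = 0 := by
  unfold mZero
  rw [map_pow, ← zpow_natCast, s.ord_zpow]
  push_cast
  rw [ZMod.natCast_self, zero_mul]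

/-- A nonzero constant of `FF κ N` has order `0` at every place. -/
theorem ord_const (s : Place κ (FF κ N)) {a : κ} (ha : a ≠ 0) :
    s.ord (algebraMap κ (FF κ N) a) = 0 := by
  have hu : IsUnit (algebraMap κ ↥s.toValuationSubring a) :=
    (IsUnit.mk0 a ha).map (algebraMap κ ↥s.toValuationSubring)
  have h := s.ord_coe_unit hu.unit
  rwa [IsUnit.unit_spec, s.coe_algebraMap] at h

theorem acInfF_const {c : K} (hc : c ≠ 0) :
    ∃ a : κ, a ≠ 0 ∧
      acInfF K N ℓ O S ι hℓN hA2 hϖ (algebraMap K (FF K (N * ℓ)) c) = algebraMap κ (FF κ N) a := by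
  obtain ⟨a, ha, h⟩ := acG_const K (N * ℓ) O hϖ hc
  refine ⟨a, ha, Subtype.ext ?_⟩
  rw [coe_acInfF, acInf, h]
  exact (algebraMap_eq_C κ a).symm

theorem acZeroF_const {c : K} (hc : c ≠ 0) :
    ∃ a : κ, a ≠ 0 ∧
      acZeroF K N ℓ O S hA2 hϖ (algebraMap K (FF K (N * ℓ)) c) = algebraMap κ (FF κ N) a := by
  obtain ⟨a, ha, h⟩ := acZero_const K N ℓ O S hϖ hc
  refine ⟨a, ha, Subtype.ext ?_⟩
  rw [coe_acZeroF, h]
  exact (algebraMap_eq_C κ a).symm

theorem mInf_const (s : Place κ (FF κ N)) {c : K} (hc : c ≠ 0) :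
    mInf K N ℓ O S ι hℓN hA2 hϖ s (algebraMap K (FF K (N * ℓ)) c) = 0 := by
  obtain ⟨a, ha, h⟩ := acInfF_const K N ℓ O S ι hℓN hA2 hϖ hc
  unfold mInf
  rw [h, ord_const K N O s ha, Int.cast_zero]

theorem mZero_const (s : Place κ (FF κ N)) {c : K} (hc : c ≠ 0) :
    mZero K N ℓ O S hA2 hϖ s (algebraMap K (FF K (N * ℓ)) c) = 0 := by
  obtain ⟨a, ha, h⟩ := acZeroF_const K N ℓ O S hA2 hϖ hc
  unfold mZero
  rw [h, ord_const K N O s ha, Int.cast_zero]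

/-- **Invariance of `m^∞`**: `m^∞_s (c · f · g ^ ℓ) = m^∞_s f`. -/
theorem mInf_invariant (s : Place κ (FF κ N)) {c : K} (hc : c ≠ 0) {f g : FF K (N * ℓ)}
    (hf : f ≠ 0) (hg : g ≠ 0) :
    mInf K N ℓ O S ι hℓN hA2 hϖ s (algebraMap K (FF K (N * ℓ)) c * f * g ^ ℓ) =
      mInf K N ℓ O S ι hℓN hA2 hϖ s f := by
  have hc' : algebraMap K (FF K (N * ℓ)) c ≠ 0 := by
    rw [Ne, map_eq_zero]
    exact hc
  rw [mInf_mul K N ℓ O S ι hℓN hA2 hϖ s (mul_ne_zero hc' hf) (pow_ne_zero ℓ hg),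
    mInf_mul K N ℓ O S ι hℓN hA2 hϖ s hc' hf, mInf_const K N ℓ O S ι hℓN hA2 hϖ s hc,
    mInf_pow_char, zero_add, add_zero]

/-- **Invariance of `m^0`**: `m^0_s (c · f · g ^ ℓ) = m^0_s f`. -/
theorem mZero_invariant (s : Place κ (FF κ N)) {c : K} (hc : c ≠ 0) {f g : FF K (N * ℓ)}
    (hf : f ≠ 0) (hg : g ≠ 0) :
    mZero K N ℓ O S hA2 hϖ s (algebraMap K (FF K (N * ℓ)) c * f * g ^ ℓ) =
      mZero K N ℓ O S hA2 hϖ s f := by
  have hc' : algebraMap K (FF K (N * ℓ)) c ≠ 0 := by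
    rw [Ne, map_eq_zero]
    exact hc
  rw [mZero_mul K N ℓ O S hA2 hϖ s (mul_ne_zero hc' hf) (pow_ne_zero ℓ hg),
    mZero_mul K N ℓ O S hA2 hϖ s hc' hf, mZero_const K N ℓ O S hA2 hϖ s hc,
    mZero_pow_char, zero_add, add_zero]

end Lam

end Fermat.Agent.S40.W.Lambda
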