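/-
S40 (row 38), (W3) leaf **W-F4** (helper26): from (F4) to the hypotheses of
`S40/W/DlogChart.dlog_mem_holoSpace_of_charts`, and the place form of (F4).

Generic part (`R` a Dedekind domain with fraction field `F`, over a field `k`; on top of
`S24/PlaceDict`):
* `exists_frac_of_valuation_eq_one`, `exists_loc_of_dvd_ord`, `dvd_ord_of_loc` : at a prime `w` of
  `R`, `e ∣ ord_w g` iff `g = u s ^ e` with `u = r / a`, `a r ∈ R ∖ w`;
* `exists_loc_of_isMaximal`, `isLocPthPowerOn_of_forall_place`, `dvd_ord_of_isLocPthPowerOn` :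
  `DlogHolo.IsLocPthPowerOn F R e g` iff `e ∣ ord_s g` at every place `s ⊇ R`;
* `coe_chartAlg_mem_place`, `mem_center_iff_mem_nonunits`, `mul_mem_nonunits_of_mem`.

Level `(K, O)` (binder block of `F4Level`):
* `IsSSFin s`, `IsSSInf s` : the place `s` of `FF κ N` is *supersingular*: its centre on the finite
  chart (chart at infinity) of level `N ℓ` lies on the second component `S₂.V`;
  `jF_mem_of_isSSInf`, `isSSFin_of_isSSInf` (the two notions agree; cusps are not supersingular);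
* `isLocPthPowerOn_fin`, `isLocPthPowerOn_inf` : `IsLocPthPowerOn (FF κ N) (SigmaFin κ N) e (redG f)`
  resp. `… (SigmaInf κ N) …` for a Gauss unit `f` with `e ∣ div f` and rational support, from
  `e ∣ ord_s (redG f)` at the supersingular places of the finite chart;
* `dvd_ord_fin`, `dvd_ord_inf`, `f4_place` : `e ∣ ord_s (redG f)` at every non-supersingular place;
* `acInfF_eq_redG`, `mInf_eq_zero_iff`, `isLocPthPowerOn_acInfF` : the same in the vocabulary of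
  `S40/W/Lambda` (`acInfF`, `mInf`).
-/
import Mathlib
import Fermat.Agent.S24.PlaceDict
import Fermat.Agent.N4F.C.ChartDataLevel
import Fermat.Agent.S40.W.DlogHolo
import Fermat.Agent.S40.W.F4Cusp
import Fermat.Agent.S40.W.Lambda

set_option autoImplicit false
set_option linter.unusedSectionVars false
set_option linter.style.haveILetI false

open AlgebraicCurve IsDedekindDomain IsDedekindDomain.HeightOneSpectrum
open Fermat.Agent.S24 Fermat.Agent.S40.W.DlogHolo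

noncomputable section

namespace Fermat.Agent.S40.W.F4Place

section Abstract

variable {k F : Type*} [Field k] [Field F] [Algebra k F]
variable {R : Type*} [CommRing R] [IsDedekindDomain R] [Algebra R F] [IsFractionRing R F]
  [Algebra k R] [IsScalarTower k R F]

/-- A `w`-adic unit is a quotient of two elements of `R` outside `w`. -/
theorem exists_frac_of_valuation_eq_one (w : HeightOneSpectrum R) {u : F}
    (hu : w.valuation F u = 1) :
    ∃ a r : R, a ∉ w.asIdeal ∧ r ∉ w.asIdeal ∧ u * algebraMap R F a = algebraMap R F r := by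
  obtain ⟨n, d, hnd⟩ := w.exists_primeCompl_mul_eq_of_integer u hu.le
  refine ⟨d, n, d.2, ?_, hnd⟩
  have h1 : w.valuation F (algebraMap R F d) = 1 := by
    rw [valuation_of_algebraMap]
    exact (w.intValuation_eq_one_iff).2 d.2
  have h2 := congrArg (w.valuation F) hnd
  rw [map_mul, hu, h1, mul_one, valuation_of_algebraMap] at h2
  exact (w.intValuation_eq_one_iff).1 h2.symm

/-- **From orders to the local form.** -/
theorem exists_loc_of_dvd_ord (w : HeightOneSpectrum R) {g : F} (hg : g ≠ 0) {e : ℕ}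
    (h : (e : ℤ) ∣ (Place.ofHeightOneSpectrum (K := k) (F := F) w).ord g) :
    ∃ (u s : F) (a r : R), a ∉ w.asIdeal ∧ r ∉ w.asIdeal ∧ g = u * s ^ e ∧
      u * algebraMap R F a = algebraMap R F r := by
  obtain ⟨m, hm⟩ := h
  obtain ⟨π, hπ⟩ := w.intValuation_exists_uniformizer
  have hπF : w.valuation F (algebraMap R F π) = WithZero.exp (-1 : ℤ) := by
    rw [valuation_of_algebraMap, hπ]
  have hπ0 : algebraMap R F π ≠ 0 := by
    intro h0
    rw [h0, map_zero] at hπF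
    exact WithZero.exp_ne_zero hπF.symm
  set s : F := algebraMap R F π ^ m with hs
  have hs0 : s ≠ 0 := zpow_ne_zero _ hπ0
  have hse0 : s ^ e ≠ 0 := pow_ne_zero _ hs0
  have hord := ord_ofHeightOneSpectrum (K := k) (F := F) w g
  rw [hm] at hord
  have hvg : w.valuation F g = WithZero.exp (-((e : ℤ) * m)) := by
    have hg' : w.valuation F g ≠ 0 := (Valuation.ne_zero_iff _).2 hg
    have : WithZero.log (w.valuation F g) = -((e : ℤ) * m) := by omega
    rw [← this, WithZero.exp_log hg']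
  have hvs : w.valuation F (s ^ e) = WithZero.exp (-((e : ℤ) * m)) := by
    rw [hs, map_pow, map_zpow₀, hπF, ← WithZero.exp_zsmul, ← WithZero.exp_nsmul]
    congr 1
    simp only [smul_eq_mul, nsmul_eq_mul]
    ring
  have hu : w.valuation F (g / s ^ e) = 1 := by
    rw [map_div₀, hvg, hvs]
    exact div_self WithZero.exp_ne_zero
  obtain ⟨a, r, ha, hr, har⟩ := exists_frac_of_valuation_eq_one w hu
  exact ⟨g / s ^ e, s, a, r, ha, hr, (div_mul_cancel₀ g hse0).symm, har⟩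

/-- **From the local form to orders.** -/
theorem dvd_ord_of_loc (w : HeightOneSpectrum R) {g u s : F} {a r : R} {e : ℕ}
    (ha : a ∉ w.asIdeal) (hr : r ∉ w.asIdeal) (hg : g = u * s ^ e)
    (hu : u * algebraMap R F a = algebraMap R F r) :
    (e : ℤ) ∣ (Place.ofHeightOneSpectrum (K := k) (F := F) w).ord g := by
  rcases eq_or_ne g 0 with rfl | hg0
  · simp
  have hu0 : u ≠ 0 := fun h => hg0 (by rw [hg, h, zero_mul])
  have hse0 : s ^ e ≠ 0 := fun h => hg0 (by rw [hg, h, mul_zero])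
  have h1 : w.valuation F (algebraMap R F a) = 1 := by
    rw [valuation_of_algebraMap]
    exact (w.intValuation_eq_one_iff).2 ha
  have h2 : w.valuation F (algebraMap R F r) = 1 := by
    rw [valuation_of_algebraMap]
    exact (w.intValuation_eq_one_iff).2 hr
  have hvu : w.valuation F u = 1 := by
    have := congrArg (w.valuation F) hu
    rwa [map_mul, h1, h2, mul_one] at this
  have hou : (Place.ofHeightOneSpectrum (K := k) (F := F) w).ord u = 0 := by
    rw [ord_ofHeightOneSpectrum, hvu]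
    simp
  rw [hg, Place.ord_mul _ hu0 hse0, hou, zero_add, ← zpow_natCast, Place.ord_zpow]
  exact dvd_mul_right _ _

/-- Membership in the non-units of the place attached to `w`. -/
theorem mem_nonunits_ofHeightOneSpectrum_iff (w : HeightOneSpectrum R) (x : F) :
    x ∈ (Place.ofHeightOneSpectrum (K := k) (F := F) w).toValuationSubring.nonunits ↔
      w.valuation F x < 1 := by
  rw [ValuationSubring.mem_nonunits_iff_exists_mem_maximalIdeal]
  constructor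
  · rintro ⟨ha, hm⟩
    exact (mem_maximalIdeal_ofHeightOneSpectrum_iff (K := k) w ⟨x, ha⟩).1 hm
  · intro h
    exact ⟨(mem_ofHeightOneSpectrum_iff (K := k) w x).2 h.le,
      (mem_maximalIdeal_ofHeightOneSpectrum_iff (K := k) w ⟨x, _⟩).2 h⟩

theorem algebraMap_mem_nonunits_ofHeightOneSpectrum_iff (w : HeightOneSpectrum R) (x : R) :
    algebraMap R F x ∈ (Place.ofHeightOneSpectrum (K := k) (F := F) w).toValuationSubring.nonunits ↔
      x ∈ w.asIdeal := by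
  rw [mem_nonunits_ofHeightOneSpectrum_iff, valuation_of_algebraMap, intValuation_lt_one_iff_mem]

/-- **The local form at a maximal ideal from the order at the corresponding place**
(the zero ideal, maximal only when `R = F`, is allowed). -/
theorem exists_loc_of_isMaximal (𝔮 : Ideal R) (h𝔮 : 𝔮.IsMaximal) {g : F} (hg : g ≠ 0) {e : ℕ}
    (h : ∀ w : HeightOneSpectrum R, w.asIdeal = 𝔮 →
      (e : ℤ) ∣ (Place.ofHeightOneSpectrum (K := k) (F := F) w).ord g) :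
    ∃ (u s : F) (a r : R), a ∉ 𝔮 ∧ r ∉ 𝔮 ∧ g = u * s ^ e ∧
      u * algebraMap R F a = algebraMap R F r := by
  by_cases hbot : 𝔮 = ⊥
  · obtain ⟨x, y, hy, rfl⟩ := IsFractionRing.div_surjective (A := R) g
    have hy0 : y ≠ 0 := nonZeroDivisors.ne_zero hy
    have hyF : algebraMap R F y ≠ 0 := fun h0 =>
      hy0 ((IsFractionRing.injective R F) (by rw [h0, map_zero]))
    have hx0 : x ≠ 0 := by
      rintro rfl
      exact hg (by rw [map_zero, zero_div])
    refine ⟨algebraMap R F x / algebraMap R F y, 1, y, x, ?_, ?_, ?_, ?_⟩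
    · rw [hbot]; simpa using hy0
    · rw [hbot]; simpa using hx0
    · rw [one_pow, mul_one]
    · exact div_mul_cancel₀ _ hyF
  · exact exists_loc_of_dvd_ord (k := k) ⟨𝔮, h𝔮.isPrime, hbot⟩ hg (h ⟨𝔮, h𝔮.isPrime, hbot⟩ rfl)

/-- **`IsLocPthPowerOn` from divisibility of the orders** at all places containing `R`. -/
theorem isLocPthPowerOn_of_forall_place {g : F} (hg : g ≠ 0) (e : ℕ)
    (h : ∀ s : Place k F, (∀ r : R, algebraMap R F r ∈ s.toValuationSubring) →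
      (e : ℤ) ∣ s.ord g) : IsLocPthPowerOn F R e g := fun 𝔮 h𝔮 =>
  exists_loc_of_isMaximal (k := k) 𝔮 h𝔮 hg
    (fun w _ => h _ (algebraMap_mem_ofHeightOneSpectrum w))

/-- **Divisibility of the orders from `IsLocPthPowerOn`.** -/
theorem dvd_ord_of_isLocPthPowerOn {g : F} {e : ℕ} (h : IsLocPthPowerOn F R e g)
    (s : Place k F) (hs : ∀ r : R, algebraMap R F r ∈ s.toValuationSubring) :
    (e : ℤ) ∣ s.ord g := by
  obtain ⟨u, t, a, r, ha, hr, hg, hu⟩ := h (centerSpec s hs).asIdeal (centerSpec s hs).isMaximal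
  have := dvd_ord_of_loc (k := k) (centerSpec s hs) ha hr hg hu
  rwa [ofHeightOneSpectrum_centerSpec] at this

/-- A place containing `t` contains the integral closure of `k[t]`. -/
theorem coe_chartAlg_mem_place (s : Place k F) {t : F} (ht : t ∈ s.toValuationSubring)
    (x : ↥(Fermat.Agent.N4.Chart.chartAlg k F {t})) : (x : F) ∈ s.toValuationSubring :=
  mem_of_isIntegral_of_forall_mem s (fun a => adjoin_le_placeSubalgebra s ht a.2) x.2

/-- The centre of a place on `R`, in terms of non-units. -/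
theorem mem_center_iff_mem_nonunits (s : Place k F)
    (hR : ∀ r : R, algebraMap R F r ∈ s.toValuationSubring) (r : R) :
    r ∈ center s hR ↔ algebraMap R F r ∈ s.toValuationSubring.nonunits := by
  rw [mem_center_iff, ValuationSubring.mem_nonunits_iff_exists_mem_maximalIdeal]
  exact ⟨fun h => ⟨hR r, h⟩, fun ⟨_, h⟩ => h⟩

theorem mul_mem_nonunits_of_mem {V : ValuationSubring F} {a b : F} (ha : a ∈ V)
    (hb : b ∈ V.nonunits) : a * b ∈ V.nonunits := by
  rw [ValuationSubring.mem_nonunits_iff] at hb ⊢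
  rw [map_mul]
  calc V.valuation a * V.valuation b ≤ 1 * V.valuation b :=
        mul_le_mul_left ((V.valuation_le_one_iff a).2 ha) _
    _ = V.valuation b := one_mul _
    _ < 1 := hb

end Abstract

section Level

open ModularCurve Fermat.Agent.S28.Gauss Fermat.Agent.N4.Setting Fermat.Agent.N4.FibreEmbedding
open Fermat.Agent.N4.Chart
open Fermat.Agent.N4F.E.DegreeLevelRaise Fermat.Agent.N4F.E.GaussDVR
open Fermat.Agent.N4F.E IsLocalRing Fermat.Agent.P3G Fermat.Agent.P4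
open Fermat.Agent.P3G.RbarFin Fermat.Agent.P3G.RbarInf
open Fermat.Agent.P4.TwistRoots Fermat.Agent.N4F.C.ChartFibre Fermat.Agent.S40.W.F4Level
open Fermat.Agent.S40.W.F4Cusp

variable (K : Type) [Field K] [CharZero K] (N : ℕ) [NeZero N] (ℓ : ℕ) [Fact ℓ.Prime]
  (O : Subring K) [IsDiscreteValuationRing ↥O] [IsFractionRing ↥O K]
  [CharP (IsLocalRing.ResidueField ↥O) ℓ] [PerfectRing (IsLocalRing.ResidueField ↥O) ℓ]

set_option quotPrecheck false in
local notation "κ" => IsLocalRing.ResidueField ↥O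

set_option synthInstance.maxHeartbeats 400000

variable (hN : IsUnit ((N : ℕ) : ↥O)) (ι : K →+* ℂ) (hℓN : ¬ ℓ ∣ N)
  (hprime : (fibreIdeal K N O (Rfin K N O)).IsPrime)
  (hsmooth : IsDedekindDomain (↥(Rfin K N O) ⧸ fibreIdeal K N O (Rfin K N O)))
  (hprimeInf : (fibreIdeal K N O (Rinf K N O)).IsPrime)
  (hsmoothInf : IsDedekindDomain (↥(Rinf K N O) ⧸ fibreIdeal K N O (Rinf K N O)))
  (hA2 : ∀ x : ↥(gaussSubalgebra K N O),
    theta K N O x ∈ modularFunctionFieldFullC (IsLocalRing.ResidueField ↥O) N)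
  (S₂ : FibreTwo.SecondVal K N ℓ O)
  {ϖ : ↥O} (hϖ : Irreducible ϖ)

/-- **Supersingular places, finite chart**: the centre of the place `s` of `FF κ N` on the finite
chart of level `N ℓ` lies on the second component. -/
def IsSSFin (s : Place κ (FF κ N)) : Prop :=
  ∀ r : ↥(Rfin K (N * ℓ) O),
    algebraMap ↥(Rfin K (N * ℓ) O) (FF K (N * ℓ)) r ∈ S₂.V.nonunits →
      redFinL K N ℓ O ι hℓN hA2 S₂ r ∈ s.toValuationSubring.nonunits

/-- **Supersingular places, chart at infinity.** -/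
def IsSSInf (s : Place κ (FF κ N)) : Prop :=
  ∀ r : ↥(Rinf K (N * ℓ) O),
    algebraMap ↥(Rinf K (N * ℓ) O) (FF K (N * ℓ)) r ∈ S₂.V.nonunits →
      redInfL K N ℓ O ι hℓN hA2 S₂ r ∈ s.toValuationSubring.nonunits

theorem redG_ne_zero {f : FF K (N * ℓ)} (hf₁ : (gaussVS K (N * ℓ) O).valuation f = 1) :
    redG K N ℓ O ι hℓN hA2 S₂ ⟨f, mem_gauss_of_valuation_eq_one K N ℓ O hf₁⟩ ≠ 0 := by
  intro h
  have h1 := (redG_eq_zero_iff K N ℓ O ι hℓN hA2 S₂ _).1 h
  rw [ValuationSubring.mem_nonunits_iff] at h1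
  exact absurd hf₁ h1.ne

include hN ι hℓN hprime hsmooth hA2 hϖ in
/-- **(F4) ⇒ `IsLocPthPowerOn` on the finite chart of the special fibre**, given the divisibility at
the supersingular places. -/
theorem isLocPthPowerOn_fin
    {f : FF K (N * ℓ)} (hf0 : f ≠ 0) (hf₁ : (gaussVS K (N * ℓ) O).valuation f = 1) {e : ℕ}
    (hdiv : ∀ Q : Place K (FF K (N * ℓ)), (e : ℤ) ∣ Q.ord f)
    (S₀ : Finset (Place K (FF K (N * ℓ))))
    (hS₀ : ∀ Q : Place K (FF K (N * ℓ)), Q.ord f ≠ 0 → Q ∈ S₀)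
    (hrat : ∀ Q : Place K (FF K (N * ℓ)), Q.ord f ≠ 0 →
      Function.Bijective (algebraMap K Q.ResidueField))
    (hss : ∀ s : Place κ (FF κ N), jF κ N ∈ s.toValuationSubring →
      IsSSFin K N ℓ O ι hℓN hA2 S₂ s →
      (e : ℤ) ∣ s.ord (redG K N ℓ O ι hℓN hA2 S₂
        ⟨f, mem_gauss_of_valuation_eq_one K N ℓ O hf₁⟩)) :
    IsLocPthPowerOn (FF κ N) ↥(SigmaFin κ N) e
      (redG K N ℓ O ι hℓN hA2 S₂ ⟨f, mem_gauss_of_valuation_eq_one K N ℓ O hf₁⟩) := by
  haveI := isDedekindDomain_SigmaFin K N O hN hprime hsmooth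
  haveI := isFractionRing_SigmaFin K N O hN
  intro 𝔮 h𝔮
  haveI := h𝔮
  by_cases hns : ∃ r : ↥(Rfin K (N * ℓ) O),
      algebraMap ↥(Rfin K (N * ℓ) O) (FF K (N * ℓ)) r ∈ S₂.V.nonunits ∧
        redFinS K N ℓ O ι hℓN hA2 S₂ r ∉ 𝔮
  · exact f4_fin K N ℓ O hN ι hℓN hprime hsmooth hA2 S₂ hϖ 𝔮 hns hf0 hf₁ hdiv S₀ hS₀ hrat
  · push Not at hns
    refine exists_loc_of_isMaximal (k := κ) 𝔮 h𝔮 (redG_ne_zero K N ℓ O ι hℓN hA2 S₂ hf₁)
      (fun w hw => hss _ ?_ ?_)
    · exact algebraMap_mem_ofHeightOneSpectrum w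
        ⟨jF κ N, subset_chartAlg _ (Set.mem_singleton _)⟩
    · intro r hr
      have h1 := hns r hr
      rw [← hw] at h1
      exact (algebraMap_mem_nonunits_ofHeightOneSpectrum_iff (k := κ) w _).2 h1

include hN ι hℓN hprime hprimeInf hsmoothInf hA2 hϖ in
/-- **(F4) ⇒ `IsLocPthPowerOn` on the chart at infinity of the special fibre**, given the
divisibility at the supersingular places (in the vocabulary of the chart at infinity). -/
theorem isLocPthPowerOn_inf_of_ssInf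
    {f : FF K (N * ℓ)} (hf0 : f ≠ 0) (hf₁ : (gaussVS K (N * ℓ) O).valuation f = 1) {e : ℕ}
    (hdiv : ∀ Q : Place K (FF K (N * ℓ)), (e : ℤ) ∣ Q.ord f)
    (S₀ : Finset (Place K (FF K (N * ℓ))))
    (hS₀ : ∀ Q : Place K (FF K (N * ℓ)), Q.ord f ≠ 0 → Q ∈ S₀)
    (hrat : ∀ Q : Place K (FF K (N * ℓ)), Q.ord f ≠ 0 →
      Function.Bijective (algebraMap K Q.ResidueField))
    (hss : ∀ s : Place κ (FF κ N), (jF κ N)⁻¹ ∈ s.toValuationSubring →
      IsSSInf K N ℓ O ι hℓN hA2 S₂ s →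
      (e : ℤ) ∣ s.ord (redG K N ℓ O ι hℓN hA2 S₂
        ⟨f, mem_gauss_of_valuation_eq_one K N ℓ O hf₁⟩)) :
    IsLocPthPowerOn (FF κ N) ↥(SigmaInf κ N) e
      (redG K N ℓ O ι hℓN hA2 S₂ ⟨f, mem_gauss_of_valuation_eq_one K N ℓ O hf₁⟩) := by
  haveI := isDedekindDomain_SigmaInf K N O hN hprimeInf hsmoothInf
  haveI := isFractionRing_SigmaInf K N O hN
  intro 𝔮 h𝔮
  haveI := h𝔮
  by_cases hns : ∃ r : ↥(Rinf K (N * ℓ) O),
      algebraMap ↥(Rinf K (N * ℓ) O) (FF K (N * ℓ)) r ∈ S₂.V.nonunits ∧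
        redInfS K N ℓ O ι hℓN hA2 S₂ r ∉ 𝔮
  · exact f4_inf K N ℓ O hN ι hℓN hprime hprimeInf hsmoothInf hA2 S₂ hϖ 𝔮 hns hf0 hf₁ hdiv S₀ hS₀
      hrat
  · push Not at hns
    refine exists_loc_of_isMaximal (k := κ) 𝔮 h𝔮 (redG_ne_zero K N ℓ O ι hℓN hA2 S₂ hf₁)
      (fun w hw => hss _ ?_ ?_)
    · exact algebraMap_mem_ofHeightOneSpectrum w
        ⟨(jF κ N)⁻¹, subset_chartAlg _ (Set.mem_singleton _)⟩
    · intro r hr
      have h1 := hns r hr
      rw [← hw] at h1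
      exact (algebraMap_mem_nonunits_ofHeightOneSpectrum_iff (k := κ) w _).2 h1

include hN ι hℓN hprime hprimeInf hsmoothInf hA2 hϖ in
/-- A supersingular place (chart at infinity) is not a cusp. -/
theorem jF_mem_of_isSSInf (s : Place κ (FF κ N)) (hjs : (jF κ N)⁻¹ ∈ s.toValuationSubring)
    (hss : IsSSInf K N ℓ O ι hℓN hA2 S₂ s) : jF κ N ∈ s.toValuationSubring := by
  haveI := isDedekindDomain_SigmaInf K N O hN hprimeInf hsmoothInf
  haveI := isFractionRing_SigmaInf K N O hN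
  by_contra hj
  have hnu : (jF κ N)⁻¹ ∈ s.toValuationSubring.nonunits := by
    rw [ValuationSubring.mem_nonunits_iff, map_inv₀]
    have h1 : ¬ s.toValuationSubring.valuation (jF κ N) ≤ 1 := fun h =>
      hj ((s.toValuationSubring.valuation_le_one_iff _).1 h)
    exact inv_lt_one_of_one_lt₀ (not_le.1 h1)
  have hs : ∀ x : ↥(SigmaInf κ N), algebraMap ↥(SigmaInf κ N) (FF κ N) x ∈ s.toValuationSubring :=
    fun x => coe_chartAlg_mem_place s hjs x
  have hj𝔮 : redInfS K N ℓ O ι hℓN hA2 S₂ (jInvInf K (N * ℓ) O) ∈ center s hs := by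
    rw [mem_center_iff_mem_nonunits]
    have : algebraMap ↥(SigmaInf κ N) (FF κ N)
        (redInfS K N ℓ O ι hℓN hA2 S₂ (jInvInf K (N * ℓ) O)) = (jF κ N)⁻¹ :=
      coe_redInfS_jInvInf K N ℓ O ι hℓN hA2 S₂
    rw [this]
    exact hnu
  obtain ⟨r, hr, hrq⟩ := hns_of_cusp K N ℓ O hN ι hℓN hprime hprimeInf hsmoothInf hA2 S₂ hϖ
    (center s hs) hj𝔮
  exact hrq ((mem_center_iff_mem_nonunits s hs _).2 (hss r hr))

include hN ι hℓN hprime hprimeInf hsmoothInf hA2 hϖ in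
/-- **The two notions of supersingular place agree**: a place supersingular on the chart at infinity
lies in the finite chart and is supersingular there. -/
theorem isSSFin_of_isSSInf (s : Place κ (FF κ N)) (hjs : (jF κ N)⁻¹ ∈ s.toValuationSubring)
    (hss : IsSSInf K N ℓ O ι hℓN hA2 S₂ s) : IsSSFin K N ℓ O ι hℓN hA2 S₂ s := by
  have hj := jF_mem_of_isSSInf K N ℓ O hN ι hℓN hprime hprimeInf hsmoothInf hA2 S₂ hϖ s hjs hss
  have hS := BranchNormalLevelInf.setup_inf K N ℓ O hN ι hℓN hprime hprimeInf hsmoothInf hA2 S₂ hϖ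
  intro r hr
  obtain ⟨n, hn⟩ := Fermat.Agent.N4F.C.ChartDataLevel.exists_pow_mul_mem_Rinf K (N * ℓ) O r
  have hx := hn n le_rfl
  have hxV : algebraMap ↥(Rinf K (N * ℓ) O) (FF K (N * ℓ))
      ⟨(jF K (N * ℓ))⁻¹ ^ n * (r : FF K (N * ℓ)), hx⟩ ∈ S₂.V.nonunits := by
    show (jF K (N * ℓ))⁻¹ ^ n * (r : FF K (N * ℓ)) ∈ S₂.V.nonunits
    exact mul_mem_nonunits_of_mem (pow_mem (hS.mem₂ (jInvInf K (N * ℓ) O)) n) hr
  have h1 := hss _ hxV
  have hjinv : redInfL K N ℓ O ι hℓN hA2 S₂ (jInvInf K (N * ℓ) O) = (jF κ N)⁻¹ :=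
    coe_redInfS_jInvInf K N ℓ O ι hℓN hA2 S₂
  have h2 : redInfL K N ℓ O ι hℓN hA2 S₂ ⟨(jF K (N * ℓ))⁻¹ ^ n * (r : FF K (N * ℓ)), hx⟩ =
      (jF κ N)⁻¹ ^ n * redFinL K N ℓ O ι hℓN hA2 S₂ r := by
    rw [← hjinv]
    unfold redInfL redFinL
    rw [RingHom.comp_apply, RingHom.comp_apply, RingHom.comp_apply, ← map_pow, ← map_mul]
    exact congrArg _ (Subtype.ext rfl)
  have hj0 : jF κ N ≠ 0 := jF_ne_zero κ N
  have h3 : redFinL K N ℓ O ι hℓN hA2 S₂ r = (jF κ N) ^ n *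
      redInfL K N ℓ O ι hℓN hA2 S₂ ⟨(jF K (N * ℓ))⁻¹ ^ n * (r : FF K (N * ℓ)), hx⟩ := by
    rw [h2, ← mul_assoc, ← mul_pow, mul_inv_cancel₀ hj0, one_pow, one_mul]
  rw [h3]
  exact mul_mem_nonunits_of_mem (pow_mem hj n) h1

include hN ι hℓN hprime hprimeInf hsmoothInf hA2 hϖ in
/-- **(F4) ⇒ `IsLocPthPowerOn` on the chart at infinity of the special fibre**, with the same
hypothesis at the supersingular places as on the finite chart. -/
theorem isLocPthPowerOn_inf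
    {f : FF K (N * ℓ)} (hf0 : f ≠ 0) (hf₁ : (gaussVS K (N * ℓ) O).valuation f = 1) {e : ℕ}
    (hdiv : ∀ Q : Place K (FF K (N * ℓ)), (e : ℤ) ∣ Q.ord f)
    (S₀ : Finset (Place K (FF K (N * ℓ))))
    (hS₀ : ∀ Q : Place K (FF K (N * ℓ)), Q.ord f ≠ 0 → Q ∈ S₀)
    (hrat : ∀ Q : Place K (FF K (N * ℓ)), Q.ord f ≠ 0 →
      Function.Bijective (algebraMap K Q.ResidueField))
    (hss : ∀ s : Place κ (FF κ N), jF κ N ∈ s.toValuationSubring →
      IsSSFin K N ℓ O ι hℓN hA2 S₂ s →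
      (e : ℤ) ∣ s.ord (redG K N ℓ O ι hℓN hA2 S₂
        ⟨f, mem_gauss_of_valuation_eq_one K N ℓ O hf₁⟩)) :
    IsLocPthPowerOn (FF κ N) ↥(SigmaInf κ N) e
      (redG K N ℓ O ι hℓN hA2 S₂ ⟨f, mem_gauss_of_valuation_eq_one K N ℓ O hf₁⟩) :=
  isLocPthPowerOn_inf_of_ssInf K N ℓ O hN ι hℓN hprime hprimeInf hsmoothInf hA2 S₂ hϖ hf0 hf₁ hdiv
    S₀ hS₀ hrat (fun s hjs hssI => hss s
      (jF_mem_of_isSSInf K N ℓ O hN ι hℓN hprime hprimeInf hsmoothInf hA2 S₂ hϖ s hjs hssI)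
      (isSSFin_of_isSSInf K N ℓ O hN ι hℓN hprime hprimeInf hsmoothInf hA2 S₂ hϖ s hjs hssI))

/-! ### The place form of (F4) -/

include hN ι hℓN hprime hsmooth hA2 hϖ in
/-- **(F4), place form, finite chart**: `e ∣ ord_s (redG f)` at every place `s` of the finite chart
of the special fibre which is not supersingular. -/
theorem dvd_ord_fin
    {f : FF K (N * ℓ)} (hf0 : f ≠ 0) (hf₁ : (gaussVS K (N * ℓ) O).valuation f = 1) {e : ℕ}
    (hdiv : ∀ Q : Place K (FF K (N * ℓ)), (e : ℤ) ∣ Q.ord f)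
    (S₀ : Finset (Place K (FF K (N * ℓ))))
    (hS₀ : ∀ Q : Place K (FF K (N * ℓ)), Q.ord f ≠ 0 → Q ∈ S₀)
    (hrat : ∀ Q : Place K (FF K (N * ℓ)), Q.ord f ≠ 0 →
      Function.Bijective (algebraMap K Q.ResidueField))
    (s : Place κ (FF κ N)) (hj : jF κ N ∈ s.toValuationSubring)
    (hns : ¬ IsSSFin K N ℓ O ι hℓN hA2 S₂ s) :
    (e : ℤ) ∣ s.ord (redG K N ℓ O ι hℓN hA2 S₂
      ⟨f, mem_gauss_of_valuation_eq_one K N ℓ O hf₁⟩) := by
  haveI := isDedekindDomain_SigmaFin K N O hN hprime hsmooth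
  haveI := isFractionRing_SigmaFin K N O hN
  have hs : ∀ x : ↥(SigmaFin κ N), algebraMap ↥(SigmaFin κ N) (FF κ N) x ∈ s.toValuationSubring :=
    fun x => coe_chartAlg_mem_place s hj x
  unfold IsSSFin at hns
  push Not at hns
  obtain ⟨r, hr, hrs⟩ := hns
  haveI : (centerSpec s hs).asIdeal.IsMaximal := (centerSpec s hs).isMaximal
  have hns' : ∃ r : ↥(Rfin K (N * ℓ) O),
      algebraMap ↥(Rfin K (N * ℓ) O) (FF K (N * ℓ)) r ∈ S₂.V.nonunits ∧
        redFinS K N ℓ O ι hℓN hA2 S₂ r ∉ (centerSpec s hs).asIdeal :=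
    ⟨r, hr, fun h => hrs ((mem_center_iff_mem_nonunits s hs _).1 h)⟩
  obtain ⟨u, t, a, b, ha, hb, h1, h2⟩ := f4_fin K N ℓ O hN ι hℓN hprime hsmooth hA2 S₂ hϖ
    (centerSpec s hs).asIdeal hns' hf0 hf₁ hdiv S₀ hS₀ hrat
  have := dvd_ord_of_loc (k := κ) (centerSpec s hs) ha hb h1 h2
  rwa [ofHeightOneSpectrum_centerSpec] at this

include hN ι hℓN hprime hprimeInf hsmoothInf hA2 hϖ in
/-- **(F4), place form, chart at infinity** (cusps included). -/
theorem dvd_ord_inf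
    {f : FF K (N * ℓ)} (hf0 : f ≠ 0) (hf₁ : (gaussVS K (N * ℓ) O).valuation f = 1) {e : ℕ}
    (hdiv : ∀ Q : Place K (FF K (N * ℓ)), (e : ℤ) ∣ Q.ord f)
    (S₀ : Finset (Place K (FF K (N * ℓ))))
    (hS₀ : ∀ Q : Place K (FF K (N * ℓ)), Q.ord f ≠ 0 → Q ∈ S₀)
    (hrat : ∀ Q : Place K (FF K (N * ℓ)), Q.ord f ≠ 0 →
      Function.Bijective (algebraMap K Q.ResidueField))
    (s : Place κ (FF κ N)) (hj : (jF κ N)⁻¹ ∈ s.toValuationSubring)
    (hns : ¬ IsSSInf K N ℓ O ι hℓN hA2 S₂ s) :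
    (e : ℤ) ∣ s.ord (redG K N ℓ O ι hℓN hA2 S₂
      ⟨f, mem_gauss_of_valuation_eq_one K N ℓ O hf₁⟩) := by
  haveI := isDedekindDomain_SigmaInf K N O hN hprimeInf hsmoothInf
  haveI := isFractionRing_SigmaInf K N O hN
  have hs : ∀ x : ↥(SigmaInf κ N), algebraMap ↥(SigmaInf κ N) (FF κ N) x ∈ s.toValuationSubring :=
    fun x => coe_chartAlg_mem_place s hj x
  unfold IsSSInf at hns
  push Not at hns
  obtain ⟨r, hr, hrs⟩ := hns
  haveI : (centerSpec s hs).asIdeal.IsMaximal := (centerSpec s hs).isMaximal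
  have hns' : ∃ r : ↥(Rinf K (N * ℓ) O),
      algebraMap ↥(Rinf K (N * ℓ) O) (FF K (N * ℓ)) r ∈ S₂.V.nonunits ∧
        redInfS K N ℓ O ι hℓN hA2 S₂ r ∉ (centerSpec s hs).asIdeal :=
    ⟨r, hr, fun h => hrs ((mem_center_iff_mem_nonunits s hs _).1 h)⟩
  obtain ⟨u, t, a, b, ha, hb, h1, h2⟩ := f4_inf K N ℓ O hN ι hℓN hprime hprimeInf hsmoothInf hA2
    S₂ hϖ (centerSpec s hs).asIdeal hns' hf0 hf₁ hdiv S₀ hS₀ hrat
  have := dvd_ord_of_loc (k := κ) (centerSpec s hs) ha hb h1 h2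
  rwa [ofHeightOneSpectrum_centerSpec] at this

include hN ι hℓN hprime hsmooth hprimeInf hsmoothInf hA2 hϖ in
/-- **(F4), place form**: `e ∣ ord_s (redG f)` at every place `s` of `FF κ N` which is not a
supersingular place of the finite chart. -/
theorem f4_place
    {f : FF K (N * ℓ)} (hf0 : f ≠ 0) (hf₁ : (gaussVS K (N * ℓ) O).valuation f = 1) {e : ℕ}
    (hdiv : ∀ Q : Place K (FF K (N * ℓ)), (e : ℤ) ∣ Q.ord f)
    (S₀ : Finset (Place K (FF K (N * ℓ))))
    (hS₀ : ∀ Q : Place K (FF K (N * ℓ)), Q.ord f ≠ 0 → Q ∈ S₀)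
    (hrat : ∀ Q : Place K (FF K (N * ℓ)), Q.ord f ≠ 0 →
      Function.Bijective (algebraMap K Q.ResidueField))
    (s : Place κ (FF κ N))
    (hns : ¬ (jF κ N ∈ s.toValuationSubring ∧ IsSSFin K N ℓ O ι hℓN hA2 S₂ s)) :
    (e : ℤ) ∣ s.ord (redG K N ℓ O ι hℓN hA2 S₂
      ⟨f, mem_gauss_of_valuation_eq_one K N ℓ O hf₁⟩) := by
  by_cases hj : jF κ N ∈ s.toValuationSubring
  · exact dvd_ord_fin K N ℓ O hN ι hℓN hprime hsmooth hA2 S₂ hϖ hf0 hf₁ hdiv S₀ hS₀ hrat s hj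
      (fun h => hns ⟨hj, h⟩)
  · have hj' : (jF κ N)⁻¹ ∈ s.toValuationSubring :=
      (s.toValuationSubring.mem_or_inv_mem (jF κ N)).resolve_left hj
    exact dvd_ord_inf K N ℓ O hN ι hℓN hprime hprimeInf hsmoothInf hA2 S₂ hϖ hf0 hf₁ hdiv S₀ hS₀
      hrat s hj' (fun h => hj
        (jF_mem_of_isSSInf K N ℓ O hN ι hℓN hprime hprimeInf hsmoothInf hA2 S₂ hϖ s hj' h))

/-! ### In the vocabulary of `S40/W/Lambda` -/

/-- For a unit `f` of the Gauss valuation, the angular component `f̄_∞` is the Gauss reduction. -/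
theorem acInfF_eq_redG {f : FF K (N * ℓ)} (hf₁ : (gaussVS K (N * ℓ) O).valuation f = 1) :
    Lambda.acInfF K N ℓ O (SecondValBridge.ofTwo S₂) ι hℓN hA2 hϖ f =
      redG K N ℓ O ι hℓN hA2 S₂ ⟨f, mem_gauss_of_valuation_eq_one K N ℓ O hf₁⟩ := by
  apply Subtype.ext
  rw [Lambda.coe_acInfF, coe_redG]
  exact Lambda.acG_of_theta_ne_zero K (N * ℓ) O hϖ (mem_gauss_of_valuation_eq_one K N ℓ O hf₁)
    (fun h => redG_ne_zero K N ℓ O ι hℓN hA2 S₂ hf₁ (Subtype.ext h))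

theorem mInf_eq_zero_iff (s : Place κ (FF κ N)) (f : FF K (N * ℓ)) :
    Lambda.mInf K N ℓ O (SecondValBridge.ofTwo S₂) ι hℓN hA2 hϖ s f = 0 ↔
      (ℓ : ℤ) ∣ s.ord (Lambda.acInfF K N ℓ O (SecondValBridge.ofTwo S₂) ι hℓN hA2 hϖ f) := by
  unfold Lambda.mInf
  exact ZMod.intCast_zmod_eq_zero_iff_dvd _ _

include hN ι hℓN hprime hsmooth hprimeInf hsmoothInf hA2 hϖ in
/-- **Both hypotheses of `DlogChart.dlog_mem_holoSpace_of_charts` for `ḡ = f̄_∞`**, `f` a unit of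
the Gauss valuation of level `N ℓ` with `ℓ ∣ div f` and rational support, from the vanishing of
`m^∞_s(f)` at the supersingular places. -/
theorem isLocPthPowerOn_acInfF
    {f : FF K (N * ℓ)} (hf0 : f ≠ 0) (hf₁ : (gaussVS K (N * ℓ) O).valuation f = 1)
    (hdiv : ∀ Q : Place K (FF K (N * ℓ)), (ℓ : ℤ) ∣ Q.ord f)
    (S₀ : Finset (Place K (FF K (N * ℓ))))
    (hS₀ : ∀ Q : Place K (FF K (N * ℓ)), Q.ord f ≠ 0 → Q ∈ S₀)
    (hrat : ∀ Q : Place K (FF K (N * ℓ)), Q.ord f ≠ 0 →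
      Function.Bijective (algebraMap K Q.ResidueField))
    (hss : ∀ s : Place κ (FF κ N), jF κ N ∈ s.toValuationSubring →
      IsSSFin K N ℓ O ι hℓN hA2 S₂ s →
      Lambda.mInf K N ℓ O (SecondValBridge.ofTwo S₂) ι hℓN hA2 hϖ s f = 0) :
    IsLocPthPowerOn (FF κ N) ↥(SigmaFin κ N) ℓ
        (Lambda.acInfF K N ℓ O (SecondValBridge.ofTwo S₂) ι hℓN hA2 hϖ f) ∧
      IsLocPthPowerOn (FF κ N) ↥(SigmaInf κ N) ℓ
        (Lambda.acInfF K N ℓ O (SecondValBridge.ofTwo S₂) ι hℓN hA2 hϖ f) := by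
  have hss' : ∀ s : Place κ (FF κ N), jF κ N ∈ s.toValuationSubring →
      IsSSFin K N ℓ O ι hℓN hA2 S₂ s →
      (ℓ : ℤ) ∣ s.ord (redG K N ℓ O ι hℓN hA2 S₂
        ⟨f, mem_gauss_of_valuation_eq_one K N ℓ O hf₁⟩) := by
    intro s hj hs
    have := (mInf_eq_zero_iff K N ℓ O ι hℓN hA2 S₂ hϖ s f).1 (hss s hj hs)
    rwa [acInfF_eq_redG K N ℓ O ι hℓN hA2 S₂ hϖ hf₁] at this
  rw [acInfF_eq_redG K N ℓ O ι hℓN hA2 S₂ hϖ hf₁]
  exact ⟨isLocPthPowerOn_fin K N ℓ O hN ι hℓN hprime hsmooth hA2 S₂ hϖ hf0 hf₁ hdiv S₀ hS₀ hrat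
      hss',
    isLocPthPowerOn_inf K N ℓ O hN ι hℓN hprime hprimeInf hsmoothInf hA2 S₂ hϖ hf0 hf₁ hdiv S₀ hS₀
      hrat hss'⟩

end Level




end Fermat.Agent.S40.W.F4Place
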