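/-
S40/S44 (row 38), (W3) leaf **W-F4** (helper26): uniformisers at the places of the special fibre, and
the output of `F4Place` at a `P3G` good level `(M p hpM A hA K hK S₂ ϖ)`.

* `exists_uniformizer_fin`, `exists_uniformizer_inf` : level `(K, O)`: a place `s` of `FF κ N` in the
  finite chart (chart at infinity) has a uniformiser in `SigmaFin κ N` (`SigmaInf κ N`);
* `levelFacts_good` : the hypotheses `hN hprime hsmooth hprimeInf hsmoothInf hA2` of the level binder
  block of `F4Level`/`F4Place` at a good level (the preamble of `S33/L/PointsUniform`);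
* `charP_good` : the residue field of a good level has characteristic `p`;
* `isLocPthPowerOn_acInfF_good`, `f4_place_good` : `F4Place.isLocPthPowerOn_acInfF`, `F4Place.f4_place`
  at a good level.
-/
import Mathlib
import Fermat.Agent.S40.W.F4Place
import Fermat.Agent.S33.L.KOutSmoothGood

set_option autoImplicit false
set_option linter.unusedSectionVars false
set_option linter.style.haveILetI false

open AlgebraicCurve IsDedekindDomain IsDedekindDomain.HeightOneSpectrum
open Fermat.Agent.S24 Fermat.Agent.S40.W.DlogHolo Fermat.Agent.S40.W.F4Place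

noncomputable section

namespace Fermat.Agent.S40.W.F4Good

section Level

open ModularCurve Fermat.Agent.S28.Gauss Fermat.Agent.N4.Setting Fermat.Agent.N4.FibreEmbedding
open Fermat.Agent.N4.Chart
open Fermat.Agent.N4F.E.DegreeLevelRaise Fermat.Agent.N4F.E.GaussDVR
open Fermat.Agent.N4F.E IsLocalRing Fermat.Agent.N4F.C.ChartFibre

variable (K : Type) [Field K] [CharZero K] (N : ℕ) [NeZero N]
  (O : Subring K) [IsDiscreteValuationRing ↥O] [IsFractionRing ↥O K]

set_option quotPrecheck false in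
local notation "κ" => IsLocalRing.ResidueField ↥O

variable (hN : IsUnit ((N : ℕ) : ↥O))
  (hprime : (fibreIdeal K N O (Rfin K N O)).IsPrime)
  (hsmooth : IsDedekindDomain (↥(Rfin K N O) ⧸ fibreIdeal K N O (Rfin K N O)))
  (hprimeInf : (fibreIdeal K N O (Rinf K N O)).IsPrime)
  (hsmoothInf : IsDedekindDomain (↥(Rinf K N O) ⧸ fibreIdeal K N O (Rinf K N O)))

/-- Generic: a place containing a Dedekind order `R` has a uniformiser in `R`. -/
theorem exists_uniformizer_of_forall_mem {k F R : Type*} [Field k] [Field F] [Algebra k F]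
    [CommRing R] [IsDedekindDomain R] [Algebra R F] [IsFractionRing R F] [Algebra k R]
    [IsScalarTower k R F] (s : Place k F)
    (hs : ∀ r : R, algebraMap R F r ∈ s.toValuationSubring) :
    ∃ t : R, s.ord (algebraMap R F t) = 1 := by
  obtain ⟨π, hπ⟩ := (centerSpec s hs).intValuation_exists_uniformizer
  refine ⟨π, ?_⟩
  have h := ord_ofHeightOneSpectrum (K := k) (F := F) (centerSpec s hs) (algebraMap R F π)
  rw [ofHeightOneSpectrum_centerSpec, valuation_of_algebraMap, hπ, WithZero.log_exp] at h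
  rw [h]
  norm_num

include hN hprime hsmooth in
/-- A place of the finite chart of the special fibre has a uniformiser in `SigmaFin κ N`. -/
theorem exists_uniformizer_fin (s : Place κ (FF κ N)) (hj : jF κ N ∈ s.toValuationSubring) :
    ∃ t : FF κ N, t ∈ SigmaFin κ N ∧ s.ord t = 1 := by
  haveI := isDedekindDomain_SigmaFin K N O hN hprime hsmooth
  haveI := isFractionRing_SigmaFin K N O hN
  obtain ⟨t, ht⟩ := exists_uniformizer_of_forall_mem (k := κ) (R := ↥(SigmaFin κ N)) s
    (fun x => coe_chartAlg_mem_place s hj x)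
  exact ⟨t, t.2, ht⟩

include hN hprimeInf hsmoothInf in
/-- A place of the chart at infinity of the special fibre has a uniformiser in `SigmaInf κ N`. -/
theorem exists_uniformizer_inf (s : Place κ (FF κ N)) (hj : (jF κ N)⁻¹ ∈ s.toValuationSubring) :
    ∃ t : FF κ N, t ∈ SigmaInf κ N ∧ s.ord t = 1 := by
  haveI := isDedekindDomain_SigmaInf K N O hN hprimeInf hsmoothInf
  haveI := isFractionRing_SigmaInf K N O hN
  obtain ⟨t, ht⟩ := exists_uniformizer_of_forall_mem (k := κ) (R := ↥(SigmaInf κ N)) s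
    (fun x => coe_chartAlg_mem_place s hj x)
  exact ⟨t, t.2, ht⟩

end Level

/-! ### At a good level -/

section Good

open ModularCurve Fermat.Agent.S28.Gauss
open Fermat.Agent.N4.Setting Fermat.Agent.N4.Chart Fermat.Agent.N4.S18Glue Fermat.Agent.N4.BigDVR
  Fermat.Agent.N4.FibreEmbedding
  Fermat.Agent.P3G.Assembly.StepOfLevel Fermat.Agent.P3G.Assembly.LevelStep
  Fermat.Agent.N4F.C Fermat.Agent.N4F.C.Levels Fermat.Agent.N4F.C.Galois
  Fermat.Agent.N4F.E.GaussDVR Fermat.Agent.S33.L.Contracts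
  Fermat.Agent.N4F.C.ChartFibre Fermat.Agent.S40.W.F4Level Fermat.Agent.P3G

local notation "Qbar" => AlgebraicClosure ℚ

/-- The residue field of a good level has characteristic `p`. -/
theorem charP_good (M p : ℕ) [NeZero M] [Fact p.Prime] (hpM : ¬ p ∣ M)
    (A : ValuationSubring Qbar)
    (K : IntermediateField ℚ Qbar) (hK : IsGoodLevel A p K)
    [IsDiscreteValuationRing ↥(baseRing A K)] :
    CharP (IsLocalRing.ResidueField ↥(baseRing A K)) p := by
  have hq : p.Prime := Fact.out
  haveI : IsAlgClosed (IsLocalRing.ResidueField ↥(baseRing A K)) := hK.algClosed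
  have hGB : GoodBase (Lvl K) M (baseRing A K) p := ⟨hq, hpM, inferInstance, hK.not_unit⟩
  exact Fermat.Agent.N4F.E.GaussResidue.charP_residueField (Lvl K) M (baseRing A K) hGB

set_option maxHeartbeats 1600000 in
set_option synthInstance.maxHeartbeats 400000 in
/-- **The level hypotheses of `F4Level`/`F4Place` at a good level.** -/
theorem levelFacts_good (M p : ℕ) [NeZero M] [Fact p.Prime] (hpM : ¬ p ∣ M)
    (A : ValuationSubring Qbar) (hA : A.LiesOverPrime p)
    (K : IntermediateField ℚ Qbar) (hK : IsGoodLevel A p K)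
    [IsDiscreteValuationRing ↥(baseRing A K)] :
    IsUnit ((M : ℕ) : ↥(baseRing A K)) ∧
    (fibreIdeal (Lvl K) M (baseRing A K) (Rfin (Lvl K) M (baseRing A K))).IsPrime ∧
    IsDedekindDomain (↥(Rfin (Lvl K) M (baseRing A K)) ⧸
      fibreIdeal (Lvl K) M (baseRing A K) (Rfin (Lvl K) M (baseRing A K))) ∧
    (fibreIdeal (Lvl K) M (baseRing A K) (Rinf (Lvl K) M (baseRing A K))).IsPrime ∧
    IsDedekindDomain (↥(Rinf (Lvl K) M (baseRing A K)) ⧸
      fibreIdeal (Lvl K) M (baseRing A K) (Rinf (Lvl K) M (baseRing A K))) ∧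
    ∀ x : ↥(gaussSubalgebra (Lvl K) M (baseRing A K)),
      theta (Lvl K) M (baseRing A K) x ∈
        modularFunctionFieldFullC (IsLocalRing.ResidueField ↥(baseRing A K)) M := by
  have hq : p.Prime := Fact.out
  haveI : IsAlgClosed (IsLocalRing.ResidueField ↥(baseRing A K)) := hK.algClosed
  have hGB : GoodBase (Lvl K) M (baseRing A K) p := ⟨hq, hpM, inferInstance, hK.not_unit⟩
  have hstar := LevelStatements.starStatement_lvl hq hA K hGB hK.roots
  have hsmooth := LevelStatements.smoothStatement_lvl hq hA hpM K hGB hK.roots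
  have hred : PGI.RedMem (Lvl K) M (baseRing A K) := fun s hs =>
    ChartReduction.red_mem_full (Lvl K) M (baseRing A K) hGB hstar s hs
  exact ⟨Fermat.Agent.P3G.GammaUnits.isUnit_natCast_baseRing K hq hA hpM, hstar.1.isPrime,
    hsmooth.1, hstar.2.isPrime, hsmooth.2,
    Fermat.Agent.N4F.E.NormReduction.theta_mem_full (Lvl K) M (baseRing A K) hred⟩

set_option maxHeartbeats 1600000 in
set_option synthInstance.maxHeartbeats 400000 in
/-- **Both hypotheses of `DlogChart.dlog_mem_holoSpace_of_charts` / `MainCharts` for `ḡ = f̄_∞` at a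
good level**, from `m^∞_s(f) = 0` at the supersingular places. -/
theorem isLocPthPowerOn_acInfF_good (M p : ℕ) [NeZero M] [Fact p.Prime] (hpM : ¬ p ∣ M)
    (A : ValuationSubring Qbar) (hA : A.LiesOverPrime p)
    (K : IntermediateField ℚ Qbar) (hK : IsGoodLevel A p K)
    [IsDiscreteValuationRing ↥(baseRing A K)]
    [CharP (IsLocalRing.ResidueField ↥(baseRing A K)) p]
    [PerfectRing (IsLocalRing.ResidueField ↥(baseRing A K)) p]
    (hA2 : ∀ x : ↥(gaussSubalgebra (Lvl K) M (baseRing A K)),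
      theta (Lvl K) M (baseRing A K) x ∈
        modularFunctionFieldFullC (IsLocalRing.ResidueField ↥(baseRing A K)) M)
    (S₂ : Fermat.Agent.P3G.FibreTwo.SecondVal (Lvl K) M p (baseRing A K))
    (ϖ : ↥(baseRing A K)) (hϖ : Irreducible ϖ)
    {f : FF (Lvl K) (M * p)} (hf0 : f ≠ 0)
    (hf₁ : (gaussVS (Lvl K) (M * p) (baseRing A K)).valuation f = 1)
    (hdiv : ∀ Q : Place (Lvl K) (FF (Lvl K) (M * p)), (p : ℤ) ∣ Q.ord f)
    (hrat : ∀ Q : Place (Lvl K) (FF (Lvl K) (M * p)), Q.ord f ≠ 0 →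
      Function.Bijective (algebraMap (Lvl K) Q.ResidueField))
    (hss : ∀ s : Place (IsLocalRing.ResidueField ↥(baseRing A K))
        (FF (IsLocalRing.ResidueField ↥(baseRing A K)) M),
      jF (IsLocalRing.ResidueField ↥(baseRing A K)) M ∈ s.toValuationSubring →
      IsSSFin (Lvl K) M p (baseRing A K) (Fermat.Agent.P3G.GammaV2.lvlToComplex K) hpM hA2 S₂ s →
      Lambda.mInf (Lvl K) M p (baseRing A K) (SecondValBridge.ofTwo S₂)
        (Fermat.Agent.P3G.GammaV2.lvlToComplex K) hpM hA2 hϖ s f = 0) :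
    IsLocPthPowerOn (FF (IsLocalRing.ResidueField ↥(baseRing A K)) M)
        ↥(SigmaFin (IsLocalRing.ResidueField ↥(baseRing A K)) M) p
        (Lambda.acInfF (Lvl K) M p (baseRing A K) (SecondValBridge.ofTwo S₂)
          (Fermat.Agent.P3G.GammaV2.lvlToComplex K) hpM hA2 hϖ f) ∧
      IsLocPthPowerOn (FF (IsLocalRing.ResidueField ↥(baseRing A K)) M)
        ↥(SigmaInf (IsLocalRing.ResidueField ↥(baseRing A K)) M) p
        (Lambda.acInfF (Lvl K) M p (baseRing A K) (SecondValBridge.ofTwo S₂)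
          (Fermat.Agent.P3G.GammaV2.lvlToComplex K) hpM hA2 hϖ f) := by
  obtain ⟨hN, hprime, hsm, hprimeInf, hsmInf, -⟩ := levelFacts_good M p hpM A hA K hK
  obtain ⟨S₀, hS₀⟩ := Fermat.Agent.P3G.Glue.LevelDict.exists_finset_ord_ne_zero (M * p) K f hf0
  exact isLocPthPowerOn_acInfF (Lvl K) M p (baseRing A K) hN
    (Fermat.Agent.P3G.GammaV2.lvlToComplex K) hpM hprime hsm hprimeInf hsmInf hA2 S₂ hϖ hf0 hf₁
    hdiv S₀ hS₀ hrat hss

set_option maxHeartbeats 1600000 in
set_option synthInstance.maxHeartbeats 400000 in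
/-- **(F4) in place form at a good level**: `e ∣ ord_s (redG f)` at every place of `FF κ M` which is
not a supersingular place of the finite chart. -/
theorem f4_place_good (M p : ℕ) [NeZero M] [Fact p.Prime] (hpM : ¬ p ∣ M)
    (A : ValuationSubring Qbar) (hA : A.LiesOverPrime p)
    (K : IntermediateField ℚ Qbar) (hK : IsGoodLevel A p K)
    [IsDiscreteValuationRing ↥(baseRing A K)]
    [CharP (IsLocalRing.ResidueField ↥(baseRing A K)) p]
    [PerfectRing (IsLocalRing.ResidueField ↥(baseRing A K)) p]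
    (hA2 : ∀ x : ↥(gaussSubalgebra (Lvl K) M (baseRing A K)),
      theta (Lvl K) M (baseRing A K) x ∈
        modularFunctionFieldFullC (IsLocalRing.ResidueField ↥(baseRing A K)) M)
    (S₂ : Fermat.Agent.P3G.FibreTwo.SecondVal (Lvl K) M p (baseRing A K))
    (ϖ : ↥(baseRing A K)) (hϖ : Irreducible ϖ)
    {f : FF (Lvl K) (M * p)} (hf0 : f ≠ 0)
    (hf₁ : (gaussVS (Lvl K) (M * p) (baseRing A K)).valuation f = 1) {e : ℕ}
    (hdiv : ∀ Q : Place (Lvl K) (FF (Lvl K) (M * p)), (e : ℤ) ∣ Q.ord f)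
    (hrat : ∀ Q : Place (Lvl K) (FF (Lvl K) (M * p)), Q.ord f ≠ 0 →
      Function.Bijective (algebraMap (Lvl K) Q.ResidueField))
    (s : Place (IsLocalRing.ResidueField ↥(baseRing A K))
        (FF (IsLocalRing.ResidueField ↥(baseRing A K)) M))
    (hns : ¬ (jF (IsLocalRing.ResidueField ↥(baseRing A K)) M ∈ s.toValuationSubring ∧
      IsSSFin (Lvl K) M p (baseRing A K) (Fermat.Agent.P3G.GammaV2.lvlToComplex K) hpM hA2 S₂ s)) :
    (e : ℤ) ∣ s.ord (redG (Lvl K) M p (baseRing A K) (Fermat.Agent.P3G.GammaV2.lvlToComplex K) hpM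
      hA2 S₂ ⟨f, mem_gauss_of_valuation_eq_one (Lvl K) M p (baseRing A K) hf₁⟩) := by
  obtain ⟨hN, hprime, hsm, hprimeInf, hsmInf, -⟩ := levelFacts_good M p hpM A hA K hK
  obtain ⟨S₀, hS₀⟩ := Fermat.Agent.P3G.Glue.LevelDict.exists_finset_ord_ne_zero (M * p) K f hf0
  exact f4_place (Lvl K) M p (baseRing A K) hN
    (Fermat.Agent.P3G.GammaV2.lvlToComplex K) hpM hprime hsm hprimeInf hsmInf hA2 S₂ hϖ hf0 hf₁
    hdiv S₀ hS₀ hrat s hns

end Good

end Fermat.Agent.S40.W.F4Good
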