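/-
S40 / (W3): **the Dedekind–Weber setting of `M2/DWMain` for the modular function field
`FF k N = k(j(q^d) : d ∣ N) ⊆ k((q))` over an ARBITRARY field `k`.**

`M2/DWMain` works with a field `K` carrying `Algebra (RatFunc k) K`, `Algebra k[X] K`,
`IsScalarTower k[X] (RatFunc k) K`, `Algebra k K`, `IsScalarTower k (RatFunc k) K`.  Here we provide
these structures for `K := FF k N`, `X ↦ j` (as SCOPED instances: `open scoped
Fermat.Agent.S40.W.FFSetting`), and the dictionary with the chart algebras of `N4`:

* `algebraMap_poly_apply`, `algebraMap_ratFunc_X` : `X ↦ jF k N`;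
* `range_algebraMap_ratFunc` : the image of `RatFunc k` is `k⟮jF k N⟯`;
* `finiteDimensional_ratFunc` : `FF k N` is finite over `RatFunc k` as soon as it is over `k⟮j⟯`
  (`finiteDimensional_ratFunc_of_charZero` in characteristic zero);
* `isIntegral_poly_iff` : integral over `k[X]` ⇔ in the chart `chartAlg k (FF k N) {jF k N}`;
* `isIntegral_Oinf_of_mem_chartAlg_inv` : the chart at infinity `chartAlg k (FF k N) {(jF k N)⁻¹}`
  is integral over `Oinf k`.
-/
import Mathlib
import Fermat.Agent.M2.DWMain
import Fermat.Agent.N4.IntClosure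
import Fermat.Agent.N4.FFAlgebraic
import Fermat.Agent.N4.ModPolySetting

set_option autoImplicit false

open Polynomial IntermediateField

namespace Fermat.Agent.S40.W.FFSetting

open Fermat.Agent.N4.Setting Fermat.Agent.N4.Chart Fermat.Agent.N4.IntClosure Fermat.Agent.M2.DW

noncomputable section

variable (k : Type) [Field k] (N : ℕ)

/-- `k[X] → FF k N`, `X ↦ j`. -/
scoped instance algPoly : Algebra k[X] (FF k N) := algPolyTop (O := k) (jF k N)

theorem algebraMap_poly_apply (p : k[X]) : algebraMap k[X] (FF k N) p = aeval (jF k N) p := rfl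

scoped instance isScalarTower_k_poly : IsScalarTower k k[X] (FF k N) :=
  IsScalarTower.of_algebraMap_eq fun c => by
    rw [algebraMap_poly_apply, Polynomial.algebraMap_apply, Algebra.algebraMap_self, RingHom.id_apply,
      aeval_C]

theorem algebraMap_poly_injective : Function.Injective (algebraMap k[X] (FF k N)) := by
  intro p q hpq
  rw [algebraMap_poly_apply, algebraMap_poly_apply] at hpq
  exact aeval_injective (O := k) (K := k) (jF k N) (Fermat.Agent.N4.FFAlgebraic.transcendental_jF k N) hpq

/-- `k(X) → FF k N`, `X ↦ j`. -/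
scoped instance algRatFunc : Algebra (RatFunc k) (FF k N) :=
  (IsFractionRing.lift (A := k[X]) (K := RatFunc k) (g := algebraMap k[X] (FF k N))
    (algebraMap_poly_injective k N)).toAlgebra

scoped instance isScalarTower_poly_ratFunc : IsScalarTower k[X] (RatFunc k) (FF k N) :=
  IsScalarTower.of_algebraMap_eq fun P => by
    show _ = (IsFractionRing.lift (algebraMap_poly_injective k N)) (algebraMap k[X] (RatFunc k) P)
    rw [IsFractionRing.lift_algebraMap]

scoped instance isScalarTower_k_ratFunc : IsScalarTower k (RatFunc k) (FF k N) :=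
  IsScalarTower.of_algebraMap_eq fun c => by
    rw [IsScalarTower.algebraMap_apply k k[X] (RatFunc k),
      ← IsScalarTower.algebraMap_apply k[X] (RatFunc k) (FF k N),
      ← IsScalarTower.algebraMap_apply k k[X] (FF k N)]

@[simp] theorem algebraMap_poly_X : algebraMap k[X] (FF k N) X = jF k N := by
  rw [algebraMap_poly_apply, aeval_X]

@[simp] theorem algebraMap_ratFunc_X : algebraMap (RatFunc k) (FF k N) RatFunc.X = jF k N := by
  rw [← RatFunc.algebraMap_X, ← IsScalarTower.algebraMap_apply k[X] (RatFunc k) (FF k N),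
    algebraMap_poly_X]

/-! ### The image of `RatFunc k` is `k⟮j⟯` -/

theorem algebraMap_ratFunc_mem_adjoin (r : RatFunc k) :
    algebraMap (RatFunc k) (FF k N) r ∈ k⟮jF k N⟯ := by
  induction r using RatFunc.induction_on with
  | f p q hq =>
    rw [map_div₀, ← IsScalarTower.algebraMap_apply k[X] (RatFunc k) (FF k N),
      ← IsScalarTower.algebraMap_apply k[X] (RatFunc k) (FF k N), algebraMap_poly_apply,
      algebraMap_poly_apply]
    have h : ∀ p : k[X], aeval (jF k N) p ∈ k⟮jF k N⟯ := fun p => by
      rw [← IntermediateField.mem_toSubalgebra]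
      exact (Algebra.adjoin_le (S := k⟮jF k N⟯.toSubalgebra)
        (Set.singleton_subset_iff.mpr (mem_adjoin_simple_self k (jF k N))))
        (aeval_mem_adjoin_singleton k (jF k N))
    exact div_mem (h p) (h q)

theorem exists_algebraMap_ratFunc_eq {c : FF k N} (hc : c ∈ k⟮jF k N⟯) :
    ∃ r : RatFunc k, algebraMap (RatFunc k) (FF k N) r = c := by
  have hle : k⟮jF k N⟯ ≤ (IsScalarTower.toAlgHom k (RatFunc k) (FF k N)).fieldRange := by
    rw [adjoin_simple_le_iff]
    exact ⟨RatFunc.X, algebraMap_ratFunc_X k N⟩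
  exact hle hc

/-- `FF k N` is finite over `RatFunc k` as soon as it is finite over `k⟮j⟯`. -/
theorem finiteDimensional_ratFunc [FiniteDimensional k⟮jF k N⟯ (FF k N)] :
    FiniteDimensional (RatFunc k) (FF k N) := by
  obtain ⟨s, hs⟩ := (Module.finite_def (R := k⟮jF k N⟯) (M := FF k N)).mp inferInstance
  refine Module.finite_def.mpr ⟨s, ?_⟩
  rw [eq_top_iff] at hs ⊢
  intro z _
  have hz := hs (Submodule.mem_top (x := z))
  refine Submodule.span_induction (p := fun y _ => y ∈ Submodule.span (RatFunc k) (s : Set (FF k N)))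
    (fun y hy => Submodule.subset_span hy) (zero_mem _) (fun _ _ _ _ h1 h2 => add_mem h1 h2)
    (fun c y _ hy => ?_) hz
  obtain ⟨r, hr⟩ := exists_algebraMap_ratFunc_eq k N c.2
  have : c • y = r • y := by
    rw [Algebra.smul_def r y, hr]
    rfl
  rw [this]
  exact Submodule.smul_mem _ _ hy

/-- Characteristic zero: `FF k N` is finite over `RatFunc k`. -/
theorem finiteDimensional_ratFunc_of_charZero [NeZero N] [CharZero k] :
    FiniteDimensional (RatFunc k) (FF k N) :=
  haveI := Fermat.Agent.N4.ModPolySetting.finiteDimensional_FF k N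
  finiteDimensional_ratFunc k N

/-- Characteristic zero: `FF k N` is separable over `RatFunc k`. -/
theorem isSeparable_ratFunc_of_charZero [NeZero N] [CharZero k] :
    Algebra.IsSeparable (RatFunc k) (FF k N) :=
  haveI := finiteDimensional_ratFunc_of_charZero k N
  haveI : CharZero (RatFunc k) := charZero_of_injective_algebraMap (algebraMap k (RatFunc k)).injective
  inferInstance

/-! ### Dictionary with the charts of `N4` -/

/-- Integral over `k[X]` (along `X ↦ j`) ⇔ in the chart `j ≠ ∞` over the field `k`. -/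
theorem isIntegral_poly_iff {z : FF k N} :
    IsIntegral k[X] z ↔ z ∈ chartAlg k (FF k N) {jF k N} :=
  (mem_chartAlg_singleton_iff (O := k) (jF k N)).symm

theorem algebraMap_Oinf_apply (a : Oinf k) :
    algebraMap (Oinf k) (FF k N) a = algebraMap (RatFunc k) (FF k N) (a : RatFunc k) := rfl

/-- The chart `j ≠ 0` over the field `k` is integral over `Oinf k`. -/
theorem isIntegral_Oinf_of_mem_chartAlg_inv {z : FF k N}
    (hz : z ∈ chartAlg k (FF k N) {(jF k N)⁻¹}) : IsIntegral (Oinf k) z := by
  rw [mem_chartAlg_singleton_iff (O := k) (jF k N)⁻¹] at hz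
  have hcomp : ((aeval (jF k N)⁻¹ : k[X] →ₐ[k] FF k N) : k[X] →+* FF k N) =
      (algebraMap (Oinf k) (FF k N)).comp
        ((aeval (piInf k) : k[X] →ₐ[k] Oinf k) : k[X] →+* Oinf k) := by
    refine Polynomial.ringHom_ext (fun c => ?_) ?_
    · simp only [RingHom.coe_coe, aeval_C, RingHom.comp_apply]
      rw [algebraMap_Oinf_apply, coe_algebraMap_Oinf, ← RatFunc.algebraMap_eq_C,
        ← IsScalarTower.algebraMap_apply k (RatFunc k) (FF k N)]
    · simp only [RingHom.coe_coe, aeval_X, RingHom.comp_apply]
      rw [algebraMap_Oinf_apply, coe_piInf, map_inv₀, algebraMap_ratFunc_X]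
  rw [hcomp] at hz
  exact RingHom.IsIntegralElem.of_comp hz

end

end Fermat.Agent.S40.W.FFSetting
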