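/-
S40 (row 38), (W3) leaf W0b part 2 (helper14): **the orders `B = SigmaFin k N`, `Binf`, the space
`holo k N` of regular differentials (in `d j`-coordinates), the derivation `Dj = d/dj` of `FF k N` and
the chain rule `θ = θ(j) · Dj`** for the modular function field `FF k N ⊆ k((q))` over an arbitrary
field `k`.

On top of `S40/W/FFSetting` (helper11: the `RatFunc k`-structure `X ↦ jF k N`, scoped instances),
`S40/W/DerivX` (helper2: `d/dx` in the Dedekind–Weber setting) and `S40/W/ThetaLog` (helper3: THE
`θ = q d/dq`).  Use with `open scoped Fermat.Agent.S40.W.FFSetting Fermat.Agent.S40.W.Setting`.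

* `algPolySigma`, `isScalarTower_poly_sigma`, `isIntegralClosure_sigma` (scoped instances):
  `SigmaFin k N = chartAlg k (FF k N) {jF k N}` is THE integral closure of `k[X]` in `FF k N`;
* `Binf k N := integralClosure (DW.Oinf k) (FF k N)` (its `DWMain` instances are Mathlib's);
* `holo k N : Submodule k (FF k N) := DW.holoSpace k (FF k N) (SigmaFin k N) (Binf k N)`, `mem_holo_iff`;
* generic: `deriv_eq_derivX_smul : d g = derivX k K g • d x` for EVERY `k`-derivation `d : K → M`;
* `Dj k N := derivX k (FF k N)`, `Dj_jF`, and **`theta_eq : θ g = θ j * Dj g` in `k((q))`**.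

The finiteness and separability of `FF k N / RatFunc k` are instance HYPOTHESES here (providers:
`FFSetting.finiteDimensional_ratFunc_of_charZero` / `isSeparable_ratFunc_of_charZero` in char 0,
`S40/W/Sep` (helper24, from `SepLaurent`) in characteristic `p ∤ N`).
-/
import Mathlib
import Fermat.Agent.S40.W.FFSetting
import Fermat.Agent.S40.W.DerivX
import Fermat.Agent.S40.W.ThetaLog
import Fermat.Agent.N4F.C.ChartFibre

set_option autoImplicit false
set_option linter.unusedSectionVars false
set_option linter.style.haveILetI false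

open ModularCurve Polynomial KaehlerDifferential
open Fermat.Agent.N4.Setting Fermat.Agent.N4.Chart Fermat.Agent.N4F.C.ChartFibre
open Fermat.Agent.M2 Fermat.Agent.S40.W.DerivX Fermat.Agent.S40.W.ThetaLog
open scoped Fermat.Agent.S40.W.FFSetting

noncomputable section

namespace Fermat.Agent.S40.W.Setting

/-! ### Generic: every `k`-derivation of `K` is a multiple of `d/dx` -/

section Generic

universe u v w

variable (k : Type u) [Field k]
variable (K : Type v) [Field K] [Algebra (RatFunc k) K] [FiniteDimensional (RatFunc k) K]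
  [Algebra.IsSeparable (RatFunc k) K]
variable [Algebra k[X] K] [IsScalarTower k[X] (RatFunc k) K]
variable [Algebra k K] [IsScalarTower k (RatFunc k) K]

/-- In `Ω[K⁄k]`: `d g = (dg/dx) • d x`. -/
theorem D_eq_derivX_smul (g : K) : D k K g = derivX k K g • D k K (xK k K) := by
  apply (kaehlerEquivX k K).injective
  rw [map_smul, kaehlerEquivX_D, smul_eq_mul, mul_one]
  rfl

/-- **Every `k`-derivation `d` of `K` into a `K`-module is `d g = (dg/dx) • d x`.** -/
theorem deriv_eq_derivX_smul {M : Type w} [AddCommGroup M] [Module K M] [Module k M]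
    [IsScalarTower k K M] (d : Derivation k K M) (g : K) :
    d g = derivX k K g • d (xK k K) := by
  rw [← Derivation.liftKaehlerDifferential_comp_D d g, D_eq_derivX_smul, map_smul,
    Derivation.liftKaehlerDifferential_comp_D]

end Generic

variable (k : Type) [Field k] (N : ℕ)

/-! ### `B = SigmaFin k N` -/

/-- `j` as an element of the chart `SigmaFin k N`. -/
def jSigma : ↥(SigmaFin k N) := ⟨jF k N, subset_chartAlg _ (Set.mem_singleton _)⟩

/-- `k[X] → SigmaFin k N`, `X ↦ j`. -/
scoped instance algPolySigma : Algebra k[X] ↥(SigmaFin k N) :=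
  (aeval (jSigma k N) : k[X] →ₐ[k] ↥(SigmaFin k N)).toRingHom.toAlgebra

theorem algebraMap_poly_sigma_apply (P : k[X]) :
    algebraMap k[X] ↥(SigmaFin k N) P = aeval (jSigma k N) P := rfl

theorem coe_algebraMap_poly_sigma (P : k[X]) :
    ((algebraMap k[X] ↥(SigmaFin k N) P : ↥(SigmaFin k N)) : FF k N) = algebraMap k[X] (FF k N) P := by
  rw [algebraMap_poly_sigma_apply, FFSetting.algebraMap_poly_apply]
  have h := Polynomial.aeval_algHom_apply (SigmaFin k N).val (jSigma k N) P
  exact h.symm

scoped instance isScalarTower_poly_sigma : IsScalarTower k[X] ↥(SigmaFin k N) (FF k N) :=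
  IsScalarTower.of_algebraMap_eq fun P => (coe_algebraMap_poly_sigma k N P).symm

/-- **`SigmaFin k N` is the integral closure of `k[X]` (`X ↦ j`) in `FF k N`.** -/
scoped instance isIntegralClosure_sigma : IsIntegralClosure ↥(SigmaFin k N) k[X] (FF k N) where
  algebraMap_injective := Subtype.val_injective
  isIntegral_iff {z} := by
    rw [FFSetting.isIntegral_poly_iff]
    constructor
    · intro hz
      exact ⟨⟨z, hz⟩, rfl⟩
    · rintro ⟨y, rfl⟩
      exact y.2

/-! ### `Binf` and the space of regular differentials -/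

/-- The integral closure of `DW.Oinf k` (the local ring of `k(j)` at `j = ∞`) in `FF k N`. -/
abbrev Binf : Subalgebra (DW.Oinf k) (FF k N) := integralClosure (DW.Oinf k) (FF k N)

section Holo

variable [FiniteDimensional (RatFunc k) (FF k N)] [Algebra.IsSeparable (RatFunc k) (FF k N)]

/-- **The regular differentials of `FF k N`, in the coordinate `d j`**: `h` with `h d j` regular at
every place (`DW.holoSpace` for `B = SigmaFin k N`, `Binf = Binf k N`). -/
def holo : Submodule k (FF k N) := DW.holoSpace k (FF k N) ↥(SigmaFin k N) ↥(Binf k N)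

theorem mem_holo_iff {h : FF k N} : h ∈ holo k N ↔
    h ∈ Submodule.traceDual k[X] (RatFunc k) (1 : Submodule ↥(SigmaFin k N) (FF k N)) ∧
    (RatFunc.X : RatFunc k) ^ (2 : ℤ) • h ∈
      Submodule.traceDual (DW.Oinf k) (RatFunc k) (1 : Submodule ↥(Binf k N) (FF k N)) := Iff.rfl

/-! ### `d/dj` and the chain rule -/

/-- `d/dj` on `FF k N`. -/
def Dj : Derivation k (FF k N) (FF k N) := derivX k (FF k N)

theorem xK_eq_jF : xK k (FF k N) = jF k N := FFSetting.algebraMap_poly_X k N

@[simp] theorem Dj_jF : Dj k N (jF k N) = 1 := by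
  rw [← xK_eq_jF]
  exact derivX_X k (FF k N)

omit [FiniteDimensional (RatFunc k) (FF k N)] [Algebra.IsSeparable (RatFunc k) (FF k N)] in
/-- The coefficientwise `k`-action on `k((q))` is compatible with `FF k N ⊆ k((q))`. -/
theorem isScalarTower_k_FF_laurent : IsScalarTower k (FF k N) (LaurentSeries k) :=
  ⟨fun c g f => by
    show ((c • g : FF k N) : LaurentSeries k) * f = c • ((g : LaurentSeries k) * f)
    rw [Algebra.smul_def c g, ← HahnSeries.C_mul_eq_smul, ← mul_assoc]
    congr 1
    rw [MulMemClass.coe_mul]
    congr 1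
    exact algebraMap_eq_C k c⟩

attribute [local instance] isScalarTower_k_FF_laurent

/-- `θ = q d/dq` restricted to `FF k N ⊆ k((q))`, as a derivation into `k((q))`. -/
def thetaFF : Derivation k (FF k N) (LaurentSeries k) :=
  (thetaD k).compAlgebraMap (FF k N)

theorem thetaFF_apply (g : FF k N) : thetaFF k N g = thetaD k (g : LaurentSeries k) := rfl

/-- **The chain rule `θ g = θ(j) · dg/dj`** in `k((q))`, for `g ∈ FF k N`. -/
theorem theta_eq (g : FF k N) :
    thetaD k (g : LaurentSeries k) =
      thetaD k ((jF k N : FF k N) : LaurentSeries k) * ((Dj k N g : FF k N) : LaurentSeries k) := by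
  have h := deriv_eq_derivX_smul k (FF k N) (thetaFF k N) g
  rw [thetaFF_apply, thetaFF_apply, xK_eq_jF] at h
  rw [h, mul_comm]
  rfl

end Holo

end Fermat.Agent.S40.W.Setting
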