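/-
S40 (row 38), (W3) leaf W8 support (helper14): **constant field extensions in the Dedekind–Weber
setting — regularity (`DW.holoSpace`) DESCENDS from `k' ⊇ k` to `k`.**

Generic (any fields `σ : k →+* k'`, `K / k(X)`, `K' / k'(X)` in the binder block of `M2/DWMain`,
`φ : K →+* K'` compatible with `ratMap σ : k(X) → k'(X)`):

* `ratMap σ`, `ratMap_algebraMap`, `ratMap_X`, `ratMap_C`, `intDegree_ratMap`;
* `mem_range_poly_of_ratMap` : `k'[X] ∩ k(X) = k[X]`; `mem_Oinf_of_ratMap` / `ratMap_mem_Oinf` /
  `oinfMap` : the same for the local ring at infinity;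
* `trace_map_of_basis`, `trace_map` : `Tr_{K'/k'(X)} (φ y) = ratMap (Tr_{K/k(X)} y)` when an
  `k(X)`-basis of `K` maps to a `k'(X)`-basis of `K'` (e.g. equal degrees and `K' = k'(X)·φ(K)`);
  `exists_basis_map`, `span_range_eq_top` (spanning from "no proper subfield contains `k'(X)`
  and `φ(K)`");
* `map_mem_one`, `mem_traceDual_of_map` : descent of trace duals of integral closures;
* **`mem_holoSpace_of_map` : `φ h ∈ holoSpace k' K' B' Binf' → h ∈ holoSpace k K B Binf`.**

Level instance (`N4/BaseDescent.ffMap f N : FF K N →+* FF K' N`, `FFSetting` instances):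
`ffMap_algebraMap_poly`, `ffMap_algebraMap_ratFunc`, `ffMap_jNF`, `finrank_ratFunc_eq`,
`finrank_ratFunc_FF : [FF K N : K(X)] = ψ(N)`, `span_range_ffMap`, `trace_ffMap`,
**`mem_holo_of_ffMap_mem : ffMap f N h ∈ holo K' N → h ∈ holo K N`**.
-/
import Mathlib
import Fermat.Agent.S40.W.Setting
import Fermat.Agent.N4.BaseDescent

set_option autoImplicit false
set_option linter.unusedSectionVars false
set_option linter.style.longLine false

open Polynomial Module
open scoped nonZeroDivisors

namespace Fermat.Agent.S40.W.ConstDescent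

open Fermat.Agent.M2

noncomputable section

/-! ### The map `k(X) → k'(X)` induced by a field homomorphism -/

section RatMap

variable {k k' : Type*} [Field k] [Field k'] (σ : k →+* k')

theorem nonZeroDivisors_le_comap_map :
    k[X]⁰ ≤ (k'[X]⁰).comap (Polynomial.mapRingHom σ) :=
  nonZeroDivisors_le_comap_nonZeroDivisors_of_injective _ (Polynomial.map_injective σ σ.injective)

/-- `k(X) → k'(X)`, coefficientwise. -/
def ratMap : RatFunc k →+* RatFunc k' :=
  IsLocalization.map (RatFunc k') (Polynomial.mapRingHom σ) (nonZeroDivisors_le_comap_map σ)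

@[simp] theorem ratMap_algebraMap (P : k[X]) :
    ratMap σ (algebraMap k[X] (RatFunc k) P) = algebraMap k'[X] (RatFunc k') (P.map σ) :=
  IsLocalization.map_eq _ _

@[simp] theorem ratMap_X : ratMap σ (RatFunc.X : RatFunc k) = RatFunc.X := by
  rw [← RatFunc.algebraMap_X, ratMap_algebraMap, Polynomial.map_X, RatFunc.algebraMap_X]

@[simp] theorem ratMap_C (c : k) : ratMap σ (RatFunc.C c) = RatFunc.C (σ c) := by
  rw [← RatFunc.algebraMap_C, ratMap_algebraMap, Polynomial.map_C, RatFunc.algebraMap_C]

theorem ratMap_injective : Function.Injective (ratMap σ) := (ratMap σ).injective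

/-- **`k'[X] ∩ k(X) = k[X]`.** -/
theorem mem_range_poly_of_ratMap {r : RatFunc k}
    (h : ratMap σ r ∈ (algebraMap k'[X] (RatFunc k')).range) :
    r ∈ (algebraMap k[X] (RatFunc k)).range := by
  obtain ⟨P, hP⟩ := h
  have hd0 : r.denom ≠ 0 := RatFunc.denom_ne_zero r
  have hmon : r.denom.Monic := RatFunc.monic_denom r
  have hr : r = algebraMap k[X] (RatFunc k) r.num / algebraMap k[X] (RatFunc k) r.denom :=
    (RatFunc.num_div_denom r).symm
  have hd0' : algebraMap k'[X] (RatFunc k') (r.denom.map σ) ≠ 0 := by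
    rw [Ne, map_eq_zero_iff _ (RatFunc.algebraMap_injective k'), Polynomial.map_eq_zero]
    exact hd0
  have h2 : ratMap σ r = algebraMap k'[X] (RatFunc k') (r.num.map σ) /
      algebraMap k'[X] (RatFunc k') (r.denom.map σ) := by
    conv_lhs => rw [hr]
    rw [map_div₀, ratMap_algebraMap, ratMap_algebraMap]
  have h1 : r.num.map σ = P * r.denom.map σ := by
    apply RatFunc.algebraMap_injective k'
    rw [map_mul, hP, h2, div_mul_cancel₀ _ hd0']
  have hcop : IsCoprime (r.num.map σ) (r.denom.map σ) :=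
    (RatFunc.isCoprime_num_denom r).map (Polynomial.mapRingHom σ)
  have hunit : IsUnit (r.denom.map σ) := by
    obtain ⟨a, b, hab⟩ := hcop
    rw [h1] at hab
    exact IsUnit.of_mul_eq_one (a * P + b) (by rw [← hab]; ring)
  have hdeg : r.denom.natDegree = 0 := by
    have := Polynomial.natDegree_eq_zero_of_isUnit hunit
    rwa [hmon.natDegree_map] at this
  have hone : r.denom = 1 := by
    rw [Polynomial.eq_C_of_natDegree_eq_zero hdeg] 
    have h2 : r.denom.coeff 0 = 1 := by
      have := hmon.leadingCoeff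
      rwa [Polynomial.leadingCoeff, hdeg] at this
    rw [h2, map_one]
  refine ⟨r.num, ?_⟩
  conv_rhs => rw [hr, hone, map_one, div_one]

theorem intDegree_ratMap (r : RatFunc k) : (ratMap σ r).intDegree = r.intDegree := by
  have hr : r = algebraMap k[X] (RatFunc k) r.num / algebraMap k[X] (RatFunc k) r.denom :=
    (RatFunc.num_div_denom r).symm
  by_cases h0 : r = 0
  · rw [h0, map_zero, RatFunc.intDegree_zero, RatFunc.intDegree_zero]
  have hn0 : r.num ≠ 0 := by rwa [Ne, RatFunc.num_eq_zero_iff]
  have hd0 : r.denom ≠ 0 := RatFunc.denom_ne_zero r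
  have e1 : ∀ {P : k[X]}, P ≠ 0 → algebraMap k[X] (RatFunc k) P ≠ 0 := fun hP => by
    rwa [Ne, map_eq_zero_iff _ (RatFunc.algebraMap_injective k)]
  have e2 : ∀ {P : k[X]}, P ≠ 0 → algebraMap k'[X] (RatFunc k') (P.map σ) ≠ 0 := fun hP => by
    rwa [Ne, map_eq_zero_iff _ (RatFunc.algebraMap_injective k'), Polynomial.map_eq_zero]
  conv_lhs => rw [hr]
  conv_rhs => rw [hr]
  rw [map_div₀, ratMap_algebraMap, ratMap_algebraMap, RatFunc.intDegree_div (e2 hn0) (e2 hd0),
    RatFunc.intDegree_div (e1 hn0) (e1 hd0), RatFunc.intDegree_polynomial,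
    RatFunc.intDegree_polynomial, RatFunc.intDegree_polynomial, RatFunc.intDegree_polynomial,
    Polynomial.natDegree_map, Polynomial.natDegree_map]

/-- **`Oinf k' ∩ k(X) = Oinf k`.** -/
theorem mem_Oinf_of_ratMap {r : RatFunc k} (h : ratMap σ r ∈ DW.Oinf k') : r ∈ DW.Oinf k := by
  rw [DW.mem_Oinf_iff_intDegree] at h ⊢
  rwa [intDegree_ratMap] at h

theorem ratMap_mem_Oinf {r : RatFunc k} (h : r ∈ DW.Oinf k) : ratMap σ r ∈ DW.Oinf k' := by
  rw [DW.mem_Oinf_iff_intDegree] at h ⊢
  rwa [intDegree_ratMap]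

end RatMap


/-! ### Trace and base change of a finite extension -/

section Trace

variable {F F' K K' : Type*} [Field F] [Field F'] [Field K] [Field K'] [Algebra F K]
  [Algebra F' K'] [FiniteDimensional F K] [FiniteDimensional F' K']
  (ρ : F →+* F') (φ : K →+* K')

theorem map_smul_of_comm (hφ : ∀ r : F, φ (algebraMap F K r) = algebraMap F' K' (ρ r))
    (r : F) (y : K) : φ (r • y) = ρ r • φ y := by
  rw [Algebra.smul_def, map_mul, hφ, ← Algebra.smul_def]

/-- If `K' = F' · φ(K)` and `[K : F] = [K' : F']`, an `F`-basis of `K` maps to an `F'`-basis of `K'`. -/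
theorem exists_basis_map (hφ : ∀ r : F, φ (algebraMap F K r) = algebraMap F' K' (ρ r))
    (hdeg : finrank F K = finrank F' K')
    (hspan : Submodule.span F' (Set.range φ) = ⊤) :
    ∃ (b : Basis (Fin (finrank F K)) F K) (b' : Basis (Fin (finrank F K)) F' K'),
      ∀ i, b' i = φ (b i) := by
  classical
  let b : Basis (Fin (finrank F K)) F K := Module.finBasis F K
  have hle : ⊤ ≤ Submodule.span F' (Set.range fun i => φ (b i)) := by
    rw [← hspan]
    refine Submodule.span_le.mpr ?_
    rintro _ ⟨y, rfl⟩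
    have hy : y = ∑ i, b.repr y i • b i := (b.sum_repr y).symm
    rw [hy, map_sum]
    refine Submodule.sum_mem _ fun i _ => ?_
    rw [map_smul_of_comm ρ φ hφ]
    exact Submodule.smul_mem _ _ (Submodule.subset_span ⟨i, rfl⟩)
  have hcard : Fintype.card (Fin (finrank F K)) = finrank F' K' := by
    rw [Fintype.card_fin, hdeg]
  refine ⟨b, basisOfTopLeSpanOfCardEqFinrank (fun i => φ (b i)) hle hcard, fun i => ?_⟩
  rw [coe_basisOfTopLeSpanOfCardEqFinrank]

/-- **The trace commutes with base change**, basis form: an `F`-basis `b` of `K` whose image is an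
`F'`-basis `b'` of `K'`. -/
theorem trace_map_of_basis {ι : Type*} [Fintype ι] [DecidableEq ι]
    (hφ : ∀ r : F, φ (algebraMap F K r) = algebraMap F' K' (ρ r))
    (b : Basis ι F K) (b' : Basis ι F' K') (hb : ∀ i, b' i = φ (b i)) (y : K) :
    Algebra.trace F' K' (φ y) = ρ (Algebra.trace F K y) := by
  rw [Algebra.trace_eq_matrix_trace b, Algebra.trace_eq_matrix_trace b', Matrix.trace,
    Matrix.trace, map_sum]
  refine Finset.sum_congr rfl fun i _ => ?_
  rw [Matrix.diag_apply, Matrix.diag_apply, Algebra.leftMulMatrix_eq_repr_mul,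
    Algebra.leftMulMatrix_eq_repr_mul]
  have h1 : y * b i = ∑ l, b.repr (y * b i) l • b l := (b.sum_repr _).symm
  have h2 : φ y * b' i = ∑ l, ρ (b.repr (y * b i) l) • b' l := by
    rw [hb i, ← map_mul, h1, map_sum]
    refine Finset.sum_congr rfl fun l _ => ?_
    rw [map_smul_of_comm ρ φ hφ, hb l, ← h1]
  rw [h2, b'.repr_sum_self]

/-- **The trace commutes with base change** when `[K : F] = [K' : F']` and `K' = F' · φ(K)`. -/
theorem trace_map (hφ : ∀ r : F, φ (algebraMap F K r) = algebraMap F' K' (ρ r))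
    (hdeg : finrank F K = finrank F' K')
    (hspan : Submodule.span F' (Set.range φ) = ⊤) (y : K) :
    Algebra.trace F' K' (φ y) = ρ (Algebra.trace F K y) := by
  classical
  obtain ⟨b, b', hb⟩ := exists_basis_map ρ φ hφ hdeg hspan
  exact trace_map_of_basis ρ φ hφ b b' hb y

omit [FiniteDimensional F K] [FiniteDimensional F' K'] in
/-- Spanning from generation: if `K'/F'` is algebraic and no proper subfield of `K'` contains `F'`
and `φ(K)`, then `K' = F' · φ(K)`. -/
theorem span_range_eq_top [Algebra.IsAlgebraic F' K']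
    (hgen : ∀ T : Subfield K', (∀ r : F', algebraMap F' K' r ∈ T) → (∀ y : K, φ y ∈ T) → T = ⊤) :
    Submodule.span F' (Set.range φ) = ⊤ := by
  have h1 : Subalgebra.toSubmodule (Algebra.adjoin F' (Set.range φ)) =
      Submodule.span F' (Set.range φ) := by
    rw [Algebra.adjoin_eq_span]
    congr 1
    have : (Submonoid.closure (Set.range φ) : Set K') = Set.range φ := by
      have h := Submonoid.closure_eq (MonoidHom.mrange (φ : K →* K'))
      exact congrArg (fun S : Submonoid K' => (S : Set K')) h
    exact this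
  have hfield : IsField (Algebra.adjoin F' (Set.range φ)) :=
    Subalgebra.isField_of_algebraic _
  let T : Subfield K' :=
    { (Algebra.adjoin F' (Set.range φ)).toSubring with
      inv_mem' := fun x hx => by
        by_cases h0 : x = 0
        · rw [h0, inv_zero]; exact zero_mem (Algebra.adjoin F' (Set.range φ))
        · obtain ⟨y, hy⟩ := hfield.mul_inv_cancel
            (a := (⟨x, hx⟩ : Algebra.adjoin F' (Set.range φ)))
            (fun h => h0 (congrArg Subtype.val h))
          have hy' : x * (y : K') = 1 := congrArg Subtype.val hy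
          have : x⁻¹ = (y : K') := inv_eq_of_mul_eq_one_right hy'
          rw [this]
          exact y.2 }
  have hT := hgen T (fun r => Subalgebra.algebraMap_mem _ r)
    (fun y => Algebra.subset_adjoin ⟨y, rfl⟩)
  rw [eq_top_iff]
  intro z _
  have hz : z ∈ T := by rw [hT]; trivial
  rw [← h1]
  exact hz

end Trace

/-! ### Descent of trace duals -/

section TraceDual

variable {A A' F F' K K' B B' : Type*} [CommRing A] [CommRing A'] [Field F] [Field F'] [Field K]
  [Field K'] [CommRing B] [CommRing B']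
  [Algebra A F] [Algebra A' F'] [Algebra F K] [Algebra F' K']
  [Algebra A K] [IsScalarTower A F K] [Algebra A' K'] [IsScalarTower A' F' K']
  [Algebra A B] [Algebra B K] [IsScalarTower A B K] [IsIntegralClosure B A K]
  [Algebra A' B'] [Algebra B' K'] [IsScalarTower A' B' K'] [IsIntegralClosure B' A' K']
  (α : A →+* A') (ρ : F →+* F') (φ : K →+* K')

/-- `φ` maps the integral closure of `A` into the integral closure of `A'`. -/
theorem map_mem_one (hα : ∀ a : A, ρ (algebraMap A F a) = algebraMap A' F' (α a))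
    (hφ : ∀ r : F, φ (algebraMap F K r) = algebraMap F' K' (ρ r)) {a : K}
    (ha : a ∈ (1 : Submodule B K)) : φ a ∈ (1 : Submodule B' K') := by
  obtain ⟨b, rfl⟩ := Submodule.mem_one.mp ha
  have h1 : IsIntegral A (algebraMap B K b) := IsIntegralClosure.isIntegral_iff (A := B).mpr ⟨b, rfl⟩
  have hcomm : (algebraMap A' K').comp α = φ.comp (algebraMap A K) := by
    ext a
    rw [RingHom.comp_apply, RingHom.comp_apply, IsScalarTower.algebraMap_apply A' F' K',
      IsScalarTower.algebraMap_apply A F K, hφ, hα]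
  have h2 : IsIntegral A' (φ (algebraMap B K b)) := h1.map_of_comp_eq α φ hcomm
  obtain ⟨b', hb'⟩ := IsIntegralClosure.isIntegral_iff (A := B').mp h2
  exact Submodule.mem_one.mpr ⟨b', hb'⟩

/-- **Descent of trace duals along a base change which commutes with traces.** -/
theorem mem_traceDual_of_map (hα : ∀ a : A, ρ (algebraMap A F a) = algebraMap A' F' (α a))
    (hφ : ∀ r : F, φ (algebraMap F K r) = algebraMap F' K' (ρ r))
    (htr : ∀ y : K, Algebra.trace F' K' (φ y) = ρ (Algebra.trace F K y))
    (hA : ∀ r : F, ρ r ∈ (algebraMap A' F').range → r ∈ (algebraMap A F).range) {h : K}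
    (hh : φ h ∈ Submodule.traceDual A' F' (1 : Submodule B' K')) :
    h ∈ Submodule.traceDual A F (1 : Submodule B K) := by
  rw [Submodule.mem_traceDual] at hh ⊢
  intro a ha
  have h1 := hh (φ a) (map_mem_one α ρ φ hα hφ ha)
  rw [Algebra.traceForm_apply] at h1 ⊢
  rw [← map_mul, htr] at h1
  exact hA _ h1

end TraceDual


/-! ### Descent of `DW.holoSpace` along a constant field extension -/

section Holo

variable {k k' : Type*} [Field k] [Field k'] (σ : k →+* k')

/-- `Oinf k → Oinf k'`. -/
def oinfMap : DW.Oinf k →+* DW.Oinf k' where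
  toFun a := ⟨ratMap σ (a : RatFunc k), ratMap_mem_Oinf σ a.2⟩
  map_one' := Subtype.ext (map_one (ratMap σ))
  map_mul' _ _ := Subtype.ext (map_mul (ratMap σ) _ _)
  map_zero' := Subtype.ext (map_zero (ratMap σ))
  map_add' _ _ := Subtype.ext (map_add (ratMap σ) _ _)

theorem coe_oinfMap (a : DW.Oinf k) :
    ((oinfMap σ a : DW.Oinf k') : RatFunc k') = ratMap σ (a : RatFunc k) := rfl

variable {K : Type*} [Field K] [Algebra (RatFunc k) K] [FiniteDimensional (RatFunc k) K]
  [Algebra.IsSeparable (RatFunc k) K] [Algebra k[X] K] [IsScalarTower k[X] (RatFunc k) K]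
  {B : Type*} [CommRing B] [Algebra k[X] B] [Algebra B K] [IsScalarTower k[X] B K]
  [IsIntegralClosure B k[X] K]
  {Binf : Type*} [CommRing Binf] [Algebra (DW.Oinf k) Binf] [Algebra Binf K]
  [IsScalarTower (DW.Oinf k) Binf K] [IsIntegralClosure Binf (DW.Oinf k) K]
  [Algebra k K] [IsScalarTower k (RatFunc k) K]
variable {K' : Type*} [Field K'] [Algebra (RatFunc k') K'] [FiniteDimensional (RatFunc k') K']
  [Algebra.IsSeparable (RatFunc k') K'] [Algebra k'[X] K'] [IsScalarTower k'[X] (RatFunc k') K']
  {B' : Type*} [CommRing B'] [Algebra k'[X] B'] [Algebra B' K'] [IsScalarTower k'[X] B' K']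
  [IsIntegralClosure B' k'[X] K']
  {Binf' : Type*} [CommRing Binf'] [Algebra (DW.Oinf k') Binf'] [Algebra Binf' K']
  [IsScalarTower (DW.Oinf k') Binf' K'] [IsIntegralClosure Binf' (DW.Oinf k') K']
  [Algebra k' K'] [IsScalarTower k' (RatFunc k') K']
  (φ : K →+* K')

/-- **Regularity descends along a constant field extension**: in the Dedekind–Weber setting of
`M2/DWMain` over `k` and over `k' ⊇ k`, if `φ : K → K'` is compatible with `k(X) → k'(X)` and with
the traces, then `φ h ∈ holoSpace k' K' B' Binf'` implies `h ∈ holoSpace k K B Binf`. -/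
theorem mem_holoSpace_of_map
    (hφ : ∀ r : RatFunc k, φ (algebraMap (RatFunc k) K r) = algebraMap (RatFunc k') K' (ratMap σ r))
    (htr : ∀ y : K, Algebra.trace (RatFunc k') K' (φ y) =
      ratMap σ (Algebra.trace (RatFunc k) K y)) {h : K}
    (hh : φ h ∈ DW.holoSpace k' K' B' Binf') : h ∈ DW.holoSpace k K B Binf := by
  rw [DW.mem_holoSpace_iff] at hh ⊢
  refine ⟨?_, ?_⟩
  · exact mem_traceDual_of_map (B := B) (B' := B') (Polynomial.mapRingHom σ) (ratMap σ) φ
      (fun P => ratMap_algebraMap σ P) hφ htr (fun r hr => mem_range_poly_of_ratMap σ hr) hh.1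
  · have h2 := hh.2
    have hX : (RatFunc.X : RatFunc k') ^ (2 : ℤ) • φ h =
        φ ((RatFunc.X : RatFunc k) ^ (2 : ℤ) • h) := by
      rw [map_smul_of_comm (ratMap σ) φ hφ, map_zpow₀, ratMap_X]
    rw [hX] at h2
    refine mem_traceDual_of_map (B := Binf) (B' := Binf') (oinfMap σ) (ratMap σ) φ
      (fun a => rfl) hφ htr (fun r hr => ?_) h2
    obtain ⟨a, ha⟩ := hr
    exact ⟨⟨r, mem_Oinf_of_ratMap σ (by rw [← ha]; exact a.2)⟩, rfl⟩

end Holo


/-! ### The modular function fields `FF K N → FF K' N` -/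

section FF

open ModularCurve IntermediateField
open Fermat.Agent.N4.Setting Fermat.Agent.N4.BaseDescent Fermat.Agent.N4.ModPolySetting
open scoped Fermat.Agent.S40.W.FFSetting Fermat.Agent.S40.W.Setting

variable {K K' : Type} [Field K] [Field K'] (f : K →+* K') (N : ℕ)

theorem ffMap_algebraMap_poly (P : K[X]) :
    ffMap f N (algebraMap K[X] (FF K N) P) = algebraMap K'[X] (FF K' N) (P.map f) := by
  have h : (ffMap f N).comp (algebraMap K[X] (FF K N)) =
      (algebraMap K'[X] (FF K' N)).comp (Polynomial.mapRingHom f) := by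
    refine Polynomial.ringHom_ext (fun c => ?_) ?_
    · rw [RingHom.comp_apply, RingHom.comp_apply, Polynomial.coe_mapRingHom, Polynomial.map_C,
        FFSetting.algebraMap_poly_apply, FFSetting.algebraMap_poly_apply, aeval_C, aeval_C,
        ffMap_algebraMap]
    · rw [RingHom.comp_apply, RingHom.comp_apply, Polynomial.coe_mapRingHom, Polynomial.map_X,
        FFSetting.algebraMap_poly_X, FFSetting.algebraMap_poly_X, ffMap_jF]
  exact RingHom.congr_fun h P

/-- `ffMap` is compatible with `K(X) → K'(X)` (`X ↦ j` on both sides). -/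
theorem ffMap_algebraMap_ratFunc (r : RatFunc K) :
    ffMap f N (algebraMap (RatFunc K) (FF K N) r) =
      algebraMap (RatFunc K') (FF K' N) (ratMap f r) := by
  have h : (ffMap f N).comp (algebraMap (RatFunc K) (FF K N)) =
      (algebraMap (RatFunc K') (FF K' N)).comp (ratMap f) := by
    refine IsLocalization.ringHom_ext (nonZeroDivisors K[X]) (RingHom.ext fun P => ?_)
    simp only [RingHom.comp_apply]
    rw [← IsScalarTower.algebraMap_apply K[X] (RatFunc K) (FF K N), ratMap_algebraMap,
      ← IsScalarTower.algebraMap_apply K'[X] (RatFunc K') (FF K' N), ffMap_algebraMap_poly]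
  exact RingHom.congr_fun h r


/-- `[FF K N : K(X)] = [FF K N : K(j)]`. -/
theorem finrank_ratFunc_eq :
    finrank (RatFunc K) (FF K N) = finrank K⟮jF K N⟯ (FF K N) := by
  let i : RatFunc K → K⟮jF K N⟯ := fun r =>
    ⟨algebraMap (RatFunc K) (FF K N) r, FFSetting.algebraMap_ratFunc_mem_adjoin K N r⟩
  have hi : Function.Bijective i := by
    constructor
    · intro r s hrs
      exact (algebraMap (RatFunc K) (FF K N)).injective (congrArg Subtype.val hrs)
    · rintro ⟨c, hc⟩
      obtain ⟨r, hr⟩ := FFSetting.exists_algebraMap_ratFunc_eq K N hc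
      exact ⟨r, Subtype.ext hr⟩
  have h := rank_eq_of_equiv_equiv i (AddEquiv.refl (FF K N)) hi (fun r m => by
    rw [AddEquiv.refl_apply, AddEquiv.refl_apply, Algebra.smul_def]
    rfl)
  exact congrArg Cardinal.toNat h

/-- **`[FF K N : K(X)] = ψ(N)`** for `K` of characteristic zero embedded in `ℂ`. -/
theorem finrank_ratFunc_FF [NeZero N] [CharZero K] (ι : K →+* ℂ) :
    finrank (RatFunc K) (FF K N) = dedekindPsi N := by
  rw [finrank_ratFunc_eq, finrank_FF K N ι]

theorem ffMap_jNF [NeZero N] : ffMap f N (jNF K N) = jNF K' N := by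
  apply Subtype.ext
  rw [coe_ffMap, coe_jdF, coe_jdF, coeffMap_qExpand, coeffMap_jqModC]

/-- `FF K' N = K'(X) · ffMap (FF K N)` (characteristic zero). -/
theorem span_range_ffMap [NeZero N] [CharZero K'] [Algebra.IsAlgebraic (RatFunc K') (FF K' N)] :
    Submodule.span (RatFunc K') (Set.range (ffMap f N)) = ⊤ := by
  refine span_range_eq_top (ffMap f N) fun T hT1 hT2 => ?_
  rw [eq_top_iff]
  intro z _
  let T' : IntermediateField K' (FF K' N) :=
    { T with
      algebraMap_mem' := fun c => by
        have := hT1 (algebraMap K' (RatFunc K') c)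
        rwa [← IsScalarTower.algebraMap_apply K' (RatFunc K') (FF K' N)] at this }
  have hle : IntermediateField.adjoin K' {jF K' N, jNF K' N} ≤ T' := by
    rw [IntermediateField.adjoin_le_iff]
    rintro x (rfl | rfl)
    · have := hT2 (jF K N)
      rwa [ffMap_jF] at this
    · have := hT2 (jNF K N)
      rwa [ffMap_jNF] at this
  rw [adjoin_jF_jNF_eq_top] at hle
  exact hle (IntermediateField.mem_top)


section Level

variable [NeZero N] [CharZero K] [CharZero K']
  [FiniteDimensional (RatFunc K) (FF K N)] [FiniteDimensional (RatFunc K') (FF K' N)]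

/-- **`Tr_{FF K' N / K'(j)} ∘ ffMap = ratMap ∘ Tr_{FF K N / K(j)}`** (both fields embedded in `ℂ`). -/
theorem trace_ffMap (ι : K →+* ℂ) (ι' : K' →+* ℂ) (y : FF K N) :
    Algebra.trace (RatFunc K') (FF K' N) (ffMap f N y) =
      ratMap f (Algebra.trace (RatFunc K) (FF K N) y) :=
  trace_map (ratMap f) (ffMap f N) (ffMap_algebraMap_ratFunc f N)
    ((finrank_ratFunc_FF N ι).trans (finrank_ratFunc_FF N ι').symm) (span_range_ffMap f N) y

variable [Algebra.IsSeparable (RatFunc K) (FF K N)] [Algebra.IsSeparable (RatFunc K') (FF K' N)]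

/-- **Regularity descends from `K'` to `K`**: `ffMap f N h ∈ holo K' N → h ∈ holo K N`. -/
theorem mem_holo_of_ffMap_mem (ι : K →+* ℂ) (ι' : K' →+* ℂ) {h : FF K N}
    (hh : ffMap f N h ∈ Setting.holo K' N) : h ∈ Setting.holo K N :=
  mem_holoSpace_of_map f (ffMap f N) (ffMap_algebraMap_ratFunc f N) (trace_ffMap f N ι ι') hh

end Level

end FF

end

end Fermat.Agent.S40.W.ConstDescent
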