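/-
S40 / (W3) leaf W-INFCHART (helper25): the chart at infinity of the Dedekind–Weber space of
holomorphic differentials, in AFFINE form.

`M2/DWMain.holoSpace k K B Binf` is defined with the semilocal ring `Binf` (integral closure of the
valuation ring `Oinf k` at infinity of `k(x)`).  For the reduction modulo a prime (row 63 (D5)(d),
W7) the ring `Oinf` is useless: a Gauss-integral element of `Oinf K` need not reduce into `Oinf κ`
(`1 / (x⁻¹ + ϖ)`).  Gauss' lemma is available on the AFFINE chart `k[x⁻¹]`, so we rewrite the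
condition at infinity with `C` := integral closure of `k[x⁻¹]` in `K`:

* `trace_mem_adjoin_inv` (R∞1): `h ∈ holoSpace`, `c` integral over `k[x⁻¹]` ⇒
  `Tr (x² • h * c) ∈ k[x⁻¹]`;
* `smul_mem_traceDual_Binf` (R∞3): if `Tr (x² • h * c) ∈ Oinf k` for all `c` integral over `k[x⁻¹]`,
  then `x² • h ∈ traceDual (Oinf k) (1 : Submodule Binf K)` (`Binf` is a localisation of `C`);
* `mem_holoSpace_iff_charts`: the symmetric two-chart description of `holoSpace`.

Everything holds over an arbitrary field `k` (no characteristic hypothesis, no `IsAlgClosed`).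
-/
import Fermat.Agent.M2.DWMain
import Fermat.Agent.N4.Chart

set_option autoImplicit false

open Polynomial Module

namespace Fermat.Agent.S40.W.InfChart

open Fermat.Agent.M2.DW Fermat.Agent.N4.Chart

noncomputable section

/-! ### `k[x, x⁻¹] ∩ O_∞ = k[x⁻¹]` inside `k(x)` -/

section OneVar

variable {k : Type*} [Field k]

/-- `x ^ e ∈ k[x⁻¹]` for `e ≤ 0`. -/
theorem X_zpow_mem_adjoin_inv {e : ℤ} (he : e ≤ 0) :
    (RatFunc.X : RatFunc k) ^ e ∈ Algebra.adjoin k {(RatFunc.X : RatFunc k)⁻¹} := by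
  obtain ⟨m, rfl⟩ : ∃ m : ℕ, e = -(m : ℤ) := ⟨(-e).toNat, by omega⟩
  rw [zpow_neg, zpow_natCast, ← inv_pow]
  exact pow_mem (Algebra.subset_adjoin (Set.mem_singleton _)) m

/-- `k[x⁻¹] ⊆ O_∞`. -/
theorem adjoin_inv_le_Oinf {t : RatFunc k}
    (ht : t ∈ Algebra.adjoin k {(RatFunc.X : RatFunc k)⁻¹}) : t ∈ Oinf k := by
  induction ht using Algebra.adjoin_induction with
  | mem y hy =>
    rw [Set.mem_singleton_iff] at hy
    subst hy
    rw [mem_Oinf_iff_intDegree, ← zpow_neg_one, Fermat.Agent.M2.intDegree_X_zpow]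
    norm_num
  | algebraMap c =>
    rw [mem_Oinf_iff_intDegree, RatFunc.algebraMap_eq_C, RatFunc.intDegree_C]
  | add y z _ _ hy hz => exact add_mem hy hz
  | mul y z _ _ hy hz => exact mul_mem hy hz

/-- `k[x, x⁻¹] ∩ O_∞ ⊆ k[x⁻¹]`. -/
theorem X_zpow_mul_mem_adjoin_inv {e : ℤ} {P : k[X]}
    (h : (RatFunc.X : RatFunc k) ^ e * algebraMap k[X] (RatFunc k) P ∈ Oinf k) :
    (RatFunc.X : RatFunc k) ^ e * algebraMap k[X] (RatFunc k) P ∈
      Algebra.adjoin k {(RatFunc.X : RatFunc k)⁻¹} := by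
  by_cases hP : P = 0
  · rw [hP, map_zero, mul_zero]
    exact zero_mem _
  have hP' : algebraMap k[X] (RatFunc k) P ≠ 0 := by
    rwa [Ne, FaithfulSMul.algebraMap_eq_zero_iff]
  have hdeg : e + (P.natDegree : ℤ) ≤ 0 := by
    rw [mem_Oinf_iff_intDegree, RatFunc.intDegree_mul (zpow_ne_zero _ RatFunc.X_ne_zero) hP',
      Fermat.Agent.M2.intDegree_X_zpow, RatFunc.intDegree_polynomial] at h
    exact h
  have hsum : (RatFunc.X : RatFunc k) ^ e * algebraMap k[X] (RatFunc k) P =
      ∑ i ∈ Finset.range (P.natDegree + 1),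
        (RatFunc.X : RatFunc k) ^ e * algebraMap k[X] (RatFunc k) (C (P.coeff i) * X ^ i) := by
    rw [← Finset.mul_sum, ← map_sum, ← P.as_sum_range_C_mul_X_pow]
  rw [hsum]
  refine Subalgebra.sum_mem _ fun i hi => ?_
  rw [Finset.mem_range] at hi
  have h1 : (RatFunc.X : RatFunc k) ^ e * algebraMap k[X] (RatFunc k) (C (P.coeff i) * X ^ i) =
      algebraMap k (RatFunc k) (P.coeff i) * (RatFunc.X : RatFunc k) ^ (e + (i : ℤ)) := by
    rw [map_mul, map_pow, RatFunc.algebraMap_C, RatFunc.algebraMap_X, RatFunc.algebraMap_eq_C,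
      zpow_add₀ RatFunc.X_ne_zero, zpow_natCast]
    ring
  rw [h1]
  exact mul_mem (Subalgebra.algebraMap_mem _ _) (X_zpow_mem_adjoin_inv (by omega))

/-- Clearing the denominator of an element of `O_∞`: `u ∈ O_∞` ⇒ `s * u ∈ k[x⁻¹]` for some
`s ∈ k[x⁻¹]` which is a unit of `O_∞`. -/
theorem exists_mul_mem_adjoin_inv {u : RatFunc k} (hu : u ∈ Oinf k) :
    ∃ s : RatFunc k, s ∈ Algebra.adjoin k {(RatFunc.X : RatFunc k)⁻¹} ∧ s ≠ 0 ∧ s⁻¹ ∈ Oinf k ∧
      s * u ∈ Algebra.adjoin k {(RatFunc.X : RatFunc k)⁻¹} := by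
  by_cases hu0 : u = 0
  · refine ⟨1, one_mem _, one_ne_zero, ?_, ?_⟩
    · rw [inv_one]; exact one_mem _
    · rw [hu0, mul_zero]; exact zero_mem _
  set d : k[X] := u.denom with hd
  have hd0 : d ≠ 0 := u.denom_ne_zero
  have hd' : algebraMap k[X] (RatFunc k) d ≠ 0 := by
    rwa [Ne, FaithfulSMul.algebraMap_eq_zero_iff]
  have hXe : (RatFunc.X : RatFunc k) ^ (-(d.natDegree : ℤ)) ≠ 0 :=
    zpow_ne_zero _ RatFunc.X_ne_zero
  set s : RatFunc k := (RatFunc.X : RatFunc k) ^ (-(d.natDegree : ℤ)) *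
    algebraMap k[X] (RatFunc k) d with hs
  have hs0 : s ≠ 0 := mul_ne_zero hXe hd'
  have hsdeg : s.intDegree = 0 := by
    rw [hs, RatFunc.intDegree_mul hXe hd', Fermat.Agent.M2.intDegree_X_zpow,
      RatFunc.intDegree_polynomial]
    ring
  have hsinv : s⁻¹ ∈ Oinf k := by
    have h1 : (s * s⁻¹).intDegree = 0 := by rw [mul_inv_cancel₀ hs0, RatFunc.intDegree_one]
    rw [RatFunc.intDegree_mul hs0 (inv_ne_zero hs0), hsdeg, zero_add] at h1
    rw [mem_Oinf_iff_intDegree, h1]
  have hnum : algebraMap k[X] (RatFunc k) d * u = algebraMap k[X] (RatFunc k) u.num := by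
    have h := RatFunc.num_div_denom u
    rw [div_eq_iff hd'] at h
    rw [mul_comm]
    exact h.symm
  have hsu : s * u = (RatFunc.X : RatFunc k) ^ (-(d.natDegree : ℤ)) *
      algebraMap k[X] (RatFunc k) u.num := by
    rw [hs, mul_assoc, hnum]
  refine ⟨s, X_zpow_mul_mem_adjoin_inv ?_, hs0, hsinv, ?_⟩
  · rw [← hs, mem_Oinf_iff_intDegree, hsdeg]
  · rw [hsu]
    refine X_zpow_mul_mem_adjoin_inv ?_
    rw [← hsu, mem_Oinf_iff_intDegree, RatFunc.intDegree_mul hs0 hu0, hsdeg, zero_add]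
    exact mem_Oinf_iff_intDegree.mp hu

end OneVar

/-! ### Transport of integrality between rings with the same image -/

/-- If every element of `A` becomes, in `K`, the image of an element of `R`, then integrality
over `A` implies integrality over `R`. -/
theorem isIntegral_of_forall_mem_range {R A K : Type*} [CommRing R] [CommRing A] [CommRing K]
    [Algebra R K] [Algebra A K]
    (hA : ∀ a : A, algebraMap A K a ∈ (algebraMap R K).range) {y : K} (hy : IsIntegral A y) :
    IsIntegral R y := by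
  obtain ⟨p, hmonic, hroot⟩ := hy
  have hlifts : p.map (algebraMap A K) ∈ Polynomial.lifts (algebraMap R K) :=
    (Polynomial.lifts_iff_coeff_lifts _).mpr fun i => by
      rw [Polynomial.coeff_map]
      exact hA _
  obtain ⟨q, hq, -, hqm⟩ := Polynomial.lifts_and_natDegree_eq_and_monic hlifts (hmonic.map _)
  refine ⟨q, hqm, ?_⟩
  rw [Polynomial.eval₂_eq_eval_map, hq, Polynomial.eval_map]
  exact hroot

/-! ### The Dedekind–Weber setting -/

section Main

variable (k : Type*) [Field k]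
variable (K : Type*) [Field K] [Algebra (RatFunc k) K] [FiniteDimensional (RatFunc k) K]
  [Algebra.IsSeparable (RatFunc k) K]
variable [Algebra k[X] K] [IsScalarTower k[X] (RatFunc k) K]
variable (B : Type*) [CommRing B] [Algebra k[X] B] [Algebra B K] [IsScalarTower k[X] B K]
  [IsIntegralClosure B k[X] K]
variable (Binf : Type*) [CommRing Binf] [Algebra (Oinf k) Binf] [Algebra Binf K]
  [IsScalarTower (Oinf k) Binf K] [IsIntegralClosure Binf (Oinf k) K]
variable [Algebra k K] [IsScalarTower k (RatFunc k) K]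

local notation "F" => RatFunc k

/-- `x`, as an element of `K`. -/
local notation "xK" => algebraMap (RatFunc k) K (RatFunc.X : RatFunc k)

attribute [local instance] isScalarTower_poly isScalarTower_Oinf

variable {k K}

omit [FiniteDimensional (RatFunc k) K] [Algebra.IsSeparable (RatFunc k) K] [Algebra k[X] K]
  [IsScalarTower k[X] (RatFunc k) K] [Algebra k K] [IsScalarTower k (RatFunc k) K] in
theorem xK_ne_zero : xK ≠ 0 := by
  rw [Ne, FaithfulSMul.algebraMap_eq_zero_iff]
  exact RatFunc.X_ne_zero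

omit [FiniteDimensional (RatFunc k) K] [Algebra.IsSeparable (RatFunc k) K] in
theorem algebraMap_poly_eq_aeval (P : k[X]) : algebraMap k[X] K P = aeval xK P := by
  have h1 : algebraMap k[X] K (X : k[X]) = xK := by
    rw [IsScalarTower.algebraMap_apply k[X] (RatFunc k) K, RatFunc.algebraMap_X]
  rw [← h1, aeval_algebraMap_apply, aeval_X_left, AlgHom.id_apply]

omit [FiniteDimensional (RatFunc k) K] [Algebra.IsSeparable (RatFunc k) K] in
/-- Integral over `k[x] ⊆ K` ⇒ integral over the polynomial ring `k[X]`. -/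
theorem isIntegral_poly_of_isIntegral_adjoin {y : K}
    (hy : IsIntegral (Algebra.adjoin k {xK}) y) : IsIntegral k[X] y := by
  refine isIntegral_of_forall_mem_range (fun a => ?_) hy
  have ha : (a : K) ∈ (aeval xK : k[X] →ₐ[k] K).range :=
    (Algebra.adjoin_singleton_eq_range_aeval k xK).le a.2
  obtain ⟨P, hP⟩ := ha
  exact ⟨P, by rw [algebraMap_poly_eq_aeval]; exact hP⟩

omit [FiniteDimensional (RatFunc k) K] [Algebra.IsSeparable (RatFunc k) K] in
/-- Integral over the polynomial ring `k[X]` ⇒ integral over `k[x] ⊆ K`. -/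
theorem isIntegral_adjoin_of_isIntegral_poly {y : K} (hy : IsIntegral k[X] y) :
    IsIntegral (Algebra.adjoin k {xK}) y := by
  refine isIntegral_of_forall_mem_range (fun P => ?_) hy
  have hmem : algebraMap k[X] K P ∈ Algebra.adjoin k {xK} := by
    rw [Algebra.adjoin_singleton_eq_range_aeval, algebraMap_poly_eq_aeval]
    exact ⟨P, rfl⟩
  exact ⟨⟨_, hmem⟩, rfl⟩

omit [FiniteDimensional (RatFunc k) K] [Algebra.IsSeparable (RatFunc k) K] [Algebra k[X] K]
  [IsScalarTower k[X] (RatFunc k) K] in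
/-- `k[x⁻¹] ⊆ K` is the image of `k[X⁻¹] ⊆ k(X)`. -/
theorem mem_adjoin_inv_iff {a : K} : a ∈ Algebra.adjoin k {xK⁻¹} ↔
    ∃ t ∈ Algebra.adjoin k {(RatFunc.X : RatFunc k)⁻¹}, algebraMap (RatFunc k) K t = a := by
  rw [Algebra.adjoin_singleton_eq_range_aeval, Algebra.adjoin_singleton_eq_range_aeval]
  constructor
  · rintro ⟨P, rfl⟩
    refine ⟨aeval (RatFunc.X : RatFunc k)⁻¹ P, ⟨P, rfl⟩, ?_⟩
    rw [← aeval_algebraMap_apply, map_inv₀]
    rfl
  · rintro ⟨t, ⟨P, rfl⟩, rfl⟩
    refine ⟨P, ?_⟩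
    change aeval xK⁻¹ P = algebraMap (RatFunc k) K (aeval (RatFunc.X : RatFunc k)⁻¹ P)
    rw [← aeval_algebraMap_apply, map_inv₀]

omit [FiniteDimensional (RatFunc k) K] [Algebra.IsSeparable (RatFunc k) K] [Algebra k[X] K]
  [IsScalarTower k[X] (RatFunc k) K] in
/-- Integral over `k[x⁻¹]` ⇒ integral over `O_∞`. -/
theorem isIntegral_Oinf_of_isIntegral_adjoin_inv {y : K}
    (hy : IsIntegral (Algebra.adjoin k {xK⁻¹}) y) : IsIntegral (Oinf k) y := by
  refine isIntegral_of_forall_mem_range (fun a => ?_) hy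
  obtain ⟨t, ht, hta⟩ := mem_adjoin_inv_iff.mp a.2
  exact ⟨⟨t, adjoin_inv_le_Oinf ht⟩, hta⟩

omit [FiniteDimensional (RatFunc k) K] [Algebra.IsSeparable (RatFunc k) K] in
/-- An element integral over `k[x⁻¹]` becomes integral over `k[X]` after multiplication by a
power of `x`. -/
theorem exists_pow_mul_isIntegral_poly {c : K} (hc : IsIntegral (Algebra.adjoin k {xK⁻¹}) c) :
    ∃ m : ℕ, IsIntegral k[X] (xK ^ m * c) := by
  have h1 : c ∈ chartAlg k K (insert xK⁻¹ {xK}) :=
    chartAlg_mono (Set.singleton_subset_iff.mpr (Set.mem_insert _ _)) hc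
  obtain ⟨m, hm⟩ := exists_pow_mul_mem_chartAlg (Set.mem_singleton xK) xK_ne_zero h1
  exact ⟨m, isIntegral_poly_of_isIntegral_adjoin hm⟩

variable {B Binf}

/-- **(R∞1)** For `h` in the Dedekind–Weber space `holoSpace` and `c` integral over `k[x⁻¹]`, the
trace of `x² • h * c` is a POLYNOMIAL in `x⁻¹` (not only an element of `O_∞`). -/
theorem trace_mem_adjoin_inv {h : K} (hh : h ∈ holoSpace k K B Binf) {c : K}
    (hc : IsIntegral (Algebra.adjoin k {xK⁻¹}) c) :
    Algebra.trace F K ((RatFunc.X : RatFunc k) ^ (2 : ℤ) • h * c) ∈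
      Algebra.adjoin k {(RatFunc.X : RatFunc k)⁻¹} := by
  obtain ⟨hfin, hinf⟩ := mem_holoSpace_iff.mp hh
  -- the finite chart: `x ^ m * c ∈ B`
  obtain ⟨m, hm⟩ := exists_pow_mul_isIntegral_poly hc
  obtain ⟨b, hb⟩ := (IsIntegralClosure.isIntegral_iff (A := B)).mp hm
  obtain ⟨P, hP⟩ := (Submodule.mem_traceDual.mp hfin) (algebraMap B K b)
    (Submodule.mem_one.mpr ⟨b, rfl⟩)
  -- the chart at infinity: `c ∈ Binf`
  obtain ⟨c', hc'⟩ := (IsIntegralClosure.isIntegral_iff (A := Binf)).mp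
    (isIntegral_Oinf_of_isIntegral_adjoin_inv hc)
  obtain ⟨t, ht⟩ := (Submodule.mem_traceDual.mp hinf) c (Submodule.mem_one.mpr ⟨c', hc'⟩)
  rw [Algebra.traceForm_apply] at hP ht
  have hxm : ((RatFunc.X : RatFunc k) ^ m) ≠ 0 := pow_ne_zero _ RatFunc.X_ne_zero
  have h1 : h * algebraMap B K b = ((RatFunc.X : RatFunc k) ^ m) • (h * c) := by
    rw [hb, Algebra.smul_def, map_pow]
    ring
  have h2 : (RatFunc.X : RatFunc k) ^ (2 : ℤ) • h * c =
      (RatFunc.X : RatFunc k) ^ (2 : ℤ) • (h * c) := smul_mul_assoc _ _ _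
  have key : Algebra.trace F K ((RatFunc.X : RatFunc k) ^ (2 : ℤ) • h * c) =
      (RatFunc.X : RatFunc k) ^ ((2 : ℤ) - m) * algebraMap k[X] (RatFunc k) P := by
    rw [hP, h1, h2, map_smul, map_smul, smul_eq_mul, smul_eq_mul, ← mul_assoc,
      zpow_sub₀ RatFunc.X_ne_zero, zpow_natCast, div_mul_cancel₀ _ hxm]
  rw [key]
  refine X_zpow_mul_mem_adjoin_inv ?_
  rw [← key, ← ht]
  exact t.2

omit [FiniteDimensional (RatFunc k) K] [Algebra.IsSeparable (RatFunc k) K] [Algebra k[X] K]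
  [IsScalarTower k[X] (RatFunc k) K] in
/-- Clearing denominators at infinity: an element integral over `O_∞` becomes integral over
`k[x⁻¹]` after multiplication by some `s ∈ k[x⁻¹]` which is a unit of `O_∞`
(`Binf` is a localisation of the integral closure of `k[x⁻¹]`). -/
theorem exists_mul_isIntegral_adjoin_inv {a : K} (ha : IsIntegral (Oinf k) a) :
    ∃ s : RatFunc k, s ≠ 0 ∧ s⁻¹ ∈ Oinf k ∧
      IsIntegral (Algebra.adjoin k {xK⁻¹}) (algebraMap (RatFunc k) K s * a) := by
  classical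
  obtain ⟨p, hmonic, hroot⟩ := ha
  have hcoeff : ∀ i, ∃ s : RatFunc k, s ∈ Algebra.adjoin k {(RatFunc.X : RatFunc k)⁻¹} ∧ s ≠ 0 ∧
      s⁻¹ ∈ Oinf k ∧ s * ((p.coeff i : Oinf k) : RatFunc k) ∈
        Algebra.adjoin k {(RatFunc.X : RatFunc k)⁻¹} :=
    fun i => exists_mul_mem_adjoin_inv (p.coeff i).2
  choose σ hσ1 hσ2 hσ3 hσ4 using hcoeff
  set s : RatFunc k := ∏ i ∈ Finset.range p.natDegree, σ i with hs
  have hs0 : s ≠ 0 := Finset.prod_ne_zero_iff.mpr fun i _ => hσ2 i
  have hsinv : s⁻¹ ∈ Oinf k := by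
    rw [hs, ← Finset.prod_inv_distrib]
    exact Subring.prod_mem _ fun i _ => hσ3 i
  have hsmem : s ∈ Algebra.adjoin k {(RatFunc.X : RatFunc k)⁻¹} :=
    Subalgebra.prod_mem _ fun i _ => hσ1 i
  have hscoeff : ∀ i < p.natDegree, s * ((p.coeff i : Oinf k) : RatFunc k) ∈
      Algebra.adjoin k {(RatFunc.X : RatFunc k)⁻¹} := by
    intro i hi
    rw [hs, ← Finset.mul_prod_erase _ _ (Finset.mem_range.mpr hi), mul_right_comm]
    exact mul_mem (hσ4 i) (Subalgebra.prod_mem _ fun j _ => hσ1 j)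
  refine ⟨s, hs0, hsinv, ?_⟩
  set q : K[X] := (p.map (algebraMap (Oinf k) K)).scaleRoots (algebraMap (RatFunc k) K s) with hq
  have hqmonic : q.Monic := (Polynomial.monic_scaleRoots_iff _).mpr (hmonic.map _)
  have hqroot : q.eval (algebraMap (RatFunc k) K s * a) = 0 := by
    rw [hq, Polynomial.scaleRoots_eval_mul, Polynomial.eval_map, hroot, mul_zero]
  have hqcoeff : ∀ i, q.coeff i ∈ Algebra.adjoin k {xK⁻¹} := by
    intro i
    rw [hq, Polynomial.coeff_scaleRoots, Polynomial.coeff_map, hmonic.natDegree_map]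
    by_cases hi : i < p.natDegree
    · obtain ⟨j, hj⟩ : ∃ j, p.natDegree - i = j + 1 := ⟨p.natDegree - i - 1, by omega⟩
      have h1 : algebraMap (Oinf k) K (p.coeff i) * algebraMap (RatFunc k) K s ^ (p.natDegree - i) =
          algebraMap (RatFunc k) K (s * ((p.coeff i : Oinf k) : RatFunc k)) *
            algebraMap (RatFunc k) K s ^ j := by
        rw [hj, pow_succ, map_mul]
        change algebraMap (RatFunc k) K ((p.coeff i : Oinf k) : RatFunc k) * _ = _
        ring
      rw [h1]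
      exact mul_mem (mem_adjoin_inv_iff.mpr ⟨_, hscoeff i hi, rfl⟩)
        (pow_mem (mem_adjoin_inv_iff.mpr ⟨_, hsmem, rfl⟩) j)
    · rcases (not_lt.mp hi).lt_or_eq with hlt | heq
      · rw [Polynomial.coeff_eq_zero_of_natDegree_lt hlt, map_zero, zero_mul]
        exact zero_mem _
      · rw [← heq, hmonic.coeff_natDegree, map_one, one_mul, Nat.sub_self, pow_zero]
        exact one_mem _
  have hlifts : q ∈ Polynomial.lifts (algebraMap (Algebra.adjoin k {xK⁻¹}) K) :=
    (Polynomial.lifts_iff_coeff_lifts q).mpr fun i => ⟨⟨q.coeff i, hqcoeff i⟩, rfl⟩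
  obtain ⟨q', hq'q, -, hq'monic⟩ := Polynomial.lifts_and_natDegree_eq_and_monic hlifts hqmonic
  refine ⟨q', hq'monic, ?_⟩
  rw [Polynomial.eval₂_eq_eval_map, hq'q, hqroot]

omit [FiniteDimensional (RatFunc k) K] [Algebra.IsSeparable (RatFunc k) K] [Algebra k[X] K]
  [IsScalarTower k[X] (RatFunc k) K] in
/-- **(R∞3)** If the traces of `g * c` lie in `O_∞` for all `c` integral over `k[x⁻¹]`, then `g`
lies in the trace dual of `Binf`. -/
theorem mem_traceDual_Binf_of_forall {g : K}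
    (H : ∀ c : K, IsIntegral (Algebra.adjoin k {xK⁻¹}) c → Algebra.trace F K (g * c) ∈ Oinf k) :
    g ∈ Submodule.traceDual (Oinf k) F (1 : Submodule Binf K) := by
  rw [Submodule.mem_traceDual]
  intro a ha
  obtain ⟨a', rfl⟩ := Submodule.mem_one.mp ha
  have hint0 : IsIntegral (Oinf k) (algebraMap Binf K a') :=
    (IsIntegralClosure.isIntegral_iff (A := Binf)).mpr ⟨a', rfl⟩
  obtain ⟨s, hs0, hsinv, hint⟩ := exists_mul_isIntegral_adjoin_inv hint0
  have h1 := H _ hint
  have h2 : g * (algebraMap (RatFunc k) K s * algebraMap Binf K a') =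
      s • (g * algebraMap Binf K a') := by
    rw [Algebra.smul_def]
    ring
  rw [h2, map_smul, smul_eq_mul] at h1
  rw [Algebra.traceForm_apply]
  have h3 : Algebra.trace F K (g * algebraMap Binf K a') =
      s⁻¹ * (s * Algebra.trace F K (g * algebraMap Binf K a')) := by
    rw [← mul_assoc, inv_mul_cancel₀ hs0, one_mul]
  rw [h3]
  exact ⟨⟨_, mul_mem hsinv h1⟩, rfl⟩

/-- **The two-chart description of the Dedekind–Weber space**: `h ∈ holoSpace` iff the traces of
`h * b` are polynomials in `x` for all `b` integral over `k[x]`, and the traces of `x² • h * c` are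
polynomials in `x⁻¹` for all `c` integral over `k[x⁻¹]`. -/
theorem mem_holoSpace_iff_charts {h : K} :
    h ∈ holoSpace k K B Binf ↔
      (∀ b ∈ chartAlg k K {xK},
        Algebra.trace F K (h * b) ∈ Algebra.adjoin k {(RatFunc.X : RatFunc k)}) ∧
      (∀ c ∈ chartAlg k K {xK⁻¹},
        Algebra.trace F K ((RatFunc.X : RatFunc k) ^ (2 : ℤ) • h * c) ∈
          Algebra.adjoin k {(RatFunc.X : RatFunc k)⁻¹}) := by
  constructor
  · intro hh
    refine ⟨fun b hb => ?_, fun c hc => trace_mem_adjoin_inv hh hc⟩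
    obtain ⟨b', rfl⟩ := (IsIntegralClosure.isIntegral_iff (A := B)).mp
      (isIntegral_poly_of_isIntegral_adjoin hb)
    obtain ⟨P, hP⟩ := (Submodule.mem_traceDual.mp (mem_holoSpace_iff.mp hh).1) (algebraMap B K b')
      (Submodule.mem_one.mpr ⟨b', rfl⟩)
    rw [Algebra.traceForm_apply] at hP
    rw [← hP, Algebra.adjoin_singleton_eq_range_aeval]
    refine ⟨P, ?_⟩
    change aeval (RatFunc.X : RatFunc k) P = _
    rw [← RatFunc.algebraMap_X, aeval_algebraMap_apply, aeval_X_left, AlgHom.id_apply]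
  · rintro ⟨h1, h2⟩
    refine mem_holoSpace_iff.mpr ⟨?_, mem_traceDual_Binf_of_forall fun c hc =>
      adjoin_inv_le_Oinf (h2 c hc)⟩
    rw [Submodule.mem_traceDual]
    intro a ha
    obtain ⟨a', rfl⟩ := Submodule.mem_one.mp ha
    have hint0 : IsIntegral k[X] (algebraMap B K a') :=
      (IsIntegralClosure.isIntegral_iff (A := B)).mpr ⟨a', rfl⟩
    have h3 := h1 _ (isIntegral_adjoin_of_isIntegral_poly hint0)
    rw [Algebra.adjoin_singleton_eq_range_aeval] at h3
    obtain ⟨P, hP⟩ := h3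
    rw [Algebra.traceForm_apply]
    refine ⟨P, ?_⟩
    rw [← hP, ← RatFunc.algebraMap_X]
    change _ = aeval (algebraMap k[X] (RatFunc k) X) P
    rw [aeval_algebraMap_apply, aeval_X_left, AlgHom.id_apply]

end Main

end

end Fermat.Agent.S40.W.InfChart
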