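/-
S40 / (W3), leaf W6 (helper27): **the Gauss reduction commutes with the trace** (Mathlib only).

`O` a discrete valuation ring, `K₀ = Frac O`, `κ` its residue field.

* Part 1 (`trace_core`): `A` a discrete valuation ring with fraction field `F₀`, `L / F₀` finite
  separable, `S` the integral closure of `A` in `L`; `r : A → k₀`, `θ : S → Lb` surjections onto
  fields, compatible, with `ker θ = 𝔪_A S`.  Then for `x ∈ S` the trace `Tr_{L/F₀} x` is (the image of)
  an element `t` of `A` and `r t = Tr_{Lb/k₀} (θ x)`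
  (Mathlib's `Algebra.trace_quotient_eq_of_isDedekindDomain` transported along the two quotient
  isomorphisms).
* Part 2: the Gauss ring of `K₀(X)`, `GaussRing O := O[X]_{𝔪_O O[X]}`: it is a discrete valuation
  ring (`gaussRing_isDVR`) with fraction field `K₀(X)` (`gaussToK`, `isFractionRing_gaussK`) and
  residue map `gaussRed` onto `κ(X)`; `polyK : O[X] → K₀(X)`, `polyRes : O[X] → κ(X)`;
  **Gauss' lemma** `gauss_poly`, `gauss_poly_res` (`K₀[X] ∩ Gauss ring = O[X]`) and the same in the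
  variable `X⁻¹` (`gauss_poly_inv_res`).
* Part 3: `IsGaussRed ϖ G θ` — the hypotheses on a "Gauss ring" `G ⊆ L` (`L / K₀(X)` finite
  separable) with reduction `θ : G → Lb` (`Lb / κ(X)` a field extension): integrally closed,
  contains `O[X]` and `θ` reduces coefficients there, elements with nonzero reduction are units,
  `θ` is onto, and on the integral closure of `O[X]` the kernel of `θ` is generated by `ϖ`.
  Then `G` is THE integral closure of the Gauss ring of `K₀(X)` (`mem_of_isIntegral`,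
  `isIntegral_of_mem`), `ker θ = ϖ G`, and
  - `IsGaussRed.trace_reduction` : `Tr_{L/K₀(X)} y = P / Q`, `Tr_{Lb/κ(X)} (θ y) = P̄ / Q̄`
    (`P, Q ∈ O[X]`, `Q̄ ≠ 0`) for `y ∈ G`;
  - `IsGaussRed.trace_poly` : if `Tr y = T ∈ K₀[X]` then `T ∈ O[X]` and `Tr (θ y) = T̄`;
  - `IsGaussRed.trace_poly_inv` : the same for polynomials in `X⁻¹`.
-/
import Mathlib

set_option autoImplicit false
set_option linter.unusedSectionVars false
set_option linter.style.haveILetI false
set_option linter.style.longLine false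

open Polynomial IsLocalRing

namespace Fermat.Agent.S40.W.TraceReduction

noncomputable section

/-! ### Part 1: the abstract core -/

section Core

variable {A F₀ L k₀ Lb : Type*} [CommRing A] [IsDomain A] [IsDiscreteValuationRing A]
  [Field F₀] [Algebra A F₀] [IsFractionRing A F₀]
  [Field L] [Algebra F₀ L] [Algebra A L] [IsScalarTower A F₀ L] [FiniteDimensional F₀ L]
  [Algebra.IsSeparable F₀ L]
  [Field k₀] [Field Lb] [Algebra k₀ Lb]

theorem ker_eq_maximalIdeal (r : A →+* k₀) (hr : Function.Surjective r) :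
    RingHom.ker r = maximalIdeal A := by
  have : (RingHom.ker r).IsMaximal := RingHom.ker_isMaximal_of_surjective r hr
  exact IsLocalRing.eq_maximalIdeal this

theorem algebraMap_injective_of_tower (A F₀ L : Type*) [CommRing A] [IsDomain A] [Field F₀]
    [Algebra A F₀] [IsFractionRing A F₀] [Field L] [Algebra F₀ L] [Algebra A L]
    [IsScalarTower A F₀ L] : Function.Injective (algebraMap A L) := by
  rw [IsScalarTower.algebraMap_eq A F₀ L]
  exact (algebraMap F₀ L).injective.comp (IsFractionRing.injective A F₀)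

theorem trace_core (r : A →+* k₀) (θ : integralClosure A L →+* Lb)
    (hr : Function.Surjective r) (hθ : Function.Surjective θ)
    (hcompat : ∀ a : A, θ (algebraMap A (integralClosure A L) a) = algebraMap k₀ Lb (r a))
    (hker : ∀ x, θ x = 0 → x ∈ (maximalIdeal A).map (algebraMap A (integralClosure A L)))
    (x : integralClosure A L) :
    ∃ t : A, algebraMap A F₀ t = Algebra.trace F₀ L (x : L) ∧
      r t = Algebra.trace k₀ Lb (θ x) := by
  haveI : Module.IsTorsionFree A L :=
    Module.isTorsionFree_iff_algebraMap_injective.mpr (algebraMap_injective_of_tower A F₀ L)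
  haveI : Module.Finite A (integralClosure A L) :=
    IsIntegralClosure.finite A F₀ L (integralClosure A L)
  haveI : IsIntegrallyClosed (integralClosure A L) :=
    integralClosure.isIntegrallyClosedOfFiniteExtension F₀
  refine ⟨Algebra.intTrace A (integralClosure A L) x, ?_, ?_⟩
  · exact Algebra.algebraMap_intTrace (A := A) (K := F₀) (L := L) (B := integralClosure A L) x
  · have hkr : RingHom.ker r = maximalIdeal A := ker_eq_maximalIdeal r hr
    have hkθ : RingHom.ker θ =
        (maximalIdeal A).map (algebraMap A (integralClosure A L)) := by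
      apply le_antisymm
      · intro y hy
        exact hker y ((RingHom.mem_ker).mp hy)
      · rw [Ideal.map_le_iff_le_comap]
        intro a ha
        rw [Ideal.mem_comap, RingHom.mem_ker, hcompat]
        have : r a = 0 := by
          rw [← RingHom.mem_ker, hkr]; exact ha
        rw [this, map_zero]
    let e₁ : A ⧸ maximalIdeal A ≃+* k₀ :=
      (Ideal.quotEquivOfEq hkr.symm).trans (RingHom.quotientKerEquivOfSurjective hr)
    let e₂ : integralClosure A L ⧸ (maximalIdeal A).map (algebraMap A (integralClosure A L)) ≃+*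
        Lb :=
      (Ideal.quotEquivOfEq hkθ.symm).trans (RingHom.quotientKerEquivOfSurjective hθ)
    have he₁ : ∀ a : A, e₁ (Ideal.Quotient.mk _ a) = r a := fun a => rfl
    have he₂ : ∀ y : integralClosure A L, e₂ (Ideal.Quotient.mk _ y) = θ y := fun y => rfl
    have he : (algebraMap k₀ Lb).comp (e₁ : A ⧸ maximalIdeal A →+* k₀) =
        (e₂ : integralClosure A L ⧸ (maximalIdeal A).map (algebraMap A (integralClosure A L)) →+*
          Lb).comp (algebraMap (A ⧸ maximalIdeal A)
            (integralClosure A L ⧸ (maximalIdeal A).map (algebraMap A (integralClosure A L)))) := by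
      apply Ideal.Quotient.ringHom_ext
      ext a
      simp only [RingHom.coe_comp, RingHom.coe_coe, Function.comp_apply, he₁,
        Ideal.Quotient.algebraMap_quotient_map_quotient, he₂, hcompat]
    have h1 := Algebra.trace_quotient_eq_of_isDedekindDomain (integralClosure A L)
      (maximalIdeal A) x
    have h2 := Algebra.trace_eq_of_equiv_equiv e₁ e₂ he (Ideal.Quotient.mk _ x)
    rw [h1, he₂] at h2
    have h3 := congrArg e₁ h2
    rw [RingEquiv.apply_symm_apply, he₁] at h3
    exact h3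

end Core

/-! ### Part 2: the Gauss ring of `K₀(X)` -/

section Gauss

variable (O K₀ : Type*) [CommRing O] [IsDomain O] [IsDiscreteValuationRing O] [Field K₀]
  [Algebra O K₀] [IsFractionRing O K₀]

/-- `O[X] → K₀(X)`. -/
def polyK : O[X] →+* RatFunc K₀ :=
  (algebraMap K₀[X] (RatFunc K₀)).comp (mapRingHom (algebraMap O K₀))

/-- `O[X] → κ(X)`, `κ` the residue field of `O`. -/
def polyRes : O[X] →+* RatFunc (ResidueField O) :=
  (algebraMap (ResidueField O)[X] (RatFunc (ResidueField O))).comp (mapRingHom (residue O))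

theorem polyK_apply (P : O[X]) :
    polyK O K₀ P = algebraMap K₀[X] (RatFunc K₀) (P.map (algebraMap O K₀)) := rfl

theorem polyRes_apply (P : O[X]) :
    polyRes O P = algebraMap (ResidueField O)[X] (RatFunc (ResidueField O))
      (P.map (residue O)) := rfl

theorem polyK_injective : Function.Injective (polyK O K₀) := by
  intro P Q h
  rw [polyK_apply, polyK_apply] at h
  exact Polynomial.map_injective _ (IsFractionRing.injective O K₀)
    (IsFractionRing.injective K₀[X] (RatFunc K₀) h)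

/-- The prime `𝔪_O · O[X]` of `O[X]` (polynomials with zero reduction). -/
def gaussPrime : Ideal O[X] := RingHom.ker (mapRingHom (residue O))

instance gaussPrime_isPrime : (gaussPrime O).IsPrime := RingHom.ker_isPrime _

variable {O} in
theorem mem_gaussPrime_iff {P : O[X]} : P ∈ gaussPrime O ↔ P.map (residue O) = 0 :=
  RingHom.mem_ker

variable {O} in
theorem polyRes_ne_zero {Q : O[X]} (hQ : Q ∉ gaussPrime O) : polyRes O Q ≠ 0 := by
  rw [polyRes_apply]
  intro h
  apply hQ
  rw [mem_gaussPrime_iff]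
  exact IsFractionRing.injective (ResidueField O)[X] (RatFunc (ResidueField O))
    (h.trans (map_zero _).symm)

variable {O} in
theorem ne_zero_of_notMem_gaussPrime {Q : O[X]} (hQ : Q ∉ gaussPrime O) : Q ≠ 0 := by
  rintro rfl
  exact hQ (zero_mem _)

variable {O} in
theorem polyK_ne_zero {Q : O[X]} (hQ : Q ∉ gaussPrime O) : polyK O K₀ Q ≠ 0 := by
  intro h
  exact ne_zero_of_notMem_gaussPrime hQ (polyK_injective O K₀ (h.trans (map_zero _).symm))

/-- The Gauss ring of `K₀(X)`: the localisation of `O[X]` at `𝔪_O · O[X]`. -/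
abbrev GaussRing : Type _ := Localization.AtPrime (gaussPrime O)

/-- The Gauss ring inside `K₀(X)`. -/
def gaussToK : GaussRing O →+* RatFunc K₀ :=
  IsLocalization.lift (M := (gaussPrime O).primeCompl) (g := polyK O K₀)
    (fun y => (polyK_ne_zero K₀ y.2).isUnit)

/-- The reduction of the Gauss ring onto `κ(X)`. -/
def gaussRed : GaussRing O →+* RatFunc (ResidueField O) :=
  IsLocalization.lift (M := (gaussPrime O).primeCompl) (g := polyRes O)
    (fun y => (polyRes_ne_zero y.2).isUnit)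

theorem gaussToK_algebraMap (P : O[X]) :
    gaussToK O K₀ (algebraMap O[X] (GaussRing O) P) = polyK O K₀ P :=
  IsLocalization.lift_eq _ P

theorem gaussRed_algebraMap (P : O[X]) :
    gaussRed O (algebraMap O[X] (GaussRing O) P) = polyRes O P :=
  IsLocalization.lift_eq _ P

/-- Every element of the Gauss ring is `P / Q`, `Q̄ ≠ 0`, compatibly in `K₀(X)` and `κ(X)`. -/
theorem exists_rep (a : GaussRing O) : ∃ P Q : O[X], Q ∉ gaussPrime O ∧
    a * algebraMap O[X] (GaussRing O) Q = algebraMap O[X] (GaussRing O) P ∧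
    gaussToK O K₀ a * polyK O K₀ Q = polyK O K₀ P ∧
    gaussRed O a * polyRes O Q = polyRes O P := by
  obtain ⟨⟨P, Q⟩, h⟩ := IsLocalization.surj (gaussPrime O).primeCompl a
  refine ⟨P, Q, Q.2, h, ?_, ?_⟩
  · have := congrArg (gaussToK O K₀) h
    rwa [map_mul, gaussToK_algebraMap, gaussToK_algebraMap] at this
  · have := congrArg (gaussRed O) h
    rwa [map_mul, gaussRed_algebraMap, gaussRed_algebraMap] at this

theorem gaussToK_injective : Function.Injective (gaussToK O K₀) := by
  rw [injective_iff_map_eq_zero]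
  intro a ha
  obtain ⟨P, Q, hQ, h1, h2, -⟩ := exists_rep O K₀ a
  rw [ha, zero_mul] at h2
  have hP : P = 0 := polyK_injective O K₀ (h2.symm.trans (map_zero _).symm)
  rw [hP, map_zero] at h1
  have hQ' : algebraMap O[X] (GaussRing O) Q ≠ 0 := by
    intro h0
    have := congrArg (gaussToK O K₀) h0
    rw [gaussToK_algebraMap, map_zero] at this
    exact polyK_ne_zero K₀ hQ this
  exact (mul_eq_zero.mp h1).resolve_right hQ'

theorem gaussRed_surjective : Function.Surjective (gaussRed O) := by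
  intro z
  obtain ⟨⟨P, Q⟩, h⟩ := IsLocalization.surj (nonZeroDivisors (ResidueField O)[X]) z
  obtain ⟨P', rfl⟩ := Polynomial.map_surjective (residue O) (residue_surjective) P
  obtain ⟨Q', hQ'⟩ := Polynomial.map_surjective (residue O) (residue_surjective) (Q : _[X])
  have hQ0 : Q'.map (residue O) ≠ 0 := by
    rw [hQ']
    exact nonZeroDivisors.coe_ne_zero Q
  have hQmem : Q' ∈ (gaussPrime O).primeCompl := fun h0 => hQ0 (mem_gaussPrime_iff.mp h0)
  refine ⟨IsLocalization.mk' (GaussRing O) P' ⟨Q', hQmem⟩, ?_⟩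
  have hne : polyRes O Q' ≠ 0 := polyRes_ne_zero hQmem
  have h1 : gaussRed O (IsLocalization.mk' (GaussRing O) P' ⟨Q', hQmem⟩) * polyRes O Q' =
      polyRes O P' := by
    rw [← gaussRed_algebraMap, ← map_mul]
    have := IsLocalization.mk'_spec (GaussRing O) P' (⟨Q', hQmem⟩ : (gaussPrime O).primeCompl)
    rw [this, gaussRed_algebraMap]
  have h2 : z * polyRes O Q' = polyRes O P' := by
    rw [polyRes_apply, polyRes_apply, hQ']
    exact h
  exact mul_right_cancel₀ hne (h1.trans h2.symm)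

variable {O} in
theorem gaussPrime_eq_span {ϖ : O} (hϖ : Irreducible ϖ) :
    gaussPrime O = Ideal.span {(C ϖ : O[X])} := by
  unfold gaussPrime
  rw [ker_mapRingHom, ker_residue, hϖ.maximalIdeal_eq, Ideal.map_span, Set.image_singleton]

theorem algebraMap_gaussRing_injective :
    Function.Injective (algebraMap O[X] (GaussRing O)) :=
  IsLocalization.injective (GaussRing O) (gaussPrime O).primeCompl_le_nonZeroDivisors

variable {O} in
theorem maximalIdeal_gaussRing {ϖ : O} (hϖ : Irreducible ϖ) :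
    maximalIdeal (GaussRing O) = Ideal.span {algebraMap O[X] (GaussRing O) (C ϖ)} := by
  have h := Localization.AtPrime.map_eq_maximalIdeal (I := gaussPrime O)
  have h2 := congrArg (Ideal.map (algebraMap O[X] (GaussRing O))) (gaussPrime_eq_span hϖ)
  rw [Ideal.map_span, Set.image_singleton] at h2
  exact h.symm.trans h2

instance gaussRing_isDVR : IsDiscreteValuationRing (GaussRing O) := by
  obtain ⟨ϖ, hϖ⟩ := IsDiscreteValuationRing.exists_irreducible O
  have hmax := maximalIdeal_gaussRing hϖ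
  have hnf : ¬ IsField (GaussRing O) := by
    rw [isField_iff_maximalIdeal_eq, hmax, Ideal.span_singleton_eq_bot]
    intro h0
    have h1 : (C ϖ : O[X]) = 0 :=
      algebraMap_gaussRing_injective O (h0.trans (map_zero _).symm)
    exact hϖ.ne_zero (C_eq_zero.mp h1)
  refine ((IsDiscreteValuationRing.TFAE (GaussRing O) hnf).out 0 4).mpr ?_
  rw [hmax]
  exact ⟨⟨_, rfl⟩⟩

/-- `K₀(X)` as an algebra over the Gauss ring. -/
@[reducible] def algGaussK : Algebra (GaussRing O) (RatFunc K₀) := (gaussToK O K₀).toAlgebra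

theorem isFractionRing_gaussK :
    letI := algGaussK O K₀
    IsFractionRing (GaussRing O) (RatFunc K₀) := by
  letI := algGaussK O K₀
  haveI : FaithfulSMul (GaussRing O) (RatFunc K₀) :=
    (faithfulSMul_iff_algebraMap_injective _ _).mpr (gaussToK_injective O K₀)
  refine IsFractionRing.of_field (GaussRing O) (RatFunc K₀) ?_
  intro z
  obtain ⟨⟨P, Q⟩, h⟩ := IsLocalization.surj (nonZeroDivisors K₀[X]) z
  have hQ0 : (Q : K₀[X]) ≠ 0 := nonZeroDivisors.coe_ne_zero Q
  obtain ⟨b, hbM, hP'⟩ := IsLocalization.integerNormalization_spec (nonZeroDivisors O) P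
  obtain ⟨c, hcM, hQ'⟩ :=
    IsLocalization.integerNormalization_spec (nonZeroDivisors O) (Q : K₀[X])
  set P' := IsLocalization.integerNormalization (nonZeroDivisors O) P
  set Q' := IsLocalization.integerNormalization (nonZeroDivisors O) (Q : K₀[X])
  have hb0 : algebraMap O K₀ (b : O) ≠ 0 :=
    IsFractionRing.to_map_ne_zero_of_mem_nonZeroDivisors hbM
  have hc0 : algebraMap O K₀ (c : O) ≠ 0 :=
    IsFractionRing.to_map_ne_zero_of_mem_nonZeroDivisors hcM
  -- `z = (c P') / (b Q')`
  refine ⟨algebraMap O[X] (GaussRing O) (C (c : O) * P'),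
    algebraMap O[X] (GaussRing O) (C (b : O) * Q'), ?_⟩
  show z = gaussToK O K₀ _ / gaussToK O K₀ _
  rw [gaussToK_algebraMap, gaussToK_algebraMap, polyK_apply, polyK_apply, Polynomial.map_mul,
    Polynomial.map_mul, hP', hQ', map_C, map_C]
  have hden : algebraMap K₀[X] (RatFunc K₀)
      (C (algebraMap O K₀ (b : O)) * ((c : O) • (Q : K₀[X]))) ≠ 0 := by
    intro h0
    have := IsFractionRing.injective K₀[X] (RatFunc K₀) (h0.trans (map_zero _).symm)
    rw [Algebra.smul_def, mul_eq_zero, mul_eq_zero] at this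
    rcases this with h1 | h1 | h1
    · exact hb0 (C_eq_zero.mp h1)
    · rw [Polynomial.algebraMap_apply] at h1
      exact hc0 (C_eq_zero.mp h1)
    · exact hQ0 h1
  rw [eq_div_iff hden]
  simp only [Algebra.smul_def, map_mul] at h ⊢
  have h' : z * algebraMap K₀[X] (RatFunc K₀) (Q : K₀[X]) = algebraMap K₀[X] (RatFunc K₀) P := h
  linear_combination (algebraMap K₀[X] (RatFunc K₀) (C (algebraMap O K₀ (b : O))) *
    algebraMap K₀[X] (RatFunc K₀) (algebraMap O K₀[X] (c : O))) * h'

/-! #### Gauss' lemma: `K₀[X] ∩ (Gauss ring) = O[X]` -/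

variable {O K₀} in
theorem map_eq_zero_of_mul {T Q : O[X]} (hQ : Q ∉ gaussPrime O)
    (h : (T * Q).map (residue O) = 0) : T ∈ gaussPrime O := by
  rw [Polynomial.map_mul, mul_eq_zero] at h
  rcases h with h | h
  · exact mem_gaussPrime_iff.mpr h
  · exact absurd (mem_gaussPrime_iff.mpr h) hQ

variable {O K₀} in
theorem gauss_poly_aux {ϖ : O} (hϖ : Irreducible ϖ) {P Q : O[X]} (hQ : Q ∉ gaussPrime O)
    {T : K₀[X]} (h : T * Q.map (algebraMap O K₀) = P.map (algebraMap O K₀)) :
    ∀ (m : ℕ) (T' : O[X]), T'.map (algebraMap O K₀) = C (algebraMap O K₀ (ϖ ^ m)) * T →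
      ∃ T₀ : O[X], T₀.map (algebraMap O K₀) = T ∧ T₀ * Q = P := by
  have hinj : Function.Injective (Polynomial.map (algebraMap O K₀)) :=
    Polynomial.map_injective _ (IsFractionRing.injective O K₀)
  intro m
  induction m with
  | zero =>
    intro T' hT'
    rw [pow_zero, map_one, C_1, one_mul] at hT'
    refine ⟨T', hT', hinj ?_⟩
    rw [Polynomial.map_mul, hT', h]
  | succ m ih =>
    intro T' hT'
    have h1 : T' * Q = C (ϖ ^ (m + 1)) * P := by
      apply hinj
      rw [Polynomial.map_mul, hT', Polynomial.map_mul, map_C, mul_assoc, h]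
    have h2 : (T' * Q).map (residue O) = 0 := by
      rw [h1, Polynomial.map_mul, map_C, pow_succ, map_mul]
      have : residue O ϖ = 0 := by
        rw [residue_eq_zero_iff]
        exact hϖ.not_isUnit
      rw [this, mul_zero, C_0, zero_mul]
    have h3 : T' ∈ gaussPrime O := map_eq_zero_of_mul hQ h2
    rw [gaussPrime_eq_span hϖ, Ideal.mem_span_singleton] at h3
    obtain ⟨T'', rfl⟩ := h3
    apply ih T''
    have hϖ0 : (C (algebraMap O K₀ ϖ) : K₀[X]) ≠ 0 := by
      rw [Ne, C_eq_zero]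
      exact IsFractionRing.to_map_ne_zero_of_mem_nonZeroDivisors
        (mem_nonZeroDivisors_of_ne_zero hϖ.ne_zero)
    apply mul_left_cancel₀ hϖ0
    rw [Polynomial.map_mul, map_C] at hT'
    rw [hT', pow_succ, map_mul, C_mul]
    ring

/-- **Gauss' lemma**: a polynomial `T ∈ K₀[X]` which is `P / Q` with `P, Q ∈ O[X]`, `Q̄ ≠ 0`, has
coefficients in `O`, and `T Q = P` in `O[X]`. -/
theorem gauss_poly {P Q : O[X]} (hQ : Q ∉ gaussPrime O) {T : K₀[X]}
    (h : algebraMap K₀[X] (RatFunc K₀) T * polyK O K₀ Q = polyK O K₀ P) :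
    ∃ T₀ : O[X], T₀.map (algebraMap O K₀) = T ∧ T₀ * Q = P := by
  obtain ⟨ϖ, hϖ⟩ := IsDiscreteValuationRing.exists_irreducible O
  have h' : T * Q.map (algebraMap O K₀) = P.map (algebraMap O K₀) := by
    apply IsFractionRing.injective K₀[X] (RatFunc K₀)
    rw [map_mul]
    exact h
  obtain ⟨b, hbM, hT'⟩ := IsLocalization.integerNormalization_spec (nonZeroDivisors O) T
  have hb0 : b ≠ 0 := nonZeroDivisors.ne_zero hbM
  obtain ⟨m, u, hu⟩ := IsDiscreteValuationRing.eq_unit_mul_pow_irreducible hb0 hϖ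
  refine gauss_poly_aux hϖ hQ h' m
    (C ((u⁻¹ : Oˣ) : O) * IsLocalization.integerNormalization (nonZeroDivisors O) T) ?_
  rw [Polynomial.map_mul, hT', map_C, hu, Algebra.smul_def, Polynomial.algebraMap_apply,
    ← mul_assoc, ← C_mul, ← map_mul, ← mul_assoc, Units.inv_mul, one_mul]

theorem gauss_poly_res {P Q : O[X]} (hQ : Q ∉ gaussPrime O) {T : K₀[X]}
    (h : algebraMap K₀[X] (RatFunc K₀) T * polyK O K₀ Q = polyK O K₀ P) :
    ∃ T₀ : O[X], T₀.map (algebraMap O K₀) = T ∧ polyRes O T₀ * polyRes O Q = polyRes O P := by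
  obtain ⟨T₀, h1, h2⟩ := gauss_poly O K₀ hQ h
  exact ⟨T₀, h1, by rw [← map_mul, h2]⟩

/-! #### The same in the variable `X⁻¹` -/

theorem reflect_reflect {R : Type*} [Semiring R] (N : ℕ) (f : R[X]) :
    reflect N (reflect N f) = f := by
  ext i
  rw [coeff_reflect, coeff_reflect, revAt_invol]

theorem natDegree_reflect_le' {R : Type*} [Semiring R] {N : ℕ} {f : R[X]} (hf : f.natDegree ≤ N) :
    (reflect N f).natDegree ≤ N :=
  natDegree_reflect_le.trans (max_le le_rfl hf)

theorem aeval_inv_X_mul_pow (k : Type*) [Field k] (f : k[X]) (N : ℕ) (hf : f.natDegree ≤ N) :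
    aeval (RatFunc.X : RatFunc k)⁻¹ f * RatFunc.X ^ N =
      algebraMap k[X] (RatFunc k) (reflect N f) := by
  letI : Invertible (RatFunc.X : RatFunc k) := invertibleOfNonzero RatFunc.X_ne_zero
  have h := eval₂_reflect_mul_pow (algebraMap k (RatFunc k)) (RatFunc.X : RatFunc k) N
    (reflect N f) (natDegree_reflect_le' hf)
  rw [reflect_reflect, invOf_eq_inv] at h
  rw [aeval_def, h, ← aeval_def, RatFunc.aeval_X_left_eq_algebraMap]

theorem polyK_X_pow_mul (d : ℕ) (P : O[X]) :
    polyK O K₀ (X ^ d * P) = RatFunc.X ^ d * polyK O K₀ P := by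
  rw [map_mul, map_pow]
  congr 2
  rw [polyK_apply, map_X, RatFunc.algebraMap_X]

theorem polyRes_X_pow_mul (d : ℕ) (P : O[X]) :
    polyRes O (X ^ d * P) = RatFunc.X ^ d * polyRes O P := by
  rw [map_mul, map_pow]
  congr 2
  rw [polyRes_apply, map_X, RatFunc.algebraMap_X]

/-- **Gauss' lemma in the variable `X⁻¹`.** -/
theorem gauss_poly_inv_res {P Q : O[X]} (hQ : Q ∉ gaussPrime O) {T : K₀[X]}
    (h : aeval (RatFunc.X : RatFunc K₀)⁻¹ T * polyK O K₀ Q = polyK O K₀ P) :
    ∃ T₀ : O[X], T₀.map (algebraMap O K₀) = T ∧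
      aeval (RatFunc.X : RatFunc (ResidueField O))⁻¹ (T₀.map (residue O)) * polyRes O Q =
        polyRes O P := by
  set d := T.natDegree with hd
  have h1 : algebraMap K₀[X] (RatFunc K₀) (reflect d T) * polyK O K₀ Q =
      polyK O K₀ (X ^ d * P) := by
    rw [← aeval_inv_X_mul_pow K₀ T d le_rfl, polyK_X_pow_mul, ← h]
    ring
  obtain ⟨T₁, hT₁, hT₁Q⟩ := gauss_poly O K₀ hQ h1
  have hdeg₁ : T₁.natDegree ≤ d := by
    rw [← natDegree_map_eq_of_injective (IsFractionRing.injective O K₀) T₁, hT₁]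
    exact natDegree_reflect_le' le_rfl
  refine ⟨reflect d T₁, ?_, ?_⟩
  · rw [← reflect_map, hT₁, reflect_reflect]
  · have hdeg₀ : ((reflect d T₁).map (residue O)).natDegree ≤ d :=
      natDegree_map_le.trans (natDegree_reflect_le' hdeg₁)
    have h2 := aeval_inv_X_mul_pow (ResidueField O) ((reflect d T₁).map (residue O)) d hdeg₀
    rw [reflect_map, reflect_reflect] at h2
    have h3 : polyRes O T₁ * polyRes O Q = RatFunc.X ^ d * polyRes O P := by
      rw [← map_mul, hT₁Q, polyRes_X_pow_mul]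
    have hX : (RatFunc.X : RatFunc (ResidueField O)) ^ d ≠ 0 :=
      pow_ne_zero _ RatFunc.X_ne_zero
    apply mul_left_cancel₀ hX
    rw [← h3, polyRes_apply O T₁, ← h2]
    ring

end Gauss

/-! ### Part 3: the trace commutes with the reduction of a Gauss ring -/

section Main

variable (O K₀ : Type*) [CommRing O] [IsDomain O] [IsDiscreteValuationRing O] [Field K₀]
  [Algebra O K₀] [IsFractionRing O K₀]
  (L : Type*) [Field L] [Algebra (RatFunc K₀) L]
  (Lb : Type*) [Field Lb] [Algebra (RatFunc (ResidueField O)) Lb]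

/-- `O[X] → L`. -/
def polyL : O[X] →+* L := (algebraMap (RatFunc K₀) L).comp (polyK O K₀)

/-- `O[X] → Lb`. -/
def polyLb : O[X] →+* Lb := (algebraMap (RatFunc (ResidueField O)) Lb).comp (polyRes O)

variable {O K₀ L Lb}

/-- The hypotheses on a "Gauss ring" `G ⊆ L` with reduction `θ : G → Lb`, relative to the Gauss
ring of `K₀(X)` and its reduction onto `κ(X)`. -/
structure IsGaussRed (ϖ : O) (G : Subring L) (θ : G →+* Lb) : Prop where
  /-- `G` is integrally closed in `L` -/
  closed : ∀ x : L, IsIntegral G x → x ∈ G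
  /-- `O[X] ⊆ G` -/
  base_mem : ∀ P : O[X], polyL O K₀ L P ∈ G
  /-- `θ` reduces the coefficients on `O[X]` -/
  base_red : ∀ P : O[X], θ ⟨polyL O K₀ L P, base_mem P⟩ = polyLb O Lb P
  /-- elements with nonzero reduction are units -/
  inv_mem : ∀ x : G, θ x ≠ 0 → (x : L)⁻¹ ∈ G
  /-- `θ` is onto -/
  surj : Function.Surjective θ
  /-- the kernel of `θ` on the integral closure of `O[X]` is generated by `ϖ` -/
  ker_chart : ∀ (x : L) (hx : x ∈ G), (polyL O K₀ L).IsIntegralElem x → θ ⟨x, hx⟩ = 0 →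
    ∃ y : L, (polyL O K₀ L).IsIntegralElem y ∧ x = polyL O K₀ L (C ϖ) * y

namespace IsGaussRed

variable {ϖ : O} {G : Subring L} {θ : G →+* Lb} (h : IsGaussRed (K₀ := K₀) ϖ G θ)

include h

theorem polyLb_ne_zero {Q : O[X]} (hQ : Q ∉ gaussPrime O) : polyLb O Lb Q ≠ 0 := by
  unfold polyLb
  rw [RingHom.comp_apply]
  intro h0
  exact polyRes_ne_zero hQ ((algebraMap (RatFunc (ResidueField O)) Lb).injective
    (h0.trans (map_zero _).symm))

/-- `L` as an algebra over the Gauss ring of `K₀(X)`. -/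
@[reducible] def algGaussL (O K₀ L : Type*) [CommRing O] [IsDomain O] [IsDiscreteValuationRing O]
    [Field K₀] [Algebra O K₀] [IsFractionRing O K₀] [Field L] [Algebra (RatFunc K₀) L] :
    Algebra (GaussRing O) L :=
  ((algebraMap (RatFunc K₀) L).comp (gaussToK O K₀)).toAlgebra

/-- The image of the Gauss ring of `K₀(X)` lies in `G`, and `θ` is the reduction on it. -/
theorem gauss_mem (a : GaussRing O) :
    ∃ ha : algebraMap (RatFunc K₀) L (gaussToK O K₀ a) ∈ G,
      θ ⟨_, ha⟩ = algebraMap (RatFunc (ResidueField O)) Lb (gaussRed O a) := by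
  obtain ⟨P, Q, hQ, -, h2, h3⟩ := exists_rep O K₀ a
  have hQθ : θ ⟨polyL O K₀ L Q, h.base_mem Q⟩ ≠ 0 := by
    rw [h.base_red]
    exact h.polyLb_ne_zero hQ
  have hQinv := h.inv_mem _ hQθ
  have hQ0 : polyL O K₀ L Q ≠ 0 := by
    intro h0
    apply hQθ
    have : (⟨polyL O K₀ L Q, h.base_mem Q⟩ : G) = 0 := Subtype.ext h0
    rw [this, map_zero]
  have hrel : algebraMap (RatFunc K₀) L (gaussToK O K₀ a) * polyL O K₀ L Q = polyL O K₀ L P := by
    unfold polyL
    rw [RingHom.comp_apply, RingHom.comp_apply, ← map_mul, h2]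
  have hmem : algebraMap (RatFunc K₀) L (gaussToK O K₀ a) ∈ G := by
    have : algebraMap (RatFunc K₀) L (gaussToK O K₀ a) =
        polyL O K₀ L P * (polyL O K₀ L Q)⁻¹ := by
      rw [← hrel, mul_assoc, mul_inv_cancel₀ hQ0, mul_one]
    rw [this]
    exact G.mul_mem (h.base_mem P) hQinv
  refine ⟨hmem, ?_⟩
  have h4 : (⟨_, hmem⟩ : G) * ⟨polyL O K₀ L Q, h.base_mem Q⟩ = ⟨polyL O K₀ L P, h.base_mem P⟩ :=
    Subtype.ext hrel
  have h5 := congrArg θ h4
  rw [map_mul, h.base_red, h.base_red] at h5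
  have h6 : algebraMap (RatFunc (ResidueField O)) Lb (gaussRed O a) * polyLb O Lb Q =
      polyLb O Lb P := by
    unfold polyLb
    rw [RingHom.comp_apply, RingHom.comp_apply, ← map_mul, h3]
  exact mul_right_cancel₀ (h.polyLb_ne_zero hQ) (h5.trans h6.symm)

theorem theta_uniformizer : θ ⟨polyL O K₀ L (C ϖ), h.base_mem _⟩ = 0 ∨ IsUnit ϖ := by
  by_cases hu : IsUnit ϖ
  · exact Or.inr hu
  · left
    rw [h.base_red]
    unfold polyLb
    rw [RingHom.comp_apply, polyRes_apply, map_C]
    have : residue O ϖ = 0 := by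
      rw [residue_eq_zero_iff]; exact hu
    rw [this, C_0, map_zero, map_zero]

end IsGaussRed

section Proof

attribute [local instance] algGaussK

variable [Algebra (GaussRing O) L] [IsScalarTower (GaussRing O) (RatFunc K₀) L]
  [Algebra O[X] L] [IsScalarTower O[X] (GaussRing O) L]

theorem algebraMap_gauss_eq (a : GaussRing O) :
    algebraMap (GaussRing O) L a = algebraMap (RatFunc K₀) L (gaussToK O K₀ a) :=
  IsScalarTower.algebraMap_apply (GaussRing O) (RatFunc K₀) L a

theorem algebraMap_poly_eq (P : O[X]) : algebraMap O[X] L P = polyL O K₀ L P := by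
  rw [IsScalarTower.algebraMap_apply O[X] (GaussRing O) L, algebraMap_gauss_eq (K₀ := K₀),
    gaussToK_algebraMap]
  rfl

theorem isIntegralElem_iff {x : L} : (polyL O K₀ L).IsIntegralElem x ↔ IsIntegral O[X] x := by
  have : algebraMap O[X] L = polyL O K₀ L := RingHom.ext (algebraMap_poly_eq (K₀ := K₀))
  unfold IsIntegral
  rw [this]

namespace IsGaussRed

variable {ϖ : O} {G : Subring L} {θ : G →+* Lb} (h : IsGaussRed (K₀ := K₀) ϖ G θ)

include h

/-- The Gauss ring of `K₀(X)` maps into `G`. -/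
def toG : GaussRing O →+* G :=
  RingHom.codRestrict (algebraMap (GaussRing O) L) G (fun a => by
    rw [algebraMap_gauss_eq (K₀ := K₀)]
    exact (h.gauss_mem a).1)

theorem coe_toG (a : GaussRing O) : (h.toG a : L) = algebraMap (GaussRing O) L a := rfl

theorem theta_toG (a : GaussRing O) :
    θ (h.toG a) = algebraMap (RatFunc (ResidueField O)) Lb (gaussRed O a) := by
  have := (h.gauss_mem a).2
  rw [← this]
  congr 1
  exact Subtype.ext (algebraMap_gauss_eq (K₀ := K₀) a)

/-- (c) integral over the Gauss ring of `K₀(X)` ⇒ in `G`. -/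
theorem mem_of_isIntegral {x : L} (hx : IsIntegral (GaussRing O) x) : x ∈ G := by
  apply h.closed
  have := hx.map_of_comp_eq h.toG (RingHom.id L) (by ext; rfl)
  simpa using this

/-- Step 1: the kernel of `θ` on the integral closure is generated by `ϖ`. -/
theorem exists_eq_mul_of_theta_eq_zero {x : L} (hx : IsIntegral (GaussRing O) x)
    (hθ : θ ⟨x, h.mem_of_isIntegral hx⟩ = 0) :
    ∃ s : L, IsIntegral (GaussRing O) s ∧ x = polyL O K₀ L (C ϖ) * s := by
  obtain ⟨m, hm⟩ := IsIntegral.exists_multiple_integral_of_isLocalization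
    (gaussPrime O).primeCompl (Rₘ := GaussRing O) x hx
  have hmx : m • x = polyL O K₀ L (m : O[X]) * x := by
    rw [Submonoid.smul_def, Algebra.smul_def, algebraMap_poly_eq (K₀ := K₀)]
  have hmG : m • x ∈ G := by
    rw [hmx]
    exact G.mul_mem (h.base_mem _) (h.mem_of_isIntegral hx)
  have hθm : θ ⟨m • x, hmG⟩ = 0 := by
    have : (⟨m • x, hmG⟩ : G) = ⟨polyL O K₀ L (m : O[X]), h.base_mem _⟩ *
        ⟨x, h.mem_of_isIntegral hx⟩ := Subtype.ext hmx
    rw [this, map_mul, hθ, mul_zero]
  obtain ⟨y, hy, hxy⟩ := h.ker_chart (m • x) hmG ((isIntegralElem_iff (K₀ := K₀)).mpr hm) hθm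
  have hm0 : polyL O K₀ L (m : O[X]) ≠ 0 := by
    intro h0
    have h1 : θ ⟨polyL O K₀ L (m : O[X]), h.base_mem _⟩ ≠ 0 := by
      rw [h.base_red]
      exact h.polyLb_ne_zero m.2
    apply h1
    have : (⟨polyL O K₀ L (m : O[X]), h.base_mem _⟩ : G) = 0 := Subtype.ext h0
    rw [this, map_zero]
  -- `1 / m` lies in the Gauss ring
  have hinv : (polyL O K₀ L (m : O[X]))⁻¹ =
      algebraMap (GaussRing O) L (IsLocalization.mk' (GaussRing O) (1 : O[X]) m) := by
    symm
    apply eq_inv_of_mul_eq_one_left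
    rw [← algebraMap_poly_eq (K₀ := K₀), IsScalarTower.algebraMap_apply O[X] (GaussRing O) L,
      ← map_mul, IsLocalization.mk'_spec, map_one, map_one]
  refine ⟨y * (polyL O K₀ L (m : O[X]))⁻¹, ?_, ?_⟩
  · refine IsIntegral.mul ?_ ?_
    · exact ((isIntegralElem_iff (K₀ := K₀)).mp hy).tower_top
    · rw [hinv]
      exact isIntegral_algebraMap
  · rw [← mul_assoc, ← hxy, hmx, mul_comm _ x, mul_assoc, mul_inv_cancel₀ hm0, mul_one]

variable [FiniteDimensional (RatFunc K₀) L]

omit h in
theorem irreducible_unif (hϖ : Irreducible ϖ) :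
    Irreducible (algebraMap O[X] (GaussRing O) (C ϖ)) :=
  (IsDiscreteValuationRing.irreducible_iff_uniformizer _).mpr (maximalIdeal_gaussRing hϖ)

theorem theta_polyL_C (hϖ : Irreducible ϖ) : θ ⟨polyL O K₀ L (C ϖ), h.base_mem _⟩ = 0 :=
  h.theta_uniformizer.resolve_right hϖ.not_isUnit

theorem polyL_C_ne_zero (hϖ : Irreducible ϖ) : polyL O K₀ L (C ϖ) ≠ 0 := by
  unfold polyL
  rw [RingHom.comp_apply]
  intro h0
  have h1 := polyK_injective O K₀ (((algebraMap (RatFunc K₀) L).injective
    (h0.trans (map_zero _).symm)).trans (map_zero _).symm)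
  exact hϖ.ne_zero (C_eq_zero.mp h1)

omit h in
theorem unif_smul (z : L) :
    (algebraMap O[X] (GaussRing O) (C ϖ)) • z = polyL O K₀ L (C ϖ) * z := by
  rw [Algebra.smul_def, ← IsScalarTower.algebraMap_apply O[X] (GaussRing O) L,
    algebraMap_poly_eq (K₀ := K₀)]

/-- descent along powers of the uniformizer -/
theorem isIntegral_of_pow_smul (hϖ : Irreducible ϖ) (m : ℕ) :
    ∀ y : L, y ∈ G → IsIntegral (GaussRing O) ((algebraMap O[X] (GaussRing O) (C ϖ)) ^ m • y) →
      IsIntegral (GaussRing O) y := by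
  induction m with
  | zero =>
    intro y _ hy
    rwa [pow_zero, one_smul] at hy
  | succ m ih =>
    intro y hyG hy
    have hx : (algebraMap O[X] (GaussRing O) (C ϖ)) ^ (m + 1) • y =
        polyL O K₀ L (C ϖ) * ((algebraMap O[X] (GaussRing O) (C ϖ)) ^ m • y) := by
      rw [pow_succ', mul_smul, unif_smul (K₀ := K₀)]
    have hzG : (algebraMap O[X] (GaussRing O) (C ϖ)) ^ m • y ∈ G := by
      rw [Algebra.smul_def]
      exact G.mul_mem (by rw [← h.coe_toG]; exact (h.toG _).2) hyG
    have hθ : θ ⟨_, h.mem_of_isIntegral hy⟩ = 0 := by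
      have : (⟨_, h.mem_of_isIntegral hy⟩ : G) = ⟨polyL O K₀ L (C ϖ), h.base_mem _⟩ *
          ⟨_, hzG⟩ := Subtype.ext hx
      rw [this, map_mul, h.theta_polyL_C hϖ, zero_mul]
    obtain ⟨s, hs, hxs⟩ := h.exists_eq_mul_of_theta_eq_zero hy hθ
    rw [hx] at hxs
    have := mul_left_cancel₀ (h.polyL_C_ne_zero hϖ) hxs
    apply ih y hyG
    rw [this]
    exact hs

/-- (d) `G` is integral over the Gauss ring of `K₀(X)`. -/
theorem isIntegral_of_mem (hϖ : Irreducible ϖ) {y : L} (hy : y ∈ G) :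
    IsIntegral (GaussRing O) y := by
  haveI := isFractionRing_gaussK O K₀
  have halg : IsAlgebraic (GaussRing O) y :=
    (IsFractionRing.isAlgebraic_iff (GaussRing O) (RatFunc K₀) L).mpr
      (Algebra.IsAlgebraic.isAlgebraic y)
  obtain ⟨a, ha0, ha⟩ := halg.exists_integral_multiple
  obtain ⟨m, u, hu⟩ := IsDiscreteValuationRing.eq_unit_mul_pow_irreducible ha0
    (irreducible_unif hϖ)
  apply h.isIntegral_of_pow_smul hϖ m y hy
  have : (algebraMap O[X] (GaussRing O) (C ϖ)) ^ m • y =
      ((u⁻¹ : (GaussRing O)ˣ) : GaussRing O) • (a • y) := by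
    rw [hu, smul_smul, ← mul_assoc, Units.inv_mul, one_mul]
  rw [this, Algebra.smul_def]
  exact IsIntegral.mul isIntegral_algebraMap ha

variable [Algebra.IsSeparable (RatFunc K₀) L]

/-- The reduction restricted to the integral closure of the Gauss ring of `K₀(X)`. -/
def thetaS : integralClosure (GaussRing O) L →+* Lb :=
  θ.comp (RingHom.codRestrict (integralClosure (GaussRing O) L).val.toRingHom G
    (fun x => h.mem_of_isIntegral x.2))

theorem thetaS_apply (x : integralClosure (GaussRing O) L) :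
    h.thetaS x = θ ⟨(x : L), h.mem_of_isIntegral x.2⟩ := rfl

theorem trace_reduction_aux (hϖ : Irreducible ϖ) (y : L) (hy : y ∈ G) :
    ∃ t : GaussRing O, gaussToK O K₀ t = Algebra.trace (RatFunc K₀) L y ∧
      gaussRed O t = Algebra.trace (RatFunc (ResidueField O)) Lb (θ ⟨y, hy⟩) := by
  haveI := isFractionRing_gaussK O K₀
  have hcompat : ∀ a : GaussRing O,
      h.thetaS (algebraMap (GaussRing O) (integralClosure (GaussRing O) L) a) =
        algebraMap (RatFunc (ResidueField O)) Lb (gaussRed O a) := by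
    intro a
    rw [thetaS_apply, ← h.theta_toG]
    congr 1
  have hker : ∀ x, h.thetaS x = 0 → x ∈ (maximalIdeal (GaussRing O)).map
      (algebraMap (GaussRing O) (integralClosure (GaussRing O) L)) := by
    intro x hx
    rw [thetaS_apply] at hx
    obtain ⟨s, hs, hxs⟩ := h.exists_eq_mul_of_theta_eq_zero x.2 hx
    have hx' : x = algebraMap (GaussRing O) (integralClosure (GaussRing O) L)
        (algebraMap O[X] (GaussRing O) (C ϖ)) * ⟨s, hs⟩ := by
      apply Subtype.ext
      rw [hxs, ← unif_smul (K₀ := K₀), Algebra.smul_def]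
      rfl
    rw [hx']
    apply Ideal.mul_mem_right
    apply Ideal.mem_map_of_mem
    rw [maximalIdeal_gaussRing hϖ]
    exact Ideal.mem_span_singleton_self _
  have hsurj : Function.Surjective h.thetaS := by
    intro z
    obtain ⟨g, hg⟩ := h.surj z
    exact ⟨⟨g, h.isIntegral_of_mem hϖ g.2⟩, hg⟩
  obtain ⟨t, ht1, ht2⟩ := trace_core (F₀ := RatFunc K₀) (gaussRed O) h.thetaS
    (gaussRed_surjective O) hsurj hcompat hker ⟨y, h.isIntegral_of_mem hϖ hy⟩
  exact ⟨t, ht1, ht2⟩

end IsGaussRed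

end Proof


variable [FiniteDimensional (RatFunc K₀) L] [Algebra.IsSeparable (RatFunc K₀) L]

/-- **The trace commutes with the Gauss reduction**: for `y ∈ G`, `Tr_{L/K₀(X)} y = P / Q` and
`Tr_{Lb/κ(X)} (θ y) = P̄ / Q̄` with `P, Q ∈ O[X]`, `Q̄ ≠ 0`. -/
theorem IsGaussRed.trace_reduction {ϖ : O} (hϖ : Irreducible ϖ) {G : Subring L} {θ : G →+* Lb}
    (h : IsGaussRed (K₀ := K₀) ϖ G θ) (y : L) (hy : y ∈ G) :
    ∃ P Q : O[X], Q ∉ gaussPrime O ∧
      Algebra.trace (RatFunc K₀) L y * polyK O K₀ Q = polyK O K₀ P ∧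
      Algebra.trace (RatFunc (ResidueField O)) Lb (θ ⟨y, hy⟩) * polyRes O Q = polyRes O P := by
  letI := algGaussK O K₀
  letI : Algebra (GaussRing O) L := IsGaussRed.algGaussL O K₀ L
  haveI : IsScalarTower (GaussRing O) (RatFunc K₀) L :=
    IsScalarTower.of_algebraMap_eq (fun _ => rfl)
  letI : Algebra O[X] L := (polyL O K₀ L).toAlgebra
  haveI : IsScalarTower O[X] (GaussRing O) L :=
    IsScalarTower.of_algebraMap_eq (fun P => by
      show polyL O K₀ L P = algebraMap (RatFunc K₀) L (gaussToK O K₀ (algebraMap _ _ P))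
      rw [gaussToK_algebraMap]; rfl)
  obtain ⟨t, ht1, ht2⟩ := h.trace_reduction_aux hϖ y hy
  obtain ⟨P, Q, hQ, -, h2, h3⟩ := exists_rep O K₀ t
  exact ⟨P, Q, hQ, by rw [← ht1]; exact h2, by rw [← ht2]; exact h3⟩

/-- If moreover `Tr y` is a polynomial `T ∈ K₀[X]`, then `T ∈ O[X]` and `Tr (θ y) = T̄`. -/
theorem IsGaussRed.trace_poly {ϖ : O} (hϖ : Irreducible ϖ) {G : Subring L} {θ : G →+* Lb}
    (h : IsGaussRed (K₀ := K₀) ϖ G θ) (y : L) (hy : y ∈ G) (T : K₀[X])
    (hT : Algebra.trace (RatFunc K₀) L y = algebraMap K₀[X] (RatFunc K₀) T) :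
    ∃ T₀ : O[X], T₀.map (algebraMap O K₀) = T ∧
      Algebra.trace (RatFunc (ResidueField O)) Lb (θ ⟨y, hy⟩) =
        algebraMap (ResidueField O)[X] (RatFunc (ResidueField O)) (T₀.map (residue O)) := by
  obtain ⟨P, Q, hQ, h1, h2⟩ := h.trace_reduction hϖ y hy
  rw [hT] at h1
  obtain ⟨T₀, hT₀, h3⟩ := gauss_poly_res O K₀ hQ h1
  refine ⟨T₀, hT₀, ?_⟩
  rw [← polyRes_apply]
  exact mul_right_cancel₀ (polyRes_ne_zero hQ) (h2.trans h3.symm)

/-- If moreover `Tr y` is a polynomial `T` in `X⁻¹`, then `T ∈ O[X]` and `Tr (θ y) = T̄(X⁻¹)`. -/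
theorem IsGaussRed.trace_poly_inv {ϖ : O} (hϖ : Irreducible ϖ) {G : Subring L} {θ : G →+* Lb}
    (h : IsGaussRed (K₀ := K₀) ϖ G θ) (y : L) (hy : y ∈ G) (T : K₀[X])
    (hT : Algebra.trace (RatFunc K₀) L y = aeval (RatFunc.X : RatFunc K₀)⁻¹ T) :
    ∃ T₀ : O[X], T₀.map (algebraMap O K₀) = T ∧
      Algebra.trace (RatFunc (ResidueField O)) Lb (θ ⟨y, hy⟩) =
        aeval (RatFunc.X : RatFunc (ResidueField O))⁻¹ (T₀.map (residue O)) := by
  obtain ⟨P, Q, hQ, h1, h2⟩ := h.trace_reduction hϖ y hy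
  rw [hT] at h1
  obtain ⟨T₀, hT₀, h3⟩ := gauss_poly_inv_res O K₀ hQ h1
  refine ⟨T₀, hT₀, ?_⟩
  exact mul_right_cancel₀ (polyRes_ne_zero hQ) (h2.trans h3.symm)

end Main

end

end Fermat.Agent.S40.W.TraceReduction
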