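/-
S40 / (W3), leaf W7 (helper27): **the Gauss reduction maps the Dedekind–Weber space of regular
differentials of `FF K N` into that of `FF κ N`** — step (C) / (D5)(c),(d) of `moonshots` rows 63/64.

Level `(K, O)`: `K` a field of characteristic zero, `O ⊆ K` a discrete valuation ring with fraction
field `K` and residue field `κ`, `N` invertible in `O`, the special fibres of both charts prime
(`hprime`, `hprimeInf` = `StarStatement`) and Dedekind (`hDed`, `hDedInf` = `SmoothStatement`).
`FF k N` carries the Dedekind–Weber structure of `S40/W/FFSetting` (`X ↦ j`).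

* `thetaFF : GS K N O →+* FF κ N` : the Gauss reduction `theta` of `N4/FibreEmbedding` on the Gauss
  ring `GS = gaussSubalgebra K N O` (as a subring), with values in `FF κ N`;
* `isGaussRed` : `(GS, thetaFF)` satisfies `TraceReduction.IsGaussRed` — hence (`W6`) the trace
  `FF K N → K(X)` of a Gauss-integral element is Gauss-integral and reduces to the trace
  `FF κ N → κ(X)` of its reduction, with NO hypothesis on degrees;
* **`theta_mem_holoSpace`** : `h ∈ holoSpace K (FF K N) B Binf`, `h ∈ GS` ⇒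
  `thetaFF h ∈ holoSpace κ (FF κ N) B̄ B̄inf`, for ANY choice of the integral closures
  `B, Binf, B̄, B̄inf` (binder blocks of `M2/DWMain`).  Proof: helper25's two-chart criterion
  `InfChart.mem_holoSpace_iff_charts` on both sides; `b̄ ∈ SigmaFin κ N` lifts to `b ∈ Rfin`
  (`ChartFibre.exists_redFin_eq`), `Tr(h b) ∈ K[X]` is in `O[X]` and reduces to `Tr(h̄ b̄)`
  (`IsGaussRed.trace_poly` = trace reduction + Gauss' lemma); the same at infinity with
  `Rinf`, `x² h` and polynomials in `X⁻¹` (`IsGaussRed.trace_poly_inv`);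
* `theta_mem_holoSpace_of_star` : the same from `StarStatement` + `SmoothStatement`.
-/
import Mathlib
import Fermat.Agent.S40.W.TraceReduction
import Fermat.Agent.S40.W.FFSetting
import Fermat.Agent.S40.W.InfChart
import Fermat.Agent.N4F.C.ChartFibre
import Fermat.Agent.N4F.E.GaussResidue
import Fermat.Agent.N4F.E.NormReduction

set_option autoImplicit false
set_option linter.unusedSectionVars false
set_option linter.style.haveILetI false
set_option linter.style.longLine false
set_option synthInstance.maxHeartbeats 400000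
set_option maxHeartbeats 800000

open Polynomial IsLocalRing

namespace Fermat.Agent.S40.W.FormsReduce

open ModularCurve Fermat.Agent.S28.Gauss Fermat.Agent.N4.Chart Fermat.Agent.N4.Setting
  Fermat.Agent.N4.FibreEmbedding Fermat.Agent.N4.IntClosure Fermat.Agent.N4F.C.ChartReduction
  Fermat.Agent.N4F.C.ChartFibre Fermat.Agent.N4F.E.GaussDVR Fermat.Agent.M2.DW
  Fermat.Agent.S40.W.TraceReduction

open scoped Fermat.Agent.S40.W.FFSetting

noncomputable section

variable (K : Type) [Field K] [CharZero K] (N : ℕ) [NeZero N] (O : Subring K)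
  [IsDiscreteValuationRing ↥O] [IsFractionRing ↥O K]

set_option quotPrecheck false in
local notation "κ" => IsLocalRing.ResidueField ↥O

variable (hN : IsUnit ((N : ℕ) : ↥O))
variable (hprime : (fibreIdeal K N O (Rfin K N O)).IsPrime)

/-- The Gauss ring of `FF K N`, as a subring. -/
abbrev GS : Subring (FF K N) := (gaussSubalgebra K N O).toSubring

include hN hprime in
theorem theta_mem (x : gaussSubalgebra K N O) :
    theta K N O x ∈ modularFunctionFieldFullC κ N :=
  Fermat.Agent.N4F.E.NormReduction.theta_mem_full K N O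
    (fun y hy => red_mem_full_of_isPrime K N O hN hprime y hy) x

/-- The Gauss reduction, with values in `FF κ N`. -/
def thetaFF : GS K N O →+* FF κ N :=
  RingHom.codRestrict (theta K N O) (modularFunctionFieldFullC κ N)
    (fun x => theta_mem K N O hN hprime x)

theorem coe_thetaFF (x : GS K N O) :
    ((thetaFF K N O hN hprime x : FF κ N) : LaurentSeries κ) = theta K N O x := rfl

/-! ### The structure maps -/

theorem polyL_eq (P : (↥O)[X]) :
    polyL ↥O K (FF K N) P = aeval (jF K N) P := by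
  unfold polyL polyK
  rw [RingHom.comp_apply, RingHom.comp_apply,
    ← IsScalarTower.algebraMap_apply K[X] (RatFunc K) (FF K N),
    Fermat.Agent.S40.W.FFSetting.algebraMap_poly_apply, coe_mapRingHom, aeval_map_algebraMap]

theorem polyLb_eq (P : (↥O)[X]) :
    polyLb ↥O (FF κ N) P = aeval (jF κ N) (P.map (residue ↥O)) := by
  unfold polyLb polyRes
  rw [RingHom.comp_apply, RingHom.comp_apply,
    ← IsScalarTower.algebraMap_apply κ[X] (RatFunc κ) (FF κ N),
    Fermat.Agent.S40.W.FFSetting.algebraMap_poly_apply, coe_mapRingHom]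

/-- `j` as an element of the Gauss subalgebra. -/
def jG : gaussSubalgebra K N O := ⟨jF K N, jF_mem_gaussSubalgebra K N O⟩

theorem polyL_eq_coe (P : (↥O)[X]) :
    polyL ↥O K (FF K N) P = ((aeval (jG K N O) P : gaussSubalgebra K N O) : FF K N) := by
  rw [polyL_eq, ← Subalgebra.aeval_coe]
  rfl

theorem polyL_mem (P : (↥O)[X]) : polyL ↥O K (FF K N) P ∈ GS K N O := by
  rw [polyL_eq_coe]
  exact (aeval (jG K N O) P).2

theorem theta_aeval (P : (↥O)[X]) :
    theta K N O (aeval (jG K N O) P) = aeval (jqModC κ) (P.map (residue ↥O)) := by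
  induction P using Polynomial.induction_on' with
  | add p q hp hq => rw [map_add, map_add, hp, hq, Polynomial.map_add, map_add]
  | monomial n a =>
    rw [← C_mul_X_pow_eq_monomial, map_mul, map_pow, aeval_C, aeval_X, map_mul, map_pow,
      Polynomial.map_mul, Polynomial.map_pow, map_C, map_X, map_mul, map_pow, aeval_C, aeval_X,
      theta_algebraMap]
    congr 1
    · rw [algebraMap_laurentSeries_eq_single]
      rfl
    · congr 1
      exact theta_jF K N O

theorem coe_aeval_jF (Q : κ[X]) :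
    ((aeval (jF κ N) Q : FF κ N) : LaurentSeries κ) = aeval (jqModC κ) Q := by
  rw [← Subalgebra.aeval_coe]
  rfl

theorem thetaFF_polyL (P : (↥O)[X]) :
    thetaFF K N O hN hprime ⟨polyL ↥O K (FF K N) P, polyL_mem K N O P⟩ =
      polyLb ↥O (FF κ N) P := by
  apply Subtype.ext
  rw [coe_thetaFF, polyLb_eq, coe_aeval_jF K N O, ← theta_aeval K N O]
  congr 1
  exact Subtype.ext (polyL_eq_coe K N O P)

/-! ### The hypotheses of `TraceReduction.IsGaussRed` -/

/-- The Gauss ring is integrally closed in `FF K N` (it is a valuation ring). -/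
theorem closed_GS (x : FF K N) (hx : IsIntegral (GS K N O) x) : x ∈ GS K N O := by
  have hx' : IsIntegral (gaussVS K N O) x :=
    hx.map_of_comp_eq (RingHom.id (GS K N O)) (RingHom.id (FF K N)) rfl
  obtain ⟨y, hy⟩ := (IsIntegrallyClosed.isIntegral_iff (R := gaussVS K N O) (K := FF K N)).mp hx'
  rw [← hy]
  exact y.2

theorem inv_mem_GS (x : GS K N O) (hx : thetaFF K N O hN hprime x ≠ 0) :
    (x : FF K N)⁻¹ ∈ GS K N O := by
  apply inv_mem_of_theta_ne_zero K N O x
  intro h0
  apply hx
  apply Subtype.ext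
  rw [coe_thetaFF, h0]
  rfl

theorem thetaFF_surjective : Function.Surjective (thetaFF K N O hN hprime) := by
  intro z
  obtain ⟨x, hx⟩ := Fermat.Agent.N4F.E.GaussResidue.theta_surjective K N O z.2
  exact ⟨x, Subtype.ext hx⟩

theorem polyL_isIntegralElem_iff {x : FF K N} :
    (polyL ↥O K (FF K N)).IsIntegralElem x ↔ x ∈ Rfin K N O := by
  have h : polyL ↥O K (FF K N) =
      ((aeval (jF K N) : (↥O)[X] →ₐ[↥O] FF K N) : (↥O)[X] →+* FF K N) :=
    RingHom.ext (polyL_eq K N O)
  rw [h]
  exact (mem_chartAlg_singleton_iff (O := ↥O) (jF K N)).symm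

theorem ker_chart_GS {ϖ : ↥O} (hϖ : Irreducible ϖ) (x : FF K N) (hx : x ∈ GS K N O)
    (hint : (polyL ↥O K (FF K N)).IsIntegralElem x)
    (hθ : thetaFF K N O hN hprime ⟨x, hx⟩ = 0) :
    ∃ y : FF K N, (polyL ↥O K (FF K N)).IsIntegralElem y ∧
      x = polyL ↥O K (FF K N) (C ϖ) * y := by
  rw [polyL_isIntegralElem_iff] at hint
  have hker : (⟨x, hint⟩ : Rfin K N O) ∈ RingHom.ker (redFin K N O hN) := by
    rw [RingHom.mem_ker]
    apply Subtype.ext
    rw [coe_redFin]
    have := congrArg Subtype.val hθ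
    rw [coe_thetaFF] at this
    exact this
  rw [ker_redFin K N O hN hprime, fibreIdeal_eq_span K N O hϖ, Ideal.mem_span_singleton'] at hker
  obtain ⟨y, hy⟩ := hker
  refine ⟨(y : FF K N), (polyL_isIntegralElem_iff K N O).mpr y.2, ?_⟩
  have := congrArg Subtype.val hy
  rw [polyL_eq, aeval_C, mul_comm]
  exact this.symm

theorem isGaussRed {ϖ : ↥O} (hϖ : Irreducible ϖ) :
    IsGaussRed (K₀ := K) ϖ (GS K N O) (thetaFF K N O hN hprime) where
  closed := closed_GS K N O
  base_mem := polyL_mem K N O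
  base_red := thetaFF_polyL K N O hN hprime
  inv_mem := inv_mem_GS K N O hN hprime
  surj := thetaFF_surjective K N O hN hprime
  ker_chart := ker_chart_GS K N O hN hprime hϖ

/-! ### Charts over `O` and over `K` -/

theorem chartAlg_le_of_tower {O' K' F' : Type*} [CommRing O'] [Field K'] [Algebra O' K'] [Field F']
    [Algebra K' F'] [Algebra O' F'] [IsScalarTower O' K' F'] (s : F') {x : F'}
    (hx : x ∈ chartAlg O' F' {s}) : x ∈ chartAlg K' F' {s} := by
  rw [mem_chartAlg_singleton_iff (O := O') s] at hx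
  rw [mem_chartAlg_singleton_iff (O := K') s]
  obtain ⟨p, hp, hpx⟩ := hx
  refine ⟨p.map (mapRingHom (algebraMap O' K')), hp.map _, ?_⟩
  rw [eval₂_map]
  have hcomp : ((aeval s : K'[X] →ₐ[K'] F') : K'[X] →+* F').comp
      (mapRingHom (algebraMap O' K')) = ((aeval s : O'[X] →ₐ[O'] F') : O'[X] →+* F') := by
    refine Polynomial.ringHom_ext (fun a => ?_) ?_
    · simp only [RingHom.comp_apply, coe_mapRingHom, map_C, RingHom.coe_coe, aeval_C]
      exact (IsScalarTower.algebraMap_apply O' K' F' a).symm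
    · simp only [RingHom.comp_apply, coe_mapRingHom, map_X, RingHom.coe_coe, aeval_X]
  rw [hcomp]
  exact hpx

/-! ### The main theorem -/

section Main

variable [FiniteDimensional (RatFunc K) (FF K N)] [Algebra.IsSeparable (RatFunc K) (FF K N)]
  [FiniteDimensional (RatFunc (IsLocalRing.ResidueField ↥O)) (FF (IsLocalRing.ResidueField ↥O) N)]
  [Algebra.IsSeparable (RatFunc (IsLocalRing.ResidueField ↥O))
    (FF (IsLocalRing.ResidueField ↥O) N)]

variable (B : Type*) [CommRing B] [Algebra K[X] B] [Algebra B (FF K N)]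
  [IsScalarTower K[X] B (FF K N)] [IsIntegralClosure B K[X] (FF K N)]
variable (Binf : Type*) [CommRing Binf] [Algebra (Oinf K) Binf] [Algebra Binf (FF K N)]
  [IsScalarTower (Oinf K) Binf (FF K N)] [IsIntegralClosure Binf (Oinf K) (FF K N)]
variable (Bb : Type*) [CommRing Bb] [Algebra (IsLocalRing.ResidueField ↥O)[X] Bb]
  [Algebra Bb (FF (IsLocalRing.ResidueField ↥O) N)]
  [IsScalarTower (IsLocalRing.ResidueField ↥O)[X] Bb (FF (IsLocalRing.ResidueField ↥O) N)]
  [IsIntegralClosure Bb (IsLocalRing.ResidueField ↥O)[X] (FF (IsLocalRing.ResidueField ↥O) N)]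
variable (Bbinf : Type*) [CommRing Bbinf] [Algebra (Oinf (IsLocalRing.ResidueField ↥O)) Bbinf]
  [Algebra Bbinf (FF (IsLocalRing.ResidueField ↥O) N)]
  [IsScalarTower (Oinf (IsLocalRing.ResidueField ↥O)) Bbinf (FF (IsLocalRing.ResidueField ↥O) N)]
  [IsIntegralClosure Bbinf (Oinf (IsLocalRing.ResidueField ↥O))
    (FF (IsLocalRing.ResidueField ↥O) N)]

variable (hDed : IsDedekindDomain (Rfin K N O ⧸ fibreIdeal K N O (Rfin K N O)))
  (hprimeInf : (fibreIdeal K N O (Rinf K N O)).IsPrime)
  (hDedInf : IsDedekindDomain (Rinf K N O ⧸ fibreIdeal K N O (Rinf K N O)))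

theorem thetaFF_jG :
    thetaFF K N O hN hprime ⟨jF K N, jF_mem_gaussSubalgebra K N O⟩ = jF κ N :=
  Subtype.ext (theta_jF K N O)

include hDed hprimeInf hDedInf in
/-- **(C) The Gauss reduction of a Gauss-integral element of the Dedekind–Weber space of `FF K N`
lies in the Dedekind–Weber space of `FF κ N`.** -/
theorem theta_mem_holoSpace {h : FF K N} (hh : h ∈ holoSpace K (FF K N) B Binf)
    (hg : h ∈ gaussSubalgebra K N O) :
    thetaFF K N O hN hprime ⟨h, hg⟩ ∈ holoSpace κ (FF κ N) Bb Bbinf := by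
  obtain ⟨ϖ, hϖ⟩ := IsDiscreteValuationRing.exists_irreducible ↥O
  have hGR := isGaussRed K N O hN hprime hϖ
  rw [Fermat.Agent.S40.W.InfChart.mem_holoSpace_iff_charts] at hh ⊢
  obtain ⟨h1, h2⟩ := hh
  refine ⟨fun bb hbb => ?_, fun cb hcb => ?_⟩
  · -- the finite chart
    rw [Fermat.Agent.S40.W.FFSetting.algebraMap_ratFunc_X] at hbb
    obtain ⟨b, hb⟩ := exists_redFin_eq K N O hN hprime hDed hbb
    have hbK : (b : FF K N) ∈
        chartAlg K (FF K N) {algebraMap (RatFunc K) (FF K N) RatFunc.X} := by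
      rw [Fermat.Agent.S40.W.FFSetting.algebraMap_ratFunc_X]
      exact chartAlg_le_of_tower (jF K N) b.2
    have hT := h1 _ hbK
    rw [Algebra.adjoin_singleton_eq_range_aeval] at hT
    obtain ⟨T, hT⟩ := hT
    have hbG : (b : FF K N) ∈ GS K N O :=
      chartAlg_le_gaussSubalgebra K N O
        (Set.singleton_subset_iff.mpr (jF_mem_gaussSubalgebra K N O)) b.2
    have hyG : h * b ∈ GS K N O := (GS K N O).mul_mem hg hbG
    obtain ⟨T₀, -, hT₀⟩ := hGR.trace_poly hϖ (h * b) hyG T (by
      rw [← RatFunc.aeval_X_left_eq_algebraMap]; exact hT.symm)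
    have hθ : thetaFF K N O hN hprime ⟨h * b, hyG⟩ =
        thetaFF K N O hN hprime ⟨h, hg⟩ * bb := by
      have : (⟨h * b, hyG⟩ : GS K N O) = ⟨h, hg⟩ * ⟨b, hbG⟩ := rfl
      rw [this, map_mul, ← hb]
      rfl
    rw [← hθ, hT₀, Algebra.adjoin_singleton_eq_range_aeval]
    exact ⟨T₀.map (residue ↥O), RatFunc.aeval_X_left_eq_algebraMap _⟩
  · -- the chart at infinity
    rw [Fermat.Agent.S40.W.FFSetting.algebraMap_ratFunc_X] at hcb
    obtain ⟨c, hc⟩ := exists_redInf_eq K N O hN hprimeInf hDedInf hcb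
    have hcK : (c : FF K N) ∈
        chartAlg K (FF K N) {(algebraMap (RatFunc K) (FF K N) RatFunc.X)⁻¹} := by
      rw [Fermat.Agent.S40.W.FFSetting.algebraMap_ratFunc_X]
      exact chartAlg_le_of_tower (jF K N)⁻¹ c.2
    have hT := h2 _ hcK
    rw [Algebra.adjoin_singleton_eq_range_aeval] at hT
    obtain ⟨T, hT⟩ := hT
    have hcG : (c : FF K N) ∈ GS K N O :=
      chartAlg_le_gaussSubalgebra K N O
        (Set.singleton_subset_iff.mpr (jF_inv_mem_gaussSubalgebra K N O)) c.2
    have hjG : jF K N ∈ GS K N O := jF_mem_gaussSubalgebra K N O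
    have hy : (RatFunc.X : RatFunc K) ^ (2 : ℤ) • h * c = jF K N ^ 2 * h * c := by
      rw [Algebra.smul_def, map_zpow₀, Fermat.Agent.S40.W.FFSetting.algebraMap_ratFunc_X]
      rfl
    have hyG : jF K N ^ 2 * h * c ∈ GS K N O :=
      (GS K N O).mul_mem ((GS K N O).mul_mem ((GS K N O).pow_mem hjG 2) hg) hcG
    rw [hy] at hT
    obtain ⟨T₀, -, hT₀⟩ := hGR.trace_poly_inv hϖ _ hyG T hT.symm
    have hθ : thetaFF K N O hN hprime ⟨jF K N ^ 2 * h * c, hyG⟩ =
        (RatFunc.X : RatFunc κ) ^ (2 : ℤ) • thetaFF K N O hN hprime ⟨h, hg⟩ * cb := by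
      have : (⟨jF K N ^ 2 * h * c, hyG⟩ : GS K N O) =
          ⟨jF K N, hjG⟩ ^ 2 * ⟨h, hg⟩ * ⟨c, hcG⟩ := rfl
      rw [this, map_mul, map_mul, map_pow, thetaFF_jG, ← hc, Algebra.smul_def, map_zpow₀,
        Fermat.Agent.S40.W.FFSetting.algebraMap_ratFunc_X]
      rfl
    rw [← hθ, hT₀, Algebra.adjoin_singleton_eq_range_aeval]
    exact ⟨T₀.map (residue ↥O), rfl⟩

/-- The same from `StarStatement` + `SmoothStatement` (available at every good level). -/
theorem theta_mem_holoSpace_of_star (hstar : StarStatement K N O) (hsm : SmoothStatement K N O)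
    {h : FF K N} (hh : h ∈ holoSpace K (FF K N) B Binf) (hg : h ∈ gaussSubalgebra K N O) :
    thetaFF K N O hN hstar.1.isPrime ⟨h, hg⟩ ∈
      holoSpace (IsLocalRing.ResidueField ↥O) (FF (IsLocalRing.ResidueField ↥O) N) Bb Bbinf :=
  theta_mem_holoSpace K N O hN hstar.1.isPrime B Binf Bb Bbinf hsm.1 hstar.2.isPrime hsm.2 hh hg

end Main

end

end Fermat.Agent.S40.W.FormsReduce
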