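/-
S40 / (W3) (helper27): **the special fibre has the same degree over `κ(j̄)` as the generic fibre
over `K(j)`** — by-product of the trace reduction `S40/W/TraceReduction` (no modular input).

* `finrank_core` : in the abstract setting of `TraceReduction.trace_core` (`A` a DVR, `S` its
  integral closure in `L`, `θ : S → Lb` onto with kernel `𝔪_A S`, `r : A → k₀` onto):
  `Lb` is finite over `k₀` and `[Lb : k₀] = [L : Frac A]`;
* `IsGaussRed.finite_and_finrank_eq` : for a Gauss ring `G ⊆ L` with reduction `θ : G → Lb`
  (`TraceReduction.IsGaussRed`): `Lb / κ(X)` is finite and `[Lb : κ(X)] = [L : K₀(X)]`;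
* level `(K, O)`, `N` invertible in `O`, finite special fibre prime:
  `finiteDimensional_residue : FiniteDimensional (RatFunc κ) (FF κ N)` and
  `finrank_residue_eq : finrank (RatFunc κ) (FF κ N) = finrank (RatFunc K) (FF K N)`.
-/
import Mathlib
import Fermat.Agent.S40.W.TraceReduction
import Fermat.Agent.S40.W.FormsReduce

set_option autoImplicit false
set_option linter.unusedSectionVars false
set_option linter.style.haveILetI false
set_option linter.style.longLine false
set_option synthInstance.maxHeartbeats 400000
set_option maxHeartbeats 800000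

open Polynomial IsLocalRing Module

namespace Fermat.Agent.S40.W.FibreDegree

open Fermat.Agent.S40.W.TraceReduction

noncomputable section

section Core

variable {A F₀ L k₀ Lb : Type*} [CommRing A] [IsDomain A] [IsDiscreteValuationRing A]
  [Field F₀] [Algebra A F₀] [IsFractionRing A F₀]
  [Field L] [Algebra F₀ L] [Algebra A L] [IsScalarTower A F₀ L] [FiniteDimensional F₀ L]
  [Algebra.IsSeparable F₀ L]
  [Field k₀] [Field Lb] [Algebra k₀ Lb]

theorem finrank_core (r : A →+* k₀) (θ : integralClosure A L →+* Lb)
    (hr : Function.Surjective r) (hθ : Function.Surjective θ)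
    (hcompat : ∀ a : A, θ (algebraMap A (integralClosure A L) a) = algebraMap k₀ Lb (r a))
    (hker : ∀ x, θ x = 0 → x ∈ (maximalIdeal A).map (algebraMap A (integralClosure A L))) :
    finrank k₀ Lb = finrank F₀ L := by
  haveI : Module.IsTorsionFree A L :=
    Module.isTorsionFree_iff_algebraMap_injective.mpr (algebraMap_injective_of_tower A F₀ L)
  haveI : Module.Finite A (integralClosure A L) :=
    IsIntegralClosure.finite A F₀ L (integralClosure A L)
  haveI : Module.Free A (integralClosure A L) :=
    IsIntegralClosure.module_free A F₀ L (integralClosure A L)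
  have hkr : RingHom.ker r = maximalIdeal A := IsLocalRing.ker_eq_maximalIdeal r hr
  have hkθ : RingHom.ker θ =
      (maximalIdeal A).map (algebraMap A (integralClosure A L)) := by
    apply le_antisymm
    · intro y hy
      exact hker y ((RingHom.mem_ker).mp hy)
    · rw [Ideal.map_le_iff_le_comap]
      intro a ha
      rw [Ideal.mem_comap, RingHom.mem_ker, hcompat]
      have : r a = 0 := by
        rw [← RingHom.mem_ker, hkr]; exact ha
      rw [this, map_zero]
  let e₁ : A ⧸ maximalIdeal A ≃+* k₀ :=
    (Ideal.quotEquivOfEq hkr.symm).trans (RingHom.quotientKerEquivOfSurjective hr)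
  let e₂ : integralClosure A L ⧸ (maximalIdeal A).map (algebraMap A (integralClosure A L)) ≃+*
      Lb :=
    (Ideal.quotEquivOfEq hkθ.symm).trans (RingHom.quotientKerEquivOfSurjective hθ)
  have he₁ : ∀ a : A, e₁ (Ideal.Quotient.mk _ a) = r a := fun a => rfl
  have he₂ : ∀ y : integralClosure A L, e₂ (Ideal.Quotient.mk _ y) = θ y := fun y => rfl
  have he : (algebraMap k₀ Lb).comp (e₁ : A ⧸ maximalIdeal A ≃+* k₀).toRingHom =
      (e₂ : integralClosure A L ⧸ (maximalIdeal A).map (algebraMap A (integralClosure A L)) ≃+*
        Lb).toRingHom.comp (algebraMap (A ⧸ maximalIdeal A)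
          (integralClosure A L ⧸ (maximalIdeal A).map (algebraMap A (integralClosure A L)))) := by
    apply Ideal.Quotient.ringHom_ext
    ext a
    simp only [RingHom.coe_comp, RingEquiv.toRingHom_eq_coe, RingHom.coe_coe, Function.comp_apply,
      he₁, Ideal.Quotient.algebraMap_quotient_map_quotient, he₂, hcompat]
  rw [← Algebra.finrank_eq_of_equiv_equiv e₁ e₂ he]
  let b := Module.Free.chooseBasis A (integralClosure A L)
  rw [Module.finrank_eq_card_basis (basisQuotient b), ← Module.finrank_eq_card_basis b]
  exact IsIntegralClosure.rank A F₀ L (integralClosure A L)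

end Core

section Gauss

variable {O K₀ : Type*} [CommRing O] [IsDomain O] [IsDiscreteValuationRing O] [Field K₀]
  [Algebra O K₀] [IsFractionRing O K₀]
  {L : Type*} [Field L] [Algebra (RatFunc K₀) L]
  {Lb : Type*} [Field Lb] [Algebra (RatFunc (ResidueField O)) Lb]
  [FiniteDimensional (RatFunc K₀) L] [Algebra.IsSeparable (RatFunc K₀) L]

section Aux

attribute [local instance] algGaussK

variable [Algebra (GaussRing O) L] [IsScalarTower (GaussRing O) (RatFunc K₀) L]
  [Algebra O[X] L] [IsScalarTower O[X] (GaussRing O) L]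

theorem finrank_aux {ϖ : O} (hϖ : Irreducible ϖ) {G : Subring L} {θ : G →+* Lb}
    (h : IsGaussRed (K₀ := K₀) ϖ G θ) :
    finrank (RatFunc (ResidueField O)) Lb = finrank (RatFunc K₀) L := by
  haveI := isFractionRing_gaussK O K₀
  have hcompat : ∀ a : GaussRing O,
      h.thetaS (algebraMap (GaussRing O) (integralClosure (GaussRing O) L) a) =
        algebraMap (RatFunc (ResidueField O)) Lb (gaussRed O a) := by
    intro a
    rw [IsGaussRed.thetaS_apply, ← h.theta_toG]
    congr 1
  have hker : ∀ x, h.thetaS x = 0 → x ∈ (maximalIdeal (GaussRing O)).map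
      (algebraMap (GaussRing O) (integralClosure (GaussRing O) L)) := by
    intro x hx
    rw [IsGaussRed.thetaS_apply] at hx
    obtain ⟨s, hs, hxs⟩ := h.exists_eq_mul_of_theta_eq_zero x.2 hx
    have hx' : x = algebraMap (GaussRing O) (integralClosure (GaussRing O) L)
        (algebraMap O[X] (GaussRing O) (C ϖ)) * ⟨s, hs⟩ := by
      apply Subtype.ext
      rw [hxs, ← IsGaussRed.unif_smul (K₀ := K₀), Algebra.smul_def]
      rfl
    rw [hx']
    apply Ideal.mul_mem_right
    apply Ideal.mem_map_of_mem
    rw [maximalIdeal_gaussRing hϖ]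
    exact Ideal.mem_span_singleton_self _
  have hsurj : Function.Surjective h.thetaS := by
    intro z
    obtain ⟨g, hg⟩ := h.surj z
    exact ⟨⟨g, h.isIntegral_of_mem hϖ g.2⟩, hg⟩
  exact finrank_core (F₀ := RatFunc K₀) (gaussRed O) h.thetaS (gaussRed_surjective O) hsurj
    hcompat hker

end Aux

/-- **The residue extension of a Gauss ring has the same degree**: `[Lb : κ(X)] = [L : K₀(X)]`. -/
theorem _root_.Fermat.Agent.S40.W.TraceReduction.IsGaussRed.finrank_eq {ϖ : O}
    (hϖ : Irreducible ϖ) {G : Subring L} {θ : G →+* Lb} (h : IsGaussRed (K₀ := K₀) ϖ G θ) :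
    finrank (RatFunc (ResidueField O)) Lb = finrank (RatFunc K₀) L := by
  letI := algGaussK O K₀
  letI : Algebra (GaussRing O) L := IsGaussRed.algGaussL O K₀ L
  haveI : IsScalarTower (GaussRing O) (RatFunc K₀) L :=
    IsScalarTower.of_algebraMap_eq (fun _ => rfl)
  letI : Algebra O[X] L := (polyL O K₀ L).toAlgebra
  haveI : IsScalarTower O[X] (GaussRing O) L :=
    IsScalarTower.of_algebraMap_eq (fun P => by
      show polyL O K₀ L P = algebraMap (RatFunc K₀) L (gaussToK O K₀ (algebraMap _ _ P))
      rw [gaussToK_algebraMap]; rfl)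
  exact finrank_aux hϖ h

/-- ... and is finite. -/
theorem _root_.Fermat.Agent.S40.W.TraceReduction.IsGaussRed.finiteDimensional {ϖ : O}
    (hϖ : Irreducible ϖ) {G : Subring L} {θ : G →+* Lb} (h : IsGaussRed (K₀ := K₀) ϖ G θ) :
    FiniteDimensional (RatFunc (ResidueField O)) Lb := by
  apply FiniteDimensional.of_finrank_pos
  rw [h.finrank_eq hϖ]
  exact finrank_pos

end Gauss

/-! ### The level `(K, O)` -/

section Level

open ModularCurve Fermat.Agent.N4.Setting Fermat.Agent.N4.FibreEmbedding
  Fermat.Agent.S40.W.FormsReduce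

open scoped Fermat.Agent.S40.W.FFSetting

variable (K : Type) [Field K] [CharZero K] (N : ℕ) [NeZero N] (O : Subring K)
  [IsDiscreteValuationRing ↥O] [IsFractionRing ↥O K]
  (hN : IsUnit ((N : ℕ) : ↥O)) (hprime : (fibreIdeal K N O (Rfin K N O)).IsPrime)
  [FiniteDimensional (RatFunc K) (FF K N)] [Algebra.IsSeparable (RatFunc K) (FF K N)]

include hN hprime in
/-- **`[FF κ N : κ(j̄)] = [FF K N : K(j)]`** at every level with prime finite special fibre. -/
theorem finrank_residue_eq :
    finrank (RatFunc (IsLocalRing.ResidueField ↥O)) (FF (IsLocalRing.ResidueField ↥O) N) =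
      finrank (RatFunc K) (FF K N) := by
  obtain ⟨ϖ, hϖ⟩ := IsDiscreteValuationRing.exists_irreducible ↥O
  exact (isGaussRed K N O hN hprime hϖ).finrank_eq hϖ

include hN hprime in
/-- `FF κ N` is finite over `κ(j̄)` at every level with prime finite special fibre. -/
theorem finiteDimensional_residue :
    FiniteDimensional (RatFunc (IsLocalRing.ResidueField ↥O))
      (FF (IsLocalRing.ResidueField ↥O) N) := by
  obtain ⟨ϖ, hϖ⟩ := IsDiscreteValuationRing.exists_irreducible ↥O
  exact (isGaussRed K N O hN hprime hϖ).finiteDimensional hϖ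

end Level

section LevelCharZero

open ModularCurve Fermat.Agent.N4.Setting Fermat.Agent.N4.FibreEmbedding
  Fermat.Agent.S40.W.FormsReduce

open scoped Fermat.Agent.S40.W.FFSetting

variable (K : Type) [Field K] [CharZero K] (N : ℕ) [NeZero N] (O : Subring K)
  [IsDiscreteValuationRing ↥O] [IsFractionRing ↥O K]

/-- The same with the characteristic-zero instances of `FFSetting` filled in. -/
theorem finrank_residue_eq' (hN : IsUnit ((N : ℕ) : ↥O))
    (hprime : (fibreIdeal K N O (Rfin K N O)).IsPrime) :
    finrank (RatFunc (IsLocalRing.ResidueField ↥O)) (FF (IsLocalRing.ResidueField ↥O) N) =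
      finrank (RatFunc K) (FF K N) :=
  haveI := Fermat.Agent.S40.W.FFSetting.finiteDimensional_ratFunc_of_charZero K N
  haveI := Fermat.Agent.S40.W.FFSetting.isSeparable_ratFunc_of_charZero K N
  finrank_residue_eq K N O hN hprime

theorem finiteDimensional_residue' (hN : IsUnit ((N : ℕ) : ↥O))
    (hprime : (fibreIdeal K N O (Rfin K N O)).IsPrime) :
    FiniteDimensional (RatFunc (IsLocalRing.ResidueField ↥O))
      (FF (IsLocalRing.ResidueField ↥O) N) :=
  haveI := Fermat.Agent.S40.W.FFSetting.finiteDimensional_ratFunc_of_charZero K N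
  haveI := Fermat.Agent.S40.W.FFSetting.isSeparable_ratFunc_of_charZero K N
  finiteDimensional_residue K N O hN hprime

end LevelCharZero

end

end Fermat.Agent.S40.W.FibreDegree
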