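/-
S40 (row 38), (W3) leaf **W-SEP** (helper24): over ANY field `k` and for every `N ≠ 0`, the modular
function field `FF k N = k(j(q^d) : d ∣ N) ⊆ k((q))` is FINITE over `k(j)` (each `j(q^d)` is a root
of the monic modular polynomial `Φ_d(j, Y)`, whose coefficients are integers), and SEPARABLE over
`k(j)` as soon as `k` is perfect (helper6's `SepLaurent.isSeparable_ratFunc_of_derivation` applied to
`θ = q d/dq` on `k((q))`: `θ j = -q⁻¹ + ⋯ ≠ 0`).

No hypothesis on the characteristic, none on `gcd (char k, N)`.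

* `evZ_modPoly_jdF`, `isIntegral_jdF` : `Φ_d(j, j_d) = 0` in `FF k N`, `j_d` integral over `k(j)`;
* `adjoin_gens_eq_top`               : `FF k N = k(j)(j_d : d ∣ N)`;
* `finiteDimensional_FF`             : `FiniteDimensional k⟮jF k N⟯ (FF k N)`;
* `finiteDimensional_ratFunc`, `isAlgebraic_ratFunc`, `isSeparable_ratFunc` : the same over
  `RatFunc k` for the (scoped) algebra structure `X ↦ j` of `S40/W/FFSetting.lean`;
* `isSeparable_adjoin` : `Algebra.IsSeparable k⟮jF k N⟯ (FF k N)`.
-/
import Mathlib
import Fermat.Agent.S40.W.FFSetting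
import Fermat.Agent.S40.W.SepLaurent
import Fermat.Agent.S40.W.ThetaLog

set_option autoImplicit false
set_option linter.style.haveILetI false

open Polynomial IntermediateField ModularCurve

namespace Fermat.Agent.S40.W.Sep

open Fermat.Agent.N4.Setting Fermat.Agent.N4.Kronecker Fermat.Agent.N4.ModPolyDescent

noncomputable section

variable (k : Type) [Field k] (N : ℕ)

/-! ### Integrality of the generators -/

/-- **`Φ_d(j, j_d) = 0` in `FF k N`** for every `d ∣ N` (any field `k`). -/
theorem evZ_modPoly_jdF {d : ℕ} [NeZero d] (hd : d ∣ N) :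
    evZ (jF k N) (jdF k N hd) (modPoly d) = 0 := by
  apply Subtype.val_injective
  have h := map_evZ ((modularFunctionFieldFullC k N).val : FF k N →+* LaurentSeries k)
    (jF k N) (jdF k N hd) (modPoly d)
  have h0 := evZ_modPoly d k 1
  rw [qExpand_one_apply, qExpand_one_apply] at h0
  exact h.trans h0

/-- `j_d = j(q^d)`, `d ∣ N`, is integral over `k(j)`. -/
theorem isIntegral_jdF {d : ℕ} [NeZero d] (hd : d ∣ N) :
    IsIntegral k⟮jF k N⟯ (jdF k N hd) := by
  refine ⟨(modPoly d).map (eval₂RingHom (Int.castRingHom k⟮jF k N⟯) (AdjoinSimple.gen k (jF k N))),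
    (modPoly_monic d).map _, ?_⟩
  have hcomp : (algebraMap k⟮jF k N⟯ (FF k N)).comp
      (eval₂RingHom (Int.castRingHom k⟮jF k N⟯) (AdjoinSimple.gen k (jF k N))) =
      eval₂RingHom (Int.castRingHom (FF k N)) (jF k N) := by
    refine Polynomial.ringHom_ext' (RingHom.ext_int _ _) ?_
    simp only [RingHom.comp_apply, coe_eval₂RingHom, eval₂_X]
    rfl
  rw [eval₂_map, hcomp]
  exact evZ_modPoly_jdF k N hd

/-! ### The generators -/

/-- The generators `j(q^d)`, `d ∣ N`, of `FF k N`. -/
def gens : Set (FF k N) := {x | ∃ (d : ℕ) (_ : NeZero d) (hd : d ∣ N), x = jdF k N hd}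

theorem jdF_mem_gens {d : ℕ} [NeZero d] (hd : d ∣ N) : jdF k N hd ∈ gens k N :=
  ⟨d, ‹_›, hd, rfl⟩

theorem image_val_gens :
    (modularFunctionFieldFullC k N).val '' gens k N = divisorExpansionsC k N := by
  ext x
  constructor
  · rintro ⟨_, ⟨d, hne, hd, rfl⟩, rfl⟩
    exact ⟨d, hne, hd, rfl⟩
  · rintro ⟨d, hne, hd, rfl⟩
    exact ⟨jdF k N hd, ⟨d, hne, hd, rfl⟩, rfl⟩

/-- `FF k N = k(j_d : d ∣ N)`. -/
theorem adjoin_gens_base_eq_top : IntermediateField.adjoin k (gens k N) = ⊤ := by
  apply IntermediateField.map_injective (modularFunctionFieldFullC k N).val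
  rw [IntermediateField.adjoin_map, image_val_gens, ← AlgHom.fieldRange_eq_map,
    IntermediateField.fieldRange_val]
  rfl

set_option synthInstance.maxHeartbeats 200000 in
-- (`MulAction k (FF k N)` alone costs ≈ 15000 heartbeats of instance search)
/-- `FF k N = k(j)(j_d : d ∣ N)`. -/
theorem adjoin_gens_eq_top : IntermediateField.adjoin k⟮jF k N⟯ (gens k N) = ⊤ := by
  apply IntermediateField.restrictScalars_injective k
  rw [IntermediateField.restrictScalars_top, eq_top_iff, ← adjoin_gens_base_eq_top k N,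
    IntermediateField.adjoin_le_iff]
  intro x hx
  exact IntermediateField.subset_adjoin k⟮jF k N⟯ (gens k N) hx

variable [NeZero N]

theorem finite_gens : (gens k N).Finite := by
  classical
  let f : ℕ → FF k N := fun d =>
    if h : d ≠ 0 ∧ d ∣ N then (haveI : NeZero d := ⟨h.1⟩; jdF k N h.2) else 0
  refine Set.Finite.subset ((Finset.finite_toSet N.divisors).image f) ?_
  rintro x ⟨d, hne, hd, rfl⟩
  refine ⟨d, ?_, ?_⟩
  · exact Finset.mem_coe.mpr (Nat.mem_divisors.mpr ⟨hd, NeZero.ne N⟩)
  · have h : d ≠ 0 ∧ d ∣ N := ⟨NeZero.ne d, hd⟩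
    simp only [f, dif_pos h]

/-! ### Finiteness -/

/-- **`FF k N` is finite over `k(j)`**, for every field `k` and every `N ≠ 0`. -/
theorem finiteDimensional_FF : FiniteDimensional k⟮jF k N⟯ (FF k N) := by
  haveI : Finite (gens k N) := (finite_gens k N).to_subtype
  haveI h : FiniteDimensional k⟮jF k N⟯ (IntermediateField.adjoin k⟮jF k N⟯ (gens k N)) :=
    IntermediateField.finiteDimensional_adjoin (K := k⟮jF k N⟯) (S := gens k N) (by
      rintro x ⟨d, hne, hd, rfl⟩
      exact isIntegral_jdF k N hd)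
  rw [adjoin_gens_eq_top] at h
  exact LinearEquiv.finiteDimensional
    (IntermediateField.topEquiv (F := k⟮jF k N⟯) (E := FF k N)).toLinearEquiv

section RatFunc

open scoped Fermat.Agent.S40.W.FFSetting

/-- `FF k N` is finite over `RatFunc k` (`X ↦ j`). -/
theorem finiteDimensional_ratFunc : FiniteDimensional (RatFunc k) (FF k N) :=
  haveI := finiteDimensional_FF k N
  Fermat.Agent.S40.W.FFSetting.finiteDimensional_ratFunc k N

/-- `FF k N` is algebraic over `RatFunc k` (`X ↦ j`). -/
theorem isAlgebraic_ratFunc : Algebra.IsAlgebraic (RatFunc k) (FF k N) :=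
  haveI := finiteDimensional_ratFunc k N
  Algebra.IsAlgebraic.of_finite _ _

/-! ### Separability -/

/-- A derivation of a commutative `k`-algebra `Ω` into itself, FOR THE MODULE STRUCTURE
`Algebra.toModule`, from an additive Leibniz map killing the constants. -/
def derivationOfLeibniz {R Ω : Type*} [CommSemiring R] [CommSemiring Ω] [Algebra R Ω] (D : Ω →+ Ω)
    (hmul : ∀ a b, D (a * b) = a * D b + b * D a) (hC : ∀ c, D (algebraMap R Ω c) = 0) :
    Derivation R Ω Ω where
  toFun := D
  map_add' := D.map_add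
  map_smul' c x := by
    simp only [RingHom.id_apply]
    rw [Algebra.smul_def, hmul, hC, mul_zero, add_zero, Algebra.smul_def]
  map_one_eq_zero' := by
    show D 1 = 0
    have h := hC 1
    rwa [map_one] at h
  leibniz' a b := by
    show D (a * b) = a • D b + b • D a
    rw [smul_eq_mul, smul_eq_mul]
    exact hmul a b

@[simp] theorem derivationOfLeibniz_apply {R Ω : Type*} [CommSemiring R] [CommSemiring Ω]
    [Algebra R Ω] (D : Ω →+ Ω) (hmul : ∀ a b, D (a * b) = a * D b + b * D a)
    (hC : ∀ c, D (algebraMap R Ω c) = 0) (x : Ω) : derivationOfLeibniz D hmul hC x = D x := rfl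

/-- `θ = q d/dq` as a `k`-derivation of `k((q))` for the module structure `Algebra.toModule`
(the structure seen by a generic `Derivation k Ω Ω`, `Ω` a `k`-algebra; `ThetaLog.thetaD` is typed
with the coefficientwise `HahnSeries.instModule`, which is equal but not DEFINITIONALLY equal). -/
def thetaDer :=
  derivationOfLeibniz (R := k) (Ω := LaurentSeries k)
    (ThetaLog.thetaAdd k) (ThetaLog.thetaAdd_mul k) (fun c => ThetaLog.thetaD_algebraMap k c)

@[simp] theorem thetaDer_apply (f : LaurentSeries k) : thetaDer k f = ThetaLog.thetaD k f := rfl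

/-- `θ j = -q⁻¹ + ⋯ ≠ 0` over any nontrivial ring. -/
theorem thetaD_jqModC_ne_zero : ThetaLog.thetaD k (jqModC k) ≠ 0 := by
  intro h
  have h1 := congrArg (fun f : LaurentSeries k => f.coeff (-1)) h
  simp only [ThetaLog.thetaD_coeff, coeff_jqModC_neg_one, HahnSeries.coeff_zero] at h1
  simp at h1

/-- **`FF k N` is separable over `RatFunc k`** (`X ↦ j`), for every PERFECT field `k` (any
characteristic, no hypothesis on `gcd (char k, N)`). -/
theorem isSeparable_ratFunc [PerfectField k] : Algebra.IsSeparable (RatFunc k) (FF k N) := by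
  haveI := isAlgebraic_ratFunc k N
  refine SepLaurent.isSeparable_ratFunc_of_derivation (k := k) (L := FF k N)
    (Ω := LaurentSeries k) (modularFunctionFieldFullC k N).val (thetaDer k) ?_
  rw [Fermat.Agent.S40.W.FFSetting.algebraMap_ratFunc_X, thetaDer_apply]
  exact thetaD_jqModC_ne_zero k

/-- **`FF k N` is separable over `k(j)`**, `k` perfect. -/
theorem isSeparable_adjoin [PerfectField k] : Algebra.IsSeparable k⟮jF k N⟯ (FF k N) := by
  haveI := isSeparable_ratFunc k N
  refine ⟨fun z => ?_⟩
  have hz : IsSeparable (RatFunc k) z := Algebra.IsSeparable.isSeparable (RatFunc k) z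
  -- the ring homomorphism `RatFunc k → k(j)`
  let g : RatFunc k →+* k⟮jF k N⟯ :=
    (algebraMap (RatFunc k) (FF k N)).codRestrict k⟮jF k N⟯.toSubfield
      (Fermat.Agent.S40.W.FFSetting.algebraMap_ratFunc_mem_adjoin k N)
  have hg : (algebraMap k⟮jF k N⟯ (FF k N)).comp g = algebraMap (RatFunc k) (FF k N) := by
    ext r
    rfl
  have hint : IsIntegral (RatFunc k) z := Algebra.IsIntegral.isIntegral z
  have hroot : aeval z ((minpoly (RatFunc k) z).map g) = 0 := by
    rw [aeval_def, eval₂_map, hg, ← aeval_def, minpoly.aeval]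
  have hsep : ((minpoly (RatFunc k) z).map g).Separable :=
    Polynomial.Separable.map (f := g) (hz : (minpoly (RatFunc k) z).Separable)
  exact hsep.of_dvd (minpoly.dvd _ _ hroot)

end RatFunc

end

end Fermat.Agent.S40.W.Sep
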