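/-
S40 (row 38), leaf **W-F4** (helper26): the local generators (LG) at the closed points on ONE branch,
in the contract shape `S33/L/Skeleton.LGAt` (= the `hLGp`, `hLGm` clauses of [M4-CORE] away from the
crossing points).

* `lgAt_of_oneBranch` : abstract chart; `𝔫` a closed point through which exactly one of `V₁ V₂` passes,
  `f` a unit of THAT valuation ring with `e ∣ ord_Q f` on the places centred at `𝔫` and (Loc-P) on its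
  support there: `LGAt K 𝔫 V₁ V₂ (fun Q => Q.ord f / e) f e`;
* `lgAt_fin`, `lgAt_inf` : both charts of level `N ℓ` at a level `(K, O)`;
* `lgAt_good` : both charts at a good level `(M p A K hK S₂ ϖ)`, `f` a unit of `V₁` and `V₂`,
  `e ∣ div f`, `K`-rational support, every maximal `𝔫 ∋ ϖ` with `¬ (Through V₁ 𝔫 ∧ Through V₂ 𝔫)`.
-/
import Mathlib
import Fermat.Agent.S40.W.F4Level
import Fermat.Agent.S33.L.Skeleton
import Fermat.Agent.S33.L.KOutSmoothGood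

set_option autoImplicit false
set_option linter.unusedSectionVars false
set_option linter.dupNamespace false
set_option linter.style.haveILetI false

open ModularCurve AlgebraicCurve IntermediateField

noncomputable section

namespace Fermat.Agent.S40.W.F4LG

open Fermat.Agent.P4.TwistRoots Fermat.Agent.P3G.UCrit Fermat.Agent.S33.L.Skeleton
open Fermat.Agent.S40.W.F4Abs

/-! ### Abstract chart -/

section Abs

variable {O K F R : Type*}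
  [CommRing O] [IsDomain O] [IsDiscreteValuationRing O]
  [Field K] [Algebra O K] [IsFractionRing O K]
  [Field F] [Algebra K F] [Algebra O F] [IsScalarTower O K F]
  [CommRing R] [IsDomain R] [IsNoetherianRing R] [IsIntegrallyClosed R]
  [Algebra R F] [IsFractionRing R F] [Algebra O R] [IsScalarTower O R F]

/-- From `f = u · β ^ e` to the contract `LGAt`. -/
theorem lgAt_of_unit_mul_pow {V₁ V₂ : ValuationSubring F} {𝔫 : Ideal R} {f : F} {e : ℕ}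
    (he : e ≠ 0)
    (h : ∃ β u : F, β ≠ 0 ∧ V₁.valuation β = 1 ∧ V₂.valuation β = 1 ∧
      (∀ Q ∈ centredSet K 𝔫, (e : ℤ) * Q.ord β = Q.ord f) ∧ IsUnitAt 𝔫 u ∧ f = u * β ^ e) :
    LGAt K 𝔫 V₁ V₂ (fun Q => Q.ord f / (e : ℤ)) f e := by
  obtain ⟨β, u, hβ0, hβ₁, hβ₂, hord, ⟨a, r, ha, hr, har⟩, hfe⟩ := h
  refine ⟨β, hβ0, hβ₁, hβ₂, fun Q hQ => ?_, a, r, ha, hr, ?_⟩
  · have he' : (e : ℤ) ≠ 0 := by exact_mod_cast he
    show Q.ord β = Q.ord f / (e : ℤ)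
    rw [← hord Q hQ, Int.mul_ediv_cancel_left _ he']
  · rw [hfe, ← har]
    ring

/-- **(LG) at a closed point on the branch `V₁` only.** -/
theorem lgAt_of_oneBranch₁ {π : O} (hπ : Irreducible π) {V₁ V₂ : ValuationSubring F}
    (hS : Setup R π V₁ V₂) (𝔫 : Ideal R) [𝔫.IsPrime] (hπ𝔫 : algebraMap O R π ∈ 𝔫)
    (ht₁ : Through V₁ 𝔫) (ht₂ : ¬ Through V₂ 𝔫)
    {f : F} (hf0 : f ≠ 0) (hf₁ : V₁.valuation f = 1) {e : ℕ} (he : e ≠ 0)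
    (hdiv : ∀ Q ∈ centredSet K 𝔫, (e : ℤ) ∣ Q.ord f)
    (S₀ : Finset (Place K F)) (hS₀ : ∀ Q : Place K F, Q.ord f ≠ 0 → Q ∈ S₀)
    (hLocP : ∀ Q ∈ centredSet K 𝔫, Q.ord f ≠ 0 →
      ∃ b : F, b ≠ 0 ∧ Q.ord b = 1 ∧ ∀ Q' ∈ centredSet K 𝔫, Q' ≠ Q → Q'.ord b = 0) :
    LGAt K 𝔫 V₁ V₂ (fun Q => Q.ord f / (e : ℤ)) f e :=
  lgAt_of_unit_mul_pow he
    (exists_unit_mul_pow_oneBranch (K := K) hπ hS 𝔫 hπ𝔫 ht₁ ht₂ hf0 hf₁ hdiv S₀ hS₀ hLocP)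

/-- **(LG) at a closed point on the branch `V₂` only.** -/
theorem lgAt_of_oneBranch₂ {π : O} (hπ : Irreducible π) {V₁ V₂ : ValuationSubring F}
    (hS : Setup R π V₁ V₂) (𝔫 : Ideal R) [𝔫.IsPrime] (hπ𝔫 : algebraMap O R π ∈ 𝔫)
    (ht₁ : ¬ Through V₁ 𝔫) (ht₂ : Through V₂ 𝔫)
    {f : F} (hf0 : f ≠ 0) (hf₂ : V₂.valuation f = 1) {e : ℕ} (he : e ≠ 0)
    (hdiv : ∀ Q ∈ centredSet K 𝔫, (e : ℤ) ∣ Q.ord f)
    (S₀ : Finset (Place K F)) (hS₀ : ∀ Q : Place K F, Q.ord f ≠ 0 → Q ∈ S₀)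
    (hLocP : ∀ Q ∈ centredSet K 𝔫, Q.ord f ≠ 0 →
      ∃ b : F, b ≠ 0 ∧ Q.ord b = 1 ∧ ∀ Q' ∈ centredSet K 𝔫, Q' ≠ Q → Q'.ord b = 0) :
    LGAt K 𝔫 V₁ V₂ (fun Q => Q.ord f / (e : ℤ)) f e := by
  obtain ⟨β, u, hβ0, hβ₂, hβ₁, hord, hu, hfe⟩ :=
    exists_unit_mul_pow_oneBranch (K := K) hπ hS.symm 𝔫 hπ𝔫 ht₂ ht₁ hf0 hf₂ hdiv S₀ hS₀ hLocP
  exact lgAt_of_unit_mul_pow he ⟨β, u, hβ0, hβ₁, hβ₂, hord, hu, hfe⟩

omit [IsNoetherianRing R] [IsIntegrallyClosed R] [IsDomain O] [IsDiscreteValuationRing O]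
  [Field K] [Algebra O K] [IsFractionRing O K] [Algebra K F] [IsScalarTower O K F] in
/-- A prime of the special fibre lies on one of the two branches. -/
theorem through_or_through {π : O} {V₁ V₂ : ValuationSubring F} (hS : Setup R π V₁ V₂)
    (𝔫 : Ideal R) [h𝔫 : 𝔫.IsPrime] (hπ𝔫 : algebraMap O R π ∈ 𝔫) :
    Through V₁ 𝔫 ∨ Through V₂ 𝔫 := by
  by_contra hcon
  rw [not_or] at hcon
  obtain ⟨r₁, hr₁, hr₁𝔫⟩ := not_through_iff.1 hcon.1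
  obtain ⟨r₂, hr₂, hr₂𝔫⟩ := not_through_iff.1 hcon.2
  have h1 : algebraMap R F (r₁ * r₂) ∈ V₁.nonunits := by
    rw [map_mul]; exact nonunits_mul_mem hr₁ (hS.mem₁ r₂)
  have h2 : algebraMap R F (r₁ * r₂) ∈ V₂.nonunits := by
    rw [map_mul, mul_comm]; exact nonunits_mul_mem hr₂ (hS.mem₂ r₁)
  obtain ⟨y, hy⟩ := hS.sat _ h1 h2
  have : r₁ * r₂ ∈ 𝔫 := by rw [hy]; exact Ideal.mul_mem_right _ _ hπ𝔫
  exact (h𝔫.mem_or_mem this).elim hr₁𝔫 hr₂𝔫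

/-- **(LG) at every closed point of the special fibre which is not a crossing point**, for a unit `f`
of both vertical valuation rings. -/
theorem lgAt_of_not_both {π : O} (hπ : Irreducible π) {V₁ V₂ : ValuationSubring F}
    (hS : Setup R π V₁ V₂) (𝔫 : Ideal R) [𝔫.IsPrime] (hπ𝔫 : algebraMap O R π ∈ 𝔫)
    (hnot : ¬ (Through V₁ 𝔫 ∧ Through V₂ 𝔫))
    {f : F} (hf0 : f ≠ 0) (hf₁ : V₁.valuation f = 1) (hf₂ : V₂.valuation f = 1) {e : ℕ}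
    (he : e ≠ 0) (hdiv : ∀ Q ∈ centredSet K 𝔫, (e : ℤ) ∣ Q.ord f)
    (S₀ : Finset (Place K F)) (hS₀ : ∀ Q : Place K F, Q.ord f ≠ 0 → Q ∈ S₀)
    (hLocP : ∀ Q ∈ centredSet K 𝔫, Q.ord f ≠ 0 →
      ∃ b : F, b ≠ 0 ∧ Q.ord b = 1 ∧ ∀ Q' ∈ centredSet K 𝔫, Q' ≠ Q → Q'.ord b = 0) :
    LGAt K 𝔫 V₁ V₂ (fun Q => Q.ord f / (e : ℤ)) f e := by
  by_cases ht₁ : Through V₁ 𝔫
  · exact lgAt_of_oneBranch₁ (K := K) hπ hS 𝔫 hπ𝔫 ht₁ (fun h => hnot ⟨ht₁, h⟩) hf0 hf₁ he hdiv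
      S₀ hS₀ hLocP
  · have ht₂ : Through V₂ 𝔫 := (through_or_through hS 𝔫 hπ𝔫).resolve_left ht₁
    exact lgAt_of_oneBranch₂ (K := K) hπ hS 𝔫 hπ𝔫 ht₁ ht₂ hf0 hf₂ he hdiv S₀ hS₀ hLocP

end Abs

/-! ### Both charts of level `N ℓ` at a level `(K, O)` -/

section Level

open Fermat.Agent.S28.Gauss Fermat.Agent.N4.Setting Fermat.Agent.N4.FibreEmbedding
open Fermat.Agent.N4.Chart
open Fermat.Agent.N4F.E.DegreeLevelRaise Fermat.Agent.N4F.E.GaussDVR Polynomial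
open Fermat.Agent.N4F.E IsLocalRing Fermat.Agent.P3G.RbarFin Fermat.Agent.P3G.TwoComponents
open Fermat.Agent.P3G.RbarInf Fermat.Agent.P3G.TwoComponentsInf
open Fermat.Agent.P3G.TwoComponentsFinal Fermat.Agent.P3G.TwoComponentsInfFinal
open Fermat.Agent.P3G Fermat.Agent.P4

variable (K : Type) [Field K] [CharZero K] (N : ℕ) [NeZero N] (ℓ : ℕ) [Fact ℓ.Prime]
  (O : Subring K) [IsDiscreteValuationRing ↥O] [IsFractionRing ↥O K]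
  [CharP (IsLocalRing.ResidueField ↥O) ℓ] [PerfectRing (IsLocalRing.ResidueField ↥O) ℓ]

set_option synthInstance.maxHeartbeats 400000

variable (hN : IsUnit ((N : ℕ) : ↥O)) (ι : K →+* ℂ) (hℓN : ¬ ℓ ∣ N)
  (hprime : (fibreIdeal K N O (Rfin K N O)).IsPrime)
  (hsmooth : IsDedekindDomain (↥(Rfin K N O) ⧸ fibreIdeal K N O (Rfin K N O)))
  (hprimeInf : (fibreIdeal K N O (Rinf K N O)).IsPrime)
  (hsmoothInf : IsDedekindDomain (↥(Rinf K N O) ⧸ fibreIdeal K N O (Rinf K N O)))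
  (hA2 : ∀ x : ↥(gaussSubalgebra K N O),
    theta K N O x ∈ modularFunctionFieldFullC (IsLocalRing.ResidueField ↥O) N)
  (S₂ : FibreTwo.SecondVal K N ℓ O)
  {ϖ : ↥O} (hϖ : Irreducible ϖ)

include hN ι hℓN hprime hsmooth hA2 hϖ in
/-- **(LG) on the finite chart of level `N ℓ`, away from the crossing points.** -/
theorem lgAt_fin (𝔫 : Ideal ↥(Rfin K (N * ℓ) O)) [h𝔫 : 𝔫.IsMaximal]
    (hϖ𝔫 : algebraMap ↥O ↥(Rfin K (N * ℓ) O) ϖ ∈ 𝔫)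
    (hnot : ¬ (Through (gaussVS K (N * ℓ) O) 𝔫 ∧ Through S₂.V 𝔫))
    {f : FF K (N * ℓ)} (hf0 : f ≠ 0) (hf₁ : (gaussVS K (N * ℓ) O).valuation f = 1)
    (hf₂ : S₂.V.valuation f = 1) {e : ℕ} (he : e ≠ 0)
    (hdiv : ∀ Q ∈ centredSet (F := FF K (N * ℓ)) K 𝔫, (e : ℤ) ∣ Q.ord f)
    (S₀ : Finset (Place K (FF K (N * ℓ))))
    (hS₀ : ∀ Q : Place K (FF K (N * ℓ)), Q.ord f ≠ 0 → Q ∈ S₀)
    (hrat : ∀ Q ∈ centredSet (F := FF K (N * ℓ)) K 𝔫, Q.ord f ≠ 0 →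
      Function.Bijective (algebraMap K Q.ResidueField)) :
    LGAt K 𝔫 (gaussVS K (N * ℓ) O) S₂.V (fun Q => Q.ord f / (e : ℤ)) f e := by
  haveI := Fermat.Agent.N4.ModPolySetting.finiteDimensional_FF K (N * ℓ)
  have hj := Fermat.Agent.N4.FFAlgebraic.transcendental_jF K (N * ℓ)
  haveI : IsNoetherianRing ↥(Rfin K (N * ℓ) O) :=
    Fermat.Agent.N4.IntClosure.isNoetherianRing_chartAlg (K := K) (jF K (N * ℓ)) hj
  haveI : IsFractionRing ↥(Rfin K (N * ℓ) O) (FF K (N * ℓ)) :=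
    Fermat.Agent.N4.Cover.Main.isFractionRing_chartAlg (O := ↥O) (K₀ := K) (jF K (N * ℓ)) hj
  haveI : IsIntegrallyClosed ↥(Rfin K (N * ℓ) O) :=
    Fermat.Agent.N4.Cover.Main.isIntegrallyClosed_chartAlg (O := ↥O) (K₀ := K) (jF K (N * ℓ)) hj
  have hS := BranchNormalLevel.setup_fin K N ℓ O hN ι hℓN hprime hsmooth hA2 S₂ hϖ
  have hLocP := locPRat_fin K N ℓ O hN ι hℓN hprime hsmooth hA2 hϖ
  exact lgAt_of_not_both (K := K) hϖ hS 𝔫 hϖ𝔫 hnot hf0 hf₁ hf₂ he hdiv S₀ hS₀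
    (fun Q hQ hQf => hLocP 𝔫 h𝔫 hϖ𝔫 Q hQ (hrat Q hQ hQf))

include hN ι hℓN hprime hprimeInf hsmoothInf hA2 hϖ in
/-- **(LG) on the chart at infinity of level `N ℓ`, away from the crossing points.** -/
theorem lgAt_inf (𝔫 : Ideal ↥(Rinf K (N * ℓ) O)) [h𝔫 : 𝔫.IsMaximal]
    (hϖ𝔫 : algebraMap ↥O ↥(Rinf K (N * ℓ) O) ϖ ∈ 𝔫)
    (hnot : ¬ (Through (gaussVS K (N * ℓ) O) 𝔫 ∧ Through S₂.V 𝔫))
    {f : FF K (N * ℓ)} (hf0 : f ≠ 0) (hf₁ : (gaussVS K (N * ℓ) O).valuation f = 1)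
    (hf₂ : S₂.V.valuation f = 1) {e : ℕ} (he : e ≠ 0)
    (hdiv : ∀ Q ∈ centredSet (F := FF K (N * ℓ)) K 𝔫, (e : ℤ) ∣ Q.ord f)
    (S₀ : Finset (Place K (FF K (N * ℓ))))
    (hS₀ : ∀ Q : Place K (FF K (N * ℓ)), Q.ord f ≠ 0 → Q ∈ S₀)
    (hrat : ∀ Q ∈ centredSet (F := FF K (N * ℓ)) K 𝔫, Q.ord f ≠ 0 →
      Function.Bijective (algebraMap K Q.ResidueField)) :
    LGAt K 𝔫 (gaussVS K (N * ℓ) O) S₂.V (fun Q => Q.ord f / (e : ℤ)) f e := by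
  haveI := Fermat.Agent.N4.ModPolySetting.finiteDimensional_FF K (N * ℓ)
  have hj := Fermat.Agent.N4.FFAlgebraic.transcendental_jF K (N * ℓ)
  have hjinv : Transcendental K (jF K (N * ℓ))⁻¹ := fun h => hj (by simpa using h.inv)
  haveI : FiniteDimensional K⟮(jF K (N * ℓ))⁻¹⟯ (FF K (N * ℓ)) := by
    rw [Fermat.Agent.N4.Cover.Main.adjoin_inv_eq]; infer_instance
  haveI : IsNoetherianRing ↥(Rinf K (N * ℓ) O) :=
    Fermat.Agent.N4.IntClosure.isNoetherianRing_chartAlg (K := K) (jF K (N * ℓ))⁻¹ hjinv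
  haveI : IsFractionRing ↥(Rinf K (N * ℓ) O) (FF K (N * ℓ)) :=
    Fermat.Agent.N4.Cover.Main.isFractionRing_chartAlg (O := ↥O) (K₀ := K) (jF K (N * ℓ))⁻¹ hjinv
  haveI : IsIntegrallyClosed ↥(Rinf K (N * ℓ) O) :=
    Fermat.Agent.N4.Cover.Main.isIntegrallyClosed_chartAlg (O := ↥O) (K₀ := K)
      (jF K (N * ℓ))⁻¹ hjinv
  have hS := BranchNormalLevelInf.setup_inf K N ℓ O hN ι hℓN hprime hprimeInf hsmoothInf hA2 S₂ hϖ
  have hLocP := locPRat_inf K N ℓ O hN ι hℓN hprime hprimeInf hsmoothInf hA2 hϖ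
  exact lgAt_of_not_both (K := K) hϖ hS 𝔫 hϖ𝔫 hnot hf0 hf₁ hf₂ he hdiv S₀ hS₀
    (fun Q hQ hQf => hLocP 𝔫 h𝔫 hϖ𝔫 Q hQ (hrat Q hQ hQf))

end Level

/-! ### Both charts at a good level -/

section Good

open Fermat.Agent.N4.Setting Fermat.Agent.N4.Chart Fermat.Agent.N4.S18Glue Fermat.Agent.N4.BigDVR
  Fermat.Agent.P3G.Assembly.StepOfLevel Fermat.Agent.P3G.Assembly.LevelStep
  Fermat.Agent.N4F.C Fermat.Agent.N4F.C.Levels Fermat.Agent.N4F.C.Galois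
  Fermat.Agent.N4F.E.GaussDVR Fermat.Agent.S33.L.Contracts

local notation "Qbar" => AlgebraicClosure ℚ

set_option maxHeartbeats 1600000 in
set_option synthInstance.maxHeartbeats 400000 in
/-- **(LG) away from the crossing points, both charts, at a good level**: the `hLGp`, `hLGm` clauses
of [M4-CORE] at every maximal `𝔫 ∋ ϖ` with `¬ (Through V₁ 𝔫 ∧ Through V₂ 𝔫)`. -/
theorem lgAt_good (M p : ℕ) [NeZero M] [Fact p.Prime] (hpM : ¬ p ∣ M)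
    (A : ValuationSubring Qbar) (hA : A.LiesOverPrime p)
    (K : IntermediateField ℚ Qbar) (hK : IsGoodLevel A p K)
    [IsDiscreteValuationRing ↥(baseRing A K)]
    (S₂ : Fermat.Agent.P3G.FibreTwo.SecondVal (Lvl K) M p (baseRing A K))
    (ϖ : ↥(baseRing A K)) (hϖ : Irreducible ϖ)
    {f : FF (Lvl K) (M * p)} (hf0 : f ≠ 0)
    (hf₁ : (gaussVS (Lvl K) (M * p) (baseRing A K)).valuation f = 1)
    (hf₂ : S₂.V.valuation f = 1) {e : ℕ} (he : e ≠ 0)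
    (hdiv : ∀ Q : Place (Lvl K) (FF (Lvl K) (M * p)), (e : ℤ) ∣ Q.ord f)
    (hrat : ∀ Q : Place (Lvl K) (FF (Lvl K) (M * p)), Q.ord f ≠ 0 →
      Function.Bijective (algebraMap (Lvl K) Q.ResidueField)) :
    (∀ 𝔫 : Ideal (chartAlg ↥(baseRing A K) (FF (Lvl K) (M * p)) {jF (Lvl K) (M * p)}),
      𝔫.IsMaximal →
      algebraMap ↥(baseRing A K)
        (chartAlg ↥(baseRing A K) (FF (Lvl K) (M * p)) {jF (Lvl K) (M * p)}) ϖ ∈ 𝔫 →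
      ¬ (Through (gaussVS (Lvl K) (M * p) (baseRing A K)) 𝔫 ∧ Through S₂.V 𝔫) →
      LGAt (Lvl K) 𝔫 (gaussVS (Lvl K) (M * p) (baseRing A K)) S₂.V
        (fun Q => Q.ord f / (e : ℤ)) f e) ∧
    (∀ 𝔫 : Ideal (chartAlg ↥(baseRing A K) (FF (Lvl K) (M * p)) {(jF (Lvl K) (M * p))⁻¹}),
      𝔫.IsMaximal →
      algebraMap ↥(baseRing A K)
        (chartAlg ↥(baseRing A K) (FF (Lvl K) (M * p)) {(jF (Lvl K) (M * p))⁻¹}) ϖ ∈ 𝔫 →
      ¬ (Through (gaussVS (Lvl K) (M * p) (baseRing A K)) 𝔫 ∧ Through S₂.V 𝔫) →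
      LGAt (Lvl K) 𝔫 (gaussVS (Lvl K) (M * p) (baseRing A K)) S₂.V
        (fun Q => Q.ord f / (e : ℤ)) f e) := by
  have hq : p.Prime := Fact.out
  haveI : IsAlgClosed (IsLocalRing.ResidueField ↥(baseRing A K)) := hK.algClosed
  have hGB : GoodBase (Lvl K) M (baseRing A K) p := ⟨hq, hpM, inferInstance, hK.not_unit⟩
  haveI : CharP (IsLocalRing.ResidueField ↥(baseRing A K)) p :=
    Fermat.Agent.N4F.E.GaussResidue.charP_residueField (Lvl K) M (baseRing A K) hGB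
  haveI : PerfectRing (IsLocalRing.ResidueField ↥(baseRing A K)) p := inferInstance
  have hstar := LevelStatements.starStatement_lvl hq hA K hGB hK.roots
  have hsmooth := LevelStatements.smoothStatement_lvl hq hA hpM K hGB hK.roots
  have hprime := hstar.1.isPrime
  have hprimeInf := hstar.2.isPrime
  have hred : PGI.RedMem (Lvl K) M (baseRing A K) := fun s hs =>
    ChartReduction.red_mem_full (Lvl K) M (baseRing A K) hGB hstar s hs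
  have hA2 := Fermat.Agent.N4F.E.NormReduction.theta_mem_full (Lvl K) M (baseRing A K) hred
  have hN : IsUnit ((M : ℕ) : ↥(baseRing A K)) :=
    Fermat.Agent.P3G.GammaUnits.isUnit_natCast_baseRing K hq hA hpM
  obtain ⟨S₀, hS₀⟩ := Fermat.Agent.P3G.Glue.LevelDict.exists_finset_ord_ne_zero (M * p) K f hf0
  refine ⟨fun 𝔫 h𝔫 hϖ𝔫 hnot => ?_, fun 𝔫 h𝔫 hϖ𝔫 hnot => ?_⟩
  · haveI := h𝔫
    exact lgAt_fin (Lvl K) M p (baseRing A K) hN (Fermat.Agent.P3G.GammaV2.lvlToComplex K)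
      hpM hprime hsmooth.1 hA2 S₂ hϖ 𝔫 hϖ𝔫 hnot hf0 hf₁ hf₂ he (fun Q _ => hdiv Q) S₀ hS₀
      (fun Q _ => hrat Q)
  · haveI := h𝔫
    exact lgAt_inf (Lvl K) M p (baseRing A K) hN (Fermat.Agent.P3G.GammaV2.lvlToComplex K)
      hpM hprime hprimeInf hsmooth.2 hA2 S₂ hϖ 𝔫 hϖ𝔫 hnot hf0 hf₁ hf₂ he (fun Q _ => hdiv Q)
      S₀ hS₀ (fun Q _ => hrat Q)

end Good

end Fermat.Agent.S40.W.F4LG
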