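/-
S40 / (W3), node (★) (helper4): **unfolding a Hecke eigen-relation on a torsion class into the
multiplicative relation of a Kummer generator.**

`x = [D] ∈ J₀(N)(Q̄)`, `n • D = div f`.  If `T_ℓ x = m • x` then
`N_α(β f) = c · f^m · e^n` with `c ∈ Q̄^×`, `e ∈ F₀(N)^×`
(`N_α(β f) = HeckeDiv.normBeta N ℓ f` is the function whose divisor is `T_ℓ (div f)`).

* `exists_normBeta_eq` : the statement;
* `exists_normBeta_eq_of_heckeTors` : the same from `heckeTors N n ℓ x = (m : ZMod n) • x` on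
  `Jtors N n`.
-/
import Mathlib
import Fermat.Agent.N4F.Tors.HeckeDiv
import Fermat.Agent.N4F.Res.Interface
import Fermat.Agent.N4F.Tors.KummerHecke
import Fermat.Agent.S33.G.Tail

set_option autoImplicit false
set_option linter.unusedSectionVars false
set_option linter.style.haveILetI false

open AlgebraicCurve ModularCurve

namespace Fermat.Agent.S40.W.HeckeUnfold

open Fermat.Agent.N4F.A.LevelMaps Fermat.Agent.N4F.Tors Fermat.Agent.N4F.Res

local notation "Qb" => AlgebraicClosure ℚ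

variable (N : ℕ) [NeZero N]

/-- `Q̄` is algebraically closed in the modular function field. -/
theorem algClosed_bar (y : modularFunctionFieldBar N) (hy : IsAlgebraic Qb y) :
    y ∈ (algebraMap Qb (modularFunctionFieldBar N)).range := by
  have : Algebra.IsAlgebraic Qb ↥(IntermediateField.adjoin Qb {y}) :=
    IntermediateField.isAlgebraic_adjoin_simple hy.isIntegral
  have hbot := IntermediateField.eq_bot_of_isAlgClosed_of_isAlgebraic
    (IntermediateField.adjoin Qb {y})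
  have hmem : y ∈ (⊥ : IntermediateField Qb (modularFunctionFieldBar N)) := by
    rw [← hbot]
    exact IntermediateField.mem_adjoin_simple_self Qb y
  obtain ⟨c, hc⟩ := IntermediateField.mem_bot.mp hmem
  exact ⟨c, hc⟩

/-- A function on `X₀(N)` over `Q̄` without zeros and poles is a nonzero constant. -/
theorem exists_const_of_forall_ord_eq_zero {t : modularFunctionFieldBar N} (ht : t ≠ 0)
    (h : ∀ P : Place Qb (modularFunctionFieldBar N), P.ord t = 0) :
    ∃ c : Qb, c ≠ 0 ∧ t = algebraMap Qb (modularFunctionFieldBar N) c :=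
  Fermat.Agent.S33.G.Tail.exists_const_of_forall_ord_le_zero (xj N) (algClosed_bar N) ht
    (fun v => (h v).le)

/-- **(★)** `T_ℓ [D] = m • [D]`, `n • D = div f`  ⟹  `N_α(β f) = c · f^m · e^n`. -/
theorem exists_normBeta_eq (ℓ : Nat.Primes) (hℓN : ¬ (ℓ : ℕ) ∣ N) (n m : ℕ)
    (D : Divisor.degZero (K := Qb) (F := modularFunctionFieldBar N))
    (f : modularFunctionFieldBar N) (hf : f ≠ 0)
    (hD : ∀ P : Place Qb (modularFunctionFieldBar N),
      (n : ℤ) * (D : Divisor Qb (modularFunctionFieldBar N)) P = P.ord f)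
    (hT : heckeOperatorBar N ℓ (Pic0.mk D) = m • Pic0.mk D) :
    haveI : NeZero (ℓ : ℕ) := ⟨ℓ.2.ne_zero⟩
    ∃ (c : Qb) (e : modularFunctionFieldBar N), c ≠ 0 ∧ e ≠ 0 ∧
      HeckeDiv.normBeta N (ℓ : ℕ) f =
        algebraMap Qb (modularFunctionFieldBar N) c * f ^ m * e ^ n := by
  haveI : NeZero (ℓ : ℕ) := ⟨ℓ.2.ne_zero⟩
  haveI : Fact (ℓ : ℕ).Prime := ⟨ℓ.2⟩
  obtain ⟨D', hD'1, hD'2⟩ := HeckeDiv.exists_hecke_divisor N ℓ n D f hf hD
  -- `D' - m • D` is principal
  have h1 : Pic0.mk (D' - m • D) = 0 := by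
    have e1 : Pic0.mk (D' - m • D) = Pic0.mk D' - m • Pic0.mk D := by
      show QuotientAddGroup.mk (D' - m • D) = QuotientAddGroup.mk D' - m • QuotientAddGroup.mk D
      rw [QuotientAddGroup.mk_sub, QuotientAddGroup.mk_nsmul]
    rw [e1, ← hD'1, hT, sub_self]
  have h2 := (QuotientAddGroup.eq_zero_iff _).mp h1
  rw [AddSubgroup.mem_addSubgroupOf] at h2
  obtain ⟨e, he, heD⟩ := h2
  have heD' : ∀ P : Place Qb (modularFunctionFieldBar N),
      P.ord e = (D' : Divisor Qb (modularFunctionFieldBar N)) P -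
        (m : ℤ) * (D : Divisor Qb (modularFunctionFieldBar N)) P := by
    intro P
    rw [← heD P]
    simp
  have hnb : HeckeDiv.normBeta N (ℓ : ℕ) f ≠ 0 := KummerHecke.norm_beta_ne_zero hℓN hf
  have hfm : f ^ m * e ^ n ≠ 0 := mul_ne_zero (pow_ne_zero _ hf) (pow_ne_zero _ he)
  have ht : HeckeDiv.normBeta N (ℓ : ℕ) f / (f ^ m * e ^ n) ≠ 0 := div_ne_zero hnb hfm
  have hord : ∀ P : Place Qb (modularFunctionFieldBar N),
      P.ord (HeckeDiv.normBeta N (ℓ : ℕ) f / (f ^ m * e ^ n)) = 0 := by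
    intro P
    rw [div_eq_mul_inv, P.ord_mul hnb (inv_ne_zero hfm), P.ord_inv,
      P.ord_mul (pow_ne_zero _ hf) (pow_ne_zero _ he), ← zpow_natCast, P.ord_zpow,
      ← zpow_natCast e, P.ord_zpow, ← hD'2 P, heD' P, ← hD P]
    ring
  obtain ⟨c, hc0, hc⟩ := exists_const_of_forall_ord_eq_zero N ht hord
  refine ⟨c, e, hc0, he, ?_⟩
  rw [mul_assoc, ← hc, div_mul_cancel₀ _ hfm]

/-- The same, from the eigen-relation on the `n`-torsion (`heckeTors`). -/
theorem exists_normBeta_eq_of_heckeTors (ℓ : Nat.Primes) (hℓN : ¬ (ℓ : ℕ) ∣ N) (n m : ℕ)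
    [NeZero n] (x : Jtors N n) (hx : heckeTors N n ℓ x = (m : ZMod n) • x)
    (D : Divisor.degZero (K := Qb) (F := modularFunctionFieldBar N))
    (f : modularFunctionFieldBar N) (hf : f ≠ 0) (hxD : (x : JZero N) = Pic0.mk D)
    (hD : ∀ P : Place Qb (modularFunctionFieldBar N),
      (n : ℤ) * (D : Divisor Qb (modularFunctionFieldBar N)) P = P.ord f) :
    haveI : NeZero (ℓ : ℕ) := ⟨ℓ.2.ne_zero⟩
    ∃ (c : Qb) (e : modularFunctionFieldBar N), c ≠ 0 ∧ e ≠ 0 ∧
      HeckeDiv.normBeta N (ℓ : ℕ) f =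
        algebraMap Qb (modularFunctionFieldBar N) c * f ^ m * e ^ n := by
  refine exists_normBeta_eq N ℓ hℓN n m D f hf hD ?_
  have h1 := congrArg (fun y : Jtors N n => (y : JZero N)) hx
  simp only [coe_heckeTors_apply] at h1
  rw [← hxD, h1]
  have h2 : ((m : ZMod n) • x : Jtors N n) = m • x := by
    rw [← Nat.cast_smul_eq_nsmul (ZMod n) m x]
  rw [h2]
  rfl

end Fermat.Agent.S40.W.HeckeUnfold
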