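/-
S40, (W3) sub-row, leaf W-LAMBDA, part 2 (helper3): **bi-unit normalisation.**

Level `(K, O)`, level `N ℓ` (`ℓ = char κ ∤ N`), `V₁ = gaussVS K (N ℓ) O`, `V₂ = S.V`.

* `ordG_zpow`, `ordZero_zpow`; `valuation_gaussVS_eq_one_iff`, `valuation_V_eq_one_iff`:
  `V_i.valuation f = 1 ↔ ord_i f = 0`;
* `exists_ord_zero_one` : **there is `t ∈ FF K (N ℓ)` with `(v₁, v₂)(t) = (0, 1)` and angular
  components `(1, 1)`** (`t = u² + ϖ (1 - u²)`, `u` with residues `(1, 0)` from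
  `P4/NormResidue.exists_residues_one_zero`);  so `δ = v₂ - v₁ : FF K (N ℓ)ˣ → ℤ` is onto;
* `exists_biunit` : if `ℓ ∣ v₂(f) - v₁(f)` then `f' = c · f · g ^ ℓ` is a unit at both `V₁` and `V₂` for
  suitable `c ∈ Kˣ`, `g ≠ 0` (`c = ϖ ^ (- v₁ f)`, `g = t ^ (- δ / ℓ)`); `Λ`, `m` do not change
  (`Lambda.lam*_invariant`, `m*_invariant`).
-/
import Mathlib
import Fermat.Agent.S40.W.Lambda
import Fermat.Agent.P4.NormResidue

set_option autoImplicit false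
set_option linter.unusedSectionVars false
set_option linter.style.haveILetI false

open ModularCurve AlgebraicCurve
open Fermat.Agent.S28.Gauss Fermat.Agent.N4.Setting Fermat.Agent.N4.FibreEmbedding
open Fermat.Agent.N4F.E.DegreeLevelRaise Fermat.Agent.N4F.E.GaussDVR
open Fermat.Agent.N4F.E Fermat.Agent.P3G.SecondValuation
open Fermat.Agent.S40.W.AngComp Fermat.Agent.S40.W.ThetaLog Fermat.Agent.S40.W.Lambda

noncomputable section

namespace Fermat.Agent.S40.W.LambdaNorm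

/-! ### Generic: order of integer powers -/

section Generic

variable {R F : Type*} [CommRing R] [IsDomain R] [IsDiscreteValuationRing R]
  [Field F] [Algebra R F] [IsFractionRing R F] {π : R} (hπ : Irreducible π)

theorem ordPi_zpow (f : F) (n : ℤ) : ordPi hπ (f ^ n) = n * ordPi hπ f := by
  cases n with
  | ofNat n =>
    rw [Int.ofNat_eq_natCast, zpow_natCast, ordPi_pow]
  | negSucc n =>
    rw [zpow_negSucc, ordPi_inv, ordPi_pow, Int.negSucc_eq]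
    push_cast
    ring

end Generic

/-! ### Orders and valuations -/

section AnyLevel

variable (K : Type) [Field K] (M : ℕ) (O : Subring K) [IsDiscreteValuationRing ↥O]
  [IsFractionRing ↥O K] {ϖ : ↥O} (hϖ : Irreducible ϖ)

theorem ordG_zpow (f : FF K M) (n : ℤ) : ordG K M O hϖ (f ^ n) = n * ordG K M O hϖ f :=
  ordPi_zpow _ f n

theorem ordG_unif_zpow (n : ℤ) : ordG K M O hϖ (algebraMap K (FF K M) (ϖ : K) ^ n) = n := by
  rw [ordG_zpow, ordG_unif, mul_one]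

/-- `V₁.valuation f = 1 ↔ ordG f = 0`. -/
theorem valuation_gaussVS_eq_one_iff {f : FF K M} (hf : f ≠ 0) :
    (gaussVS K M O).valuation f = 1 ↔ ordG K M O hϖ f = 0 := by
  have h1 := mem_gaussSubalgebra_iff_ordG K M O hϖ hf
  have h2 := mem_gaussSubalgebra_iff_ordG K M O hϖ (inv_ne_zero hf)
  rw [ordG_inv] at h2
  constructor
  · intro h
    have ha : f ∈ gaussVS K M O := ((gaussVS K M O).valuation_le_one_iff f).mp h.le
    have hb : f⁻¹ ∈ gaussVS K M O := by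
      apply ((gaussVS K M O).valuation_le_one_iff f⁻¹).mp
      rw [map_inv₀, h, inv_one]
    have := h1.mp ha
    have := h2.mp hb
    omega
  · intro h
    have ha : f ∈ gaussVS K M O := h1.mpr (by omega)
    have hb : f⁻¹ ∈ gaussVS K M O := h2.mpr (by omega)
    have h3 := ((gaussVS K M O).valuation_le_one_iff f).mpr ha
    have h4 := ((gaussVS K M O).valuation_le_one_iff f⁻¹).mpr hb
    rw [map_inv₀] at h4
    have h0 : (gaussVS K M O).valuation f ≠ 0 := (Valuation.ne_zero_iff _).mpr hf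
    exact le_antisymm h3 ((inv_le_one₀ (zero_lt_iff.mpr h0)).mp h4)

end AnyLevel

section Zero

variable (K : Type) [Field K] [CharZero K] (N : ℕ) [NeZero N] (ℓ : ℕ) [hℓ : Fact ℓ.Prime]
  (O : Subring K) [IsDiscreteValuationRing ↥O] [IsFractionRing ↥O K]
  [CharP (IsLocalRing.ResidueField ↥O) ℓ] (S : SecondVal K N ℓ O)
  [hdvr : IsDiscreteValuationRing ↥S.V]
  (ι : K →+* ℂ) (hℓN : ¬ ℓ ∣ N)

set_option quotPrecheck false in
local notation "κ" => IsLocalRing.ResidueField ↥O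

variable {ϖ : ↥O} (hϖ : Irreducible ϖ)

theorem ordZero_zpow (f : FF K (N * ℓ)) (n : ℤ) :
    ordZero K N ℓ O S hϖ (f ^ n) = n * ordZero K N ℓ O S hϖ f :=
  ordPi_zpow _ f n

theorem ordZero_unif_zpow (n : ℤ) :
    ordZero K N ℓ O S hϖ (algebraMap K (FF K (N * ℓ)) (ϖ : K) ^ n) = n := by
  rw [ordZero_zpow, ordZero_unif, mul_one]

/-- `V₂.valuation f = 1 ↔ ordZero f = 0`. -/
theorem valuation_V_eq_one_iff {f : FF K (N * ℓ)} (hf : f ≠ 0) :
    S.V.valuation f = 1 ↔ ordZero K N ℓ O S hϖ f = 0 := by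
  have h1 := mem_V_iff_ordZero K N ℓ O S hϖ hf
  have h2 := mem_V_iff_ordZero K N ℓ O S hϖ (inv_ne_zero hf)
  rw [ordZero_inv] at h2
  constructor
  · intro h
    have ha : f ∈ S.V := (S.V.valuation_le_one_iff f).mp h.le
    have hb : f⁻¹ ∈ S.V := by
      apply (S.V.valuation_le_one_iff f⁻¹).mp
      rw [map_inv₀, h, inv_one]
    have := h1.mp ha
    have := h2.mp hb
    omega
  · intro h
    have ha : f ∈ S.V := h1.mpr (by omega)
    have hb : f⁻¹ ∈ S.V := h2.mpr (by omega)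
    have h3 := (S.V.valuation_le_one_iff f).mpr ha
    have h4 := (S.V.valuation_le_one_iff f⁻¹).mpr hb
    rw [map_inv₀] at h4
    have h0 : S.V.valuation f ≠ 0 := (Valuation.ne_zero_iff _).mpr hf
    exact le_antisymm h3 ((inv_le_one₀ (zero_lt_iff.mpr h0)).mp h4)

include ι hℓN in
/-- **`δ = v₂ - v₁` is onto**: an element with orders `(0, 1)` and angular components `(1, 1)`. -/
theorem exists_ord_zero_one :
    ∃ t : FF K (N * ℓ), t ≠ 0 ∧ ordInf K N ℓ O hϖ t = 0 ∧ acInf K N ℓ O hϖ t = 1 ∧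
      ordZero K N ℓ O S hϖ t = 1 ∧ acZero K N ℓ O S hϖ t = 1 := by
  obtain ⟨u, hu₁, hu₂, hθu, hevu⟩ :=
    Fermat.Agent.P4.NormResidue.exists_residues_one_zero K N ℓ O S ι hℓN
  set π : FF K (N * ℓ) := algebraMap K (FF K (N * ℓ)) (ϖ : K) with hπ
  have hπ0 : π ≠ 0 := by
    rw [hπ, Ne, map_eq_zero]
    exact fun h0 => hϖ.ne_zero (Subtype.ext h0)
  have hπG : π ∈ gaussSubalgebra K (N * ℓ) O := (unif K (N * ℓ) O ϖ).2
  have hπV : π ∈ S.V := (unifV K N ℓ O S hϖ).2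
  -- `u = π w` in `V₂`
  have huN : u ∈ S.V.nonunits := (S.ev_eq_zero_iff ⟨u, hu₂⟩).1 hevu
  have hwV : u * π⁻¹ ∈ S.V := S.ram_one ϖ hϖ u huN
  set w : FF K (N * ℓ) := u * π⁻¹ with hw
  have huw : u = π * w := by
    rw [hw, mul_comm u, mul_inv_cancel_left₀ hπ0]
  -- the element
  set t : FF K (N * ℓ) := u ^ 2 + π * (1 - u ^ 2) with ht
  -- first component
  have htG : t ∈ gaussSubalgebra K (N * ℓ) O :=
    add_mem (pow_mem hu₁ 2) (mul_mem hπG (sub_mem (one_mem _) (pow_mem hu₁ 2)))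
  have hθt : theta K (N * ℓ) O ⟨t, htG⟩ = 1 := by
    have e : (⟨t, htG⟩ : ↥(gaussSubalgebra K (N * ℓ) O)) =
        ⟨u, hu₁⟩ ^ 2 + unif K (N * ℓ) O ϖ * (1 - ⟨u, hu₁⟩ ^ 2) := rfl
    rw [e, map_add, map_mul, map_pow, hθu, theta_unif K (N * ℓ) O hϖ, zero_mul, add_zero,
      one_pow]
  have hθt0 : theta K (N * ℓ) O ⟨t, htG⟩ ≠ 0 := by
    rw [hθt]
    exact one_ne_zero
  have ht0 : t ≠ 0 := by
    intro h0
    apply hθt0
    have : (⟨t, htG⟩ : ↥(gaussSubalgebra K (N * ℓ) O)) = 0 := Subtype.ext h0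
    rw [this, map_zero]
  -- second component: `t = π * y`, `ev y = 1`
  set y : FF K (N * ℓ) := π * w ^ 2 + (1 - u ^ 2) with hy
  have hyV : y ∈ S.V :=
    add_mem (mul_mem hπV (pow_mem hwV 2)) (sub_mem (one_mem _) (pow_mem hu₂ 2))
  have hevy : S.ev ⟨y, hyV⟩ = 1 := by
    have e : (⟨y, hyV⟩ : ↥S.V) =
        unifV K N ℓ O S hϖ * ⟨w, hwV⟩ ^ 2 + (1 - ⟨u, hu₂⟩ ^ 2) := rfl
    rw [e, map_add, map_mul, ev_unifV, zero_mul, zero_add, map_sub, map_one, map_pow, hevu]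
    ring
  have hu2 : u ^ 2 = π ^ 2 * w ^ 2 := by
    rw [← mul_pow, ← huw]
  have hty : t = π ^ (1 : ℤ) * y := by
    rw [zpow_one, ht, hy]
    linear_combination hu2
  have hevy0 : S.ev ⟨y, hyV⟩ ≠ 0 := by
    rw [hevy]
    exact one_ne_zero
  obtain ⟨ho, ha⟩ := ordZero_acZero_of_eq K N ℓ O S hϖ hyV hevy0 hty
  refine ⟨t, ht0, ordG_of_theta_ne_zero K (N * ℓ) O hϖ htG hθt0, ?_, ho, ?_⟩
  · rw [acInf, acG_of_theta_ne_zero K (N * ℓ) O hϖ htG hθt0, hθt]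
  · rw [ha, hevy]

include ι hℓN in
/-- **Bi-unit normalisation**: if `ℓ ∣ v₂(f) - v₁(f)` then `c · f · g ^ ℓ` has order `0` at both
vertical valuations for suitable `c ≠ 0`, `g ≠ 0`. -/
theorem exists_biunit {f : FF K (N * ℓ)} (hf : f ≠ 0)
    (hδ : (ℓ : ℤ) ∣ ordZero K N ℓ O S hϖ f - ordInf K N ℓ O hϖ f) :
    ∃ (c : K) (g : FF K (N * ℓ)), c ≠ 0 ∧ g ≠ 0 ∧
      ordInf K N ℓ O hϖ (algebraMap K (FF K (N * ℓ)) c * f * g ^ ℓ) = 0 ∧
      ordZero K N ℓ O S hϖ (algebraMap K (FF K (N * ℓ)) c * f * g ^ ℓ) = 0 := by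
  obtain ⟨t, ht0, ht1, -, ht2, -⟩ := exists_ord_zero_one K N ℓ O S ι hℓN hϖ
  obtain ⟨k, hk⟩ := hδ
  have hϖK : ((ϖ : ↥O) : K) ≠ 0 := fun h0 => hϖ.ne_zero (Subtype.ext h0)
  set a := ordInf K N ℓ O hϖ f with ha
  set c : K := (ϖ : K) ^ (-a) with hc
  have hc0 : c ≠ 0 := zpow_ne_zero _ hϖK
  set g : FF K (N * ℓ) := t ^ (-k) with hg
  have hg0 : g ≠ 0 := zpow_ne_zero _ ht0
  have hcF : algebraMap K (FF K (N * ℓ)) c = algebraMap K (FF K (N * ℓ)) (ϖ : K) ^ (-a) := by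
    rw [hc, map_zpow₀]
  have hcF0 : algebraMap K (FF K (N * ℓ)) c ≠ 0 := by
    rw [Ne, map_eq_zero]
    exact hc0
  refine ⟨c, g, hc0, hg0, ?_, ?_⟩
  · rw [ordInf, ordG_mul K (N * ℓ) O hϖ (mul_ne_zero hcF0 hf) (pow_ne_zero ℓ hg0),
      ordG_mul K (N * ℓ) O hϖ hcF0 hf, hcF, ordG_unif_zpow, ordG_pow, hg, ordG_zpow]
    have : ordG K (N * ℓ) O hϖ t = 0 := ht1
    rw [this]
    show -a + a + (ℓ : ℤ) * (-k * 0) = 0
    ring
  · rw [ordZero_mul K N ℓ O S hϖ (mul_ne_zero hcF0 hf) (pow_ne_zero ℓ hg0),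
      ordZero_mul K N ℓ O S hϖ hcF0 hf, hcF, ordZero_unif_zpow, ordZero_pow, hg, ordZero_zpow,
      ht2]
    have h1 : ordZero K N ℓ O S hϖ f = a + ℓ * k := by
      have := hk
      omega
    rw [h1]
    ring

include ι hℓN in
/-- Bi-unit normalisation, valuation form (the shape of `S33/L` and of `S40/New/Pack`). -/
theorem exists_biunit_val {f : FF K (N * ℓ)} (hf : f ≠ 0)
    (hδ : (ℓ : ℤ) ∣ ordZero K N ℓ O S hϖ f - ordInf K N ℓ O hϖ f) :
    ∃ (c : K) (g : FF K (N * ℓ)), c ≠ 0 ∧ g ≠ 0 ∧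
      (gaussVS K (N * ℓ) O).valuation (algebraMap K (FF K (N * ℓ)) c * f * g ^ ℓ) = 1 ∧
      S.V.valuation (algebraMap K (FF K (N * ℓ)) c * f * g ^ ℓ) = 1 := by
  obtain ⟨c, g, hc, hg, h1, h2⟩ := exists_biunit K N ℓ O S ι hℓN hϖ hf hδ
  have hne : algebraMap K (FF K (N * ℓ)) c * f * g ^ ℓ ≠ 0 := by
    refine mul_ne_zero (mul_ne_zero ?_ hf) (pow_ne_zero ℓ hg)
    rw [Ne, map_eq_zero]
    exact hc
  exact ⟨c, g, hc, hg, (valuation_gaussVS_eq_one_iff K (N * ℓ) O hϖ hne).mpr h1,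
    (valuation_V_eq_one_iff K N ℓ O S hϖ hne).mpr h2⟩

/-- Conversely a bi-unit has `δ = 0`. -/
theorem ord_eq_zero_of_val {f : FF K (N * ℓ)} (hf : f ≠ 0)
    (h1 : (gaussVS K (N * ℓ) O).valuation f = 1) (h2 : S.V.valuation f = 1) :
    ordInf K N ℓ O hϖ f = 0 ∧ ordZero K N ℓ O S hϖ f = 0 :=
  ⟨(valuation_gaussVS_eq_one_iff K (N * ℓ) O hϖ hf).mp h1,
    (valuation_V_eq_one_iff K N ℓ O S hϖ hf).mp h2⟩

/-- For a bi-unit the angular components are the two residues. -/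
theorem ac_of_val {f : FF K (N * ℓ)}
    (h1 : (gaussVS K (N * ℓ) O).valuation f = 1) (h2 : S.V.valuation f = 1) :
    ∃ (hG : f ∈ gaussSubalgebra K (N * ℓ) O) (hV : f ∈ S.V),
      acInf K N ℓ O hϖ f = theta K (N * ℓ) O ⟨f, hG⟩ ∧ acZero K N ℓ O S hϖ f = S.ev ⟨f, hV⟩ := by
  have hG : f ∈ gaussVS K (N * ℓ) O := ((gaussVS K (N * ℓ) O).valuation_le_one_iff f).mp h1.le
  have hV : f ∈ S.V := (S.V.valuation_le_one_iff f).mp h2.le
  have hθ : theta K (N * ℓ) O ⟨f, hG⟩ ≠ 0 := by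
    intro h0
    have hn := (Fermat.Agent.P3G.SecondValuation.mem_nonunits_gaussVS_iff K (N * ℓ) O hG).2 h0
    rw [ValuationSubring.mem_nonunits_iff] at hn
    exact hn.ne h1
  have hev : S.ev ⟨f, hV⟩ ≠ 0 := by
    intro h0
    have hn := (S.ev_eq_zero_iff ⟨f, hV⟩).1 h0
    rw [ValuationSubring.mem_nonunits_iff] at hn
    exact hn.ne h2
  exact ⟨hG, hV, acG_of_theta_ne_zero K (N * ℓ) O hϖ hG hθ,
    acZero_of_ev_ne_zero K N ℓ O S hϖ hV hev⟩

end Zero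

end Fermat.Agent.S40.W.LambdaNorm
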