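/-
S40 / (W3), node (D′) (helper4): **the logarithmic `θ`-derivative turns the multiplicative Hecke
relation of a function into the additive weight-2 Hecke relation of a `q`-series.**

Generic Laurent-series algebra over a field `κ` (in the application: a field of characteristic `p`).
Write `t` for the variable, `θ = t d/dt` (`PiSeries.thetaL`), `f(t^k)` for `qExpand κ k f` and
`f(u t)` for `twist u f`.

* `HasDlog f b : θ f = b * f` (so `b = θ f / f` when `f ≠ 0`) and its calculus: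
  `mul`, `pow`, `prod`, `C`, `qExpand` (`f(t^k)` has dlog `k · b(t^k)`), `twist`
  (`f(u t)` has dlog `b(u t)`), `pow_char` (`e^p` has dlog `0` in characteristic `p`), uniqueness.
* `dlog_identity`: from the product identity
  `g(t^{ℓ²}) · ∏_{i<ℓ} g(ζ^i t) = c · g(t^ℓ)^m · e(t^ℓ)^p`
  (the `t = q^{1/ℓ}`-expansion of `N_α(β^* f) = c f^m e^p` reduced mod `ϖ`) the additive identity
  `ℓ² · b(t^{ℓ²}) + ∑_{i<ℓ} b(ζ^i t) = m ℓ · b(t^ℓ)`;
* `hecke_coeff`: hence, when `ζ^ℓ = 1` and `ℓ` is invertible in `κ`, coefficientwise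
  `b_{ℓ n} + ℓ · b_{n/ℓ} = m · b_n` (`b_{n/ℓ} := 0` if `ℓ ∤ n`), i.e. `(U_ℓ + ℓ V_ℓ) b = m b`:
  `b` is a weight-2 `T_ℓ`-eigen-series with eigenvalue `m`.
-/
import Mathlib
import Fermat.Prelude.Def_ModularCurve_X0
import Fermat.Agent.N4.TwistSeries
import Fermat.Agent.S36.R3.PiSeries

set_option autoImplicit false

open HahnSeries ModularCurve
open Fermat.Agent.N4.TwistSeries Fermat.Agent.S36.R3.PiSeries

namespace Fermat.Agent.S40.W.HeckeDlog

noncomputable section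

section Calculus

variable {κ : Type*} [CommRing κ]

/-- `b` is a logarithmic `θ`-derivative of `f`: `θ f = b f`. -/
def HasDlog (f b : LaurentSeries κ) : Prop := thetaL f = b * f

theorem HasDlog.mul {f g b c : LaurentSeries κ} (hf : HasDlog f b) (hg : HasDlog g c) :
    HasDlog (f * g) (b + c) := by
  unfold HasDlog at *
  rw [thetaL_mul, hf, hg]
  ring

theorem hasDlog_one : HasDlog (1 : LaurentSeries κ) 0 := by
  unfold HasDlog
  rw [thetaL_one, zero_mul]

theorem hasDlog_C (a : κ) : HasDlog (HahnSeries.C a : LaurentSeries κ) 0 := by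
  unfold HasDlog
  rw [thetaL_C, zero_mul]

theorem HasDlog.pow {f b : LaurentSeries κ} (hf : HasDlog f b) (n : ℕ) :
    HasDlog (f ^ n) ((n : LaurentSeries κ) * b) := by
  induction n with
  | zero => simpa using hasDlog_one (κ := κ)
  | succ n ih =>
    have h := ih.mul hf
    rw [← pow_succ] at h
    have e : (n : LaurentSeries κ) * b + b = ((n + 1 : ℕ) : LaurentSeries κ) * b := by
      push_cast; ring
    rwa [e] at h

theorem HasDlog.prod {ι : Type*} (s : Finset ι) {f b : ι → LaurentSeries κ}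
    (h : ∀ i ∈ s, HasDlog (f i) (b i)) : HasDlog (∏ i ∈ s, f i) (∑ i ∈ s, b i) := by
  classical
  induction s using Finset.induction_on with
  | empty => simpa using hasDlog_one (κ := κ)
  | insert a s ha ih =>
    rw [Finset.prod_insert ha, Finset.sum_insert ha]
    exact (h a (Finset.mem_insert_self a s)).mul
      (ih fun i hi => h i (Finset.mem_insert_of_mem hi))

/-- `θ (f(t^k)) = k · (θ f)(t^k)`. -/
theorem thetaL_qExpand (k : ℕ) [NeZero k] (f : LaurentSeries κ) :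
    thetaL (qExpand κ k f) = HahnSeries.C (k : κ) * qExpand κ k (thetaL f) := by
  ext n
  rw [thetaL_coeff, coeff_C_mul]
  by_cases hn : (k : ℤ) ∣ n
  · obtain ⟨m, rfl⟩ := hn
    rw [qExpand_coeff_mul, qExpand_coeff_mul, thetaL_coeff]
    push_cast
    ring
  · rw [qExpand_coeff_of_not_dvd k f hn, qExpand_coeff_of_not_dvd k (thetaL f) hn]
    simp

theorem HasDlog.qExpand {f b : LaurentSeries κ} (hf : HasDlog f b) (k : ℕ) [NeZero k] :
    HasDlog (qExpand κ k f) (HahnSeries.C (k : κ) * qExpand κ k b) := by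
  unfold HasDlog at *
  rw [thetaL_qExpand, hf, map_mul]
  ring

theorem HasDlog.twist {f b : LaurentSeries κ} (hf : HasDlog f b) (u : κˣ) :
    HasDlog (twist u f) (twist u b) := by
  unfold HasDlog at *
  rw [← twist_thetaL, hf, map_mul]

/-- In characteristic `p` a `p`-th power has logarithmic derivative `0`. -/
theorem hasDlog_pow_char (p : ℕ) [CharP κ p] (e : LaurentSeries κ) : HasDlog (e ^ p) 0 := by
  unfold HasDlog
  rw [zero_mul]
  rcases Nat.eq_zero_or_pos p with rfl | hp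
  · rw [pow_zero, thetaL_one]
  · obtain ⟨n, rfl⟩ := Nat.exists_eq_succ_of_ne_zero hp.ne'
    rw [Nat.succ_eq_add_one, thetaL_pow, CharP.cast_eq_zero κ (n + 1), map_zero, zero_mul,
      zero_mul]

theorem HasDlog.unique [IsDomain κ] {f b c : LaurentSeries κ} (hf0 : f ≠ 0)
    (hb : HasDlog f b) (hc : HasDlog f c) : b = c := by
  unfold HasDlog at *
  have h : (b - c) * f = 0 := by rw [sub_mul, ← hb, ← hc, sub_self]
  rcases mul_eq_zero.mp h with h | h
  · exact sub_eq_zero.mp h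
  · exact absurd h hf0

end Calculus

section Hecke

variable {κ : Type*} [Field κ]

/-- **The additive identity.** -/
theorem dlog_identity (p : ℕ) [CharP κ p] (ℓ : ℕ) [NeZero ℓ] (ζ : κˣ)
    (g e b : LaurentSeries κ) (hg : g ≠ 0) (hb : HasDlog g b) (c : κ) (m : ℕ)
    (hprod : qExpand κ (ℓ * ℓ) g * ∏ i ∈ Finset.range ℓ, twist (ζ ^ i) g =
      HahnSeries.C c * qExpand κ ℓ g ^ m * qExpand κ ℓ e ^ p) :
    HahnSeries.C ((ℓ * ℓ : ℕ) : κ) * qExpand κ (ℓ * ℓ) b + ∑ i ∈ Finset.range ℓ, twist (ζ ^ i) b =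
      (m : LaurentSeries κ) * (HahnSeries.C (ℓ : κ) * qExpand κ ℓ b) := by
  have hL : HasDlog (qExpand κ (ℓ * ℓ) g * ∏ i ∈ Finset.range ℓ, twist (ζ ^ i) g)
      (HahnSeries.C ((ℓ * ℓ : ℕ) : κ) * qExpand κ (ℓ * ℓ) b +
        ∑ i ∈ Finset.range ℓ, twist (ζ ^ i) b) :=
    (hb.qExpand (ℓ * ℓ)).mul (HasDlog.prod _ fun i _ => hb.twist (ζ ^ i))
  have hR : HasDlog (HahnSeries.C c * qExpand κ ℓ g ^ m * qExpand κ ℓ e ^ p)
      (0 + (m : LaurentSeries κ) * (HahnSeries.C (ℓ : κ) * qExpand κ ℓ b) + 0) :=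
    ((hasDlog_C c).mul ((hb.qExpand ℓ).pow m)).mul (hasDlog_pow_char p _)
  rw [zero_add, add_zero] at hR
  have hne : qExpand κ (ℓ * ℓ) g * ∏ i ∈ Finset.range ℓ, twist (ζ ^ i) g ≠ 0 := by
    refine mul_ne_zero ?_ (Finset.prod_ne_zero_iff.mpr fun i _ => ?_)
    · exact fun h => hg (qExpand_injective (R := κ) (ℓ * ℓ) (by rw [h, map_zero]))
    · exact fun h => hg (twist_injective (ζ ^ i) (by rw [h, map_zero]))
  rw [← hprod] at hR
  exact HasDlog.unique hne hL hR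

theorem coeff_natCast_mul (m : ℕ) (f : LaurentSeries κ) (n : ℤ) :
    ((m : LaurentSeries κ) * f).coeff n = (m : κ) * f.coeff n := by
  have h : (m : LaurentSeries κ) = HahnSeries.C (m : κ) := (map_natCast _ m).symm
  rw [h, coeff_C_mul]

/-- **`(U_ℓ + ℓ V_ℓ) b = m b`, coefficientwise.** -/
theorem hecke_coeff (p : ℕ) [CharP κ p] (ℓ : ℕ) [NeZero ℓ] (hℓ : (ℓ : κ) ≠ 0) (ζ : κˣ)
    (hζ : ζ ^ ℓ = 1) (g e b : LaurentSeries κ) (hg : g ≠ 0) (hb : HasDlog g b) (c : κ) (m : ℕ)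
    (hprod : qExpand κ (ℓ * ℓ) g * ∏ i ∈ Finset.range ℓ, twist (ζ ^ i) g =
      HahnSeries.C c * qExpand κ ℓ g ^ m * qExpand κ ℓ e ^ p) (n : ℤ) :
    b.coeff ((ℓ : ℤ) * n) + (ℓ : κ) * (if (ℓ : ℤ) ∣ n then b.coeff (n / ℓ) else 0) =
      (m : κ) * b.coeff n := by
  have hℓ0 : (ℓ : ℤ) ≠ 0 := by exact_mod_cast NeZero.ne ℓ
  have key := congrArg (fun s : LaurentSeries κ => s.coeff ((ℓ : ℤ) * n))
    (dlog_identity p ℓ ζ g e b hg hb c m hprod)
  simp only [HahnSeries.coeff_add, coeff_C_mul, coeff_natCast_mul] at key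
  rw [qExpand_coeff_mul] at key
  -- the twisted sum
  have hsum : (∑ i ∈ Finset.range ℓ, twist (ζ ^ i) b).coeff ((ℓ : ℤ) * n) =
      (ℓ : κ) * b.coeff ((ℓ : ℤ) * n) := by
    rw [HahnSeries.coeff_sum]
    have h1 : ∀ i ∈ Finset.range ℓ, (twist (ζ ^ i) b).coeff ((ℓ : ℤ) * n) =
        b.coeff ((ℓ : ℤ) * n) := by
      intro i _
      rw [twist_coeff]
      have : (ζ ^ i) ^ ((ℓ : ℤ) * n) = 1 := by
        rw [← zpow_natCast ζ i, ← zpow_mul, mul_comm (i : ℤ), mul_assoc, zpow_mul,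
          zpow_natCast, hζ, one_zpow]
      rw [this, Units.val_one, one_mul]
    rw [Finset.sum_congr rfl h1, Finset.sum_const, Finset.card_range, nsmul_eq_mul]
  rw [hsum] at key
  -- the `ℓ²`-expansion
  have hsq : (qExpand κ (ℓ * ℓ) b).coeff ((ℓ : ℤ) * n) =
      if (ℓ : ℤ) ∣ n then b.coeff (n / ℓ) else 0 := by
    split_ifs with hd
    · obtain ⟨k, rfl⟩ := hd
      have : (ℓ : ℤ) * ((ℓ : ℤ) * k) = ((ℓ * ℓ : ℕ) : ℤ) * k := by push_cast; ring
      rw [this, qExpand_coeff_mul, Int.mul_ediv_cancel_left _ hℓ0]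
    · refine qExpand_coeff_of_not_dvd (ℓ * ℓ) b ?_
      rintro ⟨k, hk⟩
      apply hd
      refine ⟨k, ?_⟩
      have : (ℓ : ℤ) * n = (ℓ : ℤ) * ((ℓ : ℤ) * k) := by rw [hk]; push_cast; ring
      exact mul_left_cancel₀ hℓ0 this
  rw [hsq] at key
  have hcast : ((ℓ * ℓ : ℕ) : κ) = (ℓ : κ) * (ℓ : κ) := by push_cast; ring
  rw [hcast] at key
  apply mul_left_cancel₀ hℓ
  linear_combination key

end Hecke

end

end Fermat.Agent.S40.W.HeckeDlog
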