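/-
S40 / (W3), node (D′), analytic input (helper4): **`q`-expansions of rational translates and of the
Hecke product `z ↦ ∏_x a(heckeRep ℓ x • z)`**.

* `isPerMero_trl`, `qexpFun_trl` : for `g` holomorphic, `1`-periodic, meromorphic at `i∞` the translate
  `z ↦ g(z + B/D)` is again such a function and its Laurent `q`-expansion is
  `twist (e^{2πi B/D}) (qexpFun g)`  (general form of `N4/QExpTranslate.qexpFun_trl_jInv`);
* `isPerMero_prod`, `qexpFun_prod` : finite products;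
* `prod_heckeRep_scaleH` : `∏_{x ∈ ℙ¹(𝔽_ℓ)} a(heckeRep ℓ x • (ℓ z)) = a(ℓ² z) · ∏_{i<ℓ} a(z + i/ℓ)`;
* `qexpFun_hecke_prod` : if `A(z) = ∏_x a(heckeRep ℓ x • z)` with `a`, `A` periodic-meromorphic then
  `A(q^ℓ) = a(q^{ℓ²}) · ∏_{i<ℓ} a(ζ^i q)`, `ζ = e^{2πi/ℓ}`, as Laurent series.
-/
import Mathlib
import Fermat.Agent.N4.QExpTranslate
import Fermat.Agent.N4F.Tors.NormCosets
import Fermat.Agent.N4F.Tors.KummerHecke

set_option autoImplicit false
set_option linter.unusedSectionVars false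

namespace Fermat.Agent.S40.W.NormQExpA

open UpperHalfPlane ModularForm MatrixGroups Filter Function Complex CongruenceSubgroup
open Fermat.Agent.M2 Fermat.Agent.M2.CuspVal Fermat.Agent.S24.QExpHom ModularCurve
open Fermat.Agent.N4.TwistSeries Fermat.Agent.N4.QExpTranslate
open P2MW.S_ModularForm_heckeT_slash_eq_self_of_mem_Gamma0.ModularForm.HeckeSlashInvariance
open scoped Manifold Topology OnePoint

local notation "Δ" => ModularForm.discriminant

/-! ### Rational translates -/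

theorem trl_eq_affH (B : ℤ) (D : ℕ) (hD : 0 < D) (g : ℍ → ℂ) :
    trl ((B : ℝ) / D) g = fun z => g (JN.affH D D hD hD B z) := by
  ext z
  rw [trl_apply]
  congr 1
  apply UpperHalfPlane.ext
  rw [UpperHalfPlane.coe_vadd, JN.coe_affH]
  have hD' : (D : ℂ) ≠ 0 := Nat.cast_ne_zero.mpr hD.ne'
  push_cast
  field_simp
  ring

theorem isPerMero_trl (B : ℤ) (D : ℕ) (hD : 0 < D) {g : ℍ → ℂ} (hg : IsPerMero 1 g) :
    IsPerMero 1 (trl ((B : ℝ) / D) g) := by
  obtain ⟨m, hm⟩ := hg.mero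
  refine ⟨mdiff_trl _ hg.mdiff, ?_, ⟨m * D, ?_⟩⟩
  · have := periodic_trl ((B : ℝ) / D) (periodic_one hg)
    simpa using this
  · have h := Fermat.Agent.N4F.Tors.NormCosets.isBoundedAtImInfty_comp_affH hm D D hD hD B
    rw [trl_eq_affH B D hD]
    exact h

/-- **The `q`-expansion of `z ↦ g(z + B/D)` is `g(e^{2πi B/D} q)`.** -/
theorem qexpFun_trl (B : ℤ) (D : ℕ) (hD : 0 < D) {g : ℍ → ℂ} (hg : IsPerMero 1 g) :
    qexpFun (trl ((B : ℝ) / D) g) = twist (expUnit ((B : ℝ) / D)) (qexpFun g) := by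
  set a : ℝ := (B : ℝ) / D with ha
  obtain ⟨m, hm⟩ := hg.mero
  have hm' : IsBoundedAtImInfty (mulPow g m) := hm
  have hga : IsPerMero 1 (trl a g) := isPerMero_trl B D hD hg
  have hP : IsPerMero 1 (fun z : ℍ => Δ z ^ m) := IsPerMero.discriminant_pow 1 m
  have hPb : IsBoundedAtImInfty (fun z : ℍ => Δ z ^ m) := isBoundedAtImInfty_discriminant_pow m
  have hPa : IsPerMero 1 (trl a (fun z : ℍ => Δ z ^ m)) := isPerMero_trl_of_bounded a hP hPb
  have hG : IsPerMero 1 (mulPow g m) := isPerMero_mulPow hg m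
  have h1 : qexpFun (trl a (mulPow g m)) =
      twist (expUnit a) (qexpFun g) * twist (expUnit a) (qexpFun (fun z : ℍ => Δ z ^ m)) := by
    rw [qexpFun_trl_of_bounded a hG hm', mulPow_eq, qexpFun_mul hg hP, map_mul]
  have h2 : qexpFun (trl a (mulPow g m)) =
      qexpFun (trl a g) * twist (expUnit a) (qexpFun (fun z : ℍ => Δ z ^ m)) := by
    rw [mulPow_eq, trl_mul, qexpFun_mul hga hPa, qexpFun_trl_of_bounded a hP hPb]
  have hne : twist (expUnit a) (qexpFun (fun z : ℍ => Δ z ^ m)) ≠ 0 := by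
    rw [Ne, ← map_zero (twist (expUnit a)), (twist_injective _).eq_iff, qexpFun_eq_zero_iff hP]
    intro h
    have := congrFun h UpperHalfPlane.I
    exact pow_ne_zero m (discriminant_ne_zero _) this
  rw [h1] at h2
  exact (mul_right_cancel₀ hne h2).symm

/-! ### Finite products -/

theorem isPerMero_prod {ι : Type*} (s : Finset ι) (g : ι → ℍ → ℂ)
    (hg : ∀ i ∈ s, IsPerMero 1 (g i)) : IsPerMero 1 (∏ i ∈ s, g i) := by
  classical
  induction s using Finset.induction_on with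
  | empty =>
    rw [Finset.prod_empty]
    exact IsPerMero.const 1 1
  | insert j s hj ih =>
    rw [Finset.prod_insert hj]
    exact (hg j (Finset.mem_insert_self j s)).mul
      (ih fun i hi => hg i (Finset.mem_insert_of_mem hi))

theorem qexpFun_prod {ι : Type*} (s : Finset ι) (g : ι → ℍ → ℂ)
    (hg : ∀ i ∈ s, IsPerMero 1 (g i)) :
    qexpFun (∏ i ∈ s, g i) = ∏ i ∈ s, qexpFun (g i) := by
  classical
  induction s using Finset.induction_on with
  | empty =>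
    rw [Finset.prod_empty, Finset.prod_empty]
    have := qexpFun_const 1
    rw [map_one] at this
    exact this
  | insert j s hj ih =>
    rw [Finset.prod_insert hj, Finset.prod_insert hj,
      qexpFun_mul (hg j (Finset.mem_insert_self j s))
        (isPerMero_prod s g fun i hi => hg i (Finset.mem_insert_of_mem hi)),
      ih fun i hi => hg i (Finset.mem_insert_of_mem hi)]

/-! ### The Hecke product -/

section Hecke

variable (ℓ : ℕ) [Fact ℓ.Prime]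

instance : NeZero ℓ := ⟨(Fact.out : ℓ.Prime).ne_zero⟩

instance : NeZero (ℓ * ℓ) := ⟨Nat.mul_ne_zero (NeZero.ne ℓ) (NeZero.ne ℓ)⟩

theorem prod_zmod_eq_prod_range {M : Type*} [CommMonoid M] (n : ℕ) [NeZero n] (h : ℕ → M) :
    ∏ x : ZMod n, h x.val = ∏ i ∈ Finset.range n, h i := by
  obtain ⟨k, rfl⟩ := Nat.exists_eq_succ_of_ne_zero (NeZero.ne n)
  exact Fin.prod_univ_eq_prod_range h (k + 1)

theorem heckeRep_infty_smul_scaleH (z : ℍ) :
    heckeRep ℓ (∞ : OnePoint (ZMod ℓ)) • JN.scaleH ℓ z = JN.scaleH (ℓ * ℓ) z := by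
  apply UpperHalfPlane.ext
  rw [heckeRep_infty, coe_heckeDiagMatrix_smul (Fact.out : ℓ.Prime).ne_zero, JN.coe_scaleH,
    JN.coe_scaleH]
  push_cast
  ring

theorem heckeRep_coe_smul_scaleH (j : ZMod ℓ) (z : ℍ) :
    heckeRep ℓ (j : OnePoint (ZMod ℓ)) • JN.scaleH ℓ z = (((j.val : ℤ) : ℝ) / ℓ) +ᵥ z := by
  apply UpperHalfPlane.ext
  rw [heckeRep_coe, coe_heckeMatrix_smul (Fact.out : ℓ.Prime).ne_zero, JN.coe_scaleH,
    UpperHalfPlane.coe_vadd]
  have hℓ : (ℓ : ℂ) ≠ 0 := Nat.cast_ne_zero.mpr (Fact.out : ℓ.Prime).ne_zero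
  push_cast
  field_simp
  ring

/-- `∏_{x ∈ ℙ¹(𝔽_ℓ)} a(heckeRep ℓ x • (ℓ z)) = a(ℓ² z) · ∏_{i<ℓ} a(z + i/ℓ)`. -/
theorem prod_heckeRep_scaleH (a : ℍ → ℂ) (z : ℍ) :
    ∏ x : OnePoint (ZMod ℓ), a (heckeRep ℓ x • JN.scaleH ℓ z) =
      a (JN.scaleH (ℓ * ℓ) z) * ∏ i ∈ Finset.range ℓ, a ((((i : ℕ) : ℤ) : ℝ) / ℓ +ᵥ z) := by
  refine (Fintype.prod_option
    (fun x : OnePoint (ZMod ℓ) => a (heckeRep ℓ x • JN.scaleH ℓ z))).trans ?_
  congr 1
  · exact congrArg a (heckeRep_infty_smul_scaleH ℓ z)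
  · rw [← prod_zmod_eq_prod_range ℓ (fun i => a ((((i : ℕ) : ℤ) : ℝ) / ℓ +ᵥ z))]
    refine Finset.prod_congr rfl fun j _ => ?_
    exact congrArg a (heckeRep_coe_smul_scaleH ℓ j z)

/-- **The `q`-expansion of the Hecke product.** -/
theorem qexpFun_hecke_prod {a A : ℍ → ℂ} (ha : IsPerMero 1 a) (hA : IsPerMero 1 A)
    (hAℓ : IsPerMero 1 (scl ℓ A)) (haℓ : IsPerMero 1 (scl (ℓ * ℓ) a))
    (hprod : ∀ z, A z = ∏ x : OnePoint (ZMod ℓ), a (heckeRep ℓ x • z)) :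
    qExpand ℂ ℓ (qexpFun A) = qExpand ℂ (ℓ * ℓ) (qexpFun a) *
      ∏ i ∈ Finset.range ℓ, twist (expUnit ((((i : ℕ) : ℤ) : ℝ) / ℓ)) (qexpFun a) := by
  have hℓ : 0 < ℓ := (Fact.out : ℓ.Prime).pos
  have hfun : scl ℓ A = scl (ℓ * ℓ) a *
      ∏ i ∈ Finset.range ℓ, trl ((((i : ℕ) : ℤ) : ℝ) / ℓ) a := by
    ext z
    rw [scl_apply, hprod, prod_heckeRep_scaleH, Pi.mul_apply, Finset.prod_apply, scl_apply]
    rfl
  have htr : ∀ i ∈ Finset.range ℓ, IsPerMero 1 (trl ((((i : ℕ) : ℤ) : ℝ) / ℓ) a) :=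
    fun i _ => isPerMero_trl (i : ℤ) ℓ hℓ ha
  rw [← qexpFun_scl ℓ hA hAℓ, hfun, qexpFun_mul haℓ (isPerMero_prod _ _ htr),
    qexpFun_scl (ℓ * ℓ) ha haℓ, qexpFun_prod _ _ htr]
  congr 1
  exact Finset.prod_congr rfl fun i _ => qexpFun_trl (i : ℤ) ℓ hℓ ha

end Hecke

end Fermat.Agent.S40.W.NormQExpA
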