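/-
S40 / (W3), node (D′)/(★) (helper4): **the `q`-expansion of the Hecke norm `N_α(β f)`**.

For `f ∈ F₀(N) = modularFunctionFieldBar N ⊂ Q̄((q))`, `ℓ ∤ N` prime, and
`normBeta N ℓ f = N_α(β f) ∈ F₀(N)` (the function whose divisor is `T_ℓ (div f)`,
`N4F/Tors/HeckeDiv`):

  `(N_α(β f))(q^ℓ) = f(q^{ℓ²}) · ∏_{i<ℓ} f(ζ^i q)`  in `Q̄((q))`, `ζ` a primitive `ℓ`-th root of `1`,

i.e. in the variable `t = q^{1/ℓ}`: `N_α(β f)(q) = f(q^ℓ) ∏_i f(ζ^i q^{1/ℓ})`.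

* `norm_beta_qexp_C` : the statement over `ℂ` for `F ∈ FC N` (from `NormCosets.exists_norm_beta_div`,
  the transversal of `KummerHecke` and `NormQExpA.qexpFun_hecke_prod`);
* `normBeta_qexp_iota` : the statement for `f ∈ F₀(N)` after `ι : Q̄ → ℂ`;
* `exists_zeta_normBeta_qexp` : the statement over `Q̄`.
-/
import Mathlib
import Fermat.Agent.S40.W.NormQExpA
import Fermat.Agent.S36.V.MidCuspC
import Fermat.Agent.N4F.Tors.HeckeDiv
import Fermat.Agent.N4.ModPolyDescent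

set_option autoImplicit false
set_option linter.unusedSectionVars false
set_option linter.style.haveILetI false

namespace Fermat.Agent.S40.W.NormQExp

open UpperHalfPlane ModularForm MatrixGroups Filter Function Complex CongruenceSubgroup
open Fermat.Agent.M2 Fermat.Agent.M2.CuspVal ModularCurve AlgebraicCurve
open Fermat.Agent.S24 Fermat.Agent.S24.FieldIso
open Fermat.Agent.N4.TwistSeries Fermat.Agent.N4.QExpTranslate
open Fermat.Agent.N4F.Tors Fermat.Agent.N4F.Tors.KummerHecke Fermat.Agent.S40.W.NormQExpA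
open P2MW.S_ModularForm_heckeT_slash_eq_self_of_mem_Gamma0.ModularForm.HeckeSlashInvariance
open scoped Manifold Topology OnePoint

local notation "Qb" => AlgebraicClosure ℚ

/-! ### `WH` functions and the two `q`-expansions -/

section WHq

variable (N : ℕ) [NeZero N]

theorem isPerMero_WH (a : WH (Gamma0 N)) : IsPerMero 1 (a : ℍ → ℂ) :=
  Fermat.Agent.S36.V.MidCuspC.isPerMero_of_isMer (QExp.isMer_coe (QExp.T_mem_Gamma0 N) a)

theorem qexp_eq_hom (a : WH (Gamma0 N)) :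
    QExp.qexp N a = Fermat.Agent.S24.QExpHom.qexpFun (a : ℍ → ℂ) := by
  rw [QExp.qexp_apply]
  exact Fermat.Agent.S36.V.MidCuspC.qexpFun_eq_hom (QExp.isMer_coe (QExp.T_mem_Gamma0 N) a)

end WHq

/-! ### The statement over `ℂ` -/

section OverC

variable (N ℓ : ℕ) [NeZero N] [Fact ℓ.Prime]

/-- the `ℓ` twisting units `e^{2πi i/ℓ}` -/
noncomputable def zetaC (i : ℕ) : ℂˣ := expUnit ((((i : ℕ) : ℤ) : ℝ) / ℓ)

/-- **Product formula for `WH` functions.** -/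
theorem qexp_hecke_prod_WH (a A : WH (Gamma0 N))
    (hprod : ∀ z, (A : ℍ → ℂ) z = ∏ x : OnePoint (ZMod ℓ), (a : ℍ → ℂ) (heckeRep ℓ x • z)) :
    qExpand ℂ ℓ (QExp.qexp N A) = qExpand ℂ (ℓ * ℓ) (QExp.qexp N a) *
      ∏ i ∈ Finset.range ℓ, twist (zetaC ℓ i) (QExp.qexp N a) := by
  rw [qexp_eq_hom, qexp_eq_hom]
  have hAℓ : IsPerMero 1 (Fermat.Agent.S24.QExpHom.scl ℓ (A : ℍ → ℂ)) :=
    isPerMero_WH (N * ℓ) (NormCosets.scaleWH N ℓ A)
  have haℓ : IsPerMero 1 (Fermat.Agent.S24.QExpHom.scl (ℓ * ℓ) (a : ℍ → ℂ)) :=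
    isPerMero_WH (N * (ℓ * ℓ)) (NormCosets.scaleWH N (ℓ * ℓ) a)
  exact qexpFun_hecke_prod ℓ (isPerMero_WH N a) (isPerMero_WH N A) hAℓ haℓ hprod

/-- the `q`-expansion of an element of `FC N` presented as a quotient of `WH` functions -/
theorem coe_eq_qexp_div (F : FC N) (a b : WH (Gamma0 N))
    (hab : (fieldEquiv N).symm F = algebraMap (WH (Gamma0 N)) (WHField (Gamma0 N)) a /
      algebraMap (WH (Gamma0 N)) (WHField (Gamma0 N)) b) :
    (F : LaurentSeries ℂ) = QExp.qexp N a / QExp.qexp N b := by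
  have h1 : F = fieldEquiv N ((fieldEquiv N).symm F) := (AlgEquiv.apply_symm_apply _ _).symm
  rw [h1, coe_fieldEquiv, hab, map_div₀, qexpField_algebraMap, qexpField_algebraMap]

/-- **The `q`-expansion of the Hecke norm, over `ℂ`.** -/
theorem norm_beta_qexp_C (hℓN : ¬ ℓ ∣ N) (F : FC N) :
    qExpand ℂ ℓ (((letI := algebraAlong (heckeAlphaBar ℂ N ℓ);
        Algebra.norm (FC N) (heckeBetaBar ℂ N ℓ F)) : FC N) : LaurentSeries ℂ) =
      qExpand ℂ (ℓ * ℓ) (F : LaurentSeries ℂ) *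
        ∏ i ∈ Finset.range ℓ, twist (zetaC ℓ i) (F : LaurentSeries ℂ) := by
  -- present `Φ F` as a quotient
  obtain ⟨a, b, hb, hab⟩ := IsFractionRing.div_surjective (A := WH (Gamma0 N))
    ((fieldEquiv N).symm F)
  have hb0 : b ≠ 0 := nonZeroDivisors.ne_zero hb
  -- the transversal
  choose δ hδ using exists_redMatrix_smul_infty_eq N ℓ hℓN
  have hcos := existsUnique_mul_inv_mem N ℓ hℓN δ hδ
  obtain ⟨A, B, hB, hA, hBz, hn⟩ := NormCosets.exists_norm_beta_div N ℓ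
    (fun x => ((δ x : ↥(Gamma0 N)) : SL(2, ℤ))) (fun x => (δ x).2) hcos F a b hb0 hab.symm
  -- invariance of `a`, `b`
  have hinv : ∀ c : WH (Gamma0 N), ∀ (γ : ↥(Gamma0 N)) (z : ℍ),
      (c : ℍ → ℂ) ((γ : SL(2, ℤ)) • z) = (fun _ : ↥(Gamma0 N) => (1 : ℂ)) γ * (c : ℍ → ℂ) z := by
    intro c γ z
    rw [one_mul]
    exact c.2.2.1 _ γ.2 z
  have hA' : ∀ z, (A : ℍ → ℂ) z = ∏ x : OnePoint (ZMod ℓ), (a : ℍ → ℂ) (heckeRep ℓ x • z) := by
    intro z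
    rw [hA z, prod_scaleH_smul hℓN (hinv a) δ hδ z]
    simp
  have hB' : ∀ z, (B : ℍ → ℂ) z = ∏ x : OnePoint (ZMod ℓ), (b : ℍ → ℂ) (heckeRep ℓ x • z) := by
    intro z
    rw [hBz z, prod_scaleH_smul hℓN (hinv b) δ hδ z]
    simp
  have e1 := qexp_hecke_prod_WH N ℓ a A hA'
  have e2 := qexp_hecke_prod_WH N ℓ b B hB'
  rw [coe_eq_qexp_div N _ A B hn, coe_eq_qexp_div N F a b hab.symm, map_div₀, e1, e2, map_div₀]
  simp only [map_div₀]
  rw [Finset.prod_div_distrib]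
  ring

end OverC

/-! ### Descent to `Q̄` -/

section Descent

variable (N ℓ : ℕ) [NeZero N] [Fact ℓ.Prime] (ι : Qb →+* ℂ)

/-- `twist` commutes with coefficientwise ring homomorphisms. -/
theorem coeffMap_twist {R S : Type*} [CommRing R] [CommRing S] (φ : R →+* S) (u : Rˣ)
    (f : LaurentSeries R) :
    coeffMap φ (twist u f) = twist (Units.map (φ : R →* S) u) (coeffMap φ f) := by
  ext n
  rw [coeffMap_coeff, twist_coeff, twist_coeff, coeffMap_coeff, map_mul]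
  congr 1
  rw [← map_zpow, Units.coe_map]
  rfl

/-- **The `q`-expansion of the Hecke norm, after `ι : Q̄ → ℂ`.** -/
theorem normBeta_qexp_iota (hℓN : ¬ ℓ ∣ N) (f : modularFunctionFieldBar N) :
    qExpand ℂ ℓ (coeffMap ι ((HeckeDiv.normBeta N ℓ f : modularFunctionFieldBar N) :
        LaurentSeries Qb)) =
      qExpand ℂ (ℓ * ℓ) (coeffMap ι (f : LaurentSeries Qb)) *
        ∏ i ∈ Finset.range ℓ, twist (zetaC ℓ i) (coeffMap ι (f : LaurentSeries Qb)) := by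
  have h := norm_beta_qexp_C N ℓ hℓN (barToC N ι f)
  rw [← NormCosets.barToC_beta N ℓ ι f, ← NormCosets.barToC_norm N ℓ ι hℓN, coe_barToC,
    coe_barToC] at h
  exact h

/-- `zetaC ℓ i = (zetaC ℓ 1) ^ i`. -/
theorem zetaC_eq_pow (i : ℕ) : zetaC ℓ i = zetaC ℓ 1 ^ i := by
  have h := Fermat.Agent.N4.ModPolyDescent.expUnit_int_mul (i : ℤ) ((1 : ℝ) / ℓ)
  rw [zpow_natCast] at h
  have e1 : zetaC ℓ 1 = expUnit ((1 : ℝ) / ℓ) := by
    unfold zetaC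
    congr 1
    push_cast
    ring
  have e2 : zetaC ℓ i = expUnit (((i : ℤ) : ℝ) * ((1 : ℝ) / ℓ)) := by
    unfold zetaC
    congr 1
    push_cast
    ring
  rw [e1, e2, h]

theorem zetaC_one_pow_self : zetaC ℓ 1 ^ ℓ = 1 := by
  have hℓ : (ℓ : ℝ) ≠ 0 := Nat.cast_ne_zero.mpr (Fact.out : ℓ.Prime).ne_zero
  rw [← zetaC_eq_pow, zetaC]
  have : ((((ℓ : ℕ) : ℤ) : ℝ)) / ℓ = 1 := by
    push_cast
    field_simp
  rw [this, Fermat.Agent.N4.ModPolyDescent.expUnit_one]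

theorem isPrimitiveRoot_zetaC_one : IsPrimitiveRoot ((zetaC ℓ 1 : ℂˣ) : ℂ) ℓ := by
  have h := Complex.isPrimitiveRoot_exp ℓ (Fact.out : ℓ.Prime).ne_zero
  have e : ((zetaC ℓ 1 : ℂˣ) : ℂ) = Complex.exp (2 * Real.pi * Complex.I / ℓ) := by
    rw [zetaC, Fermat.Agent.N4.ModPolyDescent.coe_expUnit_eq]
    congr 1
    push_cast
    ring
  rw [e]
  exact h

/-- A root of unity of `Q̄` mapping to `e^{2πi/ℓ}`. -/
theorem exists_zeta_iota : ∃ ζ : Qbˣ, ζ ^ ℓ = 1 ∧ IsPrimitiveRoot (ζ : Qb) ℓ ∧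
    Units.map (ι : Qb →* ℂ) ζ = zetaC ℓ 1 := by
  have hℓ0 : ℓ ≠ 0 := (Fact.out : ℓ.Prime).ne_zero
  haveI : NeZero ((ℓ : ℕ) : Qb) := ⟨Nat.cast_ne_zero.mpr hℓ0⟩
  obtain ⟨ζ₀, hζ₀⟩ := HasEnoughRootsOfUnity.exists_primitiveRoot Qb ℓ
  have h1 : IsPrimitiveRoot (ι ζ₀) ℓ := hζ₀.map_of_injective ι.injective
  have h2 := isPrimitiveRoot_zetaC_one ℓ
  obtain ⟨k, hk, hkeq⟩ := h1.eq_pow_of_pow_eq_one h2.pow_eq_one
  have hcop : k.Coprime ℓ := by
    have h3 : IsPrimitiveRoot ((ι ζ₀) ^ k) ℓ := by rw [hkeq]; exact h2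
    exact (h1.pow_iff_coprime (Nat.pos_of_ne_zero hℓ0) k).mp h3
  have hζk : IsPrimitiveRoot (ζ₀ ^ k) ℓ := hζ₀.pow_of_coprime k hcop
  have hne : ζ₀ ^ k ≠ 0 := hζk.ne_zero hℓ0
  refine ⟨Units.mk0 (ζ₀ ^ k) hne, ?_, hζk, ?_⟩
  · apply Units.ext
    rw [Units.val_pow_eq_pow_val, Units.val_mk0, Units.val_one]
    exact hζk.pow_eq_one
  · apply Units.ext
    rw [Units.coe_map, Units.val_mk0]
    show ι (ζ₀ ^ k) = _
    rw [map_pow, hkeq]

/-- **The `q`-expansion of the Hecke norm, over `Q̄`**: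
`(N_α(β f))(q^ℓ) = f(q^{ℓ²}) ∏_{i<ℓ} f(ζ^i q)`. -/
theorem exists_zeta_normBeta_qexp (hℓN : ¬ ℓ ∣ N) :
    ∃ ζ : Qbˣ, ζ ^ ℓ = 1 ∧ IsPrimitiveRoot (ζ : Qb) ℓ ∧ ∀ f : modularFunctionFieldBar N,
      qExpand Qb ℓ ((HeckeDiv.normBeta N ℓ f : modularFunctionFieldBar N) : LaurentSeries Qb) =
        qExpand Qb (ℓ * ℓ) (f : LaurentSeries Qb) *
          ∏ i ∈ Finset.range ℓ, twist (ζ ^ i) (f : LaurentSeries Qb) := by
  set ι : Qb →+* ℂ := BarToC.iota with hι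
  obtain ⟨ζ, hζ1, hζp, hζι⟩ := exists_zeta_iota ℓ ι
  refine ⟨ζ, hζ1, hζp, fun f => ?_⟩
  have hinj : Function.Injective (coeffMap ι) := by
    intro x y h
    ext n
    exact ι.injective (congrArg (fun z : LaurentSeries ℂ => z.coeff n) h)
  apply hinj
  rw [coeffMap_qExpand, normBeta_qexp_iota N ℓ ι hℓN f, map_mul, coeffMap_qExpand, map_prod]
  congr 1
  refine Finset.prod_congr rfl fun i _ => ?_
  rw [coeffMap_twist, map_pow, hζι, zetaC_eq_pow]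

end Descent

end Fermat.Agent.S40.W.NormQExp
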