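/-
S40 / (W3), node (D′)/(★), coefficient transfer (helper4): **from the multiplicative Hecke relation
`N_α(β f) = c · f^m · e^p` of a function of level `N` over `Q̄` to the additive weight-2 Hecke
relation `(U_ℓ + ℓ V_ℓ) b = m b` of the logarithmic `θ`-derivative `b = θ ḡ / ḡ` of its reduction
`ḡ` modulo a valuation ring `A ⊂ Q̄` of residue characteristic `p ≠ ℓ`.**

* `prod_identity_residue` : a product identity
  `F(t^{ℓ²}) ∏_{i<ℓ} F(ζ^i t) = c · F(t^ℓ)^m · E(t^ℓ)^p` over `Q̄`, for Laurent series `F`, `E` with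
  coefficients in `A` and nonzero reduction, reduces to the same identity over the residue field
  (`c` is automatically in `A`);
* `hecke_coeff_of_normBeta` : the assembled statement, via `NormQExp.exists_zeta_normBeta_qexp`
  and `HeckeDlog.hecke_coeff`.
-/
import Mathlib
import Fermat.Agent.S40.W.HeckeDlog
import Fermat.Agent.S40.W.NormQExp

set_option autoImplicit false
set_option linter.unusedSectionVars false

open HahnSeries ModularCurve
open Fermat.Agent.N4.TwistSeries Fermat.Agent.S36.R3.PiSeries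
open Fermat.Agent.S40.W.HeckeDlog Fermat.Agent.S40.W.NormQExp

namespace Fermat.Agent.S40.W.HeckeStar

noncomputable section

local notation "Qb" => AlgebraicClosure ℚ

/-! ### Generic coefficient transfer -/

section Transfer

variable {Q : Type*} [Field Q] (A : ValuationSubring Q)

local notation "κA" => IsLocalRing.ResidueField A

/-- inclusion of coefficients `A ⊂ Q` -/
def incA : LaurentSeries A →+* LaurentSeries Q := coeffMap A.subtype

/-- reduction of coefficients `A → κ_A` -/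
def redA : LaurentSeries A →+* LaurentSeries κA := coeffMap (IsLocalRing.residue A)

theorem incA_injective : Function.Injective (incA A) := by
  intro x y h
  ext n
  have h1 := congrArg (fun z : LaurentSeries Q => z.coeff n) h
  simp only [incA, coeffMap_coeff] at h1
  exact h1

theorem incA_qExpand (k : ℕ) [NeZero k] (x : LaurentSeries A) :
    incA A (qExpand A k x) = qExpand Q k (incA A x) := coeffMap_qExpand _ k x

theorem redA_qExpand (k : ℕ) [NeZero k] (x : LaurentSeries A) :
    redA A (qExpand A k x) = qExpand κA k (redA A x) := coeffMap_qExpand _ k x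

theorem incA_twist (u : Aˣ) (x : LaurentSeries A) :
    incA A (twist u x) = twist (Units.map (A.subtype : A →* Q) u) (incA A x) :=
  coeffMap_twist _ u x

theorem redA_twist (u : Aˣ) (x : LaurentSeries A) :
    redA A (twist u x) = twist (Units.map (IsLocalRing.residue A : A →* κA) u) (redA A x) :=
  coeffMap_twist _ u x

theorem incA_C (a : A) : incA A (HahnSeries.C a) = HahnSeries.C (a : Q) := by
  rw [HahnSeries.C_apply, HahnSeries.C_apply]
  exact coeffMap_single _ 0 a

theorem redA_C (a : A) : redA A (HahnSeries.C a) = HahnSeries.C (IsLocalRing.residue A a) := by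
  rw [HahnSeries.C_apply, HahnSeries.C_apply]
  exact coeffMap_single _ 0 a

/-- a root of unity of `Q` is a unit of `A` -/
theorem exists_unit_of_pow_eq_one {ℓ : ℕ} (hℓ : ℓ ≠ 0) (ζ : Qˣ) (hζ : ζ ^ ℓ = 1) :
    ∃ u : Aˣ, Units.map (A.subtype : A →* Q) u = ζ := by
  have h1 : A.valuation (ζ : Q) ^ ℓ = 1 := by
    rw [← map_pow, ← Units.val_pow_eq_pow_val, hζ, Units.val_one, map_one]
  have h2 : A.valuation (ζ : Q) = 1 := (pow_eq_one_iff.mp h1).resolve_right hℓ
  have hmem : ζ ∈ A.unitGroup := (A.mem_unitGroup_iff ζ).mpr h2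
  refine ⟨A.unitGroupMulEquiv ⟨ζ, hmem⟩, ?_⟩
  apply Units.ext
  rw [Units.coe_map]
  rfl

variable {A}

/-- **Reduction of the product identity.** -/
theorem prod_identity_residue (ℓ p m : ℕ) [NeZero ℓ] (ζ : Qˣ) (hζ : ζ ^ ℓ = 1)
    (F₀ E₀ : LaurentSeries A) (c : Q) (hF0 : redA A F₀ ≠ 0) (hE0 : redA A E₀ ≠ 0)
    (hid : qExpand Q (ℓ * ℓ) (incA A F₀) * ∏ i ∈ Finset.range ℓ, twist (ζ ^ i) (incA A F₀) =
      HahnSeries.C c * qExpand Q ℓ (incA A F₀) ^ m * qExpand Q ℓ (incA A E₀) ^ p) :
    ∃ (ζ' : κAˣ) (c' : κA), ζ' ^ ℓ = 1 ∧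
      qExpand κA (ℓ * ℓ) (redA A F₀) * ∏ i ∈ Finset.range ℓ, twist (ζ' ^ i) (redA A F₀) =
        HahnSeries.C c' * qExpand κA ℓ (redA A F₀) ^ m * qExpand κA ℓ (redA A E₀) ^ p := by
  have : NeZero (ℓ * ℓ) := ⟨Nat.mul_ne_zero (NeZero.ne ℓ) (NeZero.ne ℓ)⟩
  obtain ⟨u, hu⟩ := exists_unit_of_pow_eq_one A (NeZero.ne ℓ) ζ hζ
  set ζ' : κAˣ := Units.map (IsLocalRing.residue A : A →* κA) u with hζ'
  have hu1 : u ^ ℓ = 1 := by
    apply Units.map_injective (f := (A.subtype : A →* Q)) Subtype.val_injective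
    rw [map_pow, hu, hζ, map_one]
  have hζ'1 : ζ' ^ ℓ = 1 := by rw [hζ', ← map_pow, hu1, map_one]
  -- the two sides over `A`
  set P : LaurentSeries A := qExpand A (ℓ * ℓ) F₀ * ∏ i ∈ Finset.range ℓ, twist (u ^ i) F₀ with hP
  set R : LaurentSeries A := qExpand A ℓ F₀ ^ m * qExpand A ℓ E₀ ^ p with hR
  have hincP : incA A P = qExpand Q (ℓ * ℓ) (incA A F₀) *
      ∏ i ∈ Finset.range ℓ, twist (ζ ^ i) (incA A F₀) := by
    rw [hP, map_mul, incA_qExpand, map_prod]
    congr 1
    refine Finset.prod_congr rfl fun i _ => ?_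
    rw [incA_twist, map_pow, hu]
  have hincR : incA A R = qExpand Q ℓ (incA A F₀) ^ m * qExpand Q ℓ (incA A E₀) ^ p := by
    rw [hR, map_mul, map_pow, map_pow, incA_qExpand, incA_qExpand]
  have hredP : redA A P = qExpand κA (ℓ * ℓ) (redA A F₀) *
      ∏ i ∈ Finset.range ℓ, twist (ζ' ^ i) (redA A F₀) := by
    rw [hP, map_mul, redA_qExpand, map_prod]
    congr 1
    refine Finset.prod_congr rfl fun i _ => ?_
    rw [redA_twist, map_pow]
  have hredR : redA A R = qExpand κA ℓ (redA A F₀) ^ m * qExpand κA ℓ (redA A E₀) ^ p := by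
    rw [hR, map_mul, map_pow, map_pow, redA_qExpand, redA_qExpand]
  have hredR0 : redA A R ≠ 0 := by
    rw [hredR]
    refine mul_ne_zero (pow_ne_zero _ ?_) (pow_ne_zero _ ?_)
    · exact fun h => hF0 (qExpand_injective (R := κA) ℓ (by rw [h, map_zero]))
    · exact fun h => hE0 (qExpand_injective (R := κA) ℓ (by rw [h, map_zero]))
  rw [← hincP, mul_assoc, ← hincR] at hid
  clear_value P R
  rcases A.mem_or_inv_mem c with hc | hc
  · -- `c ∈ A`
    refine ⟨ζ', IsLocalRing.residue A ⟨c, hc⟩, hζ'1, ?_⟩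
    have h1 : incA A P = incA A (HahnSeries.C ⟨c, hc⟩ * R) := by
      rw [hid, map_mul, incA_C]
    have h2 := incA_injective A h1
    rw [← hredP, mul_assoc, ← hredR, h2, map_mul, redA_C]
  · -- `c⁻¹ ∈ A`
    by_cases hcA : c ∈ A
    · refine ⟨ζ', IsLocalRing.residue A ⟨c, hcA⟩, hζ'1, ?_⟩
      have h1 : incA A P = incA A (HahnSeries.C ⟨c, hcA⟩ * R) := by
        rw [hid, map_mul, incA_C]
      have h2 := incA_injective A h1
      rw [← hredP, mul_assoc, ← hredR, h2, map_mul, redA_C]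
    · exfalso
      have hc0 : c ≠ 0 := fun h => hcA (by rw [h]; exact A.zero_mem)
      -- `c⁻¹` is a nonunit of `A`
      have hres : IsLocalRing.residue A ⟨c⁻¹, hc⟩ = 0 := by
        rw [IsLocalRing.residue_eq_zero_iff, IsLocalRing.mem_maximalIdeal, mem_nonunits_iff]
        intro hunit
        obtain ⟨w, hw⟩ := hunit.exists_right_inv
        have h3 : c⁻¹ * (w : Q) = 1 := by
          have := congrArg (fun z : A => (z : Q)) hw
          simpa using this
        have h4 : (w : Q) = c := by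
          field_simp at h3
          exact h3
        exact hcA (h4 ▸ w.2)
      have h1 : incA A (HahnSeries.C ⟨c⁻¹, hc⟩ * P) = incA A R := by
        rw [map_mul, incA_C, hid, ← mul_assoc, ← map_mul]
        show HahnSeries.C (c⁻¹ * c) * incA A R = incA A R
        rw [inv_mul_cancel₀ hc0, map_one, one_mul]
      have h2 := incA_injective A h1
      apply hredR0
      rw [← h2, map_mul, redA_C, hres, map_zero, zero_mul]

end Transfer

/-! ### The assembled statement -/

section Assembled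

open Fermat.Agent.N4F.Tors

variable (N ℓ p : ℕ) [NeZero N] [Fact ℓ.Prime] (A : ValuationSubring Qb)

local notation "κA" => IsLocalRing.ResidueField A

/-- **(D′) assembled.** If `N_α(β f) = c · f^m · e^p` in `F₀(N)`, `f`, `e` have `q`-expansions with
coefficients in `A` and nonzero reductions `ḡ`, `ē`, and `b ḡ = θ ḡ`, then
`b_{ℓ n} + ℓ b_{n/ℓ} = m b_n` for all `n`: `b` is a weight-2 `T_ℓ`-eigen-series. -/
theorem hecke_coeff_of_normBeta [CharP κA p] (hℓN : ¬ ℓ ∣ N) (hℓp : ((ℓ : ℕ) : κA) ≠ 0)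
    (f e : modularFunctionFieldBar N) (c : Qb) (m : ℕ)
    (hstar : HeckeDiv.normBeta N ℓ f =
      algebraMap Qb (modularFunctionFieldBar N) c * f ^ m * e ^ p)
    (F₀ E₀ : LaurentSeries A) (hF : incA A F₀ = (f : LaurentSeries Qb))
    (hE : incA A E₀ = (e : LaurentSeries Qb))
    (hF0 : redA A F₀ ≠ 0) (hE0 : redA A E₀ ≠ 0)
    (b : LaurentSeries κA) (hb : HasDlog (redA A F₀) b) (n : ℤ) :
    b.coeff ((ℓ : ℤ) * n) + (ℓ : κA) * (if (ℓ : ℤ) ∣ n then b.coeff (n / ℓ) else 0) =
      (m : κA) * b.coeff n := by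
  obtain ⟨ζ, hζ1, -, hζ⟩ := exists_zeta_normBeta_qexp N ℓ hℓN
  have h1 := hζ f
  rw [hstar] at h1
  have hcoe : ((algebraMap Qb (modularFunctionFieldBar N) c * f ^ m * e ^ p :
      modularFunctionFieldBar N) : LaurentSeries Qb) =
      HahnSeries.C c * (f : LaurentSeries Qb) ^ m * (e : LaurentSeries Qb) ^ p := by
    push_cast
    congr 2
    have h1 : algebraMap Qb (PowerSeries Qb) c = PowerSeries.C c := by simp
    rw [HahnSeries.algebraMap_apply', h1, HahnSeries.ofPowerSeries_C]
  rw [hcoe, map_mul, map_mul, map_pow, map_pow, ← hF, ← hE] at h1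
  have hC : qExpand Qb ℓ (HahnSeries.C c) = HahnSeries.C c := qExpand_C ℓ c
  rw [hC] at h1
  obtain ⟨ζ', c', hζ'1, hid⟩ := prod_identity_residue ℓ p m ζ hζ1 F₀ E₀ c hF0 hE0 h1.symm
  exact hecke_coeff p ℓ hℓp ζ' hζ'1 (redA A F₀) (redA A E₀) b hF0 hb c' m hid n

end Assembled

end

end Fermat.Agent.S40.W.HeckeStar
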