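/-
S40 / (W3), node (D′)/(★), GAUSS-RING FORM (helper4): **the weight-2 Hecke relation for the
`θ`-logarithm of the GAUSS reduction of a Kummer generator.**

`HeckeStar.hecke_coeff_of_normBeta` asks for `q`-expansions with coefficients in the valuation ring
`A ⊂ Q̄`.  A function `f` of level `N` which is a unit for the Gauss valuation has in general only a
`q`-expansion of the form `a / b` with `a, b ∈ A((q))`, `b̄ ≠ 0` (a pole of `f` in the residue disc of
the cusp makes the denominators unbounded).  This file removes the restriction: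

* `exists_const_residue`, `prod_identity_residue_frac` : the product identity
  `F(t^{ℓ²}) ∏ F(ζ^i t) = c · F(t^ℓ)^m · E(t^ℓ)^p` for `F = a/b`, `E = a'/b'` in the Gauss ring reduces
  to the same identity for `ā/b̄`, `ā'/b̄'`;
* `exists_scale_gauss` : every nonzero `e ∈ Q̄ F_N` has a constant multiple in the Gauss ring with
  nonzero reduction (through a level whose base ring is a discrete valuation ring);
* `hecke_coeff_thetaBar` : `N_α(β f) = c f^m e^p`, `f ∈ gaussSub A N`, `thetaBar f ≠ 0`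
  ⟹ `(U_ℓ + ℓ V_ℓ) b = m b` for `b = θ ḡ / ḡ`, `ḡ = thetaBar A N f`;
* `hecke_coeff_theta_level` : the same for a model `f_K` at a level `K`, with `ḡ = theta f_K` over
  the residue field of `A ∩ K`;
* `hecke_coeff_of_heckeTors_level` : directly from `heckeTors N p ℓ x = m • x`, `x = [D]`,
  `p • D = div (lev f_K)`;
* bridge to `ThetaLog` : `thetaL_eq_thetaD`, `hasDlog_dlog`.
-/
import Mathlib
import Fermat.Agent.S40.W.HeckeStar
import Fermat.Agent.S40.W.HeckeUnfold
import Fermat.Agent.S40.W.ThetaLog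
import Fermat.Agent.N4F.C.LevelTheta
import Fermat.Agent.P3G.Assembly.LevelStep
import Fermat.Agent.P3G.GammaDict
import Fermat.Agent.S40.Top.Eigen

set_option autoImplicit false
set_option linter.unusedSectionVars false
set_option linter.style.haveILetI false

open HahnSeries ModularCurve AlgebraicCurve
open Fermat.Agent.N4.TwistSeries Fermat.Agent.S36.R3.PiSeries
open Fermat.Agent.S40.W.HeckeDlog Fermat.Agent.S40.W.NormQExp Fermat.Agent.S40.W.HeckeStar
open Fermat.Agent.S40.W.ThetaLog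

namespace Fermat.Agent.S40.W.HeckeGauss

noncomputable section

local notation "Qb" => AlgebraicClosure ℚ

/-! ### Bridge to `ThetaLog` -/

section Bridge

variable {κ : Type*} [Field κ]

/-- The `θ` of `S36/R3/PiSeries` is THE `θ` of `ThetaLog`. -/
theorem thetaL_eq_thetaD (g : LaurentSeries κ) : thetaL g = thetaD κ g := by
  ext n
  rfl

/-- `dlog g` is a logarithmic derivative in the sense of `HeckeDlog`. -/
theorem hasDlog_dlog {g : LaurentSeries κ} (hg : g ≠ 0) : HasDlog g (dlog κ g) := by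
  unfold HasDlog
  rw [thetaL_eq_thetaD, dlog_def, div_mul_cancel₀ _ hg]

theorem hasDlog_iff_eq_dlog {g b : LaurentSeries κ} (hg : g ≠ 0) :
    HasDlog g b ↔ b = dlog κ g := by
  constructor
  · intro h
    exact HasDlog.unique hg h (hasDlog_dlog hg)
  · rintro rfl
    exact hasDlog_dlog hg

end Bridge

/-! ### The Hecke product as a monoid homomorphism -/

section HeckeP

variable (k : Type*) [CommRing k] (ℓ : ℕ) [NeZero ℓ]

/-- `x ↦ x(t^{ℓ²}) ∏_{i<ℓ} x(u^i t)`. -/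
def heckeP (u : kˣ) (x : LaurentSeries k) : LaurentSeries k :=
  haveI : NeZero (ℓ * ℓ) := ⟨Nat.mul_ne_zero (NeZero.ne ℓ) (NeZero.ne ℓ)⟩
  qExpand k (ℓ * ℓ) x * ∏ i ∈ Finset.range ℓ, twist (u ^ i) x

theorem heckeP_mul (u : kˣ) (x y : LaurentSeries k) :
    heckeP k ℓ u (x * y) = heckeP k ℓ u x * heckeP k ℓ u y := by
  unfold heckeP
  simp only [map_mul, Finset.prod_mul_distrib]
  ring

theorem heckeP_coeffMap {k' : Type*} [CommRing k'] (φ : k →+* k') (u : kˣ) (x : LaurentSeries k) :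
    coeffMap φ (heckeP k ℓ u x) = heckeP k' ℓ (Units.map (φ : k →* k') u) (coeffMap φ x) := by
  haveI : NeZero (ℓ * ℓ) := ⟨Nat.mul_ne_zero (NeZero.ne ℓ) (NeZero.ne ℓ)⟩
  unfold heckeP
  rw [map_mul, coeffMap_qExpand, map_prod]
  congr 1
  refine Finset.prod_congr rfl fun i _ => ?_
  rw [coeffMap_twist, map_pow]

/-- `(x, y) ↦ x(t^ℓ)^m y(t^ℓ)^p`. -/
def heckeR (m p : ℕ) (x y : LaurentSeries k) : LaurentSeries k :=
  qExpand k ℓ x ^ m * qExpand k ℓ y ^ p

theorem heckeR_mul (m p : ℕ) (x y x' y' : LaurentSeries k) :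
    heckeR k ℓ m p (x * x') (y * y') = heckeR k ℓ m p x y * heckeR k ℓ m p x' y' := by
  unfold heckeR
  simp only [map_mul, mul_pow]
  ring

theorem heckeR_coeffMap {k' : Type*} [CommRing k'] (φ : k →+* k') (m p : ℕ)
    (x y : LaurentSeries k) :
    coeffMap φ (heckeR k ℓ m p x y) = heckeR k' ℓ m p (coeffMap φ x) (coeffMap φ y) := by
  unfold heckeR
  rw [map_mul, map_pow, map_pow, coeffMap_qExpand, coeffMap_qExpand]

end HeckeP

/-! ### Generic coefficient transfer, fraction form -/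

section Transfer

variable {Q : Type*} [Field Q] {A : ValuationSubring Q}

local notation "κA" => IsLocalRing.ResidueField A

/-- If `X = c · Y` over `Q` with `X, Y ∈ A((q))` and `Ȳ ≠ 0`, then `c ∈ A` and `X̄ = c̄ Ȳ`. -/
theorem exists_const_residue (X Y : LaurentSeries A) (c : Q) (hY0 : redA A Y ≠ 0)
    (hid : incA A X = HahnSeries.C c * incA A Y) :
    ∃ c' : κA, redA A X = HahnSeries.C c' * redA A Y := by
  by_cases hcA : c ∈ A
  · refine ⟨IsLocalRing.residue A ⟨c, hcA⟩, ?_⟩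
    have h1 : incA A X = incA A (HahnSeries.C ⟨c, hcA⟩ * Y) := by
      rw [hid, map_mul, incA_C]
    rw [incA_injective A h1, map_mul, redA_C]
  · exfalso
    have hc : c⁻¹ ∈ A := (A.mem_or_inv_mem c).resolve_left hcA
    have hc0 : c ≠ 0 := fun h => hcA (by rw [h]; exact A.zero_mem)
    have hres : IsLocalRing.residue A ⟨c⁻¹, hc⟩ = 0 := by
      rw [IsLocalRing.residue_eq_zero_iff, IsLocalRing.mem_maximalIdeal, mem_nonunits_iff]
      intro hunit
      obtain ⟨w, hw⟩ := hunit.exists_right_inv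
      have h3 : c⁻¹ * (w : Q) = 1 := by
        have := congrArg (fun z : A => (z : Q)) hw
        simpa using this
      have h4 : (w : Q) = c := by
        field_simp at h3
        exact h3
      exact hcA (h4 ▸ w.2)
    have h1 : incA A (HahnSeries.C ⟨c⁻¹, hc⟩ * X) = incA A Y := by
      rw [map_mul, incA_C, hid, ← mul_assoc, ← map_mul]
      show HahnSeries.C (c⁻¹ * c) * incA A Y = incA A Y
      rw [inv_mul_cancel₀ hc0, map_one, one_mul]
    have h2 := incA_injective A h1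
    apply hY0
    rw [← h2, map_mul, redA_C, hres, map_zero, zero_mul]

/-- **Reduction of the product identity, fraction form.** `f = Fa/Fb`, `e = Ea/Eb` with
`Fa, Fb, Ea, Eb ∈ A((q))` of nonzero reduction. -/
theorem prod_identity_residue_frac (ℓ p m : ℕ) [NeZero ℓ] (ζ : Qˣ) (hζ : ζ ^ ℓ = 1)
    (f e : LaurentSeries Q) (Fa Fb Ea Eb : LaurentSeries A) (c : Q)
    (hF : f * incA A Fb = incA A Fa) (hE : e * incA A Eb = incA A Ea)
    (hFa0 : redA A Fa ≠ 0) (hFb0 : redA A Fb ≠ 0) (hEa0 : redA A Ea ≠ 0) (hEb0 : redA A Eb ≠ 0)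
    (hid : heckeP Q ℓ ζ f = HahnSeries.C c * heckeR Q ℓ m p f e) :
    ∃ (ζ' : κAˣ) (c' : κA), ζ' ^ ℓ = 1 ∧
      heckeP κA ℓ ζ' (redA A Fa / redA A Fb) =
        HahnSeries.C c' * heckeR κA ℓ m p (redA A Fa / redA A Fb) (redA A Ea / redA A Eb) := by
  obtain ⟨u, hu⟩ := exists_unit_of_pow_eq_one A (NeZero.ne ℓ) ζ hζ
  set ζ' : κAˣ := Units.map (IsLocalRing.residue A : A →* κA) u with hζ'
  have hu1 : u ^ ℓ = 1 := by
    apply Units.map_injective (f := (A.subtype : A →* Q)) Subtype.val_injective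
    rw [map_pow, hu, hζ, map_one]
  have hζ'1 : ζ' ^ ℓ = 1 := by rw [hζ', ← map_pow, hu1, map_one]
  -- the identity over `A`
  have hincP : ∀ x : LaurentSeries A, incA A (heckeP A ℓ u x) = heckeP Q ℓ ζ (incA A x) := by
    intro x
    have := heckeP_coeffMap A ℓ A.subtype u x
    rw [hu] at this
    exact this
  have hincR : ∀ x y : LaurentSeries A,
      incA A (heckeR A ℓ m p x y) = heckeR Q ℓ m p (incA A x) (incA A y) :=
    fun x y => heckeR_coeffMap A ℓ A.subtype m p x y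
  have hredP : ∀ x : LaurentSeries A, redA A (heckeP A ℓ u x) = heckeP κA ℓ ζ' (redA A x) :=
    fun x => heckeP_coeffMap A ℓ (IsLocalRing.residue A) u x
  have hredR : ∀ x y : LaurentSeries A,
      redA A (heckeR A ℓ m p x y) = heckeR κA ℓ m p (redA A x) (redA A y) :=
    fun x y => heckeR_coeffMap A ℓ (IsLocalRing.residue A) m p x y
  have hqne : ∀ (k : ℕ) [NeZero k] (x : LaurentSeries κA), x ≠ 0 → qExpand κA k x ≠ 0 := by
    intro k _ x hx h
    exact hx (qExpand_injective (R := κA) k (by rw [h, map_zero]))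
  have hPne : ∀ x : LaurentSeries κA, x ≠ 0 → heckeP κA ℓ ζ' x ≠ 0 := by
    intro x hx
    haveI : NeZero (ℓ * ℓ) := ⟨Nat.mul_ne_zero (NeZero.ne ℓ) (NeZero.ne ℓ)⟩
    unfold heckeP
    refine mul_ne_zero (hqne _ x hx) (Finset.prod_ne_zero_iff.mpr fun i _ => ?_)
    exact (map_ne_zero_iff _ (twist (ζ' ^ i)).injective).mpr hx
  have hRne : ∀ x y : LaurentSeries κA, x ≠ 0 → y ≠ 0 → heckeR κA ℓ m p x y ≠ 0 := by
    intro x y hx hy
    unfold heckeR
    exact mul_ne_zero (pow_ne_zero _ (hqne _ x hx)) (pow_ne_zero _ (hqne _ y hy))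
  -- `P(Fa) R(Fb,Eb) = c R(Fa,Ea) P(Fb)` over `Q`
  have hkey : incA A (heckeP A ℓ u Fa * heckeR A ℓ m p Fb Eb) =
      HahnSeries.C c * incA A (heckeR A ℓ m p Fa Ea * heckeP A ℓ u Fb) := by
    rw [map_mul, map_mul, hincP, hincP, hincR, hincR, ← hF, ← hE, heckeP_mul, heckeR_mul, hid]
    ring
  have hY0 : redA A (heckeR A ℓ m p Fa Ea * heckeP A ℓ u Fb) ≠ 0 := by
    rw [map_mul, hredP, hredR]
    exact mul_ne_zero (hRne _ _ hFa0 hEa0) (hPne _ hFb0)
  obtain ⟨c', hc'⟩ := exists_const_residue _ _ c hY0 hkey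
  refine ⟨ζ', c', hζ'1, ?_⟩
  rw [map_mul, map_mul, hredP, hredP, hredR, hredR] at hc'
  -- divide
  set g := redA A Fa / redA A Fb with hg
  set eb := redA A Ea / redA A Eb with heb
  have hFa : redA A Fa = g * redA A Fb := by rw [hg, div_mul_cancel₀ _ hFb0]
  have hEa : redA A Ea = eb * redA A Eb := by rw [heb, div_mul_cancel₀ _ hEb0]
  rw [hFa, hEa, heckeP_mul, heckeR_mul] at hc'
  have hne : heckeP κA ℓ ζ' (redA A Fb) * heckeR κA ℓ m p (redA A Fb) (redA A Eb) ≠ 0 :=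
    mul_ne_zero (hPne _ hFb0) (hRne _ _ hFb0 hEb0)
  apply mul_right_cancel₀ hne
  linear_combination hc'

end Transfer

/-! ### Scaling into the Gauss ring -/

section Scale

open Fermat.Agent.S28.Gauss Fermat.Agent.N4.FibreEmbedding Fermat.Agent.N4.Setting

variable (K : Type) [Field K] (N : ℕ) (O : Subring K) [IsDiscreteValuationRing ↥O]
  [IsFractionRing ↥O K]

/-- Over a discrete valuation ring: a nonzero function of level `N` is, up to a nonzero constant,
a quotient `a / b` of Laurent series over `O` with nonzero reductions. -/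
theorem exists_scale_level {x : FF K N} (hx : x ≠ 0) :
    ∃ (μ : K) (a b : LaurentSeries ↥O), μ ≠ 0 ∧ red ↥O a ≠ 0 ∧ red ↥O b ≠ 0 ∧
      HahnSeries.C μ * (x : LaurentSeries K) * emb ↥O K b = emb ↥O K a := by
  obtain ⟨a₀, b₀, hb₀, h⟩ := full_le_gaussField K N O x.2
  have hx' : (x : LaurentSeries K) ≠ 0 := fun h0 => hx (Subtype.ext h0)
  have ha₀ : a₀ ≠ 0 := by
    rintro rfl
    rw [map_zero] at h
    rcases mul_eq_zero.mp h with h1 | h1
    · exact hx' h1
    · exact hb₀ ((emb_eq_zero_iff K).mp h1)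
  obtain ⟨ϖ, hϖ⟩ := IsDiscreteValuationRing.exists_irreducible ↥O
  obtain ⟨m, a', ha', ha'0⟩ := exists_pow_smul_eq hϖ ha₀
  obtain ⟨n, b', hb', hb'0⟩ := exists_pow_smul_eq hϖ hb₀
  have hϖK : algebraMap ↥O K ϖ ≠ 0 := by
    rw [Ne, map_eq_zero_iff _ (IsFractionRing.injective ↥O K)]
    exact hϖ.ne_zero
  refine ⟨algebraMap ↥O K ϖ ^ n / algebraMap ↥O K ϖ ^ m, a', b',
    div_ne_zero (pow_ne_zero _ hϖK) (pow_ne_zero _ hϖK), ha'0, hb'0, ?_⟩
  rw [ha', hb', emb_smul, emb_smul, map_pow, map_pow, ← HahnSeries.C_mul_eq_smul,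
    ← HahnSeries.C_mul_eq_smul] at h
  have hm : algebraMap ↥O K ϖ ^ m ≠ 0 := pow_ne_zero _ hϖK
  calc HahnSeries.C (algebraMap ↥O K ϖ ^ n / algebraMap ↥O K ϖ ^ m) * (x : LaurentSeries K) *
        emb ↥O K b'
      = HahnSeries.C ((algebraMap ↥O K ϖ ^ m)⁻¹) *
          ((x : LaurentSeries K) * (HahnSeries.C (algebraMap ↥O K ϖ ^ n) * emb ↥O K b')) := by
        rw [div_eq_inv_mul, map_mul]
        ring
    _ = HahnSeries.C ((algebraMap ↥O K ϖ ^ m)⁻¹ * algebraMap ↥O K ϖ ^ m) * emb ↥O K a' := by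
        rw [h, ← mul_assoc, ← map_mul]
    _ = emb ↥O K a' := by
        rw [inv_mul_cancel₀ hm, map_one, one_mul]

end Scale

section ScaleBar

open Fermat.Agent.S28.Gauss Fermat.Agent.N4.FibreEmbedding Fermat.Agent.N4.Setting
open Fermat.Agent.N4F.C Fermat.Agent.N4F.C.Levels Fermat.Agent.N4F.C.LevelCharts
open Fermat.Agent.N4F.C.LevelTheta Fermat.Agent.P3G.Assembly.LevelStep

variable (N : ℕ) [NeZero N] (A : ValuationSubring Qb)

/-- The same for a model at a level `K` whose base ring `A ∩ K` is a discrete valuation ring, with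
the witnesses pushed to `A`. -/
theorem exists_scale_levK (K : IntermediateField ℚ Qb) [IsDiscreteValuationRing ↥(baseRing A K)]
    {x : FF (Lvl K) N} (hx : x ≠ 0) :
    ∃ (μ : Qb) (a b : LaurentSeries ↥A), μ ≠ 0 ∧ redA A a ≠ 0 ∧ redA A b ≠ 0 ∧
      HahnSeries.C μ * ((levK N K x : Fb N) : LaurentSeries Qb) * incA A b = incA A a := by
  obtain ⟨μ, a, b, hμ, ha, hb, h⟩ := exists_scale_level (Lvl K) N (baseRing A K) hx
  refine ⟨algebraMap (Lvl K) Qb μ, coeffMap (baseIncl A K) a, coeffMap (baseIncl A K) b,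
    (map_ne_zero _).mpr hμ, ?_, ?_, ?_⟩
  · show coeffMap (IsLocalRing.residue ↥A) (coeffMap (baseIncl A K) a) ≠ 0
    rw [coeffMap_residue_baseIncl]
    intro h0
    exact ha (coeffMap_iotaK_injective A K (h0.trans (map_zero _).symm))
  · show coeffMap (IsLocalRing.residue ↥A) (coeffMap (baseIncl A K) b) ≠ 0
    rw [coeffMap_residue_baseIncl]
    intro h0
    exact hb (coeffMap_iotaK_injective A K (h0.trans (map_zero _).symm))
  · show _ * coeffMap A.subtype (coeffMap (baseIncl A K) b) =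
      coeffMap A.subtype (coeffMap (baseIncl A K) a)
    rw [coeffMap_subtype_baseIncl, coeffMap_subtype_baseIncl, coe_lev]
    have h1 := congrArg (coeffMap (algebraMap (Lvl K) Qb)) h
    rw [map_mul, map_mul, emb_eq, emb_eq] at h1
    rw [← h1]
    congr 2
    rw [HahnSeries.C_apply, HahnSeries.C_apply]
    exact (coeffMap_single _ 0 μ).symm

/-- **Scaling into the Gauss ring**: every nonzero `e ∈ Q̄ F_N` has a constant multiple `μ e` with
`μ e · b = a`, `a, b ∈ A((q))`, `ā ≠ 0 ≠ b̄`. -/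
theorem exists_scale_gauss {q : ℕ} (hq : q.Prime) (hA : A.LiesOverPrime q) {e : Fb N}
    (he : e ≠ 0) :
    ∃ (μ : Qb) (a b : LaurentSeries ↥A), μ ≠ 0 ∧ redA A a ≠ 0 ∧ redA A b ≠ 0 ∧
      HahnSeries.C μ * (e : LaurentSeries Qb) * incA A b = incA A a := by
  classical
  obtain ⟨K₁, hK₁fin, hK₁⟩ := exists_finiteDimensional_level N {e} ∅
  obtain ⟨K, hK₁K, hK⟩ := exists_isGoodLevel_ge hq hA K₁
  haveI := hK.dvr
  obtain ⟨x, rfl⟩ := (hK₁ K hK₁K).1 e (Finset.mem_singleton_self e)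
  have hx : x ≠ 0 := by
    rintro rfl
    exact he (map_zero _)
  exact exists_scale_levK N A K hx

end ScaleBar

/-! ### The assembled statements -/

section Assembled

open Fermat.Agent.N4F.Tors Fermat.Agent.N4F.C Fermat.Agent.N4F.C.Levels
open Fermat.Agent.N4F.C.LevelCharts Fermat.Agent.N4F.C.LevelTheta
open Fermat.Agent.N4.FibreEmbedding Fermat.Agent.N4.Setting

variable (N ℓ p : ℕ) [NeZero N] [Fact ℓ.Prime] (A : ValuationSubring Qb)

/-- The residue field of a valuation subring of `Q̄` over `p` has characteristic `p`. -/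
theorem charP_kapA {p : ℕ} (hp : p.Prime) (hA : A.LiesOverPrime p) : CharP (Kap A) p := by
  rw [CharP.charP_iff_prime_eq_zero hp]
  have h1 : ((p : ℕ) : Kap A) = IsLocalRing.residue ↥A ((p : ℕ) : ↥A) := (map_natCast _ p).symm
  rw [h1, IsLocalRing.residue_eq_zero_iff, ← ValuationSubring.coe_mem_nonunits_iff]
  exact hA

theorem natCast_ne_zero_kapA {p : ℕ} (hp : p.Prime) (hA : A.LiesOverPrime p) (hℓp : ℓ ≠ p) :
    ((ℓ : ℕ) : Kap A) ≠ 0 := by
  haveI := charP_kapA A hp hA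
  rw [Ne, CharP.cast_eq_zero_iff (Kap A) p]
  intro h
  exact hℓp ((Nat.prime_dvd_prime_iff_eq hp (Fact.out : ℓ.Prime)).mp h).symm

/-- `θ` commutes with coefficientwise ring homomorphisms. -/
theorem thetaL_coeffMap {k k' : Type*} [CommRing k] [CommRing k'] (φ : k →+* k')
    (g : LaurentSeries k) : thetaL (coeffMap φ g) = coeffMap φ (thetaL g) := by
  ext n
  rw [thetaL_coeff, coeffMap_coeff, coeffMap_coeff, thetaL_coeff, map_mul, map_intCast]

theorem HasDlog.coeffMap {k k' : Type*} [CommRing k] [CommRing k'] (φ : k →+* k')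
    {g b : LaurentSeries k} (h : HasDlog g b) : HasDlog (coeffMap φ g) (coeffMap φ b) := by
  unfold HasDlog at h ⊢
  rw [thetaL_coeffMap, h, map_mul]

/-- **(D′), Gauss-ring form over `Q̄`.** `N_α(β f) = c f^m e^p`, `f` in the Gauss ring of `A` with
reduction `ḡ = thetaBar A N f ≠ 0`, `b ḡ = θ ḡ`  ⟹  `b_{ℓ n} + ℓ b_{n/ℓ} = m b_n`. -/
theorem hecke_coeff_thetaBar (hp : p.Prime) (hA : A.LiesOverPrime p) (hℓN : ¬ ℓ ∣ N)
    (hℓp : ℓ ≠ p) (f e : Fb N) (he : e ≠ 0) (c : Qb) (m : ℕ)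
    (hstar : HeckeDiv.normBeta N ℓ f = algebraMap Qb (Fb N) c * f ^ m * e ^ p)
    (hf : f ∈ gaussSub A N) (hf0 : thetaBar A N f ≠ 0)
    (b : LaurentSeries (Kap A)) (hb : HasDlog (thetaBar A N f) b) (n : ℤ) :
    b.coeff ((ℓ : ℤ) * n) + (ℓ : Kap A) * (if (ℓ : ℤ) ∣ n then b.coeff (n / ℓ) else 0) =
      (m : Kap A) * b.coeff n := by
  haveI := charP_kapA A hp hA
  have hℓκ := natCast_ne_zero_kapA ℓ A hp hA hℓp
  haveI : NeZero (ℓ * ℓ) := ⟨Nat.mul_ne_zero (NeZero.ne ℓ) (NeZero.ne ℓ)⟩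
  obtain ⟨Fa, Fb', hFb0, hF⟩ := hf
  have hθ := thetaBar_mul_eq (A := A) (N := N) (g := f) hFb0 hF
  have hθ' : thetaBar A N f = redA A Fa / redA A Fb' := eq_div_of_mul_eq hFb0 hθ
  have hFa0 : redA A Fa ≠ 0 := by
    intro h0
    apply hf0
    rw [hθ', h0, zero_div]
  obtain ⟨μ, Ea, Eb, hμ, hEa0, hEb0, hE⟩ := exists_scale_gauss N A hp hA he
  obtain ⟨ζ, hζ1, -, hζ⟩ := exists_zeta_normBeta_qexp N ℓ hℓN
  have h1 := hζ f
  rw [hstar] at h1
  have hcoe : ((algebraMap Qb (Fb N) c * f ^ m * e ^ p : Fb N) : LaurentSeries Qb) =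
      HahnSeries.C c * (f : LaurentSeries Qb) ^ m * (e : LaurentSeries Qb) ^ p := by
    push_cast
    congr 2
    have h1 : algebraMap Qb (PowerSeries Qb) c = PowerSeries.C c := by simp
    rw [HahnSeries.algebraMap_apply', h1, HahnSeries.ofPowerSeries_C]
  rw [hcoe, map_mul, map_mul, map_pow, map_pow, qExpand_C ℓ c] at h1
  have hid : heckeP Qb ℓ ζ (f : LaurentSeries Qb) =
      HahnSeries.C (c * (μ ^ p)⁻¹) *
        heckeR Qb ℓ m p (f : LaurentSeries Qb) (HahnSeries.C μ * (e : LaurentSeries Qb)) := by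
    unfold heckeP heckeR
    have hq : qExpand Qb ℓ (HahnSeries.C μ * (e : LaurentSeries Qb)) =
        HahnSeries.C μ * qExpand Qb ℓ (e : LaurentSeries Qb) := by
      rw [map_mul, qExpand_C ℓ μ]
    have hμp : (HahnSeries.C ((μ ^ p)⁻¹) : LaurentSeries Qb) * HahnSeries.C μ ^ p = 1 := by
      rw [← map_pow, ← map_mul, inv_mul_cancel₀ (pow_ne_zero _ hμ), map_one]
    rw [← h1, hq, mul_pow, map_mul]
    linear_combination (-(HahnSeries.C c * qExpand Qb ℓ (f : LaurentSeries Qb) ^ m *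
      qExpand Qb ℓ (e : LaurentSeries Qb) ^ p)) * hμp
  obtain ⟨ζ', c', hζ'1, hprod⟩ := prod_identity_residue_frac ℓ p m ζ hζ1
    (f : LaurentSeries Qb) (HahnSeries.C μ * (e : LaurentSeries Qb)) Fa Fb' Ea Eb
    (c * (μ ^ p)⁻¹) hF hE hFa0 hFb0 hEa0 hEb0 hid
  rw [← hθ'] at hprod
  refine hecke_coeff p ℓ hℓκ ζ' hζ'1 (thetaBar A N f) (redA A Ea / redA A Eb) b hf0 hb c' m ?_ n
  unfold heckeP heckeR at hprod
  rw [hprod, mul_assoc]

/-- **(D′), level form.** The same for a model `f_K` at a level `K` (base ring `A ∩ K` a discrete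
valuation ring), with the reduction `theta f_K` over the residue field of `A ∩ K`. -/
theorem hecke_coeff_theta_level (hp : p.Prime) (hA : A.LiesOverPrime p) (hℓN : ¬ ℓ ∣ N)
    (hℓp : ℓ ≠ p) (K : IntermediateField ℚ Qb) [IsDiscreteValuationRing ↥(baseRing A K)]
    (fK : FF (Lvl K) N) (e : Fb N) (he : e ≠ 0) (c : Qb) (m : ℕ)
    (hstar : HeckeDiv.normBeta N ℓ (levK N K fK) =
      algebraMap Qb (Fb N) c * (levK N K fK) ^ m * e ^ p)
    (hfK : fK ∈ gaussSubalgebra (Lvl K) N (baseRing A K))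
    (hf0 : theta (Lvl K) N (baseRing A K) ⟨fK, hfK⟩ ≠ 0)
    (b : LaurentSeries (IsLocalRing.ResidueField ↥(baseRing A K)))
    (hb : HasDlog (theta (Lvl K) N (baseRing A K) ⟨fK, hfK⟩) b) (n : ℤ) :
    b.coeff ((ℓ : ℤ) * n) + (ℓ : IsLocalRing.ResidueField ↥(baseRing A K)) *
        (if (ℓ : ℤ) ∣ n then b.coeff (n / ℓ) else 0) =
      (m : IsLocalRing.ResidueField ↥(baseRing A K)) * b.coeff n := by
  obtain ⟨hmem, hθ⟩ := levK_mem_gaussSub_and_thetaBar A N K hfK
  have hf0' : thetaBar A N (levK N K fK) ≠ 0 := by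
    rw [hθ]
    intro h0
    exact hf0 (coeffMap_iotaK_injective A K (h0.trans (map_zero _).symm))
  have hb' : HasDlog (thetaBar A N (levK N K fK)) (coeffMap (iotaK A K) b) := by
    rw [hθ]
    exact HasDlog.coeffMap (iotaK A K) hb
  have h := hecke_coeff_thetaBar N ℓ p A hp hA hℓN hℓp (levK N K fK) e he c m hstar hmem hf0'
    (coeffMap (iotaK A K) b) hb' n
  apply iotaK_injective A K
  rw [map_add, map_mul, map_mul, map_natCast, map_natCast]
  simp only [coeffMap_coeff] at h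
  split_ifs with hdvd
  · rw [if_pos hdvd] at h
    exact h
  · rw [if_neg hdvd] at h
    rw [map_zero]
    exact h

end Assembled

/-! ### From the Hecke relation on a torsion class -/

section Tors

open Fermat.Agent.N4F.Tors Fermat.Agent.N4F.Res Fermat.Agent.N4F.C Fermat.Agent.N4F.C.Levels
open Fermat.Agent.N4F.C.LevelCharts Fermat.Agent.N4F.C.LevelTheta
open Fermat.Agent.N4.FibreEmbedding Fermat.Agent.N4.Setting Fermat.Agent.P3G.GammaDict
open Fermat.Agent.S40.W.HeckeUnfold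

variable (N p : ℕ) [NeZero N] [NeZero p] (A : ValuationSubring Qb)

/-- **(★) + (D′) at a level**: `x ∈ J₀(N)[p]`, `T_ℓ x = m x`, `x = [D]`, `p D = div (lev f_K)`, `f_K`
a Gauss unit at the level `K` with reduction `ḡ`, `b ḡ = θ ḡ`  ⟹  `b_{ℓ n} + ℓ b_{n/ℓ} = m b_n`. -/
theorem hecke_coeff_of_heckeTors_level (hp : p.Prime) (hA : A.LiesOverPrime p) (ℓ : Nat.Primes)
    (hℓN : ¬ (ℓ : ℕ) ∣ N) (hℓp : (ℓ : ℕ) ≠ p) (m : ℕ)
    (x : Jtors N p) (hx : heckeTors N p ℓ x = (m : ZMod p) • x)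
    (D : Divisor.degZero (K := Qb) (F := modularFunctionFieldBar N))
    (hxD : (x : JZero N) = Pic0.mk D)
    (K : IntermediateField ℚ Qb) [IsDiscreteValuationRing ↥(baseRing A K)]
    (fK : FF (Lvl K) N)
    (hD : IsDivOf (levK N K fK) (p • (D : Divisor Qb (modularFunctionFieldBar N))))
    (hfK : fK ∈ gaussSubalgebra (Lvl K) N (baseRing A K))
    (hf0 : theta (Lvl K) N (baseRing A K) ⟨fK, hfK⟩ ≠ 0)
    (b : LaurentSeries (IsLocalRing.ResidueField ↥(baseRing A K)))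
    (hb : HasDlog (theta (Lvl K) N (baseRing A K) ⟨fK, hfK⟩) b) (n : ℤ) :
    b.coeff (((ℓ : ℕ) : ℤ) * n) + ((ℓ : ℕ) : IsLocalRing.ResidueField ↥(baseRing A K)) *
        (if ((ℓ : ℕ) : ℤ) ∣ n then b.coeff (n / ((ℓ : ℕ) : ℤ)) else 0) =
      (m : IsLocalRing.ResidueField ↥(baseRing A K)) * b.coeff n := by
  haveI : Fact (ℓ : ℕ).Prime := ⟨ℓ.2⟩
  have hD' : ∀ P : Place Qb (modularFunctionFieldBar N),
      (p : ℤ) * (D : Divisor Qb (modularFunctionFieldBar N)) P = P.ord (levK N K fK) := by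
    intro P
    rw [← hD.apply P, Finsupp.smul_apply, nsmul_eq_mul]
  obtain ⟨c, e, -, he, hstar⟩ :=
    exists_normBeta_eq_of_heckeTors N ℓ hℓN p m x hx D (levK N K fK) hD.ne_zero hxD hD'
  exact hecke_coeff_theta_level N (ℓ : ℕ) p A hp hA hℓN hℓp K fK e he c m hstar hfK hf0 b hb n

/-- The residue field of the base ring of a level over `p` has characteristic `p`. -/
theorem charP_residue_level (hp : p.Prime) (hA : A.LiesOverPrime p)
    (K : IntermediateField ℚ Qb) [IsDiscreteValuationRing ↥(baseRing A K)] :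
    CharP (IsLocalRing.ResidueField ↥(baseRing A K)) p := by
  haveI := charP_kapA A hp hA
  exact (iotaK A K).charP (iotaK_injective A K) p

/-- The same with an eigenvalue given as the class of an integer `a`. -/
theorem hecke_coeff_of_heckeTors_level_int (hp : p.Prime) (hA : A.LiesOverPrime p)
    (ℓ : Nat.Primes) (hℓN : ¬ (ℓ : ℕ) ∣ N) (hℓp : (ℓ : ℕ) ≠ p) (a : ℤ)
    (x : Jtors N p) (hx : heckeTors N p ℓ x = (a : ZMod p) • x)
    (D : Divisor.degZero (K := Qb) (F := modularFunctionFieldBar N))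
    (hxD : (x : JZero N) = Pic0.mk D)
    (K : IntermediateField ℚ Qb) [IsDiscreteValuationRing ↥(baseRing A K)]
    (fK : FF (Lvl K) N)
    (hD : IsDivOf (levK N K fK) (p • (D : Divisor Qb (modularFunctionFieldBar N))))
    (hfK : fK ∈ gaussSubalgebra (Lvl K) N (baseRing A K))
    (hf0 : theta (Lvl K) N (baseRing A K) ⟨fK, hfK⟩ ≠ 0)
    (b : LaurentSeries (IsLocalRing.ResidueField ↥(baseRing A K)))
    (hb : HasDlog (theta (Lvl K) N (baseRing A K) ⟨fK, hfK⟩) b) (n : ℤ) :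
    b.coeff (((ℓ : ℕ) : ℤ) * n) + ((ℓ : ℕ) : IsLocalRing.ResidueField ↥(baseRing A K)) *
        (if ((ℓ : ℕ) : ℤ) ∣ n then b.coeff (n / ((ℓ : ℕ) : ℤ)) else 0) =
      ((a : ℤ) : IsLocalRing.ResidueField ↥(baseRing A K)) * b.coeff n := by
  haveI := charP_residue_level p A hp hA K
  have hx' : heckeTors N p ℓ x = (((a : ZMod p).val : ℕ) : ZMod p) • x := by
    rw [ZMod.natCast_zmod_val]
    exact hx
  have h := hecke_coeff_of_heckeTors_level N p A hp hA ℓ hℓN hℓp (a : ZMod p).val x hx' D hxD K fK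
    hD hfK hf0 b hb n
  rw [h, ZMod.natCast_val, ZMod.cast_intCast (dvd_refl p)]

end Tors

/-! ### In the vocabulary of `S40/Top/Eigen` -/

section TopVocabulary

open Fermat.Agent.N4F.Tors Fermat.Agent.N4F.Res Fermat.Agent.N4F.C Fermat.Agent.N4F.C.Levels
open Fermat.Agent.N4F.C.LevelCharts Fermat.Agent.N4F.C.LevelTheta
open Fermat.Agent.N4.FibreEmbedding Fermat.Agent.N4.Setting Fermat.Agent.P3G.GammaDict
open Fermat.Agent.S40.Top.Eigen

/-- **The `T_ℓ`-eigen-relation of the `θ`-logarithm, for a point of the eigenspace `WthetaL`.**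
`x ∈ WthetaL W p N' L` (`L ∣ N'`), `x = [D]`, `p D = div (lev f_K)`, `f_K` in the Gauss ring of the
level `K` with reduction `ḡ ≠ 0`, `b ḡ = θ ḡ`  ⟹  for every `ℓ ∈ Idx W p N'`:
`b_{ℓ n} + ℓ b_{n/ℓ} = a_ℓ(W) b_n`. -/
theorem hecke_coeff_of_mem_wthetaL_level (W : WeierstrassCurve ℤ) {p N' L : ℕ} [NeZero L]
    [NeZero p] (A : ValuationSubring Qb) (hp : p.Prime) (hA : A.LiesOverPrime p) (hLN : L ∣ N')
    (x : Jtors L p) (hx : x ∈ WthetaL W p N' L) (j : Idx W p N')
    (D : Divisor.degZero (K := Qb) (F := modularFunctionFieldBar L))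
    (hxD : (x : JZero L) = Pic0.mk D)
    (K : IntermediateField ℚ Qb) [IsDiscreteValuationRing ↥(baseRing A K)]
    (fK : FF (Lvl K) L)
    (hD : IsDivOf (levK L K fK) (p • (D : Divisor Qb (modularFunctionFieldBar L))))
    (hfK : fK ∈ gaussSubalgebra (Lvl K) L (baseRing A K))
    (hf0 : theta (Lvl K) L (baseRing A K) ⟨fK, hfK⟩ ≠ 0)
    (b : LaurentSeries (IsLocalRing.ResidueField ↥(baseRing A K)))
    (hb : HasDlog (theta (Lvl K) L (baseRing A K) ⟨fK, hfK⟩) b) (n : ℤ) :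
    b.coeff ((((j.1 : Nat.Primes) : ℕ) : ℤ) * n) +
        (((j.1 : Nat.Primes) : ℕ) : IsLocalRing.ResidueField ↥(baseRing A K)) *
        (if (((j.1 : Nat.Primes) : ℕ) : ℤ) ∣ n then b.coeff (n / (((j.1 : Nat.Primes) : ℕ) : ℤ))
          else 0) =
      ((W.apOfModel ((j.1 : Nat.Primes) : ℕ) : ℤ) : IsLocalRing.ResidueField ↥(baseRing A K)) *
        b.coeff n :=
  hecke_coeff_of_heckeTors_level_int L p A hp hA j.1 (j.not_dvd_of_dvd hLN) j.ne
    (W.apOfModel ((j.1 : Nat.Primes) : ℕ)) x ((mem_wthetaL_iff.mp hx) j) D hxD K fK hD hfK hf0 b hb n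

end TopVocabulary

end

end Fermat.Agent.S40.W.HeckeGauss
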