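/-
S40, (W3) sub-row, leaf W10 (part 1): the span of the mod `p` reductions of the integral weight-two
cusp forms.

For a commutative ring `R`, `redHom N R f` is the `q`-expansion of `f ∈ intLattice N 2` with
coefficients cast to `R`, as a Laurent series; `cuspSpan N R` is the `R`-span of these series.

Main result: for a field `κ` of characteristic `p`, the reductions of a `ℤ`-basis of the lattice are
`κ`-linearly independent (the lattice is saturated: a form all of whose coefficients are divisible
by `p` is `p` times a form of the lattice), hence `finrank κ (cuspSpan N κ) = finrank ℤ (intLattice N 2)`.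
-/
import Fermat.Agent.S16.Duality
import Fermat.Prelude.Def_ModularCurve_LaurentCoeff

set_option autoImplicit false
set_option linter.unusedSectionVars false

noncomputable section

namespace Fermat.Agent.S40.W.CuspSpan

open CuspForm ModularCurve Fermat.Agent.S16.Duality Module

variable (N : ℕ) [NeZero N]

/-- The integral `q`-expansion of a form of the lattice, as a power series over `ℤ`. -/
def qPS (f : ↥(intLattice N 2)) : PowerSeries ℤ := PowerSeries.mk fun n => aInt N n f

@[simp] theorem coeff_qPS (f : ↥(intLattice N 2)) (n : ℕ) :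
    PowerSeries.coeff n (qPS N f) = aInt N n f := PowerSeries.coeff_mk _ _

theorem qPS_zero : qPS N 0 = 0 := by
  ext n
  rw [coeff_qPS, map_zero]
  exact map_zero (aHom N n)

theorem qPS_add (f g : ↥(intLattice N 2)) : qPS N (f + g) = qPS N f + qPS N g := by
  ext n
  rw [map_add, coeff_qPS, coeff_qPS, coeff_qPS]
  exact map_add (aHom N n) f g

/-- The integral `q`-expansion as an additive map into Laurent series over `ℤ`. -/
def qHom : ↥(intLattice N 2) →+ LaurentSeries ℤ where
  toFun f := HahnSeries.ofPowerSeries ℤ ℤ (qPS N f)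
  map_zero' := by rw [qPS_zero, map_zero]
  map_add' f g := by rw [qPS_add, map_add]

theorem qHom_apply (f : ↥(intLattice N 2)) :
    qHom N f = HahnSeries.ofPowerSeries ℤ ℤ (qPS N f) := rfl

/-- The `q`-expansion of a form of the lattice with coefficients cast to `R`. -/
def redHom (R : Type*) [CommRing R] : ↥(intLattice N 2) →+ LaurentSeries R :=
  (coeffMap (Int.castRingHom R)).toAddMonoidHom.comp (qHom N)

theorem redHom_apply (R : Type*) [CommRing R] (f : ↥(intLattice N 2)) :
    redHom N R f = coeffMap (Int.castRingHom R) (qHom N f) := rfl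

theorem redHom_coeff (R : Type*) [CommRing R] (f : ↥(intLattice N 2)) (n : ℤ) :
    (redHom N R f).coeff n = if n < 0 then 0 else ((aInt N n.natAbs f : ℤ) : R) := by
  rw [redHom_apply, coeffMap_coeff, qHom_apply]
  have h := PowerSeries.coeff_coe (R := ℤ) (f := qPS N f) n
  rw [show (HahnSeries.ofPowerSeries ℤ ℤ (qPS N f)).coeff n =
    if n < 0 then 0 else PowerSeries.coeff n.natAbs (qPS N f) from h]
  split_ifs
  · simp
  · rw [coeff_qPS]; rfl

theorem redHom_coeff_natCast (R : Type*) [CommRing R] (f : ↥(intLattice N 2)) (n : ℕ) :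
    (redHom N R f).coeff (n : ℤ) = ((aInt N n f : ℤ) : R) := by
  rw [redHom_coeff, if_neg (by omega), Int.natAbs_natCast]

theorem redHom_coeff_of_neg (R : Type*) [CommRing R] (f : ↥(intLattice N 2)) {n : ℤ} (hn : n < 0) :
    (redHom N R f).coeff n = 0 := by
  rw [redHom_coeff, if_pos hn]

/-- Compatibility with a change of coefficient ring. -/
theorem coeffMap_redHom {R S : Type*} [CommRing R] [CommRing S] (φ : R →+* S)
    (f : ↥(intLattice N 2)) : coeffMap φ (redHom N R f) = redHom N S f := by
  rw [redHom_apply, redHom_apply, coeffMap_coeffMap]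
  exact coeffMap_congr (RingHom.ext_int (φ.comp (Int.castRingHom R)) (Int.castRingHom S)) _

theorem redHom_zsmul (R : Type*) [CommRing R] (m : ℤ) (f : ↥(intLattice N 2)) :
    redHom N R (m • f) = (m : R) • redHom N R f := by
  rw [map_zsmul, Int.cast_smul_eq_zsmul]

/-- The span of the reductions of the integral cusp forms of weight two. -/
def cuspSpan (R : Type*) [CommRing R] : Submodule R (LaurentSeries R) :=
  Submodule.span R (Set.range (redHom N R))

theorem redHom_mem_cuspSpan (R : Type*) [CommRing R] (f : ↥(intLattice N 2)) :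
    redHom N R f ∈ cuspSpan N R := Submodule.subset_span ⟨f, rfl⟩

/-- The span is already spanned by the reductions of any `ℤ`-basis of the lattice. -/
theorem cuspSpan_eq_span_basis (R : Type*) [CommRing R] {ι : Type*} [Fintype ι]
    (b : Basis ι ℤ ↥(intLattice N 2)) :
    cuspSpan N R = Submodule.span R (Set.range fun i => redHom N R (b i)) := by
  apply le_antisymm
  · refine Submodule.span_le.2 ?_
    rintro _ ⟨f, rfl⟩
    rw [← b.sum_repr f, map_sum]
    refine Submodule.sum_mem _ fun i _ => ?_
    rw [redHom_zsmul]
    exact Submodule.smul_mem _ _ (Submodule.subset_span ⟨i, rfl⟩)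
  · refine Submodule.span_le.2 ?_
    rintro _ ⟨i, rfl⟩
    exact redHom_mem_cuspSpan N R (b i)

/-- **Saturation**: a form of the lattice all of whose coefficients are divisible by `d > 0` is
`d` times a form of the lattice. -/
theorem exists_nsmul_eq_of_dvd (f : ↥(intLattice N 2)) (d : ℕ) (hd : 0 < d)
    (h : ∀ n : ℕ, (d : ℤ) ∣ aInt N n f) : ∃ g : ↥(intLattice N 2), d • g = f :=
  exists_nsmul_eq N f d hd fun k _ => h k

section Field

variable (κ : Type*) [Field κ]

/-- **Independence mod `p`**: the reductions of a `ℤ`-basis of the lattice are linearly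
independent over any field of characteristic `p`. -/
theorem linearIndependent_redHom (p : ℕ) [Fact p.Prime] [CharP κ p] {ι : Type*} [Fintype ι]
    (b : Basis ι ℤ ↥(intLattice N 2)) :
    LinearIndependent κ fun i => redHom N κ (b i) := by
  classical
  let _ : Algebra (ZMod p) κ := ZMod.algebra κ p
  rw [Fintype.linearIndependent_iff]
  intro c hc i₀
  -- coefficientwise relation
  have hcoef : ∀ n : ℕ, ∑ i, c i * ((aInt N n (b i) : ℤ) : κ) = 0 := by
    intro n
    have h := congrArg (fun x : LaurentSeries κ => x.coeff (n : ℤ)) hc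
    simp only [HahnSeries.coeff_zero] at h
    rw [← h, HahnSeries.coeff_sum]
    refine Finset.sum_congr rfl fun i _ => ?_
    rw [HahnSeries.coeff_smul, smul_eq_mul, redHom_coeff_natCast]
  -- an `𝔽_p`-basis of `κ`
  let B := Basis.ofVectorSpace (ZMod p) κ
  have hcast : ∀ m : ℤ, ((m : ZMod p) : ZMod p) • (1 : κ) = (m : κ) := by
    intro m
    rw [Algebra.smul_def, mul_one, map_intCast]
  -- it suffices that every coordinate of every `c i` vanishes
  suffices hkey : ∀ j, ∀ i, B.repr (c i) j = 0 by
    apply B.repr.injective
    ext j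
    rw [hkey j i₀]
    simp
  intro j
  -- the coordinate relation over `𝔽_p`
  have hrel : ∀ n : ℕ, ∑ i, ((aInt N n (b i) : ℤ) : ZMod p) * B.repr (c i) j = 0 := by
    intro n
    have h1 : ∑ i, ((aInt N n (b i) : ℤ) : ZMod p) • c i = 0 := by
      rw [← hcoef n]
      refine Finset.sum_congr rfl fun i _ => ?_
      rw [Algebra.smul_def, map_intCast, mul_comm]
    have h2 := congrArg (fun x => B.repr x j) h1
    simp only [map_sum, map_smul, map_zero, Finsupp.coe_finsetSum, Finsupp.coe_smul,
      Finset.sum_apply] at h2
    exact h2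
  -- integer lifts of the coordinates
  let m : ι → ℤ := fun i => ((B.repr (c i) j).val : ℤ)
  have hm : ∀ i, ((m i : ℤ) : ZMod p) = B.repr (c i) j := by
    intro i
    simp only [m]
    rw [Int.cast_natCast, ZMod.natCast_zmod_val]
  let F : ↥(intLattice N 2) := ∑ i, m i • b i
  have hF : ∀ n : ℕ, aInt N n F = ∑ i, m i * aInt N n (b i) := by
    intro n
    change aHom N n F = _
    simp only [F]
    rw [map_sum]
    refine Finset.sum_congr rfl fun i _ => ?_
    rw [map_zsmul, smul_eq_mul]
    rfl
  have hdvd : ∀ n : ℕ, ((p : ℕ) : ℤ) ∣ aInt N n F := by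
    intro n
    rw [← ZMod.intCast_zmod_eq_zero_iff_dvd, hF, Int.cast_sum, ← hrel n]
    refine Finset.sum_congr rfl fun i _ => ?_
    rw [Int.cast_mul, hm, mul_comm]
  obtain ⟨g, hg⟩ := exists_nsmul_eq_of_dvd N F p (Fact.out : p.Prime).pos hdvd
  intro i
  have h1 : b.repr F i = m i := by
    simp only [F]
    rw [b.repr_sum_self]
  have h2 : b.repr F i = (p : ℤ) * b.repr g i := by
    rw [← hg, map_nsmul]
    simp
  rw [← hm i, ← h1, h2, Int.cast_mul]
  simp

/-- The dimension of the span of the reductions is the rank of the lattice. -/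
theorem finrank_cuspSpan (p : ℕ) [Fact p.Prime] [CharP κ p] :
    finrank κ (cuspSpan N κ) = finrank ℤ ↥(intLattice N 2) := by
  classical
  let b := Module.Free.chooseBasis ℤ ↥(intLattice N 2)
  rw [cuspSpan_eq_span_basis N κ b, finrank_span_eq_card (linearIndependent_redHom N κ p b),
    Module.finrank_eq_card_basis b]

instance finiteDimensional_cuspSpan : FiniteDimensional κ (cuspSpan N κ) := by
  classical
  let b := Module.Free.chooseBasis ℤ ↥(intLattice N 2)
  rw [cuspSpan_eq_span_basis N κ b]
  exact FiniteDimensional.span_of_finite κ (Set.finite_range _)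

end Field

/-! ### Characteristic zero, and the rank of the lattice -/

section BaseChange

/-- Linear independence of finitely many vectors of a function space is preserved by extension of
the field of scalars. -/
theorem linearIndependent_algebraMap_comp {k K X ι : Type*} [Field k] [Field K] [Algebra k K]
    [Fintype ι] (w : ι → X → k) (hw : LinearIndependent k w) :
    LinearIndependent K fun i x => algebraMap k K (w i x) := by
  classical
  rw [Fintype.linearIndependent_iff]
  intro c hc i₀
  let B := Basis.ofVectorSpace k K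
  suffices hkey : ∀ j, ∀ i, B.repr (c i) j = 0 by
    apply B.repr.injective
    ext j
    rw [hkey j i₀]
    simp
  intro j
  have hrel : ∑ i, B.repr (c i) j • w i = 0 := by
    ext x
    have h := congrFun hc x
    simp only [Finset.sum_apply, Pi.smul_apply, smul_eq_mul, Pi.zero_apply] at h
    have h1 : ∑ i, w i x • c i = 0 := by
      rw [← h]
      refine Finset.sum_congr rfl fun i _ => ?_
      rw [Algebra.smul_def, mul_comm]
    have h2 := congrArg (fun y => B.repr y j) h1
    simp only [map_sum, map_smul, map_zero, Finsupp.coe_finsetSum, Finsupp.coe_smul,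
      Finset.sum_apply, Pi.smul_apply, smul_eq_mul, Finsupp.coe_zero, Pi.zero_apply] at h2
    simp only [Finset.sum_apply, Pi.smul_apply, smul_eq_mul, Pi.zero_apply]
    rw [← h2]
    exact Finset.sum_congr rfl fun i _ => mul_comm _ _
  exact Fintype.linearIndependent_iff.1 hw _ hrel

end BaseChange

/-- The integral coefficient vector of a form of the lattice, as a `ℤ`-linear map. -/
def coeffVec (R : Type*) [CommRing R] : ↥(intLattice N 2) →ₗ[ℤ] (ℕ → R) :=
  AddMonoidHom.toIntLinearMap
    { toFun := fun f n => ((aInt N n f : ℤ) : R)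
      map_zero' := by
        funext n
        change ((aHom N n 0 : ℤ) : R) = 0
        rw [map_zero, Int.cast_zero]
      map_add' := fun f g => by
        funext n
        change ((aHom N n (f + g) : ℤ) : R) = ((aHom N n f : ℤ) : R) + ((aHom N n g : ℤ) : R)
        rw [map_add, Int.cast_add] }

theorem coeffVec_apply (R : Type*) [CommRing R] (f : ↥(intLattice N 2)) (n : ℕ) :
    coeffVec N R f n = ((aInt N n f : ℤ) : R) := rfl

theorem coeffVec_injective (R : Type*) [CommRing R] [CharZero R] :
    Function.Injective (coeffVec N R) := by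
  rw [injective_iff_map_eq_zero]
  intro f hf
  refine eq_zero_of_aInt N f fun k _ => ?_
  have h := congrFun hf k
  rw [coeffVec_apply, Pi.zero_apply] at h
  exact_mod_cast h

/-- The coefficient vectors of a `ℤ`-basis of the lattice are linearly independent over any field
of characteristic zero. -/
theorem linearIndependent_coeffVec (K : Type*) [Field K] [CharZero K] {ι : Type*} [Fintype ι]
    (b : Basis ι ℤ ↥(intLattice N 2)) :
    LinearIndependent K fun i => coeffVec N K (b i) := by
  have h1 : LinearIndependent ℤ fun i => coeffVec N ℚ (b i) :=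
    b.linearIndependent.map' (coeffVec N ℚ) (LinearMap.ker_eq_bot.2 (coeffVec_injective N ℚ))
  have h2 : LinearIndependent ℚ fun i => coeffVec N ℚ (b i) :=
    (LinearIndependent.iff_fractionRing ℤ ℚ).1 h1
  have h3 := linearIndependent_algebraMap_comp (K := K) _ h2
  convert h3 using 2 with i
  funext n
  rw [coeffVec_apply, coeffVec_apply, map_intCast]

/-- The coefficient vector of a Laurent series, as a linear map. -/
def coeffLin (R : Type*) [CommRing R] : LaurentSeries R →ₗ[R] (ℕ → R) where
  toFun x n := x.coeff (n : ℤ)
  map_add' x y := by funext n; simp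
  map_smul' c x := by funext n; simp

theorem coeffLin_redHom (R : Type*) [CommRing R] (f : ↥(intLattice N 2)) :
    coeffLin R (redHom N R f) = coeffVec N R f := by
  funext n
  change (redHom N R f).coeff (n : ℤ) = _
  rw [redHom_coeff_natCast, coeffVec_apply]

/-- **Independence in characteristic zero.** -/
theorem linearIndependent_redHom_of_charZero (K : Type*) [Field K] [CharZero K] {ι : Type*}
    [Fintype ι] (b : Basis ι ℤ ↥(intLattice N 2)) :
    LinearIndependent K fun i => redHom N K (b i) := by
  refine LinearIndependent.of_comp (coeffLin K) ?_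
  have e : (⇑(coeffLin K) ∘ fun i => redHom N K (b i)) = fun i => coeffVec N K (b i) :=
    funext fun i => coeffLin_redHom N K (b i)
  rw [e]
  exact linearIndependent_coeffVec N K b

theorem finrank_cuspSpan_of_charZero (K : Type*) [Field K] [CharZero K] :
    finrank K (cuspSpan N K) = finrank ℤ ↥(intLattice N 2) := by
  classical
  let b := Module.Free.chooseBasis ℤ ↥(intLattice N 2)
  rw [cuspSpan_eq_span_basis N K b,
    finrank_span_eq_card (linearIndependent_redHom_of_charZero N K b),
    Module.finrank_eq_card_basis b]

/-- The `n`-th `q`-coefficient as a linear form on the space of cusp forms. -/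
def qCoeffLin : CuspForm (CongruenceSubgroup.Gamma0 N) 2 →ₗ[ℂ] (ℕ → ℂ) where
  toFun f n := ModularFormClass.qCoeff ⇑f n
  map_add' f g := by funext n; exact Fermat.Agent.S49.qCoeff_add f g n
  map_smul' c f := by funext n; exact Fermat.Agent.S49.qCoeff_smul c f n

theorem qCoeffLin_coe (f : ↥(intLattice N 2)) :
    qCoeffLin N (f : CuspForm (CongruenceSubgroup.Gamma0 N) 2) = coeffVec N ℂ f := by
  funext n
  change ModularFormClass.qCoeff ⇑(f : CuspForm (CongruenceSubgroup.Gamma0 N) 2) n = _
  rw [aInt_spec, coeffVec_apply]

/-- A `ℤ`-basis of the lattice is linearly independent over `ℂ` in the space of cusp forms. -/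
theorem linearIndependent_coe_basis {ι : Type*} [Fintype ι] (b : Basis ι ℤ ↥(intLattice N 2)) :
    LinearIndependent ℂ fun i => ((b i : ↥(intLattice N 2)) :
      CuspForm (CongruenceSubgroup.Gamma0 N) 2) := by
  refine LinearIndependent.of_comp (qCoeffLin N) ?_
  have e : (⇑(qCoeffLin N) ∘ fun i => ((b i : ↥(intLattice N 2)) :
      CuspForm (CongruenceSubgroup.Gamma0 N) 2)) = fun i => coeffVec N ℂ (b i) :=
    funext fun i => qCoeffLin_coe N (b i)
  rw [e]
  exact linearIndependent_coeffVec N ℂ b

/-- **The rank of the lattice is the dimension of the space of cusp forms** (given that the lattice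
spans, which is the statement `HasIntegralStructure`). -/
theorem finrank_intLattice_eq (h : CuspForm.HasIntegralStructure N 2) :
    finrank ℤ ↥(intLattice N 2) = finrank ℂ (CuspForm (CongruenceSubgroup.Gamma0 N) 2) := by
  classical
  let b := Module.Free.chooseBasis ℤ ↥(intLattice N 2)
  have hspan : Submodule.span ℂ (Set.range fun i => ((b i : ↥(intLattice N 2)) :
      CuspForm (CongruenceSubgroup.Gamma0 N) 2)) = ⊤ := by
    rw [eq_top_iff, ← h]
    refine Submodule.span_le.2 ?_
    intro f hf
    have hf' : f ∈ intLattice N 2 := hf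
    have hsum := b.sum_repr ⟨f, hf'⟩
    have : f = ∑ i, b.repr ⟨f, hf'⟩ i • ((b i : ↥(intLattice N 2)) :
        CuspForm (CongruenceSubgroup.Gamma0 N) 2) := by
      conv_lhs => rw [show f = ((⟨f, hf'⟩ : ↥(intLattice N 2)) :
        CuspForm (CongruenceSubgroup.Gamma0 N) 2) from rfl, ← hsum]
      rw [Submodule.coe_sum]
      rfl
    rw [this]
    refine Submodule.sum_mem _ fun i _ => ?_
    rw [← Int.cast_smul_eq_zsmul ℂ]
    exact Submodule.smul_mem _ _ (Submodule.subset_span ⟨i, rfl⟩)
  rw [Module.finrank_eq_card_basis b, ← finrank_span_eq_card (linearIndependent_coe_basis N b),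
    hspan, finrank_top]

/-! ### Hecke operators on the reductions -/

/-- The coefficients of the reduction of `T_ℓ f` (`ℓ ∤ N`) resp. `U_ℓ f` (`ℓ ∣ N`). -/
theorem redHom_tau_coeff (R : Type*) [CommRing R] (ℓ : Nat.Primes) (f : ↥(intLattice N 2))
    (n : ℕ) :
    (redHom N R (tau N ℓ • f)).coeff (n : ℤ) =
      (redHom N R f).coeff ((n * (ℓ : ℕ) : ℕ) : ℤ) +
        (if (ℓ : ℕ) ∣ N then 0 else if (ℓ : ℕ) ∣ n then
          ((ℓ : ℕ) : R) * (redHom N R f).coeff ((n / (ℓ : ℕ) : ℕ) : ℤ) else 0) := by
  rw [redHom_coeff_natCast, redHom_coeff_natCast, redHom_coeff_natCast, aInt_tau_smul]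
  split_ifs <;> push_cast <;> ring

/-! ### The squeeze -/

/-- **Squeeze**: a subspace `S` contained in the injective image of a space `H` of dimension at
most `dim S` is that image. -/
theorem map_eq_of_le_of_finrank_le {κ V W : Type*} [Field κ] [AddCommGroup V] [Module κ V]
    [AddCommGroup W] [Module κ W] (φ : V →ₗ[κ] W) (H : Submodule κ V) [FiniteDimensional κ H]
    (S : Submodule κ W) (hS : S ≤ H.map φ) (hr : finrank κ H ≤ finrank κ S) :
    H.map φ = S := by
  have : FiniteDimensional κ (H.map φ) := by
    have : H.map φ = LinearMap.range (φ.domRestrict H) := by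
      rw [LinearMap.range_domRestrict]
    rw [this]
    infer_instance
  symm
  apply Submodule.eq_of_le_of_finrank_le hS
  have h1 : finrank κ (H.map φ) ≤ finrank κ H := by
    have : H.map φ = LinearMap.range (φ.domRestrict H) := by
      rw [LinearMap.range_domRestrict]
    rw [this]
    exact LinearMap.finrank_range_le _
  exact h1.trans hr

end Fermat.Agent.S40.W.CuspSpan
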