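/-
S40 / (W3), leaf W8a, part (C2-a) (helper27): **Gauss-integrality of `f / θ(j)` is automatic.**

Level `(K, O)`: `O ⊆ K` a discrete valuation ring with fraction field `K`.  For a form `f` of the
integral lattice `intLattice N 2` and `h ∈ FF K N` with `h · θ(j) = redHom N K f` in `K((q))`, the
element `h` lies in the Gauss ring: `θ(j) = -q⁻¹ + ⋯` is the image of a series over `O` whose reduction
is non-zero, hence a unit of the Gauss ring, and `redHom N K f` is the image of a series over `O`.

* `thetaD_jF_mem_gaussRing`, `thetaD_jF_inv_mem_gaussRing`, `redHom_mem_gaussRing`;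
* **`mem_gaussSubalgebra_of_mul_theta`**.
-/
import Mathlib
import Fermat.Agent.S40.W.Sep
import Fermat.Agent.S40.W.CuspSpan
import Fermat.Agent.N4.FibreEmbedding

set_option autoImplicit false
set_option linter.unusedSectionVars false
set_option linter.style.haveILetI false
set_option linter.style.longLine false

namespace Fermat.Agent.S40.W.FormsGauss

open CuspForm ModularCurve Fermat.Agent.S28.Gauss Fermat.Agent.N4.Setting
  Fermat.Agent.N4.FibreEmbedding Fermat.Agent.S40.W.ThetaLog Fermat.Agent.S40.W.CuspSpan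

noncomputable section

variable (K : Type) [Field K] (N : ℕ) [NeZero N] (O : Subring K)
  [IsDiscreteValuationRing ↥O] [IsFractionRing ↥O K]

/-- `θ(j)` is the image of the series `θ(j)` over `O`. -/
theorem thetaD_jF_eq_emb :
    thetaD K ((jF K N : FF K N) : LaurentSeries K) = emb ↥O K (thetaD ↥O (jqModC ↥O)) := by
  rw [coe_jF, ← emb_jqModC K O]
  exact thetaD_coeffMap ↥O (algebraMap ↥O K) (jqModC ↥O)

theorem thetaD_jF_mem_gaussRing :
    thetaD K ((jF K N : FF K N) : LaurentSeries K) ∈ gaussRing ↥O K := by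
  rw [thetaD_jF_eq_emb K N O]
  exact emb_mem_gaussRing _

/-- The reduction of `θ(j)` over `O` is `θ(j̄) = -q⁻¹ + ⋯ ≠ 0`. -/
theorem red_thetaD_ne_zero : red ↥O (thetaD ↥O (jqModC ↥O)) ≠ 0 := by
  have h2 : red ↥O (thetaD ↥O (jqModC ↥O)) =
      thetaD (IsLocalRing.ResidueField ↥O) (jqModC (IsLocalRing.ResidueField ↥O)) := by
    rw [← red_jqModC K O]
    exact (thetaD_coeffMap ↥O (IsLocalRing.residue ↥O) (jqModC ↥O)).symm
  rw [h2]
  exact Sep.thetaD_jqModC_ne_zero _

theorem gaussRed_thetaD_ne_zero :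
    gaussRed (⟨thetaD K ((jF K N : FF K N) : LaurentSeries K),
      thetaD_jF_mem_gaussRing K N O⟩ : gaussRing ↥O K) ≠ 0 := by
  have h1 : gaussRed (⟨thetaD K ((jF K N : FF K N) : LaurentSeries K),
      thetaD_jF_mem_gaussRing K N O⟩ : gaussRing ↥O K) =
      red ↥O (thetaD ↥O (jqModC ↥O)) := by
    rw [← gaussRed_emb (A := ↥O) (Q := K)]
    congr 1
    exact Subtype.ext (thetaD_jF_eq_emb K N O)
  rw [h1]
  exact red_thetaD_ne_zero K O

/-- `θ(j)⁻¹` lies in the Gauss ring: the reduction of `θ(j)` is `θ(j̄) = -q⁻¹ + ⋯ ≠ 0`. -/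
theorem thetaD_jF_inv_mem_gaussRing :
    (thetaD K ((jF K N : FF K N) : LaurentSeries K))⁻¹ ∈ gaussRing ↥O K := by
  have h' := inv_mem_gaussRing_of_gaussRed_ne_zero (gaussRed_thetaD_ne_zero K N O)
  exact h'

/-- The `q`-expansion of an integral form, with coefficients in `K`, lies in the Gauss ring. -/
theorem redHom_mem_gaussRing (f : ↥(intLattice N 2)) : redHom N K f ∈ gaussRing ↥O K := by
  rw [← coeffMap_redHom N (algebraMap ↥O K) f]
  exact emb_mem_gaussRing (A := ↥O) (Q := K) (redHom N ↥O f)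

theorem thetaD_jF_ne_zero : thetaD K ((jF K N : FF K N) : LaurentSeries K) ≠ 0 := by
  rw [coe_jF]
  exact Sep.thetaD_jqModC_ne_zero K

/-- **Gauss-integrality is automatic** (W8a, clause 2): any `h ∈ FF K N` with
`h · θ(j) = redHom N K f`, `f` in the integral lattice, lies in the Gauss ring of `(K, O)`. -/
theorem mem_gaussSubalgebra_of_mul_theta (f : ↥(intLattice N 2)) {h : FF K N}
    (hq : (h : LaurentSeries K) * thetaD K ((jF K N : FF K N) : LaurentSeries K) =
      redHom N K f) : h ∈ gaussSubalgebra K N O := by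
  rw [mem_gaussSubalgebra_iff]
  have h1 : (h : LaurentSeries K) =
      redHom N K f * (thetaD K ((jF K N : FF K N) : LaurentSeries K))⁻¹ := by
    rw [← hq, mul_assoc, mul_inv_cancel₀ (thetaD_jF_ne_zero K N), mul_one]
  rw [h1]
  exact (gaussRing ↥O K).mul_mem (redHom_mem_gaussRing K N O f)
    (thetaD_jF_inv_mem_gaussRing K N O)

end

end Fermat.Agent.S40.W.FormsGauss
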