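/-
S40 (row 38), (W3) leaf W8a, part (C1) (helper14): **the `q`-expansion of `toKW f = f / j'`.**

For a weight-two cusp form `f` on `Γ₀(N)`, the element `toKW N f = f / Dj` of the field of modular
functions `WHField (Gamma0 N)` (`M2/HoloRangeFinal`, `Dj = (2πi)⁻¹ dj/dz`) has `q`-expansion
`f(q) / θ(j(q))`:

* `isHol_cuspForm`, `qexpFun_cuspForm : qexpFun ⇑f = redHom N ℂ f` for `f` in the integral lattice;
* `isMer_Dj`, **`qexpFun_Dj : qexpFun Dj = thetaD ℂ (jqModC ℂ)`** (from `Dj = -E₄² E₆ / Δ` and the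
  formal identity `θ j · Δ = -E₄² E₆` of `S36/R3/ThetaJ`); `isMer_mul`; `thetaL_eq_thetaD`;
* **`qexpField_toKW_mul_theta' : qexpField N (toKW N f) * thetaD ℂ (jqModC ℂ) = qexpFun ⇑f`**
  (every cusp form) and **`qexpField_toKW_mul_theta : … = redHom N ℂ f`** (integral lattice) — the
  hypothesis `hC1` of `S40/W/FormsHoloAlg`.
-/
import Mathlib
import Fermat.Agent.S24.FieldIsoFinal
import Fermat.Agent.M2.HoloRangeFinal
import Fermat.Agent.S36.R3.ThetaJ
import Fermat.Agent.S40.W.CuspSpan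
import Fermat.Agent.S40.W.ThetaLog
import Fermat.Prelude.Thm_CongruenceSubgroup_one_mem_strictPeriods_Gamma0

set_option autoImplicit false
set_option linter.unusedSectionVars false
set_option linter.style.longLine false

namespace Fermat.Agent.S40.W.QExpToKW

open UpperHalfPlane ModularForm ModularFormClass CongruenceSubgroup MatrixGroups CuspForm
open ModularCurve Function Derivative
open Fermat.Agent.M2 Fermat.Agent.M2.DiffIso Fermat.Agent.S24.QExp Fermat.Agent.S24.FieldIso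
open Fermat.Agent.S36.R3.ThetaJ Fermat.Agent.S36.R3.PiSeries Fermat.Agent.S16.BetaLemma
open Fermat.Agent.S40.W.CuspSpan Fermat.Agent.S40.W.ThetaLog Fermat.Agent.S16.Duality

local notation "Δ" => ModularForm.discriminant
local notation "ofPS" => HahnSeries.ofPowerSeries ℤ ℂ

noncomputable section

variable (N : ℕ) [NeZero N]

/-- A cusp form on `Γ₀(N)` is holomorphic, `1`-periodic and bounded at `i∞`. -/
theorem isHol_cuspForm (f : CuspForm (Gamma0 N) 2) : IsHol (f : ℍ → ℂ) :=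
  ⟨CuspFormClass.holo f,
    SlashInvariantFormClass.periodic_comp_ofComplex f
      (CongruenceSubgroup.one_mem_strictPeriods_Gamma0 N),
    ModularFormClass.bdd_at_infty f⟩

/-- The Laurent `q`-expansion of a form of the integral lattice is `redHom N ℂ f`. -/
theorem qexpFun_cuspForm (f : ↥(intLattice N 2)) :
    qexpFun ⇑(f : CuspForm (Gamma0 N) 2) = redHom N ℂ f := by
  rw [qexpFun_of_isHol (isHol_cuspForm N _)]
  ext n
  rw [redHom_coeff]
  rcases lt_or_ge n 0 with hn | hn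
  · rw [if_pos hn, ofPowerSeries_coeff_of_neg _ hn]
  · rw [if_neg (not_lt.mpr hn)]
    obtain ⟨m, rfl⟩ := Int.eq_ofNat_of_zero_le hn
    rw [HahnSeries.ofPowerSeries_apply_coeff, Int.natAbs_natCast, ← aInt_spec]
    rfl


/-! ### The `q`-expansion of `Dj = (2πi)⁻¹ dj/dz` is `θ(j(q))` -/

omit [NeZero N] in
theorem Dj_mul_discriminant :
    Dj * (Δ : ℍ → ℂ) = (fun _ : ℍ => (-1 : ℂ)) * ((E₄ : ℍ → ℂ) ^ 2 * (E₆ : ℍ → ℂ)) := by
  funext z
  simp only [Pi.mul_apply, Pi.pow_apply]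
  rw [Dj_eq, div_mul_cancel₀ _ (discriminant_ne_zero z)]
  ring

omit [NeZero N] in
theorem isHol_Dj_mul_discriminant : IsHol (Dj * (Δ : ℍ → ℂ)) := by
  rw [Dj_mul_discriminant]
  exact (IsHol.const (-1)).mul (((IsHol.ofModularForm E₄).pow 2).mul (IsHol.ofModularForm E₆))

omit [NeZero N] in
theorem isMer_Dj : IsMer Dj := by
  refine ⟨mdiff_Dj, ?_, ⟨1, ?_⟩⟩
  · have h := periodic_D (F := jInv) (by simpa using isMer_jInv.periodic)
    have e : (D jInv : ℍ → ℂ) = Dj := rfl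
    rw [e] at h
    simpa using h
  · rw [pow_one]
    exact isHol_Dj_mul_discriminant.bdd

omit [NeZero N] in
/-- `ofPS (qExpansion Δ) = DeltaL ℂ`. -/
theorem ofPS_qExpansion_discriminant : ofPS (qExpansion 1 Δ) = DeltaL ℂ := by
  rw [Fermat.Agent.S24.QExp.qExpansion_discriminant, DeltaL, toL_apply, map_mul (PowerSeries.map _),
    PowerSeries.map_X]

omit [NeZero N] in
theorem thetaL_eq_thetaD {R : Type*} [CommRing R] (g : LaurentSeries R) :
    thetaL g = thetaD R g := by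
  ext n
  rfl

omit [NeZero N] in
/-- **`qexpFun (Dj) = θ (j(q))`.** -/
theorem qexpFun_Dj : qexpFun Dj = thetaD ℂ (jqModC ℂ) := by
  have h1 := qexpFun_mul_ofPS isMer_Dj IsHol.discriminant isHol_Dj_mul_discriminant
  have h4 : IsHol (E₄ : ℍ → ℂ) := IsHol.ofModularForm E₄
  have h6 : IsHol (E₆ : ℍ → ℂ) := IsHol.ofModularForm E₆
  rw [Dj_mul_discriminant, IsHol.qExpansion_mul (IsHol.const (-1)) ((h4.pow 2).mul h6),
    IsHol.qExpansion_mul (h4.pow 2) h6, IsHol.qExpansion_pow h4, IsHol.qExpansion_const,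
    Fermat.Agent.S24.QExp.qExpansion_E₄, Fermat.Agent.S16.BetaLemma.qExpansion_E₆,
    ofPS_qExpansion_discriminant] at h1
  have h2 := thetaL_jqModC ℂ
  have hD : DeltaL ℂ ≠ 0 := by
    rw [← ofPS_qExpansion_discriminant]
    exact qD_ne_zero
  apply mul_right_cancel₀ hD
  rw [h1, ← thetaL_eq_thetaD, h2, E4L, E6L, toL_apply, toL_apply, map_mul, map_mul, map_pow]
  simp


/-! ### The `q`-expansion of `f / j'` -/

omit [NeZero N] in
theorem isMer_mul {f g : ℍ → ℂ} (hf : IsMer f) (hg : IsMer g) : IsMer (f * g) := by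
  obtain ⟨m₁, h₁⟩ := hf.mero
  obtain ⟨m₂, h₂⟩ := hg.mero
  refine ⟨hf.mdiff.mul hg.mdiff, fun w => ?_, ⟨m₁ + m₂, ?_⟩⟩
  · have h1 := hf.periodic w
    have h2 := hg.periodic w
    simp only [comp_apply, Pi.mul_apply] at h1 h2 ⊢
    rw [h1, h2]
  · have e : (f * g) * (Δ : ℍ → ℂ) ^ (m₁ + m₂) = (f * Δ ^ m₁) * (g * Δ ^ m₂) := by
      rw [pow_add]
      exact mul_mul_mul_comm _ _ _ _
    rw [e]
    exact h₁.mul h₂

/-- **(C1)** `q`-expansion of `toKW f = f / j'` times `θ(j(q))` is the `q`-expansion of `f`,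
for every cusp form `f`. -/
theorem qexpField_toKW_mul_theta' (f : CuspForm (Gamma0 N) 2) :
    qexpField N (HoloRangeFinal.toKW N f) * thetaD ℂ (jqModC ℂ) = qexpFun ⇑f := by
  have hT := T_mem_Gamma0 N
  have mN : IsMer (numFun f) := isMer_coe hT (num f)
  have mD : IsMer ((den (Gamma0 N) : WH (Gamma0 N)) : ℍ → ℂ) := isMer_coe hT (den (Gamma0 N))
  have mf : IsMer (f : ℍ → ℂ) := IsMer.of_isHol (isHol_cuspForm N f)
  have hfun : numFun f * Dj = (f : ℍ → ℂ) * ((den (Gamma0 N) : WH (Gamma0 N)) : ℍ → ℂ) := by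
    funext z
    simp only [Pi.mul_apply]
    rw [numFun_mul_Dj, den_apply]
  have h1 : qexpFun (numFun f) * qexpFun Dj =
      qexpFun ⇑f * qexpFun ((den (Gamma0 N) : WH (Gamma0 N)) : ℍ → ℂ) := by
    rw [← qexpFun_mul mN isMer_Dj (isMer_mul mN isMer_Dj), hfun,
      qexpFun_mul mf mD (isMer_mul mf mD)]
  have hden : qexpFun ((den (Gamma0 N) : WH (Gamma0 N)) : ℍ → ℂ) ≠ 0 := by
    intro h
    have h0 : qexp N (den (Gamma0 N)) = 0 := h
    rw [← map_zero (qexp N)] at h0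
    exact den_ne_zero (Gamma0 N) (qexp_injective N h0)
  have hk : HoloRangeFinal.toKW N f =
      algebraMap (WH (Gamma0 N)) (WHField (Gamma0 N)) (num f) /
        algebraMap (WH (Gamma0 N)) (WHField (Gamma0 N)) (den (Gamma0 N)) := rfl
  rw [hk, map_div₀, qexpField_algebraMap, qexpField_algebraMap, qexp_apply, qexp_apply,
    ← qexpFun_Dj, div_mul_eq_mul_div]
  have e : ((num f : WH (Gamma0 N)) : ℍ → ℂ) = numFun f := rfl
  rw [e, h1, mul_div_assoc, div_self hden, mul_one]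

/-- **(C1)** for the integral lattice: `qexpField (toKW f) · θ(j(q)) = redHom N ℂ f`. -/
theorem qexpField_toKW_mul_theta (f : ↥(intLattice N 2)) :
    qexpField N (HoloRangeFinal.toKW N (f : CuspForm (Gamma0 N) 2)) * thetaD ℂ (jqModC ℂ) =
      redHom N ℂ f := by
  rw [qexpField_toKW_mul_theta', qexpFun_cuspForm]

end

end Fermat.Agent.S40.W.QExpToKW
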