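/-
S40 / (W3), leaf W8a, part (C2-c) (helper27): **an integral cusp form of weight two is `θ(j)` times a
`K`-rational regular differential** — the algebraic half.

`K` a field of characteristic zero with `ι : K →+* ℂ`, `φ : FF K N →+* WHField (Gamma0 N)` ANY ring
homomorphism compatible with `q`-expansions (`qexpField N (φ h) = coeffMap ι h`; helper10's
`BridgeC.embC` is one).  Everything else is derived from this single compatibility:

* `map_algebraMap_ratFunc`, `map_jNF`, `span_range_map`, `trace_map_phi` : `φ` is compatible with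
  `K(X) → ℂ(X)`, `K'(X)·φ(FF K N) = WHField`, and with the traces (helper14's `ConstDescent`);
* `mem_holo_of_map_mem` : `φ h ∈ DW.holoSpace ℂ (WHField Γ₀(N)) B_ℂ Binf_ℂ → h ∈ Setting.holo K N`;
* `exists_map_eq_of_qexp` : an element of `WHField` whose `q`-expansion has coefficients in `K` comes
  from `FF K N` (helper9's `FFDescent.mem_full_of_coeffMap_mem`);
* **`exists_holo_of_qexp`** : for `f ∈ intLattice N 2`, from the analytic identity (C1)
  `qexpField (toKW f) · θ(j) = redHom N ℂ f` (helper14 `QExpToKW`), an `h ∈ FF K N` with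
  `h ∈ holo K N` and `h · θ(j) = redHom N K f`;
* **`exists_holo_gauss_of_qexp`** : the same with `h ∈ gaussSubalgebra K N O` (`FormsGauss`), i.e. the
  hypothesis `HA` of `S40/W/Main` (W10) for one `f`.
-/
import Mathlib
import Fermat.Agent.S40.W.ConstDescent
import Fermat.Agent.S40.W.FormsGauss
import Fermat.Agent.S40.M1.FFDescent
import Fermat.Agent.M2.HoloRangeFinal
import Fermat.Agent.M2.DictInf
import Fermat.Agent.M2.DegreePsi
import Fermat.Agent.S24.FieldIsoFinal
import Fermat.Agent.S40.W.QExpToKW
import Fermat.Agent.S40.W.Main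

set_option autoImplicit false
set_option linter.unusedSectionVars false
set_option linter.style.haveILetI false
set_option linter.style.longLine false

open Polynomial Module

namespace Fermat.Agent.S40.W.FormsHoloAlg

open CuspForm ModularCurve CongruenceSubgroup Fermat.Agent.M2 Fermat.Agent.N4.Setting
  Fermat.Agent.N4.ModPolySetting Fermat.Agent.S24.FieldIso
  Fermat.Agent.S40.W.ThetaLog Fermat.Agent.S40.W.CuspSpan Fermat.Agent.S40.W.ConstDescent

open scoped Fermat.Agent.S40.W.FFSetting Fermat.Agent.S40.W.Setting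

noncomputable section

variable (K : Type) [Field K] [CharZero K] (ι : K →+* ℂ) (N : ℕ) [NeZero N]
  (φ : FF K N →+* WHField (Gamma0 N))
  (hφq : ∀ h : FF K N, qexpField N (φ h) = coeffMap ι ((h : FF K N) : LaurentSeries K))

theorem qexpField_injective : Function.Injective (qexpField N) :=
  (qexpField N).toRingHom.injective

include hφq

theorem map_algebraMap_const (c : K) :
    φ (algebraMap K (FF K N) c) = algebraMap ℂ (WHField (Gamma0 N)) (ι c) := by
  apply qexpField_injective N
  rw [hφq, AlgHom.commutes]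
  have h1 : ((algebraMap K (FF K N) c : FF K N) : LaurentSeries K) =
      algebraMap K (LaurentSeries K) c := rfl
  rw [h1, algebraMap_laurentSeries_eq_single, algebraMap_laurentSeries_eq_single]
  exact coeffMap_single ι 0 c

theorem map_jF : φ (jF K N) = jM N := by
  apply qexpField_injective N
  rw [hφq, qexpField_jM, coe_jF, coeffMap_jqModC]

theorem map_jNF : φ (jNF K N) = jNM N := by
  apply qexpField_injective N
  rw [hφq, qexpField_jNM, coe_jdF, coeffMap_qExpand, coeffMap_jqModC]
  rfl

theorem map_algebraMap_poly (P : K[X]) :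
    φ (algebraMap K[X] (FF K N) P) = algebraMap ℂ[X] (WHField (Gamma0 N)) (P.map ι) := by
  have h : φ.comp (algebraMap K[X] (FF K N)) =
      (algebraMap ℂ[X] (WHField (Gamma0 N))).comp (Polynomial.mapRingHom ι) := by
    refine Polynomial.ringHom_ext (fun c => ?_) ?_
    · rw [RingHom.comp_apply, RingHom.comp_apply, Polynomial.coe_mapRingHom, Polynomial.map_C,
        FFSetting.algebraMap_poly_apply, aeval_C, map_algebraMap_const K ι N φ hφq,
        algebraMap_poly_eq_aeval_jM, aeval_C]
    · rw [RingHom.comp_apply, RingHom.comp_apply, Polynomial.coe_mapRingHom, Polynomial.map_X,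
        FFSetting.algebraMap_poly_X, map_jF K ι N φ hφq, algebraMap_poly_eq_aeval_jM, aeval_X]
  exact RingHom.congr_fun h P

/-- `φ` is compatible with `K(X) → ℂ(X)` (`X ↦ j` on both sides). -/
theorem map_algebraMap_ratFunc (r : RatFunc K) :
    φ (algebraMap (RatFunc K) (FF K N) r) =
      algebraMap (RatFunc ℂ) (WHField (Gamma0 N)) (ratMap ι r) := by
  have h : φ.comp (algebraMap (RatFunc K) (FF K N)) =
      (algebraMap (RatFunc ℂ) (WHField (Gamma0 N))).comp (ratMap ι) := by
    refine IsLocalization.ringHom_ext (nonZeroDivisors K[X]) (RingHom.ext fun P => ?_)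
    simp only [RingHom.comp_apply]
    rw [← IsScalarTower.algebraMap_apply K[X] (RatFunc K) (FF K N), ratMap_algebraMap,
      ← IsScalarTower.algebraMap_apply ℂ[X] (RatFunc ℂ) (WHField (Gamma0 N)),
      map_algebraMap_poly K ι N φ hφq]
  exact RingHom.congr_fun h r

/-- `WHField (Gamma0 N) = ℂ(X) · φ(FF K N)`. -/
theorem span_range_map :
    Submodule.span (RatFunc ℂ) (Set.range φ) = ⊤ := by
  refine span_range_eq_top φ fun T hT1 hT2 => ?_
  rw [eq_top_iff]
  intro z _
  let T' : IntermediateField (RatFunc ℂ) (WHField (Gamma0 N)) :=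
    { T with algebraMap_mem' := fun r => hT1 r }
  have hle : IntermediateField.adjoin (RatFunc ℂ) {jNM N} ≤ T' := by
    rw [IntermediateField.adjoin_le_iff]
    rintro x rfl
    have := hT2 (jNF K N)
    rwa [map_jNF K ι N φ hφq] at this
  rw [adjoin_ratFunc_jNM_eq_top] at hle
  exact hle IntermediateField.mem_top

/-- **`Tr_{WHField/ℂ(j)} ∘ φ = ratMap ι ∘ Tr_{FF K N/K(j)}`.** -/
theorem trace_map_phi [FiniteDimensional (RatFunc K) (FF K N)] (y : FF K N) :
    Algebra.trace (RatFunc ℂ) (WHField (Gamma0 N)) (φ y) =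
      ratMap ι (Algebra.trace (RatFunc K) (FF K N) y) :=
  trace_map (ratMap ι) φ (map_algebraMap_ratFunc K ι N φ hφq)
    ((finrank_ratFunc_FF N ι).trans (DegreePsi.finrank_WHField_Gamma0 N).symm)
    (span_range_map K ι N φ hφq) y

/-- **Regularity descends from `ℂ` to `K`**: if `φ h` is a regular differential form of the complex
function field (`DW.holoSpace` for the integral closures of `ℂ[j]`, `Oinf ℂ`), then
`h ∈ Setting.holo K N`. -/
theorem mem_holo_of_map_mem [FiniteDimensional (RatFunc K) (FF K N)]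
    [Algebra.IsSeparable (RatFunc K) (FF K N)] {h : FF K N}
    (hh : φ h ∈ DW.holoSpace ℂ (WHField (Gamma0 N)) (integralClosure ℂ[X] (WHField (Gamma0 N)))
      (integralClosure (DW.Oinf ℂ) (WHField (Gamma0 N)))) : h ∈ Setting.holo K N :=
  mem_holoSpace_of_map ι φ (map_algebraMap_ratFunc K ι N φ hφq)
    (trace_map_phi K ι N φ hφq) hh

omit [CharZero K] hφq in
/-- `F_ℂ = ℂ(j(q^d) : d ∣ N)` in the vocabulary of `N4`. -/
theorem FC_eq_full : (FC N : IntermediateField ℂ (LaurentSeries ℂ)) = modularFunctionFieldFullC ℂ N := by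
  rw [FC_eq_modularFunctionFieldC, Fermat.Agent.N4.FunctionFieldGen.modularFunctionFieldFullC_eq]

omit [CharZero K] in
/-- **Coefficient descent**: an element `H` of the complex function field whose `q`-expansion is the
coefficientwise image of a series `g₀` over `K` is `φ h` for the element `h = g₀` of `FF K N`. -/
theorem exists_map_eq_of_qexp (H : WHField (Gamma0 N)) (g₀ : LaurentSeries K)
    (hg : qexpField N H = coeffMap ι g₀) :
    ∃ h : FF K N, ((h : FF K N) : LaurentSeries K) = g₀ ∧ φ h = H := by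
  letI : Algebra K ℂ := ι.toAlgebra
  have hmemC : qexpField N H ∈ modularFunctionFieldFullC ℂ N := by
    rw [← FC_eq_full N, ← fieldRange_qexpField]
    exact ⟨H, rfl⟩
  have hmem : g₀ ∈ modularFunctionFieldFullC K N := by
    apply Fermat.Agent.S40.M1.FFDescent.mem_full_of_coeffMap_mem (L := ℂ) N
    rw [hg] at hmemC
    exact hmemC
  refine ⟨⟨g₀, hmem⟩, rfl, ?_⟩
  apply qexpField_injective N
  rw [hφq, hg]

variable [FiniteDimensional (RatFunc K) (FF K N)] [Algebra.IsSeparable (RatFunc K) (FF K N)]

/-- **W8a, algebraic half (C2)**: for `f` in the integral lattice, from the analytic identity (C1)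
`qexpField (toKW f) · θ(j) = redHom N ℂ f`, there is `h ∈ FF K N`, regular (`h ∈ holo K N`), with
`h · θ(j) = redHom N K f` in `K((q))`. -/
theorem exists_holo_of_qexp (f : ↥(intLattice N 2))
    (hC1 : qexpField N (HoloRangeFinal.toKW N (f : CuspForm (Gamma0 N) 2)) *
      thetaD ℂ (jqModC ℂ) = redHom N ℂ f) :
    ∃ h : FF K N, h ∈ Setting.holo K N ∧
      ((h : FF K N) : LaurentSeries K) * thetaD K ((jF K N : FF K N) : LaurentSeries K) =
        redHom N K f := by
  have hθK : thetaD K (jqModC K) ≠ 0 := Sep.thetaD_jqModC_ne_zero K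
  have hθC : thetaD ℂ (jqModC ℂ) ≠ 0 := Sep.thetaD_jqModC_ne_zero ℂ
  have hθ : coeffMap ι (thetaD K (jqModC K)) = thetaD ℂ (jqModC ℂ) := by
    rw [← coeffMap_jqModC ι]
    exact (thetaD_coeffMap K ι (jqModC K)).symm
  -- the candidate `q`-expansion
  have hg : qexpField N (HoloRangeFinal.toKW N (f : CuspForm (Gamma0 N) 2)) =
      coeffMap ι (redHom N K f * (thetaD K (jqModC K))⁻¹) := by
    rw [map_mul, map_inv₀, hθ, coeffMap_redHom, ← hC1, mul_assoc, mul_inv_cancel₀ hθC, mul_one]
  obtain ⟨h, hh, hφh⟩ := exists_map_eq_of_qexp K ι N φ hφq _ _ hg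
  refine ⟨h, ?_, ?_⟩
  · apply mem_holo_of_map_mem K ι N φ hφq
    rw [hφh, HoloRangeFinal.holoSpace_eq_range N (DictInf.exists_cusp_of_prime N)
      (DictInf.exists_prime_of_cusp N)]
    exact ⟨_, rfl⟩
  · rw [hh, coe_jF, mul_assoc, inv_mul_cancel₀ hθK, mul_one]

/-- **W8a = the hypothesis `HA` of `S40/W/Main` (W10), for one form `f`**: at a level `(K, O)`
(`O ⊆ K` a discrete valuation ring with fraction field `K`), the `h` of `exists_holo_of_qexp` is
Gauss-integral. -/
theorem exists_holo_gauss_of_qexp (O : Subring K) [IsDiscreteValuationRing ↥O]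
    [IsFractionRing ↥O K] (f : ↥(intLattice N 2))
    (hC1 : qexpField N (HoloRangeFinal.toKW N (f : CuspForm (Gamma0 N) 2)) *
      thetaD ℂ (jqModC ℂ) = redHom N ℂ f) :
    ∃ h : FF K N, h ∈ Setting.holo K N ∧ h ∈ Fermat.Agent.N4.FibreEmbedding.gaussSubalgebra K N O ∧
      ((h : FF K N) : LaurentSeries K) * thetaD K ((jF K N : FF K N) : LaurentSeries K) =
        redHom N K f := by
  obtain ⟨h, hh, hq⟩ := exists_holo_of_qexp K ι N φ hφq f hC1
  exact ⟨h, hh, FormsGauss.mem_gaussSubalgebra_of_mul_theta K N O f hq, hq⟩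

end

/-! ### A concrete `φ` and the final statement -/

noncomputable section

open Fermat.Agent.N4.BaseDescent

variable (K : Type) [Field K] [CharZero K] (ι : K →+* ℂ) (N : ℕ) [NeZero N]

/-- The coefficientwise embedding `FF K N → WHField (Gamma0 N)` (through `F_ℂ` and the
`q`-expansion isomorphism of `S24`). -/
def embQ : FF K N →+* WHField (Gamma0 N) :=
  ((fieldEquiv N).symm : ↥(FC N) →+* WHField (Gamma0 N)).comp
    (((IntermediateField.equivOfEq (FC_eq_full N).symm :
      ↥(modularFunctionFieldFullC ℂ N) ≃ₐ[ℂ] ↥(FC N)) :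
        ↥(modularFunctionFieldFullC ℂ N) →+* ↥(FC N)).comp (ffMap ι N))

theorem qexpField_embQ (h : FF K N) :
    qexpField N (embQ K ι N h) = coeffMap ι ((h : FF K N) : LaurentSeries K) := by
  rw [← coe_fieldEquiv]
  have h1 : fieldEquiv N (embQ K ι N h) =
      (IntermediateField.equivOfEq (FC_eq_full N).symm :
        ↥(modularFunctionFieldFullC ℂ N) ≃ₐ[ℂ] ↥(FC N)) (ffMap ι N h) :=
    (fieldEquiv N).apply_symm_apply _
  rw [h1]
  rfl

variable [FiniteDimensional (RatFunc K) (FF K N)] [Algebra.IsSeparable (RatFunc K) (FF K N)]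

include ι

/-- **W8a (→)**: every form `f` of the integral lattice is `θ(j)` times a `K`-rational regular
differential `h ∈ holo K N`, for every field `K` of characteristic zero embedded in `ℂ`. -/
theorem exists_holo_of_intLattice (f : ↥(intLattice N 2)) :
    ∃ h : FF K N, h ∈ Setting.holo K N ∧
      ((h : FF K N) : LaurentSeries K) * thetaD K ((jF K N : FF K N) : LaurentSeries K) =
        redHom N K f :=
  exists_holo_of_qexp K ι N (embQ K ι N) (qexpField_embQ K ι N) f
    (Fermat.Agent.S40.W.QExpToKW.qexpField_toKW_mul_theta N f)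

/-- **W8a = `HA` of `S40/W/Main` (W10)**: at a level `(K, O)` with `ι : K →+* ℂ`, every form of the
integral lattice is `θ(j)` times a Gauss-integral element of `holo K N`. -/
theorem exists_holo_gauss_of_intLattice (O : Subring K) [IsDiscreteValuationRing ↥O]
    [IsFractionRing ↥O K] (f : ↥(intLattice N 2)) :
    ∃ h : FF K N, h ∈ Setting.holo K N ∧ h ∈ Fermat.Agent.N4.FibreEmbedding.gaussSubalgebra K N O ∧
      ((h : FF K N) : LaurentSeries K) * thetaD K ((jF K N : FF K N) : LaurentSeries K) =
        redHom N K f :=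
  exists_holo_gauss_of_qexp K ι N (embQ K ι N) (qexpField_embQ K ι N) O f
    (Fermat.Agent.S40.W.QExpToKW.qexpField_toKW_mul_theta N f)

/-- **`HA`**, verbatim in the shape consumed by `S40/W/Main.dlog_mem_cuspSpan_level` and
`S40/W/MainCharts.dlog_mem_cuspSpan_level_of_charts`. -/
theorem hA (O : Subring K) [IsDiscreteValuationRing ↥O] [IsFractionRing ↥O K] :
    ∀ f : ↥(intLattice N 2), ∃ h : FF K N, h ∈ Setting.holo K N ∧
      h ∈ Fermat.Agent.N4.FibreEmbedding.gaussSubalgebra K N O ∧
      Fermat.Agent.S40.W.Main.mulTheta K N h = redHom N K f :=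
  fun f => exists_holo_gauss_of_intLattice K ι N O f

end

end Fermat.Agent.S40.W.FormsHoloAlg
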