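/-
S40 / (W3), leaf W8 (←), abstract core (helper13): **restriction of a valuation along a constant
field extension sees the Dedekind–Weber space of holomorphic differentials.**

Setting: the Dedekind–Weber data `(k, K, B, Binf)` of `M2/DWMain` over a field `k` of
characteristic zero (`k` need NOT be algebraically closed), a field `L` which is an algebra over
a field `C`, a ring homomorphism `φ : K →+* L` over `ι : k →+* C`, and a `ℤᵐ⁰`-valued valuation
`v` of `L` which is trivial on the nonzero constants of `C`.  Put `x_L := φ x`.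

* `valuation_mul_sub_lt_one` : if `v (x_L - c₀) < 1` for a constant `c₀ : C` (a "finite point")
  then `v (φ h * (x_L - c₀)) < 1` for every `h ∈ holoSpace k K B Binf`;
* `valuation_mul_X_lt_one` : if `1 < v x_L` (a "point at infinity") then `v (φ h * x_L) < 1` for
  every `h ∈ holoSpace k K B Binf`.

These are exactly the two clauses of `M2/HoloRangeFinal.mem_range_toKW_iff` (with
`L = WHField (Γ₀(N))`, `v = Dict.vF z` resp. `cuspValK N δ`), so `φ` maps `holoSpace` over the
small field into `{f / j' | f ∈ S₂}`; no base change of integral closures is needed.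

Proof: `w := v ∘ φ` is a valuation of `K`, `≤ 1` on `k[x]` hence on `B` (valuation rings are
integrally closed).  If its centre on `B` is zero, `w` is trivial.  Otherwise the centre is a
height one prime `P` and `w = (P-adic valuation)^κ`, `κ ≥ 1` (`M2/ValCompare.exists_pow_eq`).
The valuation form of `holoSpace` (`DW.mem_holoSpace_iff_valuation`, characteristic zero only)
gives `v_P(h) ≥ -(e_P - 1)`, and `v_P(π(x)) = e_P` for the monic generator `π` of `P ∩ k[x]`
(`TameDifferent`), so `w (h * π(x)) < 1`.  Over `C` the (separable!) polynomial `ι π` has the simple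
root `c₀`, i.e. `(ι π)(x_L) = (x_L - c₀) · r(x_L)` with `v (r(x_L)) = 1`.
-/
import Mathlib
import Fermat.Agent.M2.DWMain
import Fermat.Agent.M2.ValCompare

set_option autoImplicit false
set_option linter.unusedSectionVars false

open Polynomial IsDedekindDomain WithZero

namespace Fermat.Agent.S40.W.ValRestrict

open Fermat.Agent.M2 Fermat.Agent.M2.DW

/-! ### Valuations of a `C`-algebra which are trivial on the constants -/

section Generic

variable {E L : Type*} [Field E] [Field L] [Algebra E L] (v : Valuation L ℤᵐ⁰)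

theorem valuation_algebraMap_le_one (hconst : ∀ c : E, c ≠ 0 → v (algebraMap E L c) = 1) (c : E) :
    v (algebraMap E L c) ≤ 1 := by
  by_cases hc : c = 0
  · subst hc
    rw [map_zero, map_zero]
    exact zero_le
  · exact (hconst c hc).le

theorem valuation_aeval_le_one (hconst : ∀ c : E, c ≠ 0 → v (algebraMap E L c) = 1) {x : L}
    (hx : v x ≤ 1) (Q : E[X]) : v (aeval x Q) ≤ 1 := by
  rw [aeval_eq_sum_range]
  refine v.map_sum_le fun i _ => ?_
  rw [Algebra.smul_def, map_mul, map_pow]
  exact mul_le_one' (valuation_algebraMap_le_one v hconst _) (pow_le_one' hx i)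

theorem valuation_le_one_of_sub_lt_one (hconst : ∀ c : E, c ≠ 0 → v (algebraMap E L c) = 1)
    {x : L} {c₀ : E} (hc₀ : v (x - algebraMap E L c₀) < 1) : v x ≤ 1 := by
  have h : x = (x - algebraMap E L c₀) + algebraMap E L c₀ := by ring
  rw [h]
  exact le_trans (v.map_add _ _) (max_le hc₀.le (valuation_algebraMap_le_one v hconst c₀))

/-- Taylor expansion to first order at `c₀`. -/
theorem aeval_eq_eval_add (x : L) (c₀ : E) (Q : E[X]) :
    aeval x Q = algebraMap E L (Q.eval c₀) +
      (x - algebraMap E L c₀) * aeval x (Q /ₘ (X - C c₀)) := by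
  conv_lhs => rw [← modByMonic_add_div Q (X - C c₀), modByMonic_X_sub_C_eq_C_eval]
  rw [map_add, map_mul, aeval_C, map_sub, aeval_X, aeval_C]

theorem eval_eq_zero_of_valuation_aeval_lt_one
    (hconst : ∀ c : E, c ≠ 0 → v (algebraMap E L c) = 1) {x : L} {c₀ : E}
    (hc₀ : v (x - algebraMap E L c₀) < 1) {Q : E[X]} (hQ : v (aeval x Q) < 1) :
    Q.eval c₀ = 0 := by
  by_contra hne
  have hx : v x ≤ 1 := valuation_le_one_of_sub_lt_one v hconst hc₀
  have h2 : v ((x - algebraMap E L c₀) * aeval x (Q /ₘ (X - C c₀))) < 1 := by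
    rw [map_mul]
    exact mul_lt_one_of_nonneg_of_lt_one_left zero_le hc₀ (valuation_aeval_le_one v hconst hx _)
  have h1 : v (algebraMap E L (Q.eval c₀)) = 1 := hconst _ hne
  rw [aeval_eq_eval_add x c₀ Q] at hQ
  rw [v.map_add_eq_of_lt_left (by rw [h1]; exact h2), h1] at hQ
  exact lt_irrefl _ hQ

theorem valuation_aeval_eq_one_of_eval_ne_zero
    (hconst : ∀ c : E, c ≠ 0 → v (algebraMap E L c) = 1) {x : L} {c₀ : E}
    (hc₀ : v (x - algebraMap E L c₀) < 1) {Q : E[X]} (hQ : Q.eval c₀ ≠ 0) :
    v (aeval x Q) = 1 := by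
  have hx : v x ≤ 1 := valuation_le_one_of_sub_lt_one v hconst hc₀
  have h2 : v ((x - algebraMap E L c₀) * aeval x (Q /ₘ (X - C c₀))) < 1 := by
    rw [map_mul]
    exact mul_lt_one_of_nonneg_of_lt_one_left zero_le hc₀ (valuation_aeval_le_one v hconst hx _)
  have h1 : v (algebraMap E L (Q.eval c₀)) = 1 := hconst _ hQ
  rw [aeval_eq_eval_add x c₀ Q, v.map_add_eq_of_lt_left (by rw [h1]; exact h2), h1]

/-- At a pole of `x` the valuation of a polynomial in `x` is governed by its degree. -/
theorem valuation_aeval_eq_pow (hconst : ∀ c : E, c ≠ 0 → v (algebraMap E L c) = 1) {x : L}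
    (hx : 1 < v x) {Q : E[X]} (hQ : Q ≠ 0) : v (aeval x Q) = v x ^ Q.natDegree := by
  have hx0 : v x ≠ 0 := (lt_trans zero_lt_one hx).ne'
  rw [aeval_eq_sum_range, Finset.sum_range_succ]
  have hlead : v (Q.coeff Q.natDegree • x ^ Q.natDegree) = v x ^ Q.natDegree := by
    rw [Algebra.smul_def, map_mul, map_pow,
      hconst _ (by rwa [coeff_natDegree, Ne, leadingCoeff_eq_zero]), one_mul]
  have hlow : v (∑ i ∈ Finset.range Q.natDegree, Q.coeff i • x ^ i) < v x ^ Q.natDegree := by
    refine v.map_sum_lt (pow_ne_zero _ hx0) fun i hi => ?_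
    rw [Algebra.smul_def, map_mul, map_pow]
    have hi' : i < Q.natDegree := Finset.mem_range.mp hi
    calc v (algebraMap E L (Q.coeff i)) * v x ^ i ≤ 1 * v x ^ i :=
          mul_le_mul' (valuation_algebraMap_le_one v hconst _) le_rfl
      _ = v x ^ i := one_mul _
      _ < v x ^ Q.natDegree := pow_lt_pow_right₀ hx hi'
  rw [add_comm, v.map_add_eq_of_lt_left (by rw [hlead]; exact hlow), hlead]

end Generic

/-! ### The centre of a valuation on a subring -/

section Centre

variable {B K : Type*} [CommRing B] [Field K] [Algebra B K] (w : Valuation K ℤᵐ⁰)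

/-- The centre on `B` of a valuation of `K` which is `≤ 1` on `B`. -/
def centre (hle : ∀ b : B, w (algebraMap B K b) ≤ 1) : Ideal B where
  carrier := {b | w (algebraMap B K b) < 1}
  add_mem' := fun {a b} ha hb => by
    show w (algebraMap B K (a + b)) < 1
    rw [map_add]
    exact lt_of_le_of_lt (w.map_add _ _) (max_lt ha hb)
  zero_mem' := by
    show w (algebraMap B K 0) < 1
    rw [map_zero, map_zero]
    exact zero_lt_one
  smul_mem' := fun c x hx => by
    show w (algebraMap B K (c • x)) < 1
    rw [smul_eq_mul, map_mul, map_mul]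
    exact mul_lt_one_of_nonneg_of_lt_one_right (hle c) zero_le hx

theorem mem_centre_iff (hle : ∀ b : B, w (algebraMap B K b) ≤ 1) {b : B} :
    b ∈ centre w hle ↔ w (algebraMap B K b) < 1 := Iff.rfl

theorem centre_isPrime (hle : ∀ b : B, w (algebraMap B K b) ≤ 1) : (centre w hle).IsPrime := by
  refine ⟨?_, ?_⟩
  · rw [Ne, Ideal.eq_top_iff_one, mem_centre_iff, map_one, map_one]
    exact lt_irrefl _
  · intro a b hab
    rw [mem_centre_iff, map_mul, map_mul] at hab
    by_contra hcon
    push Not at hcon
    obtain ⟨ha, hb⟩ := hcon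
    rw [mem_centre_iff, not_lt] at ha hb
    have ha1 : w (algebraMap B K a) = 1 := le_antisymm (hle a) ha
    have hb1 : w (algebraMap B K b) = 1 := le_antisymm (hle b) hb
    rw [ha1, hb1, one_mul] at hab
    exact lt_irrefl _ hab

/-- If the centre is zero, the valuation is trivial. -/
theorem eq_one_of_centre_eq_bot [IsDomain B] [IsFractionRing B K]
    (hle : ∀ b : B, w (algebraMap B K b) ≤ 1) (hbot : centre w hle = ⊥) {h : K} (hh : h ≠ 0) :
    w h = 1 := by
  have hB : ∀ b : B, b ≠ 0 → w (algebraMap B K b) = 1 := by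
    intro b hb
    refine le_antisymm (hle b) (not_lt.mp fun hlt => hb ?_)
    have : b ∈ centre w hle := hlt
    rw [hbot] at this
    exact this
  obtain ⟨a, b, hb, rfl⟩ := IsFractionRing.div_surjective (A := B) h
  have hb0 : b ≠ 0 := nonZeroDivisors.ne_zero hb
  have ha0 : a ≠ 0 := by
    rintro rfl
    apply hh
    rw [map_zero, zero_div]
  rw [map_div₀, hB a ha0, hB b hb0, div_one]

end Centre

/-! ### The Dedekind–Weber setting -/

section Main

variable (k : Type*) [Field k] [CharZero k]
variable (K : Type*) [Field K] [Algebra (RatFunc k) K] [FiniteDimensional (RatFunc k) K]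
  [Algebra.IsSeparable (RatFunc k) K]
variable [Algebra k[X] K] [IsScalarTower k[X] (RatFunc k) K]
variable (B : Type*) [CommRing B] [Algebra k[X] B] [Algebra B K] [IsScalarTower k[X] B K]
  [IsIntegralClosure B k[X] K]
variable (Binf : Type*) [CommRing Binf] [Algebra (DW.Oinf k) Binf] [Algebra Binf K]
  [IsScalarTower (DW.Oinf k) Binf K] [IsIntegralClosure Binf (DW.Oinf k) K]
variable [Algebra k K] [IsScalarTower k (RatFunc k) K]
variable [Algebra k B] [IsScalarTower k B K] [Algebra k Binf] [IsScalarTower k Binf K]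

variable {E L : Type*} [Field E] [Field L] [Algebra E L] (ι : k →+* E) (φ : K →+* L)
  (v : Valuation L ℤᵐ⁰)

/-- `x` as an element of `K`. -/
local notation "xK" => algebraMap k[X] K (X : k[X])

theorem algebraMap_ratFunc_X : algebraMap (RatFunc k) K (RatFunc.X : RatFunc k) = xK := by
  rw [IsScalarTower.algebraMap_apply k[X] (RatFunc k) K, RatFunc.algebraMap_X]

/-- `φ` on polynomials in `x`. -/
theorem map_algebraMap_poly (hφ : ∀ a : k, φ (algebraMap k K a) = algebraMap E L (ι a))
    (P : k[X]) : φ (algebraMap k[X] K P) = aeval (φ xK) (P.map ι) := by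
  have hst : IsScalarTower k k[X] K := DW.isScalarTower_poly
  have h : (φ.comp (algebraMap k[X] K)) =
      ((aeval (φ xK) : E[X] →ₐ[E] L) : E[X] →+* L).comp (mapRingHom ι) := by
    refine Polynomial.ringHom_ext (fun a => ?_) ?_
    · simp only [RingHom.comp_apply, coe_mapRingHom, map_C, RingHom.coe_coe, aeval_C]
      rw [← Polynomial.algebraMap_eq, ← IsScalarTower.algebraMap_apply k k[X] K, hφ]
    · simp only [RingHom.comp_apply, coe_mapRingHom, map_X, RingHom.coe_coe, aeval_X]
  exact congrArg (fun f : k[X] →+* L => f P) h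

/-- `w := v ∘ φ` is `≤ 1` on the polynomials in `x`, if `v (φ x) ≤ 1`. -/
theorem comap_algebraMap_poly_le_one
    (hφ : ∀ a : k, φ (algebraMap k K a) = algebraMap E L (ι a))
    (hconst : ∀ c : E, c ≠ 0 → v (algebraMap E L c) = 1) (hx : v (φ xK) ≤ 1) (P : k[X]) :
    v (φ (algebraMap k[X] K P)) ≤ 1 := by
  rw [map_algebraMap_poly k K ι φ hφ]
  exact valuation_aeval_le_one v hconst hx _

/-- `w := v ∘ φ` is `≤ 1` on `B`, if `v (φ x) ≤ 1`. -/
theorem comap_algebraMap_B_le_one
    (hφ : ∀ a : k, φ (algebraMap k K a) = algebraMap E L (ι a))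
    (hconst : ∀ c : E, c ≠ 0 → v (algebraMap E L c) = 1) (hx : v (φ xK) ≤ 1) (b : B) :
    v (φ (algebraMap B K b)) ≤ 1 := by
  have hint : IsIntegral k[X] (algebraMap B K b) :=
    (IsIntegralClosure.isIntegral_iff (A := B)).mpr ⟨b, rfl⟩
  let ψ : k[X] →+* v.integer :=
    (φ.comp (algebraMap k[X] K)).codRestrict v.integer
      (fun P => comap_algebraMap_poly_le_one k K ι φ v hφ hconst hx P)
  have h2 : IsIntegral v.integer (φ (algebraMap B K b)) :=
    hint.map_of_comp_eq ψ φ (RingHom.ext fun P => rfl)
  exact (Valuation.integer.integers v).mem_of_integral h2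

/-- **The finite clause.** If `v (x_L - c₀) < 1` then `v (φ h * (x_L - c₀)) < 1` for every
`h ∈ holoSpace k K B Binf`. -/
theorem valuation_mul_sub_lt_one
    (hφ : ∀ a : k, φ (algebraMap k K a) = algebraMap E L (ι a))
    (hconst : ∀ c : E, c ≠ 0 → v (algebraMap E L c) = 1) {c₀ : E}
    (hc₀ : v (φ xK - algebraMap E L c₀) < 1) {h : K} (hh : h ∈ holoSpace k K B Binf) :
    v (φ h * (φ xK - algebraMap E L c₀)) < 1 := by
  classical
  -- instances
  have hinjB : Function.Injective (algebraMap B K) := IsIntegralClosure.algebraMap_injective B k[X] K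
  have : IsDomain B := hinjB.isDomain _
  have hinjBinf : Function.Injective (algebraMap Binf K) :=
    IsIntegralClosure.algebraMap_injective Binf (DW.Oinf k) K
  have : IsDomain Binf := hinjBinf.isDomain _
  have : IsDedekindDomain B := IsIntegralClosure.isDedekindDomain k[X] (RatFunc k) K B
  have : IsDedekindDomain Binf := IsIntegralClosure.isDedekindDomain (DW.Oinf k) (RatFunc k) K Binf
  have : IsFractionRing B K :=
    IsIntegralClosure.isFractionRing_of_finite_extension k[X] (RatFunc k) K B
  have : IsFractionRing Binf K :=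
    IsIntegralClosure.isFractionRing_of_finite_extension (DW.Oinf k) (RatFunc k) K Binf
  have htfK : Module.IsTorsionFree k[X] K := by
    have : FaithfulSMul k[X] K := by
      rw [faithfulSMul_iff_algebraMap_injective, IsScalarTower.algebraMap_eq k[X] (RatFunc k) K]
      exact (algebraMap (RatFunc k) K).injective.comp (IsFractionRing.injective k[X] (RatFunc k))
    infer_instance
  have : Module.IsTorsionFree k[X] B := IsIntegralClosure.isTorsionFree k[X] K
  have : Module.Finite k[X] B := IsIntegralClosure.finite k[X] (RatFunc k) K B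
  have : Algebra.IsIntegral k[X] B := IsIntegralClosure.isIntegral_algebra k[X] K
  -- the pulled back valuation
  have hx : v (φ xK) ≤ 1 := valuation_le_one_of_sub_lt_one v hconst hc₀
  set w : Valuation K ℤᵐ⁰ := v.comap φ with hw
  have hwv : ∀ y : K, w y = v (φ y) := fun y => rfl
  have hle : ∀ b : B, w (algebraMap B K b) ≤ 1 :=
    fun b => comap_algebraMap_B_le_one k K B ι φ v hφ hconst hx b
  by_cases hh0 : h = 0
  · subst hh0
    rw [map_zero, zero_mul, map_zero]
    exact zero_lt_one
  by_cases hbot : centre w hle = ⊥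
  · -- trivial centre
    have h1 : v (φ h) = 1 := eq_one_of_centre_eq_bot w hle hbot hh0
    rw [map_mul, h1, one_mul]
    exact hc₀
  · -- the centre is a height one prime
    let P : HeightOneSpectrum B := ⟨centre w hle, centre_isPrime w hle, hbot⟩
    obtain ⟨κ, hκ, hwP⟩ := ValCompare.exists_pow_eq P w hle (fun b hb => hb)
    -- the prime of `k[X]` below
    have hunder_ne : P.asIdeal.under k[X] ≠ ⊥ := Ideal.under_ne_bot k[X] P.ne_bot
    have hPprime : P.asIdeal.IsPrime := P.isPrime
    have hunder_prime : (P.asIdeal.under k[X]).IsPrime := Ideal.IsPrime.under k[X] P.asIdeal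
    set m : k[X] := Submodule.IsPrincipal.generator (P.asIdeal.under k[X]) with hm
    have hspan : P.asIdeal.under k[X] = Ideal.span {m} :=
      (Ideal.span_singleton_generator _).symm
    have hm_prime : Prime m := Submodule.IsPrincipal.prime_generator_of_isPrime _ hunder_ne
    have hm_sep : m.Separable := hm_prime.irreducible.separable
    -- valuations at `P`
    have hvm : P.valuation K (algebraMap k[X] K m) =
        exp (-(P.asIdeal.ramificationIdx k[X] : ℤ)) :=
      TameDifferent.valuation_algebraMap_eq_exp_neg_ramificationIdx k[X] (RatFunc k) K B P hspan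
    have hvh : P.valuation K h ≤ exp ((P.asIdeal.ramificationIdx k[X] : ℤ) - 1) :=
      ((DW.mem_holoSpace_iff_valuation h).mp hh).1 P
    have hPhm : P.valuation K (h * algebraMap k[X] K m) ≤ exp (-1 : ℤ) := by
      rw [map_mul, hvm]
      calc P.valuation K h * exp (-(P.asIdeal.ramificationIdx k[X] : ℤ))
          ≤ exp ((P.asIdeal.ramificationIdx k[X] : ℤ) - 1) *
              exp (-(P.asIdeal.ramificationIdx k[X] : ℤ)) := mul_le_mul' hvh le_rfl
        _ = exp (-1 : ℤ) := by rw [← exp_add]; congr 1; ring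
    have hwhm : w (h * algebraMap k[X] K m) < 1 := by
      rw [hwP]
      have h1 : P.valuation K (h * algebraMap k[X] K m) < 1 :=
        lt_of_le_of_lt hPhm (by rw [← exp_zero]; exact exp_lt_exp.mpr (by norm_num))
      exact pow_lt_one' h1 (by omega)
    -- over `E`
    set M : E[X] := m.map ι with hM
    have hφm : φ (algebraMap k[X] K m) = aeval (φ xK) M := map_algebraMap_poly k K ι φ hφ m
    have hmP : m ∈ P.asIdeal.under k[X] := by
      rw [hspan]; exact Ideal.mem_span_singleton_self m
    have hwm : v (aeval (φ xK) M) < 1 := by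
      rw [← hφm, ← hwv, IsScalarTower.algebraMap_apply k[X] B K]
      exact hmP
    have hroot : M.eval c₀ = 0 := eval_eq_zero_of_valuation_aeval_lt_one v hconst hc₀ hwm
    -- `M = (X - C c₀) * R`
    set R : E[X] := M /ₘ (X - C c₀) with hR
    have hMR : M = (X - C c₀) * R := by
      have := modByMonic_add_div M (X - C c₀)
      rw [modByMonic_X_sub_C_eq_C_eval, hroot, map_zero, zero_add] at this
      exact this.symm
    have hRc : R.eval c₀ ≠ 0 := by
      have hsep : (derivative m).eval₂ ι c₀ ≠ 0 :=
        hm_sep.eval₂_derivative_ne_zero ι (by rwa [← eval_map])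
      rw [← eval_map, ← derivative_map, ← hM, hMR, derivative_mul, eval_add, eval_mul, eval_mul,
        eval_sub, eval_X, eval_C, sub_self, zero_mul, add_zero, derivative_sub, derivative_X,
        derivative_C, sub_zero, eval_one, one_mul] at hsep
      exact hsep
    have hvR : v (aeval (φ xK) R) = 1 := valuation_aeval_eq_one_of_eval_ne_zero v hconst hc₀ hRc
    have hfac : aeval (φ xK) M = (φ xK - algebraMap E L c₀) * aeval (φ xK) R := by
      conv_lhs => rw [hMR]
      rw [map_mul, map_sub, aeval_X, aeval_C]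
    have hfin : v (φ h * (φ xK - algebraMap E L c₀)) = w (h * algebraMap k[X] K m) := by
      rw [hwv, map_mul φ, hφm, hfac, map_mul, map_mul, map_mul, hvR, mul_one]
    rw [hfin]
    exact hwhm

/-! ### The clause at infinity -/

/-- At a pole of `x_L`: the valuation of `φ (P(x))` is `v (x_L) ^ deg P`. -/
theorem valuation_map_algebraMap_poly_eq_pow
    (hφ : ∀ a : k, φ (algebraMap k K a) = algebraMap E L (ι a))
    (hconst : ∀ c : E, c ≠ 0 → v (algebraMap E L c) = 1) (hx : 1 < v (φ xK)) {P : k[X]}
    (hP : P ≠ 0) : v (φ (algebraMap k[X] K P)) = v (φ xK) ^ P.natDegree := by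
  rw [map_algebraMap_poly k K ι φ hφ,
    valuation_aeval_eq_pow v hconst hx ((Polynomial.map_ne_zero_iff ι.injective).mpr hP),
    natDegree_map_eq_of_injective ι.injective]

/-- `w := v ∘ φ` is `≤ 1` on `Oinf k`, if `x_L` is a pole. -/
theorem comap_algebraMap_ratFunc_le_one
    (hφ : ∀ a : k, φ (algebraMap k K a) = algebraMap E L (ι a))
    (hconst : ∀ c : E, c ≠ 0 → v (algebraMap E L c) = 1) (hx : 1 < v (φ xK)) {r : RatFunc k}
    (hr : r ∈ DW.Oinf k) : v (φ (algebraMap (RatFunc k) K r)) ≤ 1 := by
  by_cases hr0 : r = 0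
  · subst hr0
    rw [map_zero, map_zero, map_zero]
    exact zero_le
  have hx0 : v (φ xK) ≠ 0 := (lt_trans zero_lt_one hx).ne'
  have hnum : r.num ≠ 0 := RatFunc.num_ne_zero hr0
  have hden : r.denom ≠ 0 := RatFunc.denom_ne_zero r
  have hdeg : r.num.natDegree ≤ r.denom.natDegree := by
    have h1 : r.intDegree ≤ 0 := DW.mem_Oinf_iff_intDegree.mp hr
    rw [RatFunc.intDegree] at h1
    omega
  have hrep : algebraMap (RatFunc k) K r =
      algebraMap k[X] K r.num / algebraMap k[X] K r.denom := by
    conv_lhs => rw [← RatFunc.num_div_denom r]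
    rw [map_div₀, ← IsScalarTower.algebraMap_apply k[X] (RatFunc k) K,
      ← IsScalarTower.algebraMap_apply k[X] (RatFunc k) K]
  rw [hrep, map_div₀, map_div₀,
    valuation_map_algebraMap_poly_eq_pow k K ι φ v hφ hconst hx hnum,
    valuation_map_algebraMap_poly_eq_pow k K ι φ v hφ hconst hx hden]
  rw [div_le_one₀ (pow_pos (lt_trans zero_lt_one hx) _)]
  exact pow_le_pow_right₀ hx.le hdeg

/-- `w := v ∘ φ` is `≤ 1` on `Binf`, if `x_L` is a pole. -/
theorem comap_algebraMap_Binf_le_one
    (hφ : ∀ a : k, φ (algebraMap k K a) = algebraMap E L (ι a))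
    (hconst : ∀ c : E, c ≠ 0 → v (algebraMap E L c) = 1) (hx : 1 < v (φ xK)) (b : Binf) :
    v (φ (algebraMap Binf K b)) ≤ 1 := by
  have hint : IsIntegral (DW.Oinf k) (algebraMap Binf K b) :=
    (IsIntegralClosure.isIntegral_iff (A := Binf)).mpr ⟨b, rfl⟩
  let ψ : DW.Oinf k →+* v.integer :=
    (φ.comp (algebraMap (DW.Oinf k) K)).codRestrict v.integer
      (fun a => by
        show v (φ (algebraMap (DW.Oinf k) K a)) ≤ 1
        rw [IsScalarTower.algebraMap_apply (DW.Oinf k) (RatFunc k) K]
        exact comap_algebraMap_ratFunc_le_one k K ι φ v hφ hconst hx a.2)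
  have h2 : IsIntegral v.integer (φ (algebraMap Binf K b)) :=
    hint.map_of_comp_eq ψ φ (RingHom.ext fun P => rfl)
  exact (Valuation.integer.integers v).mem_of_integral h2

/-- **The clause at infinity.** If `x_L` is a pole of `v` then `v (φ h * x_L) < 1` for every
`h ∈ holoSpace k K B Binf`. -/
theorem valuation_mul_X_lt_one
    (hφ : ∀ a : k, φ (algebraMap k K a) = algebraMap E L (ι a))
    (hconst : ∀ c : E, c ≠ 0 → v (algebraMap E L c) = 1)
    (hx : 1 < v (φ xK)) {h : K} (hh : h ∈ holoSpace k K B Binf) :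
    v (φ h * φ xK) < 1 := by
  classical
  -- instances
  have hinjB : Function.Injective (algebraMap B K) := IsIntegralClosure.algebraMap_injective B k[X] K
  have : IsDomain B := hinjB.isDomain _
  have hinjBinf : Function.Injective (algebraMap Binf K) :=
    IsIntegralClosure.algebraMap_injective Binf (DW.Oinf k) K
  have : IsDomain Binf := hinjBinf.isDomain _
  have : IsDedekindDomain B := IsIntegralClosure.isDedekindDomain k[X] (RatFunc k) K B
  have : IsDedekindDomain Binf := IsIntegralClosure.isDedekindDomain (DW.Oinf k) (RatFunc k) K Binf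
  have : IsFractionRing B K :=
    IsIntegralClosure.isFractionRing_of_finite_extension k[X] (RatFunc k) K B
  have : IsFractionRing Binf K :=
    IsIntegralClosure.isFractionRing_of_finite_extension (DW.Oinf k) (RatFunc k) K Binf
  have htfK' : Module.IsTorsionFree (DW.Oinf k) K := by
    have : FaithfulSMul (DW.Oinf k) K := by
      rw [faithfulSMul_iff_algebraMap_injective,
        IsScalarTower.algebraMap_eq (DW.Oinf k) (RatFunc k) K]
      exact (algebraMap (RatFunc k) K).injective.comp
        (IsFractionRing.injective (DW.Oinf k) (RatFunc k))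
    infer_instance
  have : Module.IsTorsionFree (DW.Oinf k) Binf := IsIntegralClosure.isTorsionFree (DW.Oinf k) K
  have : Module.Finite (DW.Oinf k) Binf := IsIntegralClosure.finite (DW.Oinf k) (RatFunc k) K Binf
  have : Algebra.IsIntegral (DW.Oinf k) Binf := IsIntegralClosure.isIntegral_algebra (DW.Oinf k) K
  -- the pulled back valuation
  have hx0 : v (φ xK) ≠ 0 := (lt_trans zero_lt_one hx).ne'
  have hxK0 : xK ≠ 0 := by
    intro h0
    apply hx0
    rw [h0, map_zero, map_zero]
  set w : Valuation K ℤᵐ⁰ := v.comap φ with hw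
  have hwv : ∀ y : K, w y = v (φ y) := fun y => rfl
  have hle : ∀ b : Binf, w (algebraMap Binf K b) ≤ 1 :=
    fun b => comap_algebraMap_Binf_le_one k K Binf ι φ v hφ hconst hx b
  -- `1 / x` lies in the centre
  have hpi : algebraMap (DW.Oinf k) K (DW.piInf k) = (xK)⁻¹ := by
    rw [IsScalarTower.algebraMap_apply (DW.Oinf k) (RatFunc k) K, ← algebraMap_ratFunc_X k K,
      ← map_inv₀]
    congr 1
    exact DW.coe_piInf
  have hpi_mem : algebraMap (DW.Oinf k) Binf (DW.piInf k) ∈ centre w hle := by
    rw [mem_centre_iff, ← IsScalarTower.algebraMap_apply (DW.Oinf k) Binf K, hpi, hwv, map_inv₀,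
      map_inv₀]
    exact inv_lt_one_of_one_lt₀ hx
  have hpi_ne : algebraMap (DW.Oinf k) Binf (DW.piInf k) ≠ 0 := by
    intro h0
    have h1 : algebraMap Binf K (algebraMap (DW.Oinf k) Binf (DW.piInf k)) = 0 := by
      rw [h0, map_zero]
    rw [← IsScalarTower.algebraMap_apply (DW.Oinf k) Binf K, hpi] at h1
    exact inv_ne_zero hxK0 h1
  have hbot : centre w hle ≠ ⊥ := fun hb => hpi_ne (by
    have := hpi_mem
    rw [hb] at this
    exact this)
  let Q : HeightOneSpectrum Binf := ⟨centre w hle, centre_isPrime w hle, hbot⟩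
  obtain ⟨κ, hκ, hwQ⟩ := ValCompare.exists_pow_eq Q w hle (fun b hb => hb)
  -- the prime of `Oinf k` below
  have hunder : Q.asIdeal.under (DW.Oinf k) = Ideal.span {DW.piInf k} := by
    have hmax : (Q.asIdeal.under (DW.Oinf k)).IsMaximal := by
      have : Q.asIdeal.IsMaximal := Q.isMaximal
      exact Ideal.IsMaximal.under (DW.Oinf k) Q.asIdeal
    rw [IsLocalRing.eq_maximalIdeal hmax, DW.maximalIdeal_Oinf_eq]
  have hvpi := TameDifferent.valuation_algebraMap_eq_exp_neg_ramificationIdx (DW.Oinf k)
    (RatFunc k) K Binf Q hunder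
  have hvx : Q.valuation K xK = exp (Q.asIdeal.ramificationIdx (DW.Oinf k) : ℤ) := by
    rw [hpi, map_inv₀] at hvpi
    rw [← inv_inj, hvpi, ← exp_neg]
  have hvh : Q.valuation K h ≤ exp (-((Q.asIdeal.ramificationIdx (DW.Oinf k) : ℤ) + 1)) :=
    ((DW.mem_holoSpace_iff_valuation h).mp hh).2 Q
  have hQhx : Q.valuation K (h * xK) ≤ exp (-1 : ℤ) := by
    rw [map_mul, hvx]
    calc Q.valuation K h * exp (Q.asIdeal.ramificationIdx (DW.Oinf k) : ℤ)
        ≤ exp (-((Q.asIdeal.ramificationIdx (DW.Oinf k) : ℤ) + 1)) *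
            exp (Q.asIdeal.ramificationIdx (DW.Oinf k) : ℤ) := mul_le_mul' hvh le_rfl
      _ = exp (-1 : ℤ) := by rw [← exp_add]; congr 1; ring
  have hwhx : w (h * xK) < 1 := by
    rw [hwQ]
    have h1 : Q.valuation K (h * xK) < 1 :=
      lt_of_le_of_lt hQhx (by rw [← exp_zero]; exact exp_lt_exp.mpr (by norm_num))
    exact pow_lt_one' h1 (by omega)
  rw [← map_mul φ]
  exact hwhx

end Main

end Fermat.Agent.S40.W.ValRestrict
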