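/-
S40 (row 38), (W3) leaf W8b = input HB of W10 (helper13), ABSTRACT in the bridge `K → ℂ`.

For a field `K` of characteristic zero, an embedding `ι : K →+* ℂ` and ANY ring homomorphism
`φ : FF K N →+* WHField (Gamma0 N)` over `ι` with `φ (jF K N) = j` which preserves linear
independence (`K`-independent ⇒ `ℂ`-independent, i.e. `FF K N` and `ℂ` are linearly disjoint over
`K`; the bridge of record is helper10's `BridgeC.embC`):

* `map_mem_range_toKW` : `h ∈ Setting.holo K N → φ h ∈ range (HoloRangeFinal.toKW N)`, i.e. `φ h` is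
  `f / j'` for a cusp form `f ∈ S₂(Γ₀(N))` (the two clauses of `HoloRangeFinal.mem_range_toKW_iff` are
  `ValRestrict.valuation_mul_sub_lt_one` / `valuation_mul_X_lt_one` for the analytic valuations
  `Dict.vF (Gamma0 N) z` and `CuspValK.cuspValK N δ`);
* **`finrank_holo_le` : `finrank K (Setting.holo K N) ≤ finrank ℂ (CuspForm (Gamma0 N) 2)`** (= HB).

No base change of integral closures, `K` not necessarily algebraically closed.
-/
import Mathlib
import Fermat.Agent.S40.W.ValRestrict
import Fermat.Agent.S40.W.Setting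
import Fermat.Agent.M2.HoloRangeFinal
import Fermat.Agent.M2.ES.S21Cond

set_option autoImplicit false
set_option linter.unusedSectionVars false
set_option linter.style.haveILetI false

open ModularCurve Polynomial UpperHalfPlane CongruenceSubgroup ModularForm WithZero
open Fermat.Agent.N4.Setting Fermat.Agent.N4.Chart Fermat.Agent.N4F.C.ChartFibre
open Fermat.Agent.M2
open scoped Fermat.Agent.S40.W.FFSetting Fermat.Agent.S40.W.Setting MatrixGroups

noncomputable section

namespace Fermat.Agent.S40.W.HoloLeAbs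

/-! ### Constants are units for the point valuations -/

/-- Nonzero constants have point valuation one. -/
theorem vF_const (Γ : Subgroup SL(2, ℤ)) (z : ℍ) {c : ℂ} (hc : c ≠ 0) :
    Dict.vF Γ z (algebraMap ℂ (WHField Γ) c) = 1 := by
  have h1 : algebraMap ℂ (WHField Γ) c = algebraMap ℂ[X] (WHField Γ) (C c) := by
    rw [← Polynomial.algebraMap_eq, ← IsScalarTower.algebraMap_apply ℂ ℂ[X] (WHField Γ)]
  rw [h1]
  refine le_antisymm (Dict.vF_poly_le_one Γ z _) (not_lt.1 fun hlt => hc ?_)
  have := (Dict.vF_poly_lt_one_iff Γ z (C c)).1 hlt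
  simpa using this

/-! ### The instances of the Dedekind–Weber setting over the constants -/

section Inst

variable (k : Type) [Field k] (N : ℕ)

/-- `k → Oinf k → FF k N`. -/
theorem isScalarTower_Oinf : IsScalarTower k (DW.Oinf k) (FF k N) :=
  IsScalarTower.of_algebraMap_eq fun c => by
    rw [FFSetting.algebraMap_Oinf_apply, DW.coe_algebraMap_Oinf, ← RatFunc.algebraMap_eq_C,
      ← IsScalarTower.algebraMap_apply k (RatFunc k) (FF k N)]

end Inst

/-! ### The abstract bridge -/

section Main

variable (K : Type) [Field K] [CharZero K] (N : ℕ) [NeZero N]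
variable [FiniteDimensional (RatFunc K) (FF K N)] [Algebra.IsSeparable (RatFunc K) (FF K N)]
variable (ι : K →+* ℂ) (φ : FF K N →+* WHField (Gamma0 N))

/-- **Regular differentials over `K` are regular over `ℂ`**: for a bridge `φ` over `ι` with
`φ j = j`, the image of `h ∈ holo K N` is `f / j'` for a cusp form `f ∈ S₂(Γ₀(N))`. -/
theorem map_mem_range_toKW
    (hφc : ∀ c : K, φ (algebraMap K (FF K N) c) = algebraMap ℂ (WHField (Gamma0 N)) (ι c))
    (hφj : φ (jF K N) = HoloRangeFinal.xK N) {h : FF K N} (hh : h ∈ Setting.holo K N) :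
    φ h ∈ LinearMap.range (HoloRangeFinal.toKW N) := by
  haveI : IsScalarTower K (DW.Oinf K) (FF K N) := isScalarTower_Oinf K N
  letI : Algebra K ↥(Setting.Binf K N) := Subalgebra.algebra' (Setting.Binf K N)
  haveI : IsScalarTower K ↥(Setting.Binf K N) (FF K N) :=
    IsScalarTower.of_algebraMap_eq fun c => rfl
  haveI : IsScalarTower K ↥(SigmaFin K N) (FF K N) :=
    IsScalarTower.of_algebraMap_eq fun c => rfl
  have hx : algebraMap K[X] (FF K N) (X : K[X]) = jF K N := FFSetting.algebraMap_poly_X K N
  rw [HoloRangeFinal.mem_range_toKW_iff]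
  refine ⟨fun z => ?_, fun δ => ?_⟩
  · have h0 : Dict.vF (Gamma0 N) z
        (φ (algebraMap K[X] (FF K N) (X : K[X])) -
          algebraMap ℂ (WHField (Gamma0 N)) (jInv z)) < 1 := by
      rw [hx, hφj]
      exact HoloRangeFinal.vF_xK_sub_lt_one N z
    have h1 := ValRestrict.valuation_mul_sub_lt_one K (FF K N) ↥(SigmaFin K N)
      ↥(Setting.Binf K N) ι φ (Dict.vF (Gamma0 N) z) hφc
      (fun c hc => vF_const (Gamma0 N) z hc) h0 hh
    rwa [hx, hφj] at h1
  · have h0 : 1 < CuspValK.cuspValK N δ (φ (algebraMap K[X] (FF K N) (X : K[X]))) := by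
      rw [hx, hφj, HoloRangeFinal.xK, CuspValK.cuspValK_jWH, ← WithZero.exp_zero,
        WithZero.exp_lt_exp]
      exact_mod_cast NeZero.pos N
    have h1 := ValRestrict.valuation_mul_X_lt_one K (FF K N) ↥(SigmaFin K N)
      ↥(Setting.Binf K N) ι φ (CuspValK.cuspValK N δ) hφc
      (fun c hc => CuspValK.cuspValK_const N δ hc) h0 hh
    rwa [hx, hφj] at h1

/-- **HB**: `dim_K holo(K, N) ≤ dim_ℂ S₂(Γ₀(N))`, for any bridge `φ : FF K N →+* WHField (Gamma0 N)`
over `ι : K →+* ℂ` with `φ j = j` preserving linear independence. -/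
theorem finrank_holo_le
    (hφc : ∀ c : K, φ (algebraMap K (FF K N) c) = algebraMap ℂ (WHField (Gamma0 N)) (ι c))
    (hφj : φ (jF K N) = HoloRangeFinal.xK N)
    (hlin : ∀ (n : ℕ) (w : Fin n → FF K N), LinearIndependent K w →
      LinearIndependent ℂ fun i => φ (w i)) :
    Module.finrank K (Setting.holo K N) ≤ Module.finrank ℂ (CuspForm (Gamma0 N) 2) := by
  haveI : Module.Finite ℂ (CuspForm (Gamma0 N) 2) := ES.S21Cond.finite_cuspForm_two N
  rw [← HoloRangeFinal.finrank_range_toKW]
  obtain ⟨w, hw⟩ := exists_linearIndependent_of_le_finrank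
    (le_refl (Module.finrank K (Setting.holo K N)))
  have hli : LinearIndependent K fun i => ((w i : Setting.holo K N) : FF K N) :=
    hw.map' (Setting.holo K N).subtype (Submodule.ker_subtype _)
  have hli' := hlin _ _ hli
  have hli'' : LinearIndependent ℂ fun i : Fin (Module.finrank K (Setting.holo K N)) =>
      (⟨φ (w i : FF K N), map_mem_range_toKW K N ι φ hφc hφj (w i).2⟩ :
        LinearMap.range (HoloRangeFinal.toKW N)) :=
    LinearIndependent.of_comp (LinearMap.range (HoloRangeFinal.toKW N)).subtype hli'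
  have := hli''.fintype_card_le_finrank
  simpa using this

end Main

end Fermat.Agent.S40.W.HoloLeAbs
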