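/-
S40 / (W3), leaf W8b, instantiation layer (helper27): **the bridge `FF K N → WHField (Gamma0 N)`
preserves linear independence** (`K`-independent ⇒ `ℂ`-independent), and sends `j` to `xK N`.

For ANY ring homomorphism `φ : FF K N →+* WHField (Gamma0 N)` compatible with `q`-expansions
(`qexpField N (φ h) = coeffMap ι h`; e.g. `FormsHoloAlg.embQ K ι N`):

* `map_jF_xK` : `φ (jF K N) = HoloRangeFinal.xK N`;
* `linearIndependent_coe` : the inclusion `FF K N ⊆ K((q))` preserves `K`-linear independence (for
  the coefficientwise module structure of `K((q))`);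
* **`linearIndependent_map`** : `LinearIndependent K w → LinearIndependent ℂ (fun i => φ (w i))`
  (linear disjointness of `ℂ` and `K((q))` over `K`, `S24/LaurentDisjoint`);
* `finrank_le_of_map_mem` : if `φ` maps a `K`-subspace `V` of `FF K N` into a `ℂ`-subspace `W` of
  `WHField`, then `finrank K V ≤ finrank ℂ W` (`W` finite-dimensional).

These are the hypotheses `hφj`, `hlin` of helper13's abstract `HoloLeAbs` (`hφc` is
`FormsHoloAlg.map_algebraMap_const`), whence

* **`finrank_holo_le`** : `finrank K (holo K N) ≤ finrank ℂ (CuspForm (Gamma0 N) 2)` = `HB` of W10.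
-/
import Mathlib
import Fermat.Agent.S40.W.FormsHoloAlg
import Fermat.Agent.S24.LaurentDisjoint
import Fermat.Agent.S40.W.HoloLeAbs

set_option autoImplicit false
set_option linter.unusedSectionVars false
set_option linter.style.haveILetI false
set_option linter.style.longLine false

open Polynomial Module

namespace Fermat.Agent.S40.W.HoloLeQ

open CuspForm ModularCurve CongruenceSubgroup Fermat.Agent.M2 Fermat.Agent.N4.Setting
  Fermat.Agent.N4.ModPolySetting Fermat.Agent.S24.FieldIso Fermat.Agent.S24.LaurentDisjoint
  Fermat.Agent.S40.W.FormsHoloAlg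

noncomputable section

variable (K : Type) [Field K] [CharZero K] (ι : K →+* ℂ) (N : ℕ) [NeZero N]
  (φ : FF K N →+* WHField (Gamma0 N))
  (hφq : ∀ h : FF K N, qexpField N (φ h) = coeffMap ι ((h : FF K N) : LaurentSeries K))

include hφq in
/-- `φ j = j` (in the notation of `M2/HoloRangeFinal`). -/
theorem map_jF_xK : φ (jF K N) = HoloRangeFinal.xK N :=
  map_jF K ι N φ hφq

/-- The inclusion `FF K N ⊆ K((q))` is `K`-linear for the coefficientwise action. -/
theorem coe_smul_FF (c : K) (x : FF K N) :
    ((c • x : FF K N) : LaurentSeries K) = c • ((x : FF K N) : LaurentSeries K) := by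
  rw [Algebra.smul_def]
  have h1 : ((algebraMap K (FF K N) c * x : FF K N) : LaurentSeries K) =
      algebraMap K (LaurentSeries K) c * (x : LaurentSeries K) := rfl
  rw [h1, Fermat.Agent.S40.W.ThetaLog.algebraMap_eq_C, HahnSeries.C_mul_eq_smul]

theorem linearIndependent_coe {ι' : Type*} (w : ι' → FF K N) (hw : LinearIndependent K w) :
    LinearIndependent K (fun i => ((w i : FF K N) : LaurentSeries K)) := by
  classical
  rw [linearIndependent_iff'] at hw ⊢
  intro s g hg i hi
  apply hw s g _ i hi
  apply Subtype.val_injective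
  refine Eq.trans ?_ hg
  have : ∀ t : Finset ι', ((∑ i ∈ t, g i • w i : FF K N) : LaurentSeries K) =
      ∑ i ∈ t, g i • ((w i : FF K N) : LaurentSeries K) := by
    intro t
    induction t using Finset.induction_on with
    | empty => simp
    | insert a t ha ih =>
      rw [Finset.sum_insert ha, Finset.sum_insert ha, ← ih, ← coe_smul_FF]
      rfl
  exact this s

include hφq in
/-- **Linear independence goes up**: a `K`-linearly independent family of `FF K N` maps to a
`ℂ`-linearly independent family of the complex function field. -/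
theorem linearIndependent_map {ι' : Type*} (w : ι' → FF K N) (hw : LinearIndependent K w) :
    LinearIndependent ℂ (fun i => φ (w i)) := by
  letI : Algebra K ℂ := ι.toAlgebra
  have h1 := linearIndependent_mapL (L := ℂ) _ (linearIndependent_coe K N w hw)
  rw [linearIndependent_iff'] at h1 ⊢
  intro s g hg i hi
  apply h1 s g _ i hi
  have h2 := congrArg (qexpField N) hg
  rw [map_sum, map_zero] at h2
  rw [← h2]
  refine Finset.sum_congr rfl fun i _ => ?_
  rw [Algebra.smul_def, map_mul, AlgHom.commutes, hφq,
    Fermat.Agent.S40.W.ThetaLog.algebraMap_eq_C, HahnSeries.C_mul_eq_smul]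
  rfl

include hφq in
/-- If `φ` maps a `K`-subspace `V` into a finite-dimensional `ℂ`-subspace `W`, then
`dim_K V ≤ dim_ℂ W`. -/
theorem finrank_le_of_map_mem (V : Submodule K (FF K N)) (W : Submodule ℂ (WHField (Gamma0 N)))
    [FiniteDimensional ℂ W] (hVW : ∀ h ∈ V, φ h ∈ W) : finrank K V ≤ finrank ℂ W := by
  refine finrank_le_of_rank_le (rank_le fun s hs => ?_)
  have hw' : LinearIndependent K (fun i : s => ((i : V) : FF K N)) :=
    hs.map' V.subtype (Submodule.ker_subtype V)
  have h1 := linearIndependent_map K ι N φ hφq _ hw'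
  let w'' : s → W := fun i => ⟨φ ((i : V) : FF K N), hVW _ (i : V).2⟩
  have h2 : LinearIndependent ℂ w'' := by
    apply LinearIndependent.of_comp W.subtype
    exact h1
  have := h2.fintype_card_le_finrank
  rwa [Fintype.card_coe] at this

open scoped Fermat.Agent.S40.W.FFSetting Fermat.Agent.S40.W.Setting

variable [FiniteDimensional (RatFunc K) (FF K N)] [Algebra.IsSeparable (RatFunc K) (FF K N)]

include ι in
/-- **W8b (←) = `HB` of `S40/W/Main` (W10)**: for every field `K` of characteristic zero embedded
in `ℂ`, `dim_K holo K N ≤ dim_ℂ S₂(Γ₀(N))` (helper13's `HoloLeAbs.finrank_holo_le` at the bridge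
`FormsHoloAlg.embQ K ι N`). -/
theorem finrank_holo_le :
    finrank K (Fermat.Agent.S40.W.Setting.holo K N) ≤ finrank ℂ (CuspForm (Gamma0 N) 2) :=
  Fermat.Agent.S40.W.HoloLeAbs.finrank_holo_le K N ι (embQ K ι N)
    (map_algebraMap_const K ι N _ (qexpField_embQ K ι N))
    (map_jF_xK K ι N _ (qexpField_embQ K ι N))
    (fun _ w hw => linearIndependent_map K ι N _ (qexpField_embQ K ι N) w hw)

end

end Fermat.Agent.S40.W.HoloLeQ
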