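/-
S40/S44 (row 38), (W3)/(M1) seam **SS-DICT** (helper26): the dictionary between the closed points of
the special fibre of the finite chart of level `N ℓ` lying on the Gauss component and the places of
`FF κ N` in the finite chart; supersingular places `↔` crossing points.

Level `(K, O)`, binder block of `F4Level`; `s : Place κ (FF κ N)` with `hj : jF κ N ∈ s`:
* `toPlaceFin s hj : SigmaFin κ N →+* s.toValuationSubring`;
  `centreFin s hj : Ideal (Rfin K (N ℓ) O)` the centre of `s` on the finite chart of level `N ℓ`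
  (along the Gauss reduction `redFinS`); `mem_centreFin_iff : r ∈ centreFin s hj ↔ redFinL r ∈ 𝔪_s`;
* `centreFin_isMaximal`, `unif_mem_centreFin`, `through_gauss_centreFin`;
* `isSSFin_iff_through : IsSSFin s ↔ Through S₂.V (centreFin s hj)` — **`s` is supersingular iff its
  centre is a crossing point**;
* `exists_place_centreFin_eq` : every maximal ideal `𝔫` through the Gauss component is the centre of
  a place of the finite chart; `eq_of_centreFin_eq` : of exactly one;
* `exists_ss_place_of_crossing` : a crossing point is the centre of a (unique) supersingular place;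
* `ord_redG_eq_zero_of_isUnitAt` : a unit of the local ring at the centre of `s` reduces to a unit at
  `s`; `redFinL_mem_place`, `mem_centreFin_iff_ord_pos`;
* `forall_ss_of_forall_crossing` : a property holding at every place centred at a crossing point
  holds at every supersingular place.
-/
import Mathlib
import Fermat.Agent.S40.W.F4Place
import Fermat.Agent.P3G.SigmaFrob

set_option autoImplicit false
set_option linter.unusedSectionVars false
set_option linter.style.haveILetI false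

open AlgebraicCurve IsDedekindDomain IsDedekindDomain.HeightOneSpectrum
open Fermat.Agent.S24 Fermat.Agent.S40.W.F4Place

noncomputable section

namespace Fermat.Agent.S40.W.F4Node

section PlaceBasics

variable {k F : Type*} [Field k] [Field F] [Algebra k F]

/-- An element of the valuation ring of a place which is not in its maximal ideal has order `0`. -/
theorem ord_eq_zero_of_not_mem_nonunits (s : Place k F) {x : F} (hx : x ∈ s.toValuationSubring)
    (hnu : x ∉ s.toValuationSubring.nonunits) : s.ord x = 0 := by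
  have hu : IsUnit (⟨x, hx⟩ : s.toValuationSubring) := by
    by_contra h
    apply hnu
    rw [ValuationSubring.mem_nonunits_iff_exists_mem_maximalIdeal]
    exact ⟨hx, (IsLocalRing.mem_maximalIdeal _).2 h⟩
  obtain ⟨u, hu⟩ := hu
  have h := s.ord_coe_unit u
  rwa [hu] at h

end PlaceBasics

section Level

open ModularCurve Fermat.Agent.S28.Gauss Fermat.Agent.N4.Setting Fermat.Agent.N4.FibreEmbedding
open Fermat.Agent.N4.Chart
open Fermat.Agent.N4F.E.DegreeLevelRaise Fermat.Agent.N4F.E.GaussDVR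
open Fermat.Agent.N4F.E IsLocalRing Fermat.Agent.P3G Fermat.Agent.P4
open Fermat.Agent.P3G.RbarFin Fermat.Agent.P3G.RbarInf
open Fermat.Agent.P4.TwistRoots Fermat.Agent.N4F.C.ChartFibre Fermat.Agent.S40.W.F4Level

variable (K : Type) [Field K] [CharZero K] (N : ℕ) [NeZero N] (ℓ : ℕ) [Fact ℓ.Prime]
  (O : Subring K) [IsDiscreteValuationRing ↥O] [IsFractionRing ↥O K]
  [CharP (IsLocalRing.ResidueField ↥O) ℓ] [PerfectRing (IsLocalRing.ResidueField ↥O) ℓ]

set_option quotPrecheck false in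
local notation "κ" => IsLocalRing.ResidueField ↥O

set_option synthInstance.maxHeartbeats 400000

variable (hN : IsUnit ((N : ℕ) : ↥O)) (ι : K →+* ℂ) (hℓN : ¬ ℓ ∣ N)
  (hprime : (fibreIdeal K N O (Rfin K N O)).IsPrime)
  (hsmooth : IsDedekindDomain (↥(Rfin K N O) ⧸ fibreIdeal K N O (Rfin K N O)))
  (hA2 : ∀ x : ↥(gaussSubalgebra K N O),
    theta K N O x ∈ modularFunctionFieldFullC (IsLocalRing.ResidueField ↥O) N)
  (S₂ : FibreTwo.SecondVal K N ℓ O)
  {ϖ : ↥O} (hϖ : Irreducible ϖ)

/-- The inclusion of the finite chart of the special fibre into the valuation ring of a place of the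
finite chart. -/
def toPlaceFin (s : Place κ (FF κ N)) (hj : jF κ N ∈ s.toValuationSubring) :
    ↥(SigmaFin κ N) →+* ↥s.toValuationSubring :=
  (algebraMap ↥(SigmaFin κ N) (FF κ N)).codRestrict s.toValuationSubring.toSubring
    (fun x => coe_chartAlg_mem_place s hj x)

theorem coe_toPlaceFin (s : Place κ (FF κ N)) (hj : jF κ N ∈ s.toValuationSubring)
    (x : ↥(SigmaFin κ N)) : ((toPlaceFin K N O s hj x : ↥s.toValuationSubring) : FF κ N) = x := rfl

/-- **The centre of a place of the finite chart of the special fibre on the finite chart of level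
`N ℓ`** (along the Gauss reduction). -/
def centreFin (s : Place κ (FF κ N)) (hj : jF κ N ∈ s.toValuationSubring) :
    Ideal ↥(Rfin K (N * ℓ) O) :=
  (IsLocalRing.maximalIdeal ↥s.toValuationSubring).comap
    ((toPlaceFin K N O s hj).comp (redFinS K N ℓ O ι hℓN hA2 S₂))

theorem mem_centreFin_iff (s : Place κ (FF κ N)) (hj : jF κ N ∈ s.toValuationSubring)
    (r : ↥(Rfin K (N * ℓ) O)) :
    r ∈ centreFin K N ℓ O ι hℓN hA2 S₂ s hj ↔
      redFinL K N ℓ O ι hℓN hA2 S₂ r ∈ s.toValuationSubring.nonunits := by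
  rw [ValuationSubring.mem_nonunits_iff_exists_mem_maximalIdeal]
  exact ⟨fun h => ⟨_, h⟩, fun ⟨_, h⟩ => h⟩

instance centreFin_isPrime (s : Place κ (FF κ N)) (hj : jF κ N ∈ s.toValuationSubring) :
    (centreFin K N ℓ O ι hℓN hA2 S₂ s hj).IsPrime :=
  Ideal.comap_isPrime _ _

theorem redFinL_mem_place (s : Place κ (FF κ N)) (hj : jF κ N ∈ s.toValuationSubring)
    (r : ↥(Rfin K (N * ℓ) O)) : redFinL K N ℓ O ι hℓN hA2 S₂ r ∈ s.toValuationSubring :=
  coe_chartAlg_mem_place s hj (redFinS K N ℓ O ι hℓN hA2 S₂ r)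

theorem mem_centreFin_iff_ord_pos (s : Place κ (FF κ N)) (hj : jF κ N ∈ s.toValuationSubring)
    (r : ↥(Rfin K (N * ℓ) O)) :
    r ∈ centreFin K N ℓ O ι hℓN hA2 S₂ s hj ↔
      redFinL K N ℓ O ι hℓN hA2 S₂ r = 0 ∨ 0 < s.ord (redFinL K N ℓ O ι hℓN hA2 S₂ r) := by
  rw [mem_centreFin_iff]
  by_cases h0 : redFinL K N ℓ O ι hℓN hA2 S₂ r = 0
  · simp only [h0, true_or, iff_true]
    exact Fermat.Agent.N4F.C.LocalMult.zero_mem_nonunits s
  · rw [Fermat.Agent.N4F.C.LocalMult.mem_nonunits_iff_ord_pos s h0]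
    simp [h0]

/-- The centre of a place lies on the Gauss component. -/
theorem through_gauss_centreFin (s : Place κ (FF κ N)) (hj : jF κ N ∈ s.toValuationSubring) :
    Through (gaussVS K (N * ℓ) O) (centreFin K N ℓ O ι hℓN hA2 S₂ s hj) := by
  intro r hr
  rw [mem_centreFin_iff, ← coe_redFinS, (redFinS_eq_zero_iff K N ℓ O ι hℓN hA2 S₂ r).2 hr]
  exact Fermat.Agent.N4F.C.LocalMult.zero_mem_nonunits s

include hN hprime hsmooth hϖ in
theorem unif_mem_centreFin (s : Place κ (FF κ N)) (hj : jF κ N ∈ s.toValuationSubring) :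
    algebraMap ↥O ↥(Rfin K (N * ℓ) O) ϖ ∈ centreFin K N ℓ O ι hℓN hA2 S₂ s hj :=
  through_gauss_centreFin K N ℓ O ι hℓN hA2 S₂ s hj _
    (BranchNormalLevel.setup_fin K N ℓ O hN ι hℓN hprime hsmooth hA2 S₂ hϖ).pi₁

include hN hprime hsmooth in
/-- The centre of a place is a closed point. -/
theorem centreFin_isMaximal (s : Place κ (FF κ N)) (hj : jF κ N ∈ s.toValuationSubring) :
    (centreFin K N ℓ O ι hℓN hA2 S₂ s hj).IsMaximal := by
  haveI := isDedekindDomain_SigmaFin K N O hN hprime hsmooth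
  haveI := isFractionRing_SigmaFin K N O hN
  have hs : ∀ x : ↥(SigmaFin κ N), algebraMap ↥(SigmaFin κ N) (FF κ N) x ∈ s.toValuationSubring :=
    fun x => coe_chartAlg_mem_place s hj x
  haveI : (centerSpec s hs).asIdeal.IsMaximal := (centerSpec s hs).isMaximal
  have h1 : centreFin K N ℓ O ι hℓN hA2 S₂ s hj =
      (centerSpec s hs).asIdeal.comap (redFinS K N ℓ O ι hℓN hA2 S₂) := rfl
  rw [h1]
  exact Ideal.comap_isMaximal_of_surjective _
    (redFinS_surjective K N ℓ O hN ι hℓN hprime hsmooth hA2 S₂)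

/-- **A place of the finite chart is supersingular iff its centre is a crossing point.** -/
theorem isSSFin_iff_through (s : Place κ (FF κ N)) (hj : jF κ N ∈ s.toValuationSubring) :
    IsSSFin K N ℓ O ι hℓN hA2 S₂ s ↔ Through S₂.V (centreFin K N ℓ O ι hℓN hA2 S₂ s hj) := by
  constructor
  · intro h r hr
    exact (mem_centreFin_iff K N ℓ O ι hℓN hA2 S₂ s hj r).2 (h r hr)
  · intro h r hr
    exact (mem_centreFin_iff K N ℓ O ι hℓN hA2 S₂ s hj r).1 (h r hr)

include hN hprime hsmooth in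
/-- **Every closed point of the chart of level `N ℓ` on the Gauss component is the centre of a
place of the finite chart of the special fibre.** -/
theorem exists_place_centreFin_eq (𝔫 : Ideal ↥(Rfin K (N * ℓ) O)) [h𝔫 : 𝔫.IsMaximal]
    (ht₁ : Through (gaussVS K (N * ℓ) O) 𝔫) :
    ∃ (s : Place κ (FF κ N)) (hj : jF κ N ∈ s.toValuationSubring),
      centreFin K N ℓ O ι hℓN hA2 S₂ s hj = 𝔫 := by
  haveI := isDedekindDomain_SigmaFin K N O hN hprime hsmooth
  haveI := isFractionRing_SigmaFin K N O hN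
  set φ := redFinS K N ℓ O ι hℓN hA2 S₂ with hφ
  have hsurj : Function.Surjective φ := redFinS_surjective K N ℓ O hN ι hℓN hprime hsmooth hA2 S₂
  have hker : RingHom.ker φ ≤ 𝔫 := fun r hr =>
    ht₁ r ((redFinS_eq_zero_iff K N ℓ O ι hℓN hA2 S₂ r).1 hr)
  have hcm : (𝔫.map φ).comap φ = 𝔫 := by
    rw [Ideal.comap_map_of_surjective φ hsurj, sup_eq_left]
    exact hker
  have hmax : (𝔫.map φ).IsMaximal := by
    refine Or.resolve_left (Ideal.map_eq_top_or_isMaximal_of_surjective φ hsurj h𝔫) ?_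
    intro htop
    apply h𝔫.ne_top
    rw [← hcm, htop, Ideal.comap_top]
  have hbot : 𝔫.map φ ≠ ⊥ :=
    Ring.ne_bot_of_isMaximal_of_not_isField hmax (SigmaFrob.not_isField_SigmaFin κ N)
  set w : HeightOneSpectrum ↥(SigmaFin κ N) := ⟨𝔫.map φ, hmax.isPrime, hbot⟩ with hw
  have hj : jF κ N ∈ (Place.ofHeightOneSpectrum (K := κ) (F := FF κ N) w).toValuationSubring :=
    algebraMap_mem_ofHeightOneSpectrum w ⟨jF κ N, subset_chartAlg _ (Set.mem_singleton _)⟩
  refine ⟨Place.ofHeightOneSpectrum (K := κ) (F := FF κ N) w, hj, ?_⟩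
  ext r
  rw [mem_centreFin_iff, ← coe_redFinS]
  have h1 := algebraMap_mem_nonunits_ofHeightOneSpectrum_iff (k := κ) (F := FF κ N) w (φ r)
  rw [← hcm, Ideal.mem_comap]
  exact h1

include hN hprime hsmooth in
/-- **A place of the finite chart is determined by its centre.** -/
theorem eq_of_centreFin_eq (s s' : Place κ (FF κ N)) (hj : jF κ N ∈ s.toValuationSubring)
    (hj' : jF κ N ∈ s'.toValuationSubring)
    (h : centreFin K N ℓ O ι hℓN hA2 S₂ s hj = centreFin K N ℓ O ι hℓN hA2 S₂ s' hj') : s = s' := by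
  haveI := isDedekindDomain_SigmaFin K N O hN hprime hsmooth
  haveI := isFractionRing_SigmaFin K N O hN
  have hs : ∀ x : ↥(SigmaFin κ N), algebraMap ↥(SigmaFin κ N) (FF κ N) x ∈ s.toValuationSubring :=
    fun x => coe_chartAlg_mem_place s hj x
  have hs' : ∀ x : ↥(SigmaFin κ N),
      algebraMap ↥(SigmaFin κ N) (FF κ N) x ∈ s'.toValuationSubring :=
    fun x => coe_chartAlg_mem_place s' hj' x
  have hsurj := redFinS_surjective K N ℓ O hN ι hℓN hprime hsmooth hA2 S₂
  have hc : centerSpec s hs = centerSpec s' hs' := by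
    apply HeightOneSpectrum.ext
    ext x
    obtain ⟨r, rfl⟩ := hsurj x
    have h1 : r ∈ centreFin K N ℓ O ι hℓN hA2 S₂ s hj ↔
        redFinS K N ℓ O ι hℓN hA2 S₂ r ∈ (centerSpec s hs).asIdeal := Iff.rfl
    have h2 : r ∈ centreFin K N ℓ O ι hℓN hA2 S₂ s' hj' ↔
        redFinS K N ℓ O ι hℓN hA2 S₂ r ∈ (centerSpec s' hs').asIdeal := Iff.rfl
    rw [← h1, ← h2, h]
  rw [← ofHeightOneSpectrum_centerSpec s hs, ← ofHeightOneSpectrum_centerSpec s' hs', hc]

include hN hprime hsmooth in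
/-- **A crossing point is the centre of a supersingular place.** -/
theorem exists_ss_place_of_crossing (𝔫 : Ideal ↥(Rfin K (N * ℓ) O)) [h𝔫 : 𝔫.IsMaximal]
    (ht₁ : Through (gaussVS K (N * ℓ) O) 𝔫) (ht₂ : Through S₂.V 𝔫) :
    ∃ (s : Place κ (FF κ N)) (hj : jF κ N ∈ s.toValuationSubring),
      centreFin K N ℓ O ι hℓN hA2 S₂ s hj = 𝔫 ∧ IsSSFin K N ℓ O ι hℓN hA2 S₂ s := by
  obtain ⟨s, hj, hc⟩ := exists_place_centreFin_eq K N ℓ O hN ι hℓN hprime hsmooth hA2 S₂ 𝔫 ht₁
  refine ⟨s, hj, hc, (isSSFin_iff_through K N ℓ O ι hℓN hA2 S₂ s hj).2 ?_⟩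
  rw [hc]
  exact ht₂

include hN hprime hsmooth hϖ in
/-- **A unit of the local ring at the centre of `s` reduces to a unit at `s`.** -/
theorem ord_redG_eq_zero_of_isUnitAt (s : Place κ (FF κ N)) (hj : jF κ N ∈ s.toValuationSubring)
    {u : FF K (N * ℓ)} (hu : IsUnitAt (centreFin K N ℓ O ι hℓN hA2 S₂ s hj) u)
    (hu₁ : (gaussVS K (N * ℓ) O).valuation u = 1) :
    s.ord (redG K N ℓ O ι hℓN hA2 S₂ ⟨u, mem_gauss_of_valuation_eq_one K N ℓ O hu₁⟩) = 0 := by
  obtain ⟨a, r, ha, hr, har⟩ := hu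
  have ha' : redFinL K N ℓ O ι hℓN hA2 S₂ a ∉ s.toValuationSubring.nonunits := fun h =>
    ha ((mem_centreFin_iff K N ℓ O ι hℓN hA2 S₂ s hj a).2 h)
  have hr' : redFinL K N ℓ O ι hℓN hA2 S₂ r ∉ s.toValuationSubring.nonunits := fun h =>
    hr ((mem_centreFin_iff K N ℓ O ι hℓN hA2 S₂ s hj r).2 h)
  have hoa := ord_eq_zero_of_not_mem_nonunits s
    (redFinL_mem_place K N ℓ O ι hℓN hA2 S₂ s hj a) ha'
  have hor := ord_eq_zero_of_not_mem_nonunits s
    (redFinL_mem_place K N ℓ O ι hℓN hA2 S₂ s hj r) hr'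
  have ha0 : redFinL K N ℓ O ι hℓN hA2 S₂ a ≠ 0 := fun h0 =>
    ha' (h0 ▸ Fermat.Agent.N4F.C.LocalMult.zero_mem_nonunits s)
  have hu0 := redG_ne_zero K N ℓ O ι hℓN hA2 S₂ hu₁
  have hmul : redG K N ℓ O ι hℓN hA2 S₂ ⟨u, mem_gauss_of_valuation_eq_one K N ℓ O hu₁⟩ *
      redFinL K N ℓ O ι hℓN hA2 S₂ a = redFinL K N ℓ O ι hℓN hA2 S₂ r := by
    unfold redFinL
    rw [RingHom.comp_apply, RingHom.comp_apply, ← map_mul]
    exact congrArg _ (Subtype.ext har)
  have := congrArg s.ord hmul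
  rw [s.ord_mul hu0 ha0, hoa, hor, add_zero] at this
  exact this

include hN hprime hsmooth hϖ in
/-- **From crossing points to supersingular places**: a property of the places of the finite chart
which holds for every place centred at a crossing point holds at every supersingular place
(the shape of the hypothesis `hss` of `F4Place.isLocPthPowerOn_fin/_inf/_acInfF`). -/
theorem forall_ss_of_forall_crossing {P : Place κ (FF κ N) → Prop}
    (H : ∀ 𝔫 : Ideal ↥(Rfin K (N * ℓ) O), 𝔫.IsMaximal →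
      algebraMap ↥O ↥(Rfin K (N * ℓ) O) ϖ ∈ 𝔫 → Through (gaussVS K (N * ℓ) O) 𝔫 →
      Through S₂.V 𝔫 → ∀ (s : Place κ (FF κ N)) (hj : jF κ N ∈ s.toValuationSubring),
        centreFin K N ℓ O ι hℓN hA2 S₂ s hj = 𝔫 → P s)
    (s : Place κ (FF κ N)) (hj : jF κ N ∈ s.toValuationSubring)
    (hss : IsSSFin K N ℓ O ι hℓN hA2 S₂ s) : P s :=
  H _ (centreFin_isMaximal K N ℓ O hN ι hℓN hprime hsmooth hA2 S₂ s hj)
    (unif_mem_centreFin K N ℓ O hN ι hℓN hprime hsmooth hA2 S₂ hϖ s hj)
    (through_gauss_centreFin K N ℓ O ι hℓN hA2 S₂ s hj)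
    ((isSSFin_iff_through K N ℓ O ι hℓN hA2 S₂ s hj).1 hss) s hj rfl

end Level

end Fermat.Agent.S40.W.F4Node
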