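/-
S40 (row 38), (W3) leaf W8, part 0 (helper10): **the embedding of the modular function field over a
characteristic-zero level field `K ↪ ℂ` into the analytic function field of `M2`.**

For `ι : K →+* ℂ` the coefficientwise map `K((q)) → ℂ((q))` sends `FF K N` into
`FC N = ℂ(j(q^d) : d ∣ N)`, which `S24/FieldIsoFinal` identifies (by `q`-expansion) with
`WHField (Gamma0 N)`, the field of `M2`.  We record

* `embC K ι N : FF K N →+* WHField (Gamma0 N)` with `qexpField_embC`, `embC_jF`,
  `embC_algebraMap`, `embC_algebraMap_poly`, `embC_algebraMap_ratFunc` (compatibility with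
  `K[X] → ℂ[X]`, `ratMap : K(X) → ℂ(X)`, `X ↦ j`), `ratMap_mem_Oinf`, `embC_algebraMap_Oinf`;
* `linearIndependent_embC` : `K`-linearly independent families stay `ℂ`-linearly independent
  (linear disjointness, from `S24/LaurentDisjoint`);
* `exists_embC_eq_of_coeff` : coefficient descent (`q`-expansion principle for functions): an element
  of `WHField (Gamma0 N)` whose `q`-expansion has coefficients in `ι K` comes from `FF K N`.
-/
import Mathlib
import Fermat.Agent.S24.FieldIsoFinal
import Fermat.Agent.S24.LaurentDisjoint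
import Fermat.Agent.N4.BaseDescent
import Fermat.Agent.N4.FunctionFieldGen
import Fermat.Agent.N4F.Tors.CoeffDescent
import Fermat.Agent.M2.HoloRangeFinal
import Fermat.Agent.S40.W.FFSetting
import Fermat.Agent.S40.W.ThetaLog

set_option autoImplicit false
set_option linter.unusedSectionVars false
set_option linter.style.haveILetI false

open ModularCurve Polynomial CongruenceSubgroup
open Fermat.Agent.N4.Setting Fermat.Agent.N4.BaseDescent Fermat.Agent.S24.FieldIso Fermat.Agent.M2
open scoped Fermat.Agent.S40.W.FFSetting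

noncomputable section

namespace Fermat.Agent.S40.W.BridgeC

variable (K : Type) [Field K] [CharZero K] (ι : K →+* ℂ) (N : ℕ) [NeZero N]

/-- `ℂ(j(q^d) : d ∣ N)` in the two vocabularies. -/
theorem full_eq_FC : modularFunctionFieldFullC ℂ N = FC N := by
  rw [FC_eq_modularFunctionFieldC]
  exact Fermat.Agent.N4.FunctionFieldGen.modularFunctionFieldFullC_eq N ℂ

theorem coeffMap_mem_FC (h : FF K N) : coeffMap ι (h : LaurentSeries K) ∈ FC N := by
  rw [← full_eq_FC]
  exact coeffMap_mem_full ι N h.2

/-- Coefficientwise base change `FF K N → FC N`. -/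
def embQ : FF K N →+* ↥(FC N) where
  toFun h := ⟨coeffMap ι (h : LaurentSeries K), coeffMap_mem_FC K ι N h⟩
  map_one' := Subtype.ext (map_one _)
  map_mul' _ _ := Subtype.ext (map_mul _ _ _)
  map_zero' := Subtype.ext (map_zero _)
  map_add' _ _ := Subtype.ext (map_add _ _ _)

@[simp] theorem coe_embQ (h : FF K N) :
    ((embQ K ι N h : FC N) : LaurentSeries ℂ) = coeffMap ι (h : LaurentSeries K) := rfl

/-- **The embedding `FF K N → WHField (Gamma0 N)`** (coefficientwise `ι`, then the inverse of the
`q`-expansion isomorphism). -/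
def embC : FF K N →+* WHField (Gamma0 N) :=
  ((fieldEquiv N).symm : ↥(FC N) →+* WHField (Gamma0 N)).comp (embQ K ι N)

theorem fieldEquiv_embC (h : FF K N) : fieldEquiv N (embC K ι N h) = embQ K ι N h :=
  (fieldEquiv N).apply_symm_apply _

/-- The `q`-expansion of `embC h` is the coefficientwise image of `h`. -/
theorem qexpField_embC (h : FF K N) :
    qexpField N (embC K ι N h) = coeffMap ι (h : LaurentSeries K) := by
  rw [← coe_fieldEquiv, fieldEquiv_embC, coe_embQ]

theorem embC_injective : Function.Injective (embC K ι N) := (embC K ι N).injective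

theorem embC_eq_iff (h : FF K N) (H : WHField (Gamma0 N)) :
    embC K ι N h = H ↔ coeffMap ι (h : LaurentSeries K) = qexpField N H := by
  rw [← qexpField_embC]
  exact ⟨fun e => by rw [e], fun e => (qexpField N).injective e⟩

theorem embC_jF : embC K ι N (jF K N) = HoloRangeFinal.xK N := by
  rw [embC_eq_iff, coe_jF, coeffMap_jqModC]
  exact (qexpField_jM N).symm

theorem embC_algebraMap (c : K) :
    embC K ι N (algebraMap K (FF K N) c) = algebraMap ℂ (WHField (Gamma0 N)) (ι c) := by
  rw [embC_eq_iff, AlgHom.commutes]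
  show coeffMap ι (algebraMap K (LaurentSeries K) c) = algebraMap ℂ (LaurentSeries ℂ) (ι c)
  rw [algebraMap_laurentSeries_eq_single, algebraMap_laurentSeries_eq_single, coeffMap_single]

theorem embC_algebraMap_poly (P : K[X]) :
    embC K ι N (algebraMap K[X] (FF K N) P) =
      algebraMap ℂ[X] (WHField (Gamma0 N)) (P.map ι) := by
  rw [FFSetting.algebraMap_poly_apply, algebraMap_poly_eq_aeval_jM, aeval_def, aeval_def,
    hom_eval₂, eval₂_map, embC_jF]
  congr 1
  ext c
  exact embC_algebraMap K ι N c

/-! ### `K(X) → ℂ(X)` -/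

theorem polyMap_injective : Function.Injective
    ((algebraMap ℂ[X] (RatFunc ℂ)).comp (Polynomial.mapRingHom ι)) :=
  (IsFractionRing.injective ℂ[X] (RatFunc ℂ)).comp (Polynomial.map_injective ι ι.injective)

/-- `K(X) → ℂ(X)`, coefficientwise `ι`. -/
def ratMap : RatFunc K →+* RatFunc ℂ :=
  IsFractionRing.lift (A := K[X]) (K := RatFunc K) (polyMap_injective K ι)

@[simp] theorem ratMap_algebraMap (P : K[X]) :
    ratMap K ι (algebraMap K[X] (RatFunc K) P) = algebraMap ℂ[X] (RatFunc ℂ) (P.map ι) :=
  IsFractionRing.lift_algebraMap (polyMap_injective K ι) P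

@[simp] theorem ratMap_X : ratMap K ι RatFunc.X = RatFunc.X := by
  rw [← RatFunc.algebraMap_X, ratMap_algebraMap, Polynomial.map_X, RatFunc.algebraMap_X]

theorem embC_algebraMap_ratFunc (r : RatFunc K) :
    embC K ι N (algebraMap (RatFunc K) (FF K N) r) =
      algebraMap (RatFunc ℂ) (WHField (Gamma0 N)) (ratMap K ι r) := by
  have key : ((embC K ι N).comp (algebraMap (RatFunc K) (FF K N))) =
      (algebraMap (RatFunc ℂ) (WHField (Gamma0 N))).comp (ratMap K ι) := by
    apply IsLocalization.ringHom_ext (nonZeroDivisors K[X])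
    refine RingHom.ext fun P => ?_
    simp only [RingHom.comp_apply]
    rw [← IsScalarTower.algebraMap_apply K[X] (RatFunc K) (FF K N), embC_algebraMap_poly,
      ratMap_algebraMap, ← IsScalarTower.algebraMap_apply ℂ[X] (RatFunc ℂ) (WHField (Gamma0 N))]
  exact congrArg (fun φ : RatFunc K →+* WHField (Gamma0 N) => φ r) key

theorem intDegree_ratMap (r : RatFunc K) : (ratMap K ι r).intDegree = r.intDegree := by
  induction r using RatFunc.induction_on with
  | f p q hq =>
    by_cases hp : p = 0
    · subst hp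
      simp
    have hp' : p.map ι ≠ 0 := (Polynomial.map_ne_zero_iff ι.injective).2 hp
    have hq' : q.map ι ≠ 0 := (Polynomial.map_ne_zero_iff ι.injective).2 hq
    have h1 : algebraMap K[X] (RatFunc K) p ≠ 0 := by
      rwa [Ne, map_eq_zero_iff _ (IsFractionRing.injective K[X] (RatFunc K))]
    have h2 : algebraMap K[X] (RatFunc K) q ≠ 0 := by
      rwa [Ne, map_eq_zero_iff _ (IsFractionRing.injective K[X] (RatFunc K))]
    have h3 : algebraMap ℂ[X] (RatFunc ℂ) (p.map ι) ≠ 0 := by
      rwa [Ne, map_eq_zero_iff _ (IsFractionRing.injective ℂ[X] (RatFunc ℂ))]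
    have h4 : algebraMap ℂ[X] (RatFunc ℂ) (q.map ι) ≠ 0 := by
      rwa [Ne, map_eq_zero_iff _ (IsFractionRing.injective ℂ[X] (RatFunc ℂ))]
    rw [map_div₀, ratMap_algebraMap, ratMap_algebraMap, RatFunc.intDegree_div h3 h4,
      RatFunc.intDegree_div h1 h2, RatFunc.intDegree_polynomial, RatFunc.intDegree_polynomial,
      RatFunc.intDegree_polynomial, RatFunc.intDegree_polynomial,
      Polynomial.natDegree_map_eq_of_injective ι.injective,
      Polynomial.natDegree_map_eq_of_injective ι.injective]

theorem ratMap_mem_Oinf {r : RatFunc K} (hr : r ∈ DW.Oinf K) : ratMap K ι r ∈ DW.Oinf ℂ := by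
  rw [DW.mem_Oinf_iff_intDegree] at hr ⊢
  rwa [intDegree_ratMap]

theorem embC_algebraMap_Oinf (a : DW.Oinf K) :
    embC K ι N (algebraMap (DW.Oinf K) (FF K N) a) =
      algebraMap (DW.Oinf ℂ) (WHField (Gamma0 N))
        ⟨ratMap K ι (a : RatFunc K), ratMap_mem_Oinf K ι a.2⟩ := by
  rw [FFSetting.algebraMap_Oinf_apply, embC_algebraMap_ratFunc]
  rfl

/-! ### Linear disjointness -/

/-- The inclusion `FF K N ⊆ K((q))` as a `K`-linear map for the COEFFICIENTWISE `K`-action on
`K((q))`. -/
def valLin : FF K N →ₗ[K] LaurentSeries K where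
  toFun x := (x : LaurentSeries K)
  map_add' _ _ := rfl
  map_smul' c x := by
    show ((c • x : FF K N) : LaurentSeries K) = c • (x : LaurentSeries K)
    rw [Algebra.smul_def, MulMemClass.coe_mul, ← HahnSeries.C_mul_eq_smul]
    congr 1
    exact Fermat.Agent.S40.W.ThetaLog.algebraMap_eq_C K c

/-- The `q`-expansion as a `ℂ`-linear map for the COEFFICIENTWISE `ℂ`-action on `ℂ((q))`. -/
def qexpLin : WHField (Gamma0 N) →ₗ[ℂ] LaurentSeries ℂ where
  toFun x := qexpField N x
  map_add' _ _ := map_add _ _ _
  map_smul' c x := by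
    show qexpField N (c • x) = c • qexpField N x
    rw [Algebra.smul_def, map_mul, AlgHom.commutes, ← HahnSeries.C_mul_eq_smul,
      Fermat.Agent.S40.W.ThetaLog.algebraMap_eq_C]

/-- `K`-linearly independent families of `FF K N` stay `ℂ`-linearly independent in
`WHField (Gamma0 N)`. -/
theorem linearIndependent_embC {σ : Type*} (b : σ → FF K N) (hb : LinearIndependent K b) :
    LinearIndependent ℂ (fun i => embC K ι N (b i)) := by
  letI : Algebra K ℂ := ι.toAlgebra
  have h1 : LinearIndependent K (fun i => ((b i : FF K N) : LaurentSeries K)) :=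
    hb.map' (valLin K N) (LinearMap.ker_eq_bot.2 Subtype.val_injective)
  have h2 : LinearIndependent ℂ
      (fun i => Fermat.Agent.S24.LaurentDisjoint.mapL K ℂ ((b i : FF K N) : LaurentSeries K)) :=
    Fermat.Agent.S24.LaurentDisjoint.linearIndependent_mapL _ h1
  refine LinearIndependent.of_comp (qexpLin N) ?_
  have : ((qexpLin N) ∘ fun i => embC K ι N (b i)) =
      fun i => Fermat.Agent.S24.LaurentDisjoint.mapL K ℂ ((b i : FF K N) : LaurentSeries K) := by
    funext i
    exact qexpField_embC K ι N (b i)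
  rw [this]
  exact h2

/-! ### Coefficient descent -/

/-- **`q`-expansion principle for functions**: an element of `WHField (Gamma0 N)` whose `q`-expansion
has all its coefficients in `ι K` is in the image of `FF K N`. -/
theorem exists_embC_eq_of_coeff (H : WHField (Gamma0 N))
    (hH : ∀ n : ℤ, (qexpField N H).coeff n ∈ ι.range) : ∃ h : FF K N, embC K ι N h = H := by
  obtain ⟨g₀, hg₀⟩ := Fermat.Agent.N4F.Tors.CoeffDescent.exists_coeffMap_eq ι (qexpField N H) hH
  letI : Algebra K ℂ := ι.toAlgebra
  have hmemC : qexpField N H ∈ modularFunctionFieldFullC ℂ N := by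
    rw [full_eq_FC, ← fieldRange_qexpField]
    exact ⟨H, rfl⟩
  have hle : modularFunctionFieldFullC ℂ N ≤ IntermediateField.adjoin ℂ
      (⇑(coeffMap (algebraMap K ℂ)) '' (modularFunctionFieldFullC K N : Set (LaurentSeries K))) := by
    rw [modularFunctionFieldFullC, IntermediateField.adjoin_le_iff]
    rintro x ⟨d, hd, hdN, rfl⟩
    haveI := hd
    apply IntermediateField.subset_adjoin
    refine ⟨qExpand K d (jqModC K), jqModCd_mem_full K N hdN, ?_⟩
    rw [coeffMap_qExpand, coeffMap_jqModC]
  have hmem : g₀ ∈ modularFunctionFieldFullC K N := by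
    apply Fermat.Agent.N4F.Tors.CoeffDescent.mem_of_coeffMap_mem_adjoin (L := ℂ)
      (modularFunctionFieldFullC K N) g₀
    have : coeffMap (algebraMap K ℂ) g₀ = qexpField N H := hg₀
    rw [this]
    exact hle hmemC
  exact ⟨⟨g₀, hmem⟩, (embC_eq_iff K ι N _ H).2 hg₀⟩

end Fermat.Agent.S40.W.BridgeC
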