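/-
S40 (row 38), (W3) block (D4), generic half of the **Čech ↔ Dedekind–Weber bridge** (helper22).

Setting = `M2/DWMain.lean`, section `Main`: `k` ANY field, `K / k(x)` finite separable,
`B` = integral closure of `k[x]` in `K`, `Binf` = integral closure of `O∞` (the local ring of
`k(x)` at `x = ∞`) in `K`.  The Dedekind–Weber `H¹` is `K / (B + Binf)`; the Čech `H¹` of the two
affine charts `{x ≠ ∞}`, `{x ≠ 0}` is `B[1/x] / (B + B')`, `B'` = integral closure of `k[1/x]`.

* `exists_poly_sub_mem_Oinf`, `ratFunc_decomp` : `k(x) = k[x, 1/x] + x ^ (-d) • O∞`;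
* `exists_mid_add_inf` (SUR) : `K = B[1/x] + Binf`;
* `isIntegral_adjoin_inv_of_mid_inf` (INJ) : `B[1/x] ∩ Binf ⊆` integral closure of `k[1/x]`.
-/
import Mathlib
import Fermat.Agent.M2.DWMain

set_option autoImplicit false
set_option linter.unusedSectionVars false

open Polynomial Module

namespace Fermat.Agent.S40.W.CechDW

open Fermat.Agent.M2.DW

noncomputable section

/-! ### Rational functions: `k(x) = k[x, 1/x] + x ^ (-d) • O∞` -/

section RatFunc

variable {k : Type*} [Field k]

/-- Division with remainder: every rational function is a polynomial plus an element of `O∞`. -/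
theorem exists_poly_sub_mem_Oinf (s : RatFunc k) :
    ∃ P : k[X], s - algebraMap k[X] (RatFunc k) P ∈ Oinf k := by
  classical
  have hd : s.denom ≠ 0 := RatFunc.denom_ne_zero s
  have hd' : algebraMap k[X] (RatFunc k) s.denom ≠ 0 := RatFunc.algebraMap_ne_zero hd
  refine ⟨s.num / s.denom, ?_⟩
  have hs : s = algebraMap k[X] (RatFunc k) s.num / algebraMap k[X] (RatFunc k) s.denom :=
    (RatFunc.num_div_denom s).symm
  have hdiv : s.denom * (s.num / s.denom) + s.num % s.denom = s.num :=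
    EuclideanDomain.div_add_mod s.num s.denom
  have key : s - algebraMap k[X] (RatFunc k) (s.num / s.denom) =
      algebraMap k[X] (RatFunc k) (s.num % s.denom) / algebraMap k[X] (RatFunc k) s.denom := by
    rw [eq_div_iff hd', sub_mul]
    nth_rewrite 1 [hs]
    rw [div_mul_cancel₀ _ hd', ← map_mul, ← map_sub]
    congr 1
    linear_combination -hdiv
  rw [key]
  by_cases hr : s.num % s.denom = 0
  · rw [hr, map_zero, zero_div]
    exact (Oinf k).zero_mem
  · refine Fermat.Agent.M2.mem_Oinf_of_intDegree_le ?_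
    rw [RatFunc.intDegree_div (RatFunc.algebraMap_ne_zero hr) hd', RatFunc.intDegree_polynomial,
      RatFunc.intDegree_polynomial]
    have hlt : (s.num % s.denom).degree < s.denom.degree := Polynomial.degree_mod_lt _ hd
    have := Polynomial.natDegree_lt_natDegree hr hlt
    omega

/-- `k(x) = k[x, 1/x] + x ^ (-d) • O∞` for every `d`. -/
theorem ratFunc_decomp (r : RatFunc k) (d : ℤ) :
    ∃ (m : ℕ) (a : k[X]) (c : Oinf k),
      r = (RatFunc.X : RatFunc k) ^ (-(m : ℤ)) * algebraMap k[X] (RatFunc k) a +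
        (RatFunc.X : RatFunc k) ^ (-d) * (c : RatFunc k) := by
  obtain ⟨P, hP⟩ := exists_poly_sub_mem_Oinf ((RatFunc.X : RatFunc k) ^ d * r)
  have hX : (RatFunc.X : RatFunc k) ≠ 0 := RatFunc.X_ne_zero
  have hr : r = (RatFunc.X : RatFunc k) ^ (-d) * algebraMap k[X] (RatFunc k) P +
      (RatFunc.X : RatFunc k) ^ (-d) *
        ((RatFunc.X : RatFunc k) ^ d * r - algebraMap k[X] (RatFunc k) P) := by
    have h1 : (RatFunc.X : RatFunc k) ^ (-d) * ((RatFunc.X : RatFunc k) ^ d * r) = r := by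
      rw [← mul_assoc, ← zpow_add₀ hX, neg_add_cancel, zpow_zero, one_mul]
    rw [mul_sub, h1]
    ring
  rcases le_or_gt 0 d with hd | hd
  · refine ⟨d.toNat, P, ⟨_, hP⟩, ?_⟩
    rw [Int.toNat_of_nonneg hd]
    exact hr
  · refine ⟨0, X ^ (-d).toNat * P, ⟨_, hP⟩, ?_⟩
    have h2 : (RatFunc.X : RatFunc k) ^ (-d) =
        algebraMap k[X] (RatFunc k) (X ^ (-d).toNat) := by
      rw [map_pow, RatFunc.algebraMap_X, ← zpow_natCast, Int.toNat_of_nonneg (by omega)]
    rw [Nat.cast_zero, neg_zero, zpow_zero, one_mul, map_mul, ← h2]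
    exact hr

end RatFunc

/-! ### Denominators in `t = 1/x` -/

section Den

variable {k : Type*} [Field k]

/-- `P(x) = (reflect M P)(1/x) · x ^ M`. -/
theorem aeval_inv_reflect_mul_pow (M : ℕ) (P : k[X]) (hP : P.natDegree ≤ M) :
    aeval ((RatFunc.X : RatFunc k)⁻¹) (P.reflect M) * (RatFunc.X : RatFunc k) ^ M =
      algebraMap k[X] (RatFunc k) P := by
  let _ : Invertible (RatFunc.X : RatFunc k) := invertibleOfNonzero RatFunc.X_ne_zero
  have h := eval₂_reflect_mul_pow (algebraMap k (RatFunc k)) (RatFunc.X : RatFunc k) M P hP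
  rw [invOf_eq_inv] at h
  rw [aeval_def, h, ← aeval_def, RatFunc.aeval_X_left_eq_algebraMap]

/-- `(1/x) ^ M · P(x)` is a polynomial in `1/x` for `M ≥ deg P`. -/
theorem inv_pow_mul_algebraMap (M : ℕ) (P : k[X]) (hP : P.natDegree ≤ M) :
    ((RatFunc.X : RatFunc k)⁻¹) ^ M * algebraMap k[X] (RatFunc k) P =
      aeval ((RatFunc.X : RatFunc k)⁻¹) (P.reflect M) := by
  have hX : (RatFunc.X : RatFunc k) ^ M ≠ 0 := pow_ne_zero _ RatFunc.X_ne_zero
  rw [← aeval_inv_reflect_mul_pow M P hP, inv_pow]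
  field_simp

/-- A polynomial with nonzero constant term is coprime to `X`. -/
theorem isCoprime_X_of_coeff_zero_ne_zero {S : k[X]} (hS : S.coeff 0 ≠ 0) : IsCoprime S X := by
  refine ⟨C (S.coeff 0)⁻¹, -(C (S.coeff 0)⁻¹ * S.divX), ?_⟩
  have h : S - S.divX * X = C (S.coeff 0) := by
    rw [sub_eq_iff_eq_add, add_comm]
    exact S.divX_mul_X_add.symm
  have h1 : C (S.coeff 0)⁻¹ * C (S.coeff 0) = (1 : k[X]) := by
    rw [← C_mul, inv_mul_cancel₀ hS, C_1]
  calc C (S.coeff 0)⁻¹ * S + -(C (S.coeff 0)⁻¹ * S.divX) * X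
      = C (S.coeff 0)⁻¹ * (S - S.divX * X) := by ring
    _ = C (S.coeff 0)⁻¹ * C (S.coeff 0) := by rw [h]
    _ = 1 := h1

/-- Fractions `n / d` with `deg n ≤ deg d` in terms of `1/x`. -/
theorem aeval_inv_reverse_mul_div (n d : k[X]) (hd : d ≠ 0) (hnd : n.natDegree ≤ d.natDegree) :
    aeval ((RatFunc.X : RatFunc k)⁻¹) d.reverse *
        (algebraMap k[X] (RatFunc k) n / algebraMap k[X] (RatFunc k) d) =
      aeval ((RatFunc.X : RatFunc k)⁻¹) (n.reflect d.natDegree) := by
  have hd0 : algebraMap k[X] (RatFunc k) d ≠ 0 := RatFunc.algebraMap_ne_zero hd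
  have h1 := aeval_inv_reflect_mul_pow d.natDegree d le_rfl
  have h2 := aeval_inv_reflect_mul_pow d.natDegree n hnd
  have hX : (RatFunc.X : RatFunc k) ^ d.natDegree ≠ 0 := pow_ne_zero _ RatFunc.X_ne_zero
  have hrev : d.reverse = d.reflect d.natDegree := rfl
  rw [hrev]
  generalize aeval ((RatFunc.X : RatFunc k)⁻¹) (d.reflect d.natDegree) = σ at h1 ⊢
  generalize aeval ((RatFunc.X : RatFunc k)⁻¹) (n.reflect d.natDegree) = ν at h2 ⊢
  have hσ : σ ≠ 0 := by
    intro h0
    rw [h0, zero_mul] at h1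
    exact hd0 h1.symm
  rw [← h1, ← h2]
  field_simp

/-- Elements of `O∞` are fractions `N(1/x) / S(1/x)` with `S(0) ≠ 0`. -/
theorem exists_den_Oinf (a : Oinf k) :
    ∃ S N : k[X], S.coeff 0 ≠ 0 ∧
      aeval ((RatFunc.X : RatFunc k)⁻¹) S * (a : RatFunc k) =
        aeval ((RatFunc.X : RatFunc k)⁻¹) N := by
  classical
  by_cases ha : (a : RatFunc k) = 0
  · exact ⟨1, 0, by simp, by rw [ha, mul_zero, map_zero]⟩
  have hdeg : (a : RatFunc k).intDegree ≤ 0 := by
    rcases Fermat.Agent.M2.mem_Oinf_iff.1 a.2 with h | h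
    · exact absurd h ha
    · exact h
  have hnd : (a : RatFunc k).num.natDegree ≤ (a : RatFunc k).denom.natDegree := by
    have : (a : RatFunc k).intDegree =
        ((a : RatFunc k).num.natDegree : ℤ) - (a : RatFunc k).denom.natDegree := rfl
    omega
  refine ⟨(a : RatFunc k).denom.reverse,
    (a : RatFunc k).num.reflect (a : RatFunc k).denom.natDegree, ?_, ?_⟩
  · rw [coeff_zero_reverse, (RatFunc.monic_denom _).leadingCoeff]
    exact one_ne_zero
  · have h := aeval_inv_reverse_mul_div _ _ (RatFunc.denom_ne_zero (a : RatFunc k)) hnd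
    rwa [RatFunc.num_div_denom] at h

end Den

/-! ### Scaled integrality -/

section Scaled

variable {R R' S : Type*} [CommRing R] [CommRing R'] [CommRing S] [Algebra R S] [Algebra R' S]

/-- If `γ` is a root of a monic polynomial over a (big) ring `R'` and `s ∈ R` moves every lower
coefficient into (the image of) `R`, then `s γ` is integral over `R`. -/
theorem isIntegral_mul_of_monic {p : R'[X]} (hp : p.Monic) {γ : S}
    (hγ : eval₂ (algebraMap R' S) γ p = 0) (s : R)
    (hs : ∀ i, i < p.natDegree →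
      ∃ a : R, algebraMap R S a = algebraMap R S s * algebraMap R' S (p.coeff i)) :
    IsIntegral R (algebraMap R S s * γ) := by
  rcases subsingleton_or_nontrivial S with hS | hS
  · exact ⟨X, monic_X, Subsingleton.elim _ _⟩
  set p' : S[X] := p.map (algebraMap R' S) with hp'
  have hp'm : p'.Monic := hp.map _
  have hdeg : p'.natDegree = p.natDegree := hp.natDegree_map _
  have hev : eval₂ (RingHom.id S) γ p' = 0 := by
    rw [hp', eval₂_map, RingHom.id_comp]
    exact hγ
  have h0 : eval₂ (RingHom.id S) (algebraMap R S s * γ) (scaleRoots p' (algebraMap R S s)) = 0 :=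
    scaleRoots_eval₂_eq_zero (RingHom.id S) hev
  have hl : scaleRoots p' (algebraMap R S s) ∈ lifts (algebraMap R S) := by
    rw [lifts_iff_coeff_lifts]
    intro i
    rw [coeff_scaleRoots, hdeg]
    rcases lt_trichotomy i p.natDegree with hi | hi | hi
    · obtain ⟨a, ha⟩ := hs i hi
      obtain ⟨j, hj⟩ : ∃ j, p.natDegree - i = j + 1 := ⟨p.natDegree - i - 1, by omega⟩
      refine ⟨a * s ^ j, ?_⟩
      rw [hj, pow_succ, map_mul, ha, hp', coeff_map, map_pow]
      ring
    · refine ⟨1, ?_⟩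
      rw [hi, Nat.sub_self, pow_zero, mul_one, map_one, ← hdeg]
      exact hp'm.coeff_natDegree.symm
    · refine ⟨0, ?_⟩
      rw [map_zero, coeff_eq_zero_of_natDegree_lt (by omega), zero_mul]
  obtain ⟨q, hq, -, hqm⟩ := lifts_and_natDegree_eq_and_monic hl ((monic_scaleRoots_iff _).2 hp'm)
  refine ⟨q, hqm, ?_⟩
  rw [eval₂_eq_eval_map, hq, ← eval₂_id]
  exact h0

end Scaled

/-! ### The Dedekind–Weber setting -/

section DWSetting

variable (k : Type*) [Field k]
variable (K : Type*) [Field K] [Algebra (RatFunc k) K] [FiniteDimensional (RatFunc k) K]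
  [Algebra.IsSeparable (RatFunc k) K]
variable [Algebra k[X] K] [IsScalarTower k[X] (RatFunc k) K]
variable (B : Type*) [CommRing B] [Algebra k[X] B] [Algebra B K] [IsScalarTower k[X] B K]
  [IsIntegralClosure B k[X] K]
variable (Binf : Type*) [CommRing Binf] [Algebra (Oinf k) Binf] [Algebra Binf K]
  [IsScalarTower (Oinf k) Binf K] [IsIntegralClosure Binf (Oinf k) K]

/-- **(SUR)** `K = B[1/x] + Binf`: every element of `K` is `x ^ (-m) • b + c` with `b ∈ B`,
`c ∈ Binf`. -/
theorem exists_mid_add_inf (f : K) :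
    ∃ (m : ℕ) (b : B) (c : Binf),
      f = (algebraMap (RatFunc k) K RatFunc.X)⁻¹ ^ m * algebraMap B K b + algebraMap Binf K c := by
  classical
  obtain ⟨R⟩ := nonempty_reducedData k K B Binf
  choose mj aj cj hj using fun j => ratFunc_decomp (R.w.repr f j) (R.d j)
  set m : ℕ := ∑ j, mj j with hm
  have hX : (RatFunc.X : RatFunc k) ≠ 0 := RatFunc.X_ne_zero
  -- the finite part
  have h1 : (∑ j, (X ^ (m - mj j) * aj j : k[X]) • R.w j) ∈
      (1 : Submodule B K).restrictScalars k[X] := by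
    rw [R.hB]
    exact Submodule.sum_mem _ fun j _ =>
      Submodule.smul_mem _ _ (Submodule.subset_span (Set.mem_range_self j))
  obtain ⟨b, hb⟩ := Submodule.mem_one.1 ((Submodule.restrictScalars_mem _ _ _).1 h1)
  -- the part at infinity
  have h2 : (∑ j, cj j • ((RatFunc.X : RatFunc k) ^ (-R.d j) • R.w j)) ∈
      (1 : Submodule Binf K).restrictScalars (Oinf k) := by
    rw [R.hBinf]
    exact Submodule.sum_mem _ fun j _ =>
      Submodule.smul_mem _ _ (Submodule.subset_span (Set.mem_range_self j))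
  obtain ⟨c, hc⟩ := Submodule.mem_one.1 ((Submodule.restrictScalars_mem _ _ _).1 h2)
  refine ⟨m, b, c, ?_⟩
  rw [hb, hc]
  have hmj : ∀ j, mj j ≤ m := fun j => Finset.single_le_sum (fun i _ => Nat.zero_le (mj i))
    (Finset.mem_univ j)
  have hxK : (algebraMap (RatFunc k) K RatFunc.X)⁻¹ ^ m =
      algebraMap (RatFunc k) K ((RatFunc.X : RatFunc k) ^ (-(m : ℤ))) := by
    rw [zpow_neg, zpow_natCast, map_inv₀, map_pow, inv_pow]
  rw [hxK, ← Algebra.smul_def, Finset.smul_sum, ← Finset.sum_add_distrib]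
  conv_lhs => rw [← R.w.sum_repr f]
  refine Finset.sum_congr rfl fun j _ => ?_
  have e1 : ((X ^ (m - mj j) * aj j : k[X]) • R.w j : K) =
      (algebraMap k[X] (RatFunc k) (X ^ (m - mj j) * aj j)) • R.w j :=
    (algebraMap_smul (RatFunc k) _ _).symm
  have e2 : (cj j • ((RatFunc.X : RatFunc k) ^ (-R.d j) • R.w j) : K) =
      ((cj j : Oinf k) : RatFunc k) • ((RatFunc.X : RatFunc k) ^ (-R.d j) • R.w j) := rfl
  rw [e1, e2, smul_smul, smul_smul, ← add_smul]
  congr 1
  rw [hj j, map_mul, map_pow, RatFunc.algebraMap_X, ← mul_assoc, ← zpow_natCast,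
    ← zpow_add₀ hX, Nat.cast_sub (hmj j)]
  have e3 : (-(m : ℤ) + ((m : ℤ) - (mj j : ℤ))) = -(mj j : ℤ) := by ring
  rw [e3, mul_comm (((cj j : Oinf k) : RatFunc k))]

variable [Algebra k K] [IsScalarTower k (RatFunc k) K]

omit [FiniteDimensional (RatFunc k) K] [Algebra.IsSeparable (RatFunc k) K] [Algebra k[X] K]
  [IsScalarTower k[X] (RatFunc k) K] in
/-- Polynomials in `1/x ∈ K` come from polynomials in `1/x ∈ k(x)`. -/
theorem aeval_inv_algebraMap (S : k[X]) :
    aeval ((algebraMap (RatFunc k) K RatFunc.X)⁻¹) S =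
      algebraMap (RatFunc k) K (aeval ((RatFunc.X : RatFunc k)⁻¹) S) := by
  rw [← map_inv₀, aeval_algebraMap_apply]

/-- Membership in `k[1/x] ⊆ K`. -/
theorem aeval_mem_adjoin_inv (S : k[X]) :
    aeval ((algebraMap (RatFunc k) K RatFunc.X)⁻¹) S ∈
      Algebra.adjoin k {(algebraMap (RatFunc k) K RatFunc.X)⁻¹} := by
  rw [Algebra.adjoin_singleton_eq_range_aeval]
  exact ⟨S, rfl⟩

/-- Elements of `k[1/x]` are integral over `k[1/x]`. -/
theorem isIntegral_of_mem_adjoin_inv {y : K}
    (hy : y ∈ Algebra.adjoin k {(algebraMap (RatFunc k) K RatFunc.X)⁻¹}) :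
    IsIntegral (Algebra.adjoin k {(algebraMap (RatFunc k) K RatFunc.X)⁻¹}) y :=
  isIntegral_algebraMap (R := Algebra.adjoin k {(algebraMap (RatFunc k) K RatFunc.X)⁻¹}) (A := K)
    (x := ⟨y, hy⟩)

/-- `Binf` is the localisation at `1/x = 0` of the integral closure of `k[1/x]`: every `c ∈ Binf`
has a denominator `S(1/x)`, `S(0) ≠ 0`, with `S(1/x) • c` integral over `k[1/x]`. -/
theorem exists_den_isIntegral (c : Binf) :
    ∃ S : k[X], S.coeff 0 ≠ 0 ∧
      IsIntegral (Algebra.adjoin k {(algebraMap (RatFunc k) K RatFunc.X)⁻¹})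
        (aeval ((algebraMap (RatFunc k) K RatFunc.X)⁻¹) S * algebraMap Binf K c) := by
  classical
  set t : K := (algebraMap (RatFunc k) K RatFunc.X)⁻¹ with ht
  obtain ⟨p, hpm, hp0⟩ : IsIntegral (Oinf k) (algebraMap Binf K c) :=
    (IsIntegralClosure.isIntegral_iff (A := Binf)).2 ⟨c, rfl⟩
  choose Si Ni hSi hNi using fun i => exists_den_Oinf (p.coeff i)
  set S : k[X] := ∏ i ∈ Finset.range p.natDegree, Si i with hS
  refine ⟨S, ?_, ?_⟩
  · rw [hS, Polynomial.coeff_zero_eq_eval_zero, Polynomial.eval_prod]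
    refine Finset.prod_ne_zero_iff.2 fun i _ => ?_
    rw [← Polynomial.coeff_zero_eq_eval_zero]
    exact hSi i
  · refine isIntegral_mul_of_monic (R := Algebra.adjoin k {t}) (R' := Oinf k) (S := K) hpm hp0
      ⟨aeval t S, aeval_mem_adjoin_inv k K S⟩ ?_
    intro i hi
    refine ⟨⟨aeval t ((∏ j ∈ (Finset.range p.natDegree).erase i, Si j) * Ni i),
      aeval_mem_adjoin_inv k K _⟩, ?_⟩
    show aeval t ((∏ j ∈ (Finset.range p.natDegree).erase i, Si j) * Ni i) =
      aeval t S * algebraMap (RatFunc k) K ((p.coeff i : Oinf k) : RatFunc k)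
    rw [ht, aeval_inv_algebraMap, aeval_inv_algebraMap, ← map_mul]
    congr 1
    rw [hS, ← Finset.mul_prod_erase _ _ (Finset.mem_range.2 hi), map_mul, map_mul, ← hNi i]
    ring

/-- Every `b ∈ B` becomes integral over `k[1/x]` after multiplication by a power of `1/x`. -/
theorem exists_pow_isIntegral (b : B) :
    ∃ M : ℕ, IsIntegral (Algebra.adjoin k {(algebraMap (RatFunc k) K RatFunc.X)⁻¹})
      ((algebraMap (RatFunc k) K RatFunc.X)⁻¹ ^ M * algebraMap B K b) := by
  classical
  set t : K := (algebraMap (RatFunc k) K RatFunc.X)⁻¹ with ht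
  obtain ⟨q, hqm, hq0⟩ : IsIntegral k[X] (algebraMap B K b) :=
    (IsIntegralClosure.isIntegral_iff (A := B)).2 ⟨b, rfl⟩
  set M : ℕ := (Finset.range q.natDegree).sup fun i => (q.coeff i).natDegree with hM
  refine ⟨M, ?_⟩
  have h1 := isIntegral_mul_of_monic (R := Algebra.adjoin k {t}) (R' := k[X]) (S := K) hqm hq0
    ⟨aeval t (X ^ M), aeval_mem_adjoin_inv k K _⟩ ?_
  · have e : algebraMap (Algebra.adjoin k {t}) K ⟨aeval t (X ^ M), aeval_mem_adjoin_inv k K _⟩ =
        t ^ M := by
      show aeval t (X ^ M) = t ^ M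
      rw [map_pow, aeval_X]
    rwa [e] at h1
  · intro i hi
    refine ⟨⟨aeval t ((q.coeff i).reflect M), aeval_mem_adjoin_inv k K _⟩, ?_⟩
    show aeval t ((q.coeff i).reflect M) = aeval t (X ^ M) * algebraMap k[X] K (q.coeff i)
    rw [IsScalarTower.algebraMap_apply k[X] (RatFunc k) K, ht, aeval_inv_algebraMap,
      aeval_inv_algebraMap, ← map_mul]
    congr 1
    rw [map_pow, aeval_X]
    exact (inv_pow_mul_algebraMap M _
      (Finset.le_sup (f := fun i => (q.coeff i).natDegree) (Finset.mem_range.2 hi))).symm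

/-- **(INJ)** `B[1/x] ∩ Binf` is contained in the integral closure of `k[1/x]`: an element of
`Binf` of the form `x ^ (-m) • b`, `b ∈ B`, is integral over `k[1/x]`. -/
theorem isIntegral_adjoin_inv_of_mid_inf {m : ℕ} {b : B} {c : Binf}
    (h : (algebraMap (RatFunc k) K RatFunc.X)⁻¹ ^ m * algebraMap B K b = algebraMap Binf K c) :
    IsIntegral (Algebra.adjoin k {(algebraMap (RatFunc k) K RatFunc.X)⁻¹})
      (algebraMap Binf K c) := by
  classical
  set t : K := (algebraMap (RatFunc k) K RatFunc.X)⁻¹ with ht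
  obtain ⟨S, hS0, ha⟩ := exists_den_isIntegral k K Binf c
  obtain ⟨M, hb⟩ := exists_pow_isIntegral k K B b
  have hSX : IsCoprime S X := isCoprime_X_of_coeff_zero_ne_zero hS0
  obtain ⟨U, V, hUV⟩ := (hSX.pow_right (n := M))
  have hone : aeval t U * aeval t S + aeval t V * t ^ M = 1 := by
    have := congrArg (aeval t) hUV
    simpa using this
  have hγ : algebraMap Binf K c =
      aeval t U * (aeval t S * algebraMap Binf K c) +
        aeval t V * t ^ m * (t ^ M * algebraMap B K b) := by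
    calc algebraMap Binf K c = (aeval t U * aeval t S + aeval t V * t ^ M) * algebraMap Binf K c := by
          rw [hone, one_mul]
      _ = aeval t U * (aeval t S * algebraMap Binf K c) +
            aeval t V * t ^ M * (t ^ m * algebraMap B K b) := by rw [h]; ring
      _ = _ := by ring
  rw [hγ]
  have htA : t ∈ Algebra.adjoin k {t} := Algebra.subset_adjoin rfl
  exact ((isIntegral_of_mem_adjoin_inv k K (aeval_mem_adjoin_inv k K U)).mul ha).add
    (((isIntegral_of_mem_adjoin_inv k K (aeval_mem_adjoin_inv k K V)).mul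
      (isIntegral_of_mem_adjoin_inv k K ((Algebra.adjoin k {t}).pow_mem htA m))).mul hb)

end DWSetting

end

end Fermat.Agent.S40.W.CechDW
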