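/-
[W3] of `moonshots` row 64 = (W3-DW)(A): **`h¹(𝒪) = h⁰(Ω)` for a function field in the Dedekind–Weber (trace-dual) language, in every
characteristic, with no residues and no duality pairing.**

Setting of `Fermat/Agent/M2/DWMain.lean`: `k` a field, `K / k(x)` finite separable, `B` the integral closure
of `k[x]` in `K`, `Binf` the integral closure of `O_∞` (local ring of `x = ∞`).

* `polyInf k d = k[x] + x^{-d}·O_∞ ⊆ k(x)` and `finrank_quotient_polyInf : dim k(x)/(k[x] + x^{-d} O_∞) = (d-1)⁺`;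
* `sumSpace k K B Binf = B + Binf ⊆ K` (as a `k`-subspace) — `K / (B + Binf)` is the (adelic form at `∞` of the) Čech
  `H¹(X, 𝒪)`;
* `ReducedData.finrank_quotient_sumSpace : dim K/(B + Binf) = ∑ (d i - 1)⁺` for the Dedekind–Weber exponents;
* `finrank_quotient_sumSpace_eq_holoSpace [IsAlgClosed k] : dim K/(B + Binf) = dim holoSpace` (`holoSpace` = the
  regular differentials `h·dx` in trace-dual form).
-/
import Fermat.Agent.M2.DWMain

set_option autoImplicit false
set_option linter.unusedSectionVars false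

open Polynomial WithZero Module

namespace Fermat.Agent.S40.W.DWDuality

open Fermat.Agent.M2.DW

noncomputable section

/-! ### one variable: `k(x) / (k[x] + x^{-d} O_∞)` -/

section OneVar

variable (k : Type*) [Field k]

/-- `k[x] + x^{-d}·O_∞` as a `k`-subspace of `k(x)`. -/
def polyInf (d : ℤ) : Submodule k (RatFunc k) where
  carrier := {f | ∃ a : k[X], vInf k (f - algebraMap k[X] (RatFunc k) a) ≤ exp (-d)}
  add_mem' := by
    rintro f g ⟨a, ha⟩ ⟨b, hb⟩
    refine ⟨a + b, ?_⟩
    have : f + g - algebraMap k[X] (RatFunc k) (a + b) =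
        (f - algebraMap k[X] (RatFunc k) a) + (g - algebraMap k[X] (RatFunc k) b) := by
      rw [map_add]; ring
    rw [this]
    exact (Valuation.map_add _ _ _).trans (max_le ha hb)
  zero_mem' := ⟨0, by simp⟩
  smul_mem' := by
    rintro c f ⟨a, ha⟩
    refine ⟨Polynomial.C c * a, ?_⟩
    have : c • f - algebraMap k[X] (RatFunc k) (Polynomial.C c * a) =
        RatFunc.C c * (f - algebraMap k[X] (RatFunc k) a) := by
      rw [map_mul, RatFunc.algebraMap_C, Algebra.smul_def, RatFunc.algebraMap_eq_C]; ring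
    rw [this, map_mul]
    exact (mul_le_of_le_one_left' (vInf_C_le_one c)).trans ha

variable {k}

theorem mem_polyInf_iff {d : ℤ} {f : RatFunc k} :
    f ∈ polyInf k d ↔ ∃ a : k[X], vInf k (f - algebraMap k[X] (RatFunc k) a) ≤ exp (-d) := Iff.rfl

theorem algebraMap_mem_polyInf (d : ℤ) (a : k[X]) : algebraMap k[X] (RatFunc k) a ∈ polyInf k d :=
  ⟨a, by simp⟩

theorem mem_polyInf_of_vInf_le {d : ℤ} {f : RatFunc k} (h : vInf k f ≤ exp (-d)) :
    f ∈ polyInf k d := ⟨0, by simpa using h⟩

/-- Division with remainder: every rational function is a polynomial plus a proper fraction. -/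
theorem exists_poly_sub_lt_one (f : RatFunc k) :
    ∃ a : k[X], vInf k (f - algebraMap k[X] (RatFunc k) a) < 1 := by
  have hmon : f.denom.Monic := f.monic_denom
  have hden : f.denom ≠ 0 := f.denom_ne_zero
  have hd' : algebraMap k[X] (RatFunc k) f.denom ≠ 0 := by simpa using hden
  refine ⟨f.num /ₘ f.denom, ?_⟩
  obtain ⟨r, hr⟩ : ∃ r, r = f.num %ₘ f.denom := ⟨_, rfl⟩
  have hsplit : r + f.denom * (f.num /ₘ f.denom) = f.num := by
    rw [hr]; exact Polynomial.modByMonic_add_div f.num f.denom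
  have hr' : algebraMap k[X] (RatFunc k) r = algebraMap k[X] (RatFunc k) f.num -
      algebraMap k[X] (RatFunc k) f.denom * algebraMap k[X] (RatFunc k) (f.num /ₘ f.denom) := by
    rw [← map_mul, ← map_sub]
    congr 1
    rw [eq_sub_iff_add_eq]
    exact hsplit
  have h2 : algebraMap k[X] (RatFunc k) f.num = f * algebraMap k[X] (RatFunc k) f.denom :=
    (div_eq_iff hd').mp (RatFunc.num_div_denom f)
  have hf : f - algebraMap k[X] (RatFunc k) (f.num /ₘ f.denom) =
      algebraMap k[X] (RatFunc k) r / algebraMap k[X] (RatFunc k) f.denom := by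
    rw [eq_div_iff hd', sub_mul, hr', h2]
    ring
  rw [hf, map_div₀]
  by_cases hr0 : r = 0
  · simp [hr0]
  have hdeg : r.degree < f.denom.degree := by rw [hr]; exact Polynomial.degree_modByMonic_lt _ hmon
  have hnat : r.natDegree < f.denom.natDegree := Polynomial.natDegree_lt_natDegree hr0 hdeg
  rw [vInf_algebraMap hr0, vInf_algebraMap hden, ← exp_sub, ← exp_zero, exp_lt_exp]
  omega

theorem polyInf_eq_top {d : ℤ} (hd : d ≤ 1) : polyInf k d = ⊤ := by
  rw [eq_top_iff]
  intro f _
  obtain ⟨a, ha⟩ := exists_poly_sub_lt_one f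
  refine ⟨a, ?_⟩
  rw [← exp_zero, lt_exp_iff_le_exp_sub_one] at ha
  refine ha.trans ?_
  rw [exp_le_exp]
  omega

/-- The `k`-linear map `O_∞ → k(x)/(k[x] + x^{-d} O_∞)`, `u ↦ [x⁻¹ u]`. -/
def shiftMap (d : ℤ) : Oinf k →ₗ[k] (RatFunc k ⧸ polyInf k d) :=
  (polyInf k d).mkQ ∘ₗ (LinearMap.mulLeft k ((RatFunc.X : RatFunc k)⁻¹)) ∘ₗ
    (IsScalarTower.toAlgHom k (Oinf k) (RatFunc k)).toLinearMap

theorem shiftMap_apply (d : ℤ) (u : Oinf k) :
    shiftMap d u = (polyInf k d).mkQ ((RatFunc.X : RatFunc k)⁻¹ * (u : RatFunc k)) := rfl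

theorem shiftMap_surjective (d : ℤ) : Function.Surjective (shiftMap (k := k) d) := by
  intro t
  obtain ⟨f, rfl⟩ := (polyInf k d).mkQ_surjective t
  obtain ⟨a, ha⟩ := exists_poly_sub_lt_one f
  set h := f - algebraMap k[X] (RatFunc k) a with hh
  have hX : (RatFunc.X : RatFunc k) ≠ 0 := RatFunc.X_ne_zero
  have hu : (RatFunc.X : RatFunc k) * h ∈ Oinf k := by
    rw [mem_Oinf_iff, map_mul]
    have h1 : vInf k (RatFunc.X : RatFunc k) = exp 1 := by
      have := vInf_X_zpow (k := k) 1
      rwa [zpow_one] at this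
    rw [h1]
    rw [← exp_zero, lt_exp_iff_le_exp_sub_one] at ha
    calc exp 1 * vInf k h ≤ exp 1 * exp (0 - 1) := mul_le_mul_right ha _
      _ = 1 := by rw [← exp_add]; simp
  refine ⟨⟨_, hu⟩, ?_⟩
  rw [shiftMap_apply]
  show (polyInf k d).mkQ ((RatFunc.X : RatFunc k)⁻¹ * ((RatFunc.X : RatFunc k) * h)) = _
  rw [← mul_assoc, inv_mul_cancel₀ hX, one_mul, Submodule.mkQ_apply, Submodule.mkQ_apply,
    Submodule.Quotient.eq]
  have : h - f = -(algebraMap k[X] (RatFunc k) a) := by rw [hh]; ring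
  rw [this]
  exact (polyInf k d).neg_mem (algebraMap_mem_polyInf d a)

theorem vInf_X_inv_mul (f : RatFunc k) :
    vInf k ((RatFunc.X : RatFunc k)⁻¹ * f) = exp (-1) * vInf k f := by
  rw [map_mul]
  congr 1
  have := vInf_X_zpow (k := k) (-1)
  rwa [zpow_neg, zpow_one] at this

theorem mem_ker_shiftMap_iff {d : ℤ} (hd : 1 ≤ d) (u : Oinf k) :
    u ∈ LinearMap.ker (shiftMap (k := k) d) ↔ vInf k (u : RatFunc k) ≤ exp (1 - d) := by
  rw [LinearMap.mem_ker, shiftMap_apply, Submodule.mkQ_apply, Submodule.Quotient.mk_eq_zero,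
    mem_polyInf_iff]
  have hu1 : vInf k (u : RatFunc k) ≤ 1 := mem_Oinf_iff.mp u.2
  have hsmall : vInf k ((RatFunc.X : RatFunc k)⁻¹ * (u : RatFunc k)) ≤ exp (-1) := by
    rw [vInf_X_inv_mul]
    calc exp (-1) * vInf k (u : RatFunc k) ≤ exp (-1) * 1 := mul_le_mul_right hu1 _
      _ = exp (-1) := mul_one _
  constructor
  · rintro ⟨a, ha⟩
    by_cases ha0 : a = 0
    · subst ha0
      rw [map_zero, sub_zero, vInf_X_inv_mul] at ha
      calc vInf k (u : RatFunc k) = exp 1 * (exp (-1) * vInf k (u : RatFunc k)) := by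
            rw [← mul_assoc, ← exp_add]; simp
        _ ≤ exp 1 * exp (-d) := mul_le_mul_right ha _
        _ = exp (1 - d) := by rw [← exp_add]; congr 1
    · exfalso
      have hva : vInf k (algebraMap k[X] (RatFunc k) a) = exp (a.natDegree : ℤ) := vInf_algebraMap ha0
      have hlt : vInf k ((RatFunc.X : RatFunc k)⁻¹ * (u : RatFunc k)) <
          vInf k (algebraMap k[X] (RatFunc k) a) := by
        rw [hva]
        refine hsmall.trans_lt ?_
        rw [exp_lt_exp]
        omega
      have heq := Valuation.map_sub_eq_of_lt_right (vInf k) hlt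
      rw [heq, hva, exp_le_exp] at ha
      omega
  · intro h
    refine ⟨0, ?_⟩
    rw [map_zero, sub_zero, vInf_X_inv_mul]
    calc exp (-1) * vInf k (u : RatFunc k) ≤ exp (-1) * exp (1 - d) := mul_le_mul_right h _
      _ = exp (-d) := by rw [← exp_add]; congr 1; ring

theorem mem_span_piInf_pow_iff (m : ℕ) (u : Oinf k) :
    u ∈ Ideal.span {piInf k ^ m} ↔ vInf k (u : RatFunc k) ≤ exp (-(m : ℤ)) := by
  have hX : (RatFunc.X : RatFunc k) ≠ 0 := RatFunc.X_ne_zero
  have hpi : ((piInf k ^ m : Oinf k) : RatFunc k) = (RatFunc.X : RatFunc k) ^ (-(m : ℤ)) := by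
    push_cast
    rw [coe_piInf, zpow_neg, zpow_natCast, inv_pow]
  rw [Ideal.mem_span_singleton]
  constructor
  · rintro ⟨c, rfl⟩
    have hc : vInf k (c : RatFunc k) ≤ 1 := mem_Oinf_iff.mp c.2
    have hcoe : ((piInf k ^ m * c : Oinf k) : RatFunc k) =
        (RatFunc.X : RatFunc k) ^ (-(m : ℤ)) * (c : RatFunc k) := by
      rw [← hpi]; rfl
    rw [hcoe, map_mul, vInf_X_zpow]
    calc exp (-(m : ℤ)) * vInf k (c : RatFunc k) ≤ exp (-(m : ℤ)) * 1 := mul_le_mul_right hc _
      _ = exp (-(m : ℤ)) := mul_one _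
  · intro h
    have hc : (RatFunc.X : RatFunc k) ^ (m : ℤ) * (u : RatFunc k) ∈ Oinf k := by
      rw [mem_Oinf_iff, map_mul, vInf_X_zpow]
      calc exp (m : ℤ) * vInf k (u : RatFunc k) ≤ exp (m : ℤ) * exp (-(m : ℤ)) :=
            mul_le_mul_right h _
        _ = 1 := by rw [← exp_add]; simp
    refine ⟨⟨_, hc⟩, ?_⟩
    apply Subtype.ext
    show (u : RatFunc k) = ((piInf k ^ m : Oinf k) : RatFunc k) *
      ((RatFunc.X : RatFunc k) ^ (m : ℤ) * (u : RatFunc k))
    rw [hpi, ← mul_assoc, ← zpow_add₀ hX]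
    simp

theorem ker_shiftMap {d : ℤ} (hd : 1 ≤ d) :
    LinearMap.ker (shiftMap (k := k) d) =
      (Ideal.span {piInf k ^ (d - 1).toNat} : Submodule (Oinf k) (Oinf k)).restrictScalars k := by
  ext u
  rw [mem_ker_shiftMap_iff hd, Submodule.restrictScalars_mem]
  erw [mem_span_piInf_pow_iff]
  have : (1 - d) = -(((d - 1).toNat : ℕ) : ℤ) := by omega
  rw [this]

/-- The quotient `O_∞ ⧸ (π_∞^m)` is a finite-dimensional `k`-space. -/
theorem finite_quotient_span_piInf_pow (m : ℕ) :
    Module.Finite k (Oinf k ⧸ Ideal.span {piInf k ^ m}) := by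
  rcases Nat.eq_zero_or_pos m with rfl | hm
  · have htop : Ideal.span {piInf k ^ 0} = (⊤ : Ideal (Oinf k)) := by
      rw [pow_zero, Ideal.span_singleton_one]
    have : Subsingleton (Oinf k ⧸ Ideal.span {piInf k ^ 0}) := by
      rw [htop]
      exact Ideal.Quotient.subsingleton_iff.mpr rfl
    infer_instance
  · exact Module.finite_of_finrank_pos (by rw [finrank_quotient_span_piInf_pow]; exact hm)

/-- `k(x)/(k[x] + x^{-d} O_∞) ≃ O_∞/(π_∞^{d-1})` for `d ≥ 1`. -/
def quotientPolyInfEquiv {d : ℤ} (hd : 1 ≤ d) :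
    (RatFunc k ⧸ polyInf k d) ≃ₗ[k] (Oinf k ⧸ Ideal.span {piInf k ^ (d - 1).toNat}) :=
  ((shiftMap (k := k) d).quotKerEquivOfSurjective (shiftMap_surjective d)).symm ≪≫ₗ
    (Submodule.quotEquivOfEq _ _ (ker_shiftMap hd)) ≪≫ₗ
    (Submodule.Quotient.restrictScalarsEquiv k
      (Ideal.span {piInf k ^ (d - 1).toNat} : Submodule (Oinf k) (Oinf k)))

instance finite_quotient_polyInf (d : ℤ) : Module.Finite k (RatFunc k ⧸ polyInf k d) := by
  rcases le_or_gt 1 d with hd | hd
  · have := finite_quotient_span_piInf_pow (k := k) (d - 1).toNat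
    exact Module.Finite.equiv (quotientPolyInfEquiv hd).symm
  · have htop : polyInf k d = ⊤ := polyInf_eq_top (by omega)
    have : Subsingleton (RatFunc k ⧸ polyInf k d) := by
      rw [htop]
      exact Submodule.Quotient.subsingleton_iff.mpr rfl
    infer_instance

/-- `dim k(x)/(k[x] + x^{-d} O_∞) = (d - 1)⁺`. -/
theorem finrank_quotient_polyInf (d : ℤ) :
    finrank k (RatFunc k ⧸ polyInf k d) = (d - 1).toNat := by
  rcases le_or_gt 1 d with hd | hd
  · rw [(quotientPolyInfEquiv hd).finrank_eq, finrank_quotient_span_piInf_pow]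
  · have htop : polyInf k d = ⊤ := polyInf_eq_top (by omega)
    have : Subsingleton (RatFunc k ⧸ polyInf k d) := by
      rw [htop]
      exact Submodule.Quotient.subsingleton_iff.mpr rfl
    rw [finrank_zero_of_subsingleton]
    omega

end OneVar

/-! ### the Dedekind–Weber setting -/

section Main

variable (k : Type*) [Field k]
variable (K : Type*) [Field K] [Algebra (RatFunc k) K] [FiniteDimensional (RatFunc k) K]
  [Algebra.IsSeparable (RatFunc k) K]
variable [Algebra k[X] K] [IsScalarTower k[X] (RatFunc k) K]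
variable (B : Type*) [CommRing B] [Algebra k[X] B] [Algebra B K] [IsScalarTower k[X] B K]
  [IsIntegralClosure B k[X] K]
variable (Binf : Type*) [CommRing Binf] [Algebra (Oinf k) Binf] [Algebra Binf K]
  [IsScalarTower (Oinf k) Binf K] [IsIntegralClosure Binf (Oinf k) K]
variable [Algebra k K] [IsScalarTower k (RatFunc k) K]

local notation "F" => RatFunc k
local notation "n" => finrank (RatFunc k) K

attribute [local instance] isScalarTower_poly isScalarTower_Oinf

/-- The image of `B` in `K`, as a `k`-subspace. -/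
def Bsub : Submodule k K where
  carrier := {h | h ∈ (1 : Submodule B K)}
  add_mem' := fun ha hb => (1 : Submodule B K).add_mem ha hb
  zero_mem' := (1 : Submodule B K).zero_mem
  smul_mem' := by
    intro c a ha
    have h1 : c • a = (Polynomial.C c : k[X]) • a := (polyC_smul c a).symm
    show c • a ∈ (1 : Submodule B K)
    rw [h1, ← algebraMap_smul B]
    exact Submodule.smul_mem _ _ ha

/-- The image of `Binf` in `K`, as a `k`-subspace. -/
def Binfsub : Submodule k K where
  carrier := {h | h ∈ (1 : Submodule Binf K)}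
  add_mem' := fun ha hb => (1 : Submodule Binf K).add_mem ha hb
  zero_mem' := (1 : Submodule Binf K).zero_mem
  smul_mem' := by
    intro c a ha
    have h2 : c • a = (algebraMap k (Oinf k) c) • a := by
      rw [← ratFuncC_smul c]
      rfl
    show c • a ∈ (1 : Submodule Binf K)
    rw [h2, ← algebraMap_smul Binf]
    exact Submodule.smul_mem _ _ ha

variable {k K B Binf}

theorem mem_Bsub_iff {h : K} : h ∈ Bsub k K B ↔ h ∈ (1 : Submodule B K) := Iff.rfl

theorem mem_Binfsub_iff {h : K} : h ∈ Binfsub k K Binf ↔ h ∈ (1 : Submodule Binf K) := Iff.rfl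

theorem mem_Bsub_iff_exists {h : K} : h ∈ Bsub k K B ↔ ∃ b : B, algebraMap B K b = h := by
  rw [mem_Bsub_iff, Submodule.mem_one]

theorem mem_Binfsub_iff_exists {h : K} :
    h ∈ Binfsub k K Binf ↔ ∃ b : Binf, algebraMap Binf K b = h := by
  rw [mem_Binfsub_iff, Submodule.mem_one]

namespace ReducedDataAux

variable (R : ReducedData k K B Binf)

/-- coordinates of `Bsub` in a reduced basis -/
theorem mem_Bsub_iff_repr {h : K} :
    h ∈ Bsub k K B ↔ ∀ i, R.w.repr h i ∈ Set.range (algebraMap k[X] (RatFunc k)) := by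
  rw [mem_Bsub_iff]
  have : h ∈ (1 : Submodule B K) ↔ h ∈ (1 : Submodule B K).restrictScalars k[X] := Iff.rfl
  rw [this, R.hB, Module.Basis.mem_span_iff_repr_mem]

/-- coordinates of `Binfsub` in a reduced basis -/
theorem mem_Binfsub_iff_repr {h : K} :
    h ∈ Binfsub k K Binf ↔ ∀ i, vInf k (R.w.repr h i) ≤ exp (-R.d i) := by
  rw [mem_Binfsub_iff]
  have : h ∈ (1 : Submodule Binf K) ↔ h ∈ (1 : Submodule Binf K).restrictScalars (Oinf k) :=
    Iff.rfl
  rw [this, R.hBinf, mem_span_Oinf_iff]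

/-- The coordinate map `K → ∏ k(x)/(k[x] + x^{-d_i} O_∞)`. -/
def coordMap : K →ₗ[k] ((i : Fin n) → RatFunc k ⧸ polyInf k (R.d i)) :=
  LinearMap.pi fun i =>
    (polyInf k (R.d i)).mkQ ∘ₗ (LinearMap.proj i) ∘ₗ
      ((R.w.equivFun.restrictScalars k : K ≃ₗ[k] (Fin n → RatFunc k)) : K →ₗ[k] (Fin n → RatFunc k))

theorem coordMap_apply (h : K) (i : Fin n) :
    coordMap R h i = (polyInf k (R.d i)).mkQ (R.w.repr h i) := rfl

theorem coordMap_surjective : Function.Surjective (coordMap R) := by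
  intro t
  choose f hf using fun i => (polyInf k (R.d i)).mkQ_surjective (t i)
  refine ⟨R.w.equivFun.symm f, ?_⟩
  funext i
  rw [coordMap_apply, ← hf i]
  congr 1
  have := congrFun (R.w.equivFun.apply_symm_apply f) i
  rwa [Module.Basis.equivFun_apply] at this

theorem ker_coordMap : LinearMap.ker (coordMap R) = Bsub k K B ⊔ Binfsub k K Binf := by
  ext h
  rw [LinearMap.mem_ker]
  constructor
  · intro hh
    have hcoord : ∀ i, R.w.repr h i ∈ polyInf k (R.d i) := by
      intro i
      have := congrFun hh i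
      rw [coordMap_apply, Pi.zero_apply, Submodule.mkQ_apply, Submodule.Quotient.mk_eq_zero] at this
      exact this
    choose a ha using hcoord
    set b : K := ∑ i, algebraMap k[X] (RatFunc k) (a i) • R.w i with hb
    have hbrepr : ∀ i, R.w.repr b i = algebraMap k[X] (RatFunc k) (a i) := by
      intro i
      rw [hb, Module.Basis.repr_sum_self]
    have hb1 : b ∈ Bsub k K B := (mem_Bsub_iff_repr R).mpr fun i => ⟨a i, (hbrepr i).symm⟩
    have hb2 : h - b ∈ Binfsub k K Binf := by
      rw [mem_Binfsub_iff_repr R]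
      intro i
      rw [map_sub, Finsupp.sub_apply, hbrepr]
      exact ha i
    rw [Submodule.mem_sup]
    exact ⟨b, hb1, h - b, hb2, by ring⟩
  · intro hh
    rw [Submodule.mem_sup] at hh
    obtain ⟨b, hb, c, hc, rfl⟩ := hh
    funext i
    rw [coordMap_apply, Pi.zero_apply, Submodule.mkQ_apply, Submodule.Quotient.mk_eq_zero,
      map_add, Finsupp.add_apply]
    refine (polyInf k (R.d i)).add_mem ?_ ?_
    · obtain ⟨a, ha⟩ := (mem_Bsub_iff_repr R).mp hb i
      rw [← ha]
      exact algebraMap_mem_polyInf _ a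
    · exact mem_polyInf_of_vInf_le ((mem_Binfsub_iff_repr R).mp hc i)

/-- `K/(B + Binf) ≃ ∏ k(x)/(k[x] + x^{-d_i} O_∞)`. -/
def quotEquiv : (K ⧸ (Bsub k K B ⊔ Binfsub k K Binf)) ≃ₗ[k]
    ((i : Fin n) → RatFunc k ⧸ polyInf k (R.d i)) :=
  (Submodule.quotEquivOfEq _ _ (ker_coordMap R).symm) ≪≫ₗ
    (coordMap R).quotKerEquivOfSurjective (coordMap_surjective R)

include R in
theorem finite_quot : Module.Finite k (K ⧸ (Bsub k K B ⊔ Binfsub k K Binf)) :=
  Module.Finite.equiv (quotEquiv R).symm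

/-- `dim K/(B + Binf) = ∑ (d_i - 1)⁺`. -/
theorem finrank_quot :
    finrank k (K ⧸ (Bsub k K B ⊔ Binfsub k K Binf)) = ∑ i, (R.d i - 1).toNat := by
  rw [(quotEquiv R).finrank_eq, Module.finrank_pi_fintype]
  exact Finset.sum_congr rfl fun i _ => finrank_quotient_polyInf (R.d i)

/-- `dim holoSpace = ∑ (d_i - 1)⁺` (no hypothesis on `k`). -/
theorem finrank_holoSpace' :
    finrank k (holoSpace k K B Binf) = ∑ i, (R.d i - 1).toNat := by
  rw [R.holoSpace_eq, finrank_rrSpace]
  refine Finset.sum_congr rfl fun i _ => ?_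
  congr 1
  ring

end ReducedDataAux

variable (k K B Binf)

/-- `K / (B + Binf)` (the Čech `H¹(𝒪)` in adelic form at `∞`) is finite-dimensional. -/
theorem finite_quot_Bsub_sup_Binfsub :
    Module.Finite k (K ⧸ (Bsub k K B ⊔ Binfsub k K Binf)) := by
  obtain ⟨R⟩ := nonempty_reducedData k K B Binf
  exact ReducedDataAux.finite_quot R

/-- The space of regular differentials (trace-dual form) is finite-dimensional. -/
theorem finite_holoSpace : Module.Finite k (holoSpace k K B Binf) := by
  obtain ⟨R⟩ := nonempty_reducedData k K B Binf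
  rw [R.holoSpace_eq]
  infer_instance

/-- **[W3] Dedekind–Weber duality `h¹(𝒪) = h⁰(Ω)`, any field `k`, any characteristic.** -/
theorem finrank_quot_eq_finrank_holoSpace :
    finrank k (K ⧸ (Bsub k K B ⊔ Binfsub k K Binf)) = finrank k (holoSpace k K B Binf) := by
  obtain ⟨R⟩ := nonempty_reducedData k K B Binf
  rw [ReducedDataAux.finrank_quot R, ReducedDataAux.finrank_holoSpace' R]

end Main

end

end Fermat.Agent.S40.W.DWDuality
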