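/-
S40 (W3), W4 packaged (helper22): the Čech ↔ Dedekind–Weber bridge in the vocabulary of the charts.

Setting of `M2/DWMain` (section `Main`) over an arbitrary field `k`, with `x := algebraMap (RatFunc k) K X`:

* vocabulary: `Bsub k K B = chartAlg k K {x}` (`mem_Bsub_iff_mem_chartAlg`),
  `chartAlg k K {x⁻¹} ≤ Binfsub k K Binf` (`mem_Binfsub_of_mem_chartAlg_inv`),
  `chartAlg k K {x, x⁻¹} = B[1/x]` (`mem_chartAlg_pair_iff`);
* (SUR) `exists_mid_sub_mem_Binfsub` : `K = chartAlg {x, x⁻¹} + Binf`;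
* (INJ) `mem_chartAlg_inv_of_mem_mid_of_mem_Binfsub` : `chartAlg {x, x⁻¹} ∩ Binf ⊆ chartAlg {x⁻¹}`;
* `mem_sup_iff_of_mem_mid` : on the overlap chart, `B + Binf` and
  `chartAlg {x} + chartAlg {x⁻¹}` have the same elements, i.e.
  `chartAlg {x, x⁻¹} / (chartAlg {x} + chartAlg {x⁻¹}) ≃ K / (B + Binf)`;
* rank forms: `finrank_quot_le_card` (a family spanning the overlap chart modulo the two charts
  bounds `dim K/(B + Binf)` above), `card_le_finrank_quot` (a family of the overlap chart independent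
  modulo the two charts bounds it below), and the same for `DW.holoSpace` through
  `DWDuality.finrank_quot_eq_finrank_holoSpace`.
-/
import Mathlib
import Fermat.Agent.N4.IntClosure
import Fermat.Agent.S40.W.CechDW
import Fermat.Agent.S40.W.DWDuality

set_option autoImplicit false
set_option linter.unusedSectionVars false

noncomputable section

open Polynomial Module

namespace Fermat.Agent.S40.W.CechDWRank

open Fermat.Agent.M2.DW Fermat.Agent.N4.Chart Fermat.Agent.N4.IntClosure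
  Fermat.Agent.S40.W.DWDuality Fermat.Agent.S40.W.CechDW

section DWSetting

variable (k : Type*) [Field k]
variable (K : Type*) [Field K] [Algebra (RatFunc k) K] [FiniteDimensional (RatFunc k) K]
  [Algebra.IsSeparable (RatFunc k) K]
variable [Algebra k[X] K] [IsScalarTower k[X] (RatFunc k) K]
variable (B : Type*) [CommRing B] [Algebra k[X] B] [Algebra B K] [IsScalarTower k[X] B K]
  [IsIntegralClosure B k[X] K]
variable (Binf : Type*) [CommRing Binf] [Algebra (Oinf k) Binf] [Algebra Binf K]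
  [IsScalarTower (Oinf k) Binf K] [IsIntegralClosure Binf (Oinf k) K]
variable [Algebra k K] [IsScalarTower k (RatFunc k) K]

local notation "xK" => algebraMap (RatFunc k) K RatFunc.X

/-! ### vocabulary -/

/-- The structure map `k[X] → K` is evaluation at `x`. -/
theorem algebraMap_poly_eq_aeval (a : k[X]) : algebraMap k[X] K a = aeval xK a := by
  rw [IsScalarTower.algebraMap_apply k[X] (RatFunc k) K, aeval_algebraMap_apply,
    RatFunc.aeval_X_left_eq_algebraMap]

theorem algebraMap_poly_eq_aeval' :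
    algebraMap k[X] K = ((aeval xK : k[X] →ₐ[k] K) : k[X] →+* K) :=
  RingHom.ext fun a => algebraMap_poly_eq_aeval k K a

theorem xK_ne_zero : xK ≠ 0 := by
  rw [Ne, map_eq_zero]
  exact RatFunc.X_ne_zero

/-- Integrality over `k[X]` is membership in the chart `chartAlg k K {x}`. -/
theorem isIntegral_poly_iff_mem_chartAlg {h : K} : IsIntegral k[X] h ↔ h ∈ chartAlg k K {xK} := by
  rw [mem_chartAlg_singleton_iff, ← algebraMap_poly_eq_aeval']
  rfl

/-- `Bsub k K B` is the chart `chartAlg k K {x}`. -/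
theorem mem_Bsub_iff_mem_chartAlg {h : K} : h ∈ Bsub k K B ↔ h ∈ chartAlg k K {xK} := by
  rw [mem_Bsub_iff_exists, ← isIntegral_poly_iff_mem_chartAlg,
    IsIntegralClosure.isIntegral_iff (A := B)]

/-- Elements of `k[1/x] ⊆ K` come from `Oinf k`. -/
theorem exists_Oinf_of_mem_adjoin_inv {y : K} (hy : y ∈ Algebra.adjoin k {(xK)⁻¹}) :
    ∃ a : Oinf k, algebraMap (Oinf k) K a = y := by
  rw [Algebra.adjoin_singleton_eq_range_aeval, AlgHom.mem_range] at hy
  obtain ⟨S, rfl⟩ := hy
  refine ⟨aeval (piInf k) S, ?_⟩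
  show algebraMap (RatFunc k) K ((aeval (piInf k) S : Oinf k) : RatFunc k) = _
  rw [aeval_inv_algebraMap]
  congr 1
  have h1 := aeval_algebraMap_apply (A := Oinf k) (RatFunc k) (piInf k) S
  rw [show algebraMap (Oinf k) (RatFunc k) (piInf k) = (RatFunc.X : RatFunc k)⁻¹ from
    coe_piInf] at h1
  exact h1.symm

/-- The chart `chartAlg k K {1/x}` is integral over `Oinf k`. -/
theorem isIntegral_Oinf_of_mem_chartAlg_inv {h : K} (hh : h ∈ chartAlg k K {(xK)⁻¹}) :
    IsIntegral (Oinf k) h := by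
  obtain ⟨p, hpm, hp0⟩ := (mem_chartAlg_iff).1 hh
  have h1 := isIntegral_mul_of_monic (R := Oinf k) (R' := Algebra.adjoin k {(xK)⁻¹}) (S := K)
    hpm hp0 1 ?_
  · rwa [map_one, one_mul] at h1
  · intro i _
    obtain ⟨a, ha⟩ := exists_Oinf_of_mem_adjoin_inv k K (p.coeff i).2
    exact ⟨a, by rw [ha, map_one, one_mul]; rfl⟩

/-- The chart `chartAlg k K {1/x}` is contained in `Binf`. -/
theorem mem_Binfsub_of_mem_chartAlg_inv {h : K} (hh : h ∈ chartAlg k K {(xK)⁻¹}) :
    h ∈ Binfsub k K Binf := by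
  rw [mem_Binfsub_iff_exists, ← IsIntegralClosure.isIntegral_iff (R := Oinf k) (A := Binf)]
  exact isIntegral_Oinf_of_mem_chartAlg_inv k K hh

theorem chartAlg_fin_le_mid : chartAlg k K {xK} ≤ chartAlg k K {xK, (xK)⁻¹} :=
  chartAlg_mono (by intro y hy; rw [Set.mem_singleton_iff] at hy; rw [hy]; exact Set.mem_insert _ _)

theorem chartAlg_inv_le_mid : chartAlg k K {(xK)⁻¹} ≤ chartAlg k K {xK, (xK)⁻¹} :=
  chartAlg_mono (by
    intro y hy; rw [Set.mem_singleton_iff] at hy; rw [hy]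
    exact Set.mem_insert_of_mem _ rfl)

/-- The overlap chart is `B[1/x]`. -/
theorem mem_chartAlg_pair_iff {h : K} :
    h ∈ chartAlg k K {xK, (xK)⁻¹} ↔
      ∃ (m : ℕ) (b : B), h = (xK)⁻¹ ^ m * algebraMap B K b := by
  have hx0 : xK ≠ 0 := xK_ne_zero k K
  constructor
  · intro hh
    have hh' : h ∈ chartAlg k K (insert (xK)⁻¹ {xK}) := by
      rwa [Set.pair_comm] at hh
    have h1 : xK ∈ ({xK} : Set K) := Set.mem_singleton _
    obtain ⟨m, hm⟩ := exists_pow_mul_mem_chartAlg (O := k) (F := K) h1 hx0 hh'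
    rw [← isIntegral_poly_iff_mem_chartAlg, IsIntegralClosure.isIntegral_iff (A := B)] at hm
    obtain ⟨b, hb⟩ := hm
    refine ⟨m, b, ?_⟩
    rw [hb, inv_pow, ← mul_assoc, inv_mul_cancel₀ (pow_ne_zero _ hx0), one_mul]
  · rintro ⟨m, b, rfl⟩
    have ht : (xK)⁻¹ ∈ chartAlg k K {xK, (xK)⁻¹} :=
      subset_chartAlg _ (Set.mem_insert_of_mem _ (Set.mem_singleton _))
    have hb : algebraMap B K b ∈ chartAlg k K {xK, (xK)⁻¹} := by
      refine chartAlg_fin_le_mid k K ?_
      rw [← isIntegral_poly_iff_mem_chartAlg, IsIntegralClosure.isIntegral_iff (A := B)]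
      exact ⟨b, rfl⟩
    exact mul_mem (pow_mem ht m) hb

/-! ### (SUR) and (INJ) in the vocabulary of the charts -/

include B in
/-- **(SUR)** `K = chartAlg k K {x, 1/x} + Binf`. -/
theorem exists_mid_sub_mem_Binfsub (f : K) :
    ∃ g ∈ chartAlg k K {xK, (xK)⁻¹}, f - g ∈ Binfsub k K Binf := by
  obtain ⟨m, b, c, hf⟩ := exists_mid_add_inf k K B Binf f
  refine ⟨(xK)⁻¹ ^ m * algebraMap B K b, (mem_chartAlg_pair_iff k K B).2 ⟨m, b, rfl⟩, ?_⟩
  rw [mem_Binfsub_iff_exists]
  exact ⟨c, by rw [hf]; ring⟩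

include B in
/-- **(INJ)** `chartAlg k K {x, 1/x} ∩ Binf ⊆ chartAlg k K {1/x}`. -/
theorem mem_chartAlg_inv_of_mem_mid_of_mem_Binfsub {g : K}
    (hg : g ∈ chartAlg k K {xK, (xK)⁻¹}) (hg' : g ∈ Binfsub k K Binf) :
    g ∈ chartAlg k K {(xK)⁻¹} := by
  obtain ⟨m, b, hb⟩ := (mem_chartAlg_pair_iff k K B).1 hg
  obtain ⟨c, hc⟩ := mem_Binfsub_iff_exists.1 hg'
  have h := isIntegral_adjoin_inv_of_mid_inf k K B Binf (m := m) (b := b) (c := c)
    (by rw [← hb, hc])
  rw [hc] at h
  exact (mem_chartAlg_iff).2 h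

/-- On the overlap chart, `B + Binf` and `chartAlg {x} + chartAlg {1/x}` have the same elements. -/
theorem mem_sup_iff_of_mem_mid {g : K} (hg : g ∈ chartAlg k K {xK, (xK)⁻¹}) :
    g ∈ Bsub k K B ⊔ Binfsub k K Binf ↔
      g ∈ Subalgebra.toSubmodule (chartAlg k K {xK}) ⊔
        Subalgebra.toSubmodule (chartAlg k K {(xK)⁻¹}) := by
  constructor
  · intro h
    obtain ⟨a, ha, c, hc, rfl⟩ := Submodule.mem_sup.1 h
    have ha' : a ∈ chartAlg k K {xK} := (mem_Bsub_iff_mem_chartAlg k K B).1 ha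
    have hc' : c ∈ chartAlg k K {(xK)⁻¹} := by
      refine mem_chartAlg_inv_of_mem_mid_of_mem_Binfsub k K B Binf ?_ hc
      have : c = a + c - a := by ring
      rw [this]
      exact sub_mem hg (chartAlg_fin_le_mid k K ha')
    exact Submodule.add_mem_sup ((Subalgebra.mem_toSubmodule _).2 ha') ((Subalgebra.mem_toSubmodule _).2 hc')
  · intro h
    obtain ⟨a, ha, c, hc, rfl⟩ := Submodule.mem_sup.1 h
    exact Submodule.add_mem_sup ((mem_Bsub_iff_mem_chartAlg k K B).2 ((Subalgebra.mem_toSubmodule _).1 ha))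
      (mem_Binfsub_of_mem_chartAlg_inv k K Binf ((Subalgebra.mem_toSubmodule _).1 hc))

/-- The sum of the two charts lies in `B + Binf`. -/
theorem chartSum_le_sup :
    Subalgebra.toSubmodule (chartAlg k K {xK}) ⊔ Subalgebra.toSubmodule (chartAlg k K {(xK)⁻¹}) ≤
      Bsub k K B ⊔ Binfsub k K Binf :=
  sup_le_sup (fun _ ha => (mem_Bsub_iff_mem_chartAlg k K B).2 ((Subalgebra.mem_toSubmodule _).1 ha))
    (fun _ hc => mem_Binfsub_of_mem_chartAlg_inv k K Binf ((Subalgebra.mem_toSubmodule _).1 hc))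

/-! ### the comparison map `chartAlg {x, 1/x} → K / (B + Binf)` -/

/-- The overlap chart mapped to `K / (B + Binf)`. -/
def midToQuot : chartAlg k K {xK, (xK)⁻¹} →ₗ[k] K ⧸ (Bsub k K B ⊔ Binfsub k K Binf) :=
  (Bsub k K B ⊔ Binfsub k K Binf).mkQ ∘ₗ (chartAlg k K {xK, (xK)⁻¹}).val.toLinearMap

theorem midToQuot_apply (z : chartAlg k K {xK, (xK)⁻¹}) :
    midToQuot k K B Binf z = Submodule.Quotient.mk (z : K) := rfl

/-- (SUR) -/
theorem midToQuot_surjective : Function.Surjective (midToQuot k K B Binf) := by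
  intro q
  obtain ⟨f, rfl⟩ := Submodule.Quotient.mk_surjective _ q
  obtain ⟨g, hg, hfg⟩ := exists_mid_sub_mem_Binfsub k K B Binf f
  refine ⟨⟨g, hg⟩, ?_⟩
  rw [midToQuot_apply]
  refine ((Submodule.Quotient.eq _).2 ?_).symm
  exact Submodule.mem_sup_right hfg

/-- (INJ) -/
theorem mem_ker_midToQuot_iff (z : chartAlg k K {xK, (xK)⁻¹}) :
    midToQuot k K B Binf z = 0 ↔
      (z : K) ∈ Subalgebra.toSubmodule (chartAlg k K {xK}) ⊔
        Subalgebra.toSubmodule (chartAlg k K {(xK)⁻¹}) := by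
  rw [midToQuot_apply, Submodule.Quotient.mk_eq_zero, mem_sup_iff_of_mem_mid k K B Binf z.2]

/-- The kernel of the comparison map is the Čech sum `chartAlg {x} + chartAlg {1/x}`. -/
theorem ker_midToQuot :
    LinearMap.ker (midToQuot k K B Binf) =
      (Subalgebra.toSubmodule (chartAlg k K {xK}) ⊔
        Subalgebra.toSubmodule (chartAlg k K {(xK)⁻¹})).comap
          (chartAlg k K {xK, (xK)⁻¹}).val.toLinearMap := by
  ext z
  rw [LinearMap.mem_ker, mem_ker_midToQuot_iff, Submodule.mem_comap]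
  rfl

/-- **Čech `H¹` of the two-chart cover = `K / (B + Binf)`.** -/
def cechEquiv :
    (chartAlg k K {xK, (xK)⁻¹} ⧸
      (Subalgebra.toSubmodule (chartAlg k K {xK}) ⊔
        Subalgebra.toSubmodule (chartAlg k K {(xK)⁻¹})).comap
          (chartAlg k K {xK, (xK)⁻¹}).val.toLinearMap) ≃ₗ[k]
      K ⧸ (Bsub k K B ⊔ Binfsub k K Binf) :=
  (Submodule.quotEquivOfEq _ _ (ker_midToQuot k K B Binf).symm).trans
    ((midToQuot k K B Binf).quotKerEquivOfSurjective (midToQuot_surjective k K B Binf))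

theorem cechEquiv_mk (z : chartAlg k K {xK, (xK)⁻¹}) :
    cechEquiv k K B Binf (Submodule.Quotient.mk z) = Submodule.Quotient.mk (z : K) := rfl

/-- Row 64 [W4]: `dim H¹_Čech = dim K / (B + Binf)`. -/
theorem finrank_cech_eq :
    finrank k (chartAlg k K {xK, (xK)⁻¹} ⧸
      (Subalgebra.toSubmodule (chartAlg k K {xK}) ⊔
        Subalgebra.toSubmodule (chartAlg k K {(xK)⁻¹})).comap
          (chartAlg k K {xK, (xK)⁻¹}).val.toLinearMap) =
      finrank k (K ⧸ (Bsub k K B ⊔ Binfsub k K Binf)) :=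
  (cechEquiv k K B Binf).finrank_eq

/-- Row 64 [W4] + [W3]: `dim H¹_Čech = dim` of the space of holomorphic differentials. -/
theorem finrank_cech_eq_finrank_holoSpace :
    finrank k (chartAlg k K {xK, (xK)⁻¹} ⧸
      (Subalgebra.toSubmodule (chartAlg k K {xK}) ⊔
        Subalgebra.toSubmodule (chartAlg k K {(xK)⁻¹})).comap
          (chartAlg k K {xK, (xK)⁻¹}).val.toLinearMap) =
      finrank k (holoSpace k K B Binf) :=
  (finrank_cech_eq k K B Binf).trans (finrank_quot_eq_finrank_holoSpace k K B Binf)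

/-! ### rank forms -/

/-- **Upper bound (special fibre).**  If a finite family `ε` spans the overlap chart modulo
`B + Binf`, then `dim K / (B + Binf) ≤ #ε`. -/
theorem finrank_quot_le_card {ι : Type*} [Fintype ι] (ε : ι → K)
    (h : ∀ z ∈ chartAlg k K {xK, (xK)⁻¹},
      z ∈ Bsub k K B ⊔ Binfsub k K Binf ⊔ Submodule.span k (Set.range ε)) :
    finrank k (K ⧸ (Bsub k K B ⊔ Binfsub k K Binf)) ≤ Fintype.card ι := by
  classical
  set Q := K ⧸ (Bsub k K B ⊔ Binfsub k K Binf) with hQ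
  set v : ι → Q := fun i => Submodule.Quotient.mk (ε i) with hv
  have hspan : Submodule.span k (Set.range v) = ⊤ := by
    rw [eq_top_iff]
    rintro q -
    obtain ⟨z, rfl⟩ := midToQuot_surjective k K B Binf q
    obtain ⟨a, ha, e, he, hz⟩ := Submodule.mem_sup.1 (h z z.2)
    rw [midToQuot_apply, ← hz, Submodule.Quotient.mk_add,
      (Submodule.Quotient.mk_eq_zero _).2 ha, zero_add]
    have : Submodule.span k (Set.range v) =
        (Submodule.span k (Set.range ε)).map (Bsub k K B ⊔ Binfsub k K Binf).mkQ := by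
      rw [Submodule.map_span, ← Set.range_comp]
      rfl
    rw [this]
    exact Submodule.mem_map_of_mem he
  calc finrank k Q = finrank k (⊤ : Submodule k Q) := (finrank_top k Q).symm
    _ = finrank k (Submodule.span k (Set.range v)) := by rw [hspan]
    _ ≤ Fintype.card ι := finrank_range_le_card v

/-- **Upper bound, elementwise hypothesis**: every `x ^ (-m) • b`, `b ∈ B`, is
`a + c + ∑ tᵢ εᵢ` with `a ∈ B`, `c ∈ Binf`. -/
theorem finrank_quot_le_card_of_decomp {ι : Type*} [Fintype ι] (ε : ι → K)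
    (h : ∀ (m : ℕ) (b : B), ∃ (a : B) (c : Binf) (t : ι → k),
      (xK)⁻¹ ^ m * algebraMap B K b = algebraMap B K a + algebraMap Binf K c + ∑ i, t i • ε i) :
    finrank k (K ⧸ (Bsub k K B ⊔ Binfsub k K Binf)) ≤ Fintype.card ι := by
  refine finrank_quot_le_card k K B Binf ε fun z hz => ?_
  obtain ⟨m, b, rfl⟩ := (mem_chartAlg_pair_iff k K B).1 hz
  obtain ⟨a, c, t, hact⟩ := h m b
  rw [hact]
  refine Submodule.add_mem_sup (Submodule.add_mem_sup (mem_Bsub_iff_exists.2 ⟨a, rfl⟩)
    (mem_Binfsub_iff_exists.2 ⟨c, rfl⟩)) ?_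
  exact Submodule.sum_mem _ fun i _ =>
    Submodule.smul_mem _ _ (Submodule.subset_span (Set.mem_range_self i))

/-- **Upper bound, Čech hypothesis**: `ε` spans the overlap chart modulo the two charts. -/
theorem finrank_quot_le_card_of_chartSum {ι : Type*} [Fintype ι] (ε : ι → K)
    (h : ∀ z ∈ chartAlg k K {xK, (xK)⁻¹},
      z ∈ Subalgebra.toSubmodule (chartAlg k K {xK}) ⊔
        Subalgebra.toSubmodule (chartAlg k K {(xK)⁻¹}) ⊔ Submodule.span k (Set.range ε)) :
    finrank k (K ⧸ (Bsub k K B ⊔ Binfsub k K Binf)) ≤ Fintype.card ι :=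
  finrank_quot_le_card k K B Binf ε fun z hz =>
    sup_le_sup_right (chartSum_le_sup k K B Binf) _ (h z hz)

/-- **Independence (generic fibre).**  A family of the overlap chart which is independent modulo
the sum of the two charts is independent in `K / (B + Binf)`. -/
theorem linearIndependent_quot {ι : Type*} [Fintype ι] (ε : ι → K)
    (hε : ∀ i, ε i ∈ chartAlg k K {xK, (xK)⁻¹})
    (hind : ∀ t : ι → k, (∑ i, t i • ε i) ∈ Subalgebra.toSubmodule (chartAlg k K {xK}) ⊔
      Subalgebra.toSubmodule (chartAlg k K {(xK)⁻¹}) → t = 0) :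
    LinearIndependent k fun i =>
      (Submodule.Quotient.mk (ε i) : K ⧸ (Bsub k K B ⊔ Binfsub k K Binf)) := by
  classical
  rw [Fintype.linearIndependent_iff]
  intro t ht i
  have hsum : (∑ i, t i • ε i) ∈ chartAlg k K {xK, (xK)⁻¹} :=
    sum_mem fun i _ => Subalgebra.smul_mem _ (hε i) _
  have h0 : (Submodule.Quotient.mk (∑ i, t i • ε i) :
      K ⧸ (Bsub k K B ⊔ Binfsub k K Binf)) = 0 := by
    rw [← ht, ← Submodule.mkQ_apply, map_sum]
    simp only [map_smul, Submodule.mkQ_apply]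
  rw [Submodule.Quotient.mk_eq_zero, mem_sup_iff_of_mem_mid k K B Binf hsum] at h0
  exact congrFun (hind t h0) i

/-- **Lower bound (generic fibre).** -/
theorem card_le_finrank_quot {ι : Type*} [Fintype ι] (ε : ι → K)
    (hε : ∀ i, ε i ∈ chartAlg k K {xK, (xK)⁻¹})
    (hind : ∀ t : ι → k, (∑ i, t i • ε i) ∈ Subalgebra.toSubmodule (chartAlg k K {xK}) ⊔
      Subalgebra.toSubmodule (chartAlg k K {(xK)⁻¹}) → t = 0) :
    Fintype.card ι ≤ finrank k (K ⧸ (Bsub k K B ⊔ Binfsub k K Binf)) := by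
  have := finite_quot_Bsub_sup_Binfsub k K B Binf
  exact (linearIndependent_quot k K B Binf ε hε hind).fintype_card_le_finrank

/-- Upper bound for the space of holomorphic differentials. -/
theorem finrank_holoSpace_le_card {ι : Type*} [Fintype ι] (ε : ι → K)
    (h : ∀ z ∈ chartAlg k K {xK, (xK)⁻¹},
      z ∈ Bsub k K B ⊔ Binfsub k K Binf ⊔ Submodule.span k (Set.range ε)) :
    finrank k (holoSpace k K B Binf) ≤ Fintype.card ι := by
  rw [← finrank_quot_eq_finrank_holoSpace k K B Binf]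
  exact finrank_quot_le_card k K B Binf ε h

/-- Lower bound for the space of holomorphic differentials. -/
theorem card_le_finrank_holoSpace {ι : Type*} [Fintype ι] (ε : ι → K)
    (hε : ∀ i, ε i ∈ chartAlg k K {xK, (xK)⁻¹})
    (hind : ∀ t : ι → k, (∑ i, t i • ε i) ∈ Subalgebra.toSubmodule (chartAlg k K {xK}) ⊔
      Subalgebra.toSubmodule (chartAlg k K {(xK)⁻¹}) → t = 0) :
    Fintype.card ι ≤ finrank k (holoSpace k K B Binf) := by
  rw [← finrank_quot_eq_finrank_holoSpace k K B Binf]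
  exact card_le_finrank_quot k K B Binf ε hε hind

end DWSetting

end Fermat.Agent.S40.W.CechDWRank
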