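/-
S40 / (W3), leaf W-CECH-GEN (helper11): **the generic-fibre half of the Čech ↔ Dedekind–Weber
squeeze**: for the modular two-chart model over a level `(K, O)` (`K` of characteristic zero, `O ⊆ K`
a domain with fraction field `K`), lifts `ε i ∈ Rmid` of an `O`-basis of
`H¹ = Rmid ⧸ (Rfin + Rinf)` stay `K`-linearly independent in `FF K N ⧸ (B_K + B_{K,∞})`, hence

  `g ≤ finrank K (FF K N ⧸ (Bsub ⊔ Binfsub)) = finrank K (holoSpace K (FF K N) B Binf)`.

* `coeff_eq_zero_of_sum_eq_add` : the elementwise core, in the generic chart language of `N4`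
  (clearing denominators + `H¹`-independence over `O`);
* `mem_chartAlg_inv_of_mid_inf` : `Rmid_K ∩ B_{K,∞} ⊆` the chart `j ≠ 0` over `K` (helper22's (INJ));
* `le_finrank_quot`, `le_finrank_holoSpace` : the dimension statements.
-/
import Mathlib
import Fermat.Agent.S19.Cech.DivModule
import Fermat.Agent.N4.FormalFunctions
import Fermat.Agent.S40.W.FFSetting
import Fermat.Agent.S40.W.CechDW
import Fermat.Agent.S40.W.DWDuality

set_option autoImplicit false
set_option synthInstance.maxHeartbeats 400000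
set_option maxHeartbeats 800000

open Polynomial IntermediateField

namespace Fermat.Agent.S40.W.CechGeneric

open Fermat.Agent.N4.Chart Fermat.Agent.N4.IntClosure Fermat.Agent.N4.Setting
  Fermat.Agent.N4.FormalFunctions Fermat.Agent.M2.DW

noncomputable section

/-! ### The elementwise core (generic charts) -/

section Generic

variable {O K F : Type*} [CommRing O] [IsDomain O] [Field K] [Algebra O K] [IsFractionRing O K]
  [Field F] [Algebra K F] [Algebra O F] [IsScalarTower O K F] [CharZero K]

/-- **The core.**  Let `ε i ∈ F` be such that an `O`-combination of the `ε i` which lies in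
`chartAlg O F {j} + chartAlg O F {j⁻¹}` has zero coefficients.  Then a `K`-combination of the `ε i`
which lies in (integral closure of `K[j]`) + (integral closure of `K[j⁻¹]`) has zero
coefficients. -/
theorem coeff_eq_zero_of_sum_eq_add (j : F) {g : ℕ} (ε : Fin g → F)
    (hind : ∀ n : Fin g → O,
      (∃ u ∈ chartAlg O F {j}, ∃ w ∈ chartAlg O F {j⁻¹},
        ∑ i, algebraMap O F (n i) * ε i = u + w) → ∀ i, n i = 0)
    (c : Fin g → K) {x y : F} (hx : IsIntegral (Algebra.adjoin K {j}) x)
    (hy : IsIntegral (Algebra.adjoin K {j⁻¹}) y)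
    (h : ∑ i, algebraMap K F (c i) * ε i = x + y) : ∀ i, c i = 0 := by
  classical
  obtain ⟨a, ha0, hax⟩ :=
    Fermat.Agent.S19.Cech.DivModule.exists_mul_mem_chartAlg_of_isIntegral (O := O) j hx
  obtain ⟨a', ha'0, hay⟩ :=
    Fermat.Agent.S19.Cech.DivModule.exists_mul_mem_chartAlg_of_isIntegral (O := O) j⁻¹ hy
  obtain ⟨d, hd⟩ := IsLocalization.exist_integer_multiples_of_finset (nonZeroDivisors O)
    (Finset.univ.image c)
  have hd0 : (d : O) ≠ 0 := nonZeroDivisors.ne_zero d.2
  have hdc : ∀ i, ∃ n : O, algebraMap O K n = (d : O) • c i := fun i =>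
    hd (c i) (Finset.mem_image_of_mem c (Finset.mem_univ i))
  choose n hn using hdc
  set e : O := a * a' * d with he
  have he0 : e ≠ 0 := mul_ne_zero (mul_ne_zero ha0 ha'0) hd0
  have key := hind (fun i => a * a' * n i)
    ⟨algebraMap O F (a' * d) * (algebraMap O F a * x),
      mul_mem (Subalgebra.algebraMap_mem _ _) hax,
      algebraMap O F (a * d) * (algebraMap O F a' * y),
      mul_mem (Subalgebra.algebraMap_mem _ _) hay, ?_⟩
  · intro i
    have h1 := key i
    have h2 : a * a' ≠ 0 := mul_ne_zero ha0 ha'0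
    have h3 : n i = 0 := (mul_eq_zero.mp h1).resolve_left h2
    have h4 := hn i
    rw [h3, map_zero] at h4
    have h5 : (d : O) • c i = algebraMap O K (d : O) * c i := Algebra.smul_def _ _
    rw [h5] at h4
    have h6 : algebraMap O K (d : O) ≠ 0 := by
      intro h0
      exact hd0 ((IsFractionRing.injective O K) (h0.trans (map_zero _).symm))
    exact (mul_eq_zero.mp h4.symm).resolve_left h6
  · have hni : ∀ i, algebraMap O F (a * a' * n i) * ε i =
        algebraMap O F e * (algebraMap K F (c i) * ε i) := by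
      intro i
      have h4 : algebraMap O F (n i) = algebraMap O F (d : O) * algebraMap K F (c i) := by
        rw [IsScalarTower.algebraMap_apply O K F, hn i, Algebra.smul_def, map_mul,
          ← IsScalarTower.algebraMap_apply O K F]
      rw [he]
      simp only [map_mul]
      rw [h4]
      ring
    rw [Finset.sum_congr rfl fun i _ => hni i, ← Finset.mul_sum, h, he]
    simp only [map_mul]
    ring

end Generic

/-! ### The modular level `(K, O)` -/

section Level

open scoped Fermat.Agent.S40.W.FFSetting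

open Fermat.Agent.S40.W.FFSetting Fermat.Agent.S40.W.DWDuality Fermat.Agent.S40.W.CechDW

variable (K : Type) [Field K] (N : ℕ) (O : Subring K)

/-- Elements of the chart `j ≠ ∞` over `O` are integral over `K[X]`. -/
theorem isIntegral_poly_of_mem_Rfin {z : FF K N} (hz : z ∈ Rfin K N O) : IsIntegral K[X] z := by
  have h1 := (mem_chartAlg_singleton_iff (O := ↥O) (jF K N)).mp hz
  have hcomp : ((aeval (jF K N) : (↥O)[X] →ₐ[↥O] FF K N) : (↥O)[X] →+* FF K N) =
      (algebraMap K[X] (FF K N)).comp (Polynomial.mapRingHom (algebraMap ↥O K)) := by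
    refine Polynomial.ringHom_ext (fun c => ?_) ?_
    · simp only [RingHom.coe_coe, aeval_C, RingHom.comp_apply, Polynomial.coe_mapRingHom,
        Polynomial.map_C, algebraMap_poly_apply]
      rfl
    · simp only [RingHom.coe_coe, aeval_X, RingHom.comp_apply, Polynomial.coe_mapRingHom,
        Polynomial.map_X, algebraMap_poly_apply]
  rw [hcomp] at h1
  exact RingHom.IsIntegralElem.of_comp h1

theorem isIntegral_poly_jF : IsIntegral K[X] (jF K N) := by
  rw [← algebraMap_poly_X K N]
  exact isIntegral_algebraMap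

/-- Elements of the overlap chart over `O` become integral over `K[X]` after multiplication by a
power of `j`. -/
theorem exists_pow_mul_isIntegral_of_mem_Rmid {z : FF K N} (hz : z ∈ Rmid K N O) :
    ∃ m : ℕ, ∀ m' ≥ m, IsIntegral K[X] (jF K N ^ m' * z) := by
  have hz' : z ∈ chartAlg ↥O (FF K N) (insert (jF K N)⁻¹ {jF K N}) := by
    rw [Set.pair_comm]
    exact hz
  obtain ⟨m, hm⟩ := exists_pow_mul_mem_chartAlg (O := ↥O) (Set.mem_singleton (jF K N))
    (jF_ne_zero K N) hz'
  refine ⟨m, fun m' hm' => ?_⟩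
  obtain ⟨r, rfl⟩ := Nat.exists_eq_add_of_le hm'
  have : jF K N ^ (m + r) * z = jF K N ^ r * (jF K N ^ m * z) := by ring
  rw [this]
  exact ((isIntegral_poly_jF K N).pow r).mul (isIntegral_poly_of_mem_Rfin K N O hm)

variable [CharZero K] [NeZero N] [IsFractionRing ↥O K]
variable [FiniteDimensional (RatFunc K) (FF K N)] [Algebra.IsSeparable (RatFunc K) (FF K N)]
variable (B : Type*) [CommRing B] [Algebra K[X] B] [Algebra B (FF K N)]
  [IsScalarTower K[X] B (FF K N)] [IsIntegralClosure B K[X] (FF K N)]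
variable (Binf : Type*) [CommRing Binf] [Algebra (Oinf K) Binf] [Algebra Binf (FF K N)]
  [IsScalarTower (Oinf K) Binf (FF K N)] [IsIntegralClosure Binf (Oinf K) (FF K N)]

/-- **Generic fibre, elementwise.**  If `ε i ∈ Rmid` are lifts of an `O`-basis of
`H¹ = Rmid ⧸ (Rfin + Rinf)`, then a `K`-combination of the `ε i` lying in `B_K + B_{K,∞}` is
trivial. -/
theorem coeff_eq_zero_of_sum_mem {g : ℕ} (ε : Fin g → Rmid K N O)
    (b : Module.Basis (Fin g) ↥O (Rmid K N O ⧸ chartSum (inclFin K N O) (inclInf K N O)))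
    (hb : ∀ i, b i = Submodule.Quotient.mk (ε i))
    (c : Fin g → K) (b₀ : B) (c₀ : Binf)
    (h : ∑ i, algebraMap K (FF K N) (c i) * (ε i : FF K N) =
      algebraMap B (FF K N) b₀ + algebraMap Binf (FF K N) c₀) : ∀ i, c i = 0 := by
  classical
  set x : FF K N := algebraMap B (FF K N) b₀ with hx
  set y : FF K N := algebraMap Binf (FF K N) c₀ with hy
  have hxint : IsIntegral K[X] x := (IsIntegralClosure.isIntegral_iff (A := B)).mpr ⟨b₀, rfl⟩
  -- a common power of `j` clearing the poles at `j = 0`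
  choose m hm using fun i => exists_pow_mul_isIntegral_of_mem_Rmid K N O (ε i).2
  set M : ℕ := ∑ i, m i with hM
  have hmM : ∀ i, m i ≤ M := fun i =>
    Finset.single_le_sum (fun i _ => Nat.zero_le (m i)) (Finset.mem_univ i)
  have hyint : IsIntegral K[X] (jF K N ^ M * y) := by
    have h1 : jF K N ^ M * y =
        ∑ i, algebraMap K[X] (FF K N) (Polynomial.C (c i)) * (jF K N ^ M * (ε i : FF K N)) -
          jF K N ^ M * x := by
      have h2 : y = ∑ i, algebraMap K (FF K N) (c i) * (ε i : FF K N) - x := by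
        rw [h]; ring
      rw [h2, mul_sub, Finset.mul_sum]
      congr 1
      refine Finset.sum_congr rfl fun i _ => ?_
      rw [algebraMap_poly_apply, aeval_C]
      ring
    rw [h1]
    refine (IsIntegral.sum _ fun i _ => ?_).sub (((isIntegral_poly_jF K N).pow M).mul hxint)
    exact isIntegral_algebraMap.mul (hm i M (hmM i))
  obtain ⟨b₁, hb₁⟩ := IsIntegralClosure.isIntegral_iff (A := B) |>.mp hyint
  -- `y ∈ B[1/x] ∩ Binf`, hence integral over `K[1/j]`
  have hyinf : IsIntegral (Algebra.adjoin K {(jF K N)⁻¹}) y := by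
    have h3 : (algebraMap (RatFunc K) (FF K N) RatFunc.X)⁻¹ ^ M * algebraMap B (FF K N) b₁ =
        algebraMap Binf (FF K N) c₀ := by
      rw [hb₁, algebraMap_ratFunc_X, ← mul_assoc, ← mul_pow, inv_mul_cancel₀ (jF_ne_zero K N),
        one_pow, one_mul]
    have h4 := isIntegral_adjoin_inv_of_mid_inf K (FF K N) B Binf h3
    rwa [algebraMap_ratFunc_X] at h4
  have hxfin : IsIntegral (Algebra.adjoin K {jF K N}) x :=
    mem_chartAlg_iff.mp ((isIntegral_poly_iff K N).mp hxint)
  -- independence over `O`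
  refine coeff_eq_zero_of_sum_eq_add (O := ↥O) (jF K N) (fun i => (ε i : FF K N)) ?_ c hxfin hyinf h
  rintro n ⟨u, hu, w, hw, huw⟩
  have h5 : (∑ i, n i • ε i : Rmid K N O) =
      inclFin K N O ⟨u, hu⟩ - inclInf K N O (-⟨w, hw⟩) := by
    apply Subtype.ext
    rw [map_neg, sub_neg_eq_add]
    push_cast
    rw [coe_chartIncl, coe_chartIncl, ← huw]
    refine Finset.sum_congr rfl fun i _ => ?_
    rw [Algebra.smul_def]
  have h6 : (∑ i, n i • b i) = 0 := by
    have h7 : (∑ i, n i • b i) =
        (chartSum (inclFin K N O) (inclInf K N O)).mkQ (∑ i, n i • ε i) := by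
      rw [map_sum]
      refine Finset.sum_congr rfl fun i _ => ?_
      rw [map_smul, hb i]
      rfl
    rw [h7, Submodule.mkQ_apply, Submodule.Quotient.mk_eq_zero, h5]
    exact (mem_chartSum_iff _ _ _).mpr ⟨_, _, rfl⟩
  exact fun i => Fintype.linearIndependent_iff.mp b.linearIndependent n h6 i

/-- **Generic fibre, linear independence**: the lifts `ε i` of an `O`-basis of `H¹` are
`K`-linearly independent in `FF K N ⧸ (B_K + B_{K,∞})`. -/
theorem linearIndependent_mkQ {g : ℕ} (ε : Fin g → Rmid K N O)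
    (b : Module.Basis (Fin g) ↥O (Rmid K N O ⧸ chartSum (inclFin K N O) (inclInf K N O)))
    (hb : ∀ i, b i = Submodule.Quotient.mk (ε i)) :
    LinearIndependent K fun i =>
      (Bsub K (FF K N) B ⊔ Binfsub K (FF K N) Binf).mkQ (ε i : FF K N) := by
  rw [Fintype.linearIndependent_iff]
  intro c hc
  have h1 : (Bsub K (FF K N) B ⊔ Binfsub K (FF K N) Binf).mkQ
      (∑ i, c i • (ε i : FF K N)) = 0 := by
    rw [map_sum]
    simpa only [map_smul] using hc
  rw [Submodule.mkQ_apply, Submodule.Quotient.mk_eq_zero] at h1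
  obtain ⟨x, hx, y, hy, hxy⟩ := Submodule.mem_sup.mp h1
  obtain ⟨b₀, rfl⟩ := mem_Bsub_iff_exists.mp hx
  obtain ⟨c₀, rfl⟩ := mem_Binfsub_iff_exists.mp hy
  refine coeff_eq_zero_of_sum_mem K N O B Binf ε b hb c b₀ c₀ ?_
  rw [hxy]
  refine Finset.sum_congr rfl fun i _ => ?_
  rw [Algebra.smul_def]

/-- **W-CECH-GEN**: the rank `g` of the free `O`-module `H¹ = Rmid ⧸ (Rfin + Rinf)` is at most
`dim_K FF K N ⧸ (B_K + B_{K,∞})`. -/
theorem le_finrank_quot {g : ℕ} (ε : Fin g → Rmid K N O)
    (b : Module.Basis (Fin g) ↥O (Rmid K N O ⧸ chartSum (inclFin K N O) (inclInf K N O)))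
    (hb : ∀ i, b i = Submodule.Quotient.mk (ε i)) :
    g ≤ Module.finrank K (FF K N ⧸ (Bsub K (FF K N) B ⊔ Binfsub K (FF K N) Binf)) := by
  haveI := finite_quot_Bsub_sup_Binfsub K (FF K N) B Binf
  have := (linearIndependent_mkQ K N O B Binf ε b hb).fintype_card_le_finrank
  simpa using this

/-- **W-CECH-GEN, differential form**: `g ≤ dim_K holoSpace K (FF K N) B Binf`
(Dedekind–Weber duality `W3` of helper2). -/
theorem le_finrank_holoSpace {g : ℕ} (ε : Fin g → Rmid K N O)
    (b : Module.Basis (Fin g) ↥O (Rmid K N O ⧸ chartSum (inclFin K N O) (inclInf K N O)))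
    (hb : ∀ i, b i = Submodule.Quotient.mk (ε i)) :
    g ≤ Module.finrank K (holoSpace K (FF K N) B Binf) := by
  rw [← finrank_quot_eq_finrank_holoSpace K (FF K N) B Binf]
  exact le_finrank_quot K N O B Binf ε b hb

end Level

end

end Fermat.Agent.S40.W.CechGeneric
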