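/-
S40 / (W3), W5 `K`-half at the level (helper11): **the rank of the free `O`-module
`H¹ = Rmid ⧸ (Rfin + Rinf)` of the modular two-chart model is at most `dim_K Setting.holo K N`.**

Companion of helper9's `CechRankLevel` (`finrank κ (Setting.holo κ N) ≤ finrank ↥O H¹`); the two
compose by `le_trans` to W5: `finrank κ (holo κ N) ≤ finrank K (holo K N)`.

* `finrank_H1_le_of_basis` : from any `O`-basis of `H¹` with lifts to `Rmid`;
* `finrank_H1_le_finrank_holo` : at a level `(K, O)` (`O` a DVR, `N ∈ Oˣ`, `StarStatement`).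
-/
import Mathlib
import Fermat.Agent.S19.Cech.TorsionFreeN4
import Fermat.Agent.S40.W.CechGeneric
import Fermat.Agent.S40.W.Setting

set_option autoImplicit false
set_option synthInstance.maxHeartbeats 400000
set_option maxHeartbeats 800000

namespace Fermat.Agent.S40.W.CechGenericLevel

open Fermat.Agent.N4.Chart Fermat.Agent.N4.Setting Fermat.Agent.N4.FormalFunctions
  Fermat.Agent.N4F.C.ChartFibre Fermat.Agent.M2 Fermat.Agent.S19.Cech.TorsionFreeN4

open scoped Fermat.Agent.S40.W.FFSetting Fermat.Agent.S40.W.Setting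

variable (K : Type) [Field K] [CharZero K] (N : ℕ) [NeZero N] (O : Subring K)
  [IsFractionRing ↥O K]
  [FiniteDimensional (RatFunc K) (FF K N)] [Algebra.IsSeparable (RatFunc K) (FF K N)]

/-- From an `O`-basis of `H¹` with lifts to `Rmid`: `rank_O H¹ ≤ dim_K holo K N`. -/
theorem finrank_H1_le_of_basis {g : ℕ} (ε : Fin g → Rmid K N O)
    (b : Module.Basis (Fin g) ↥O (Rmid K N O ⧸ chartSum (inclFin K N O) (inclInf K N O)))
    (hb : ∀ i, b i = Submodule.Quotient.mk (ε i)) :
    Module.finrank ↥O (Rmid K N O ⧸ chartSum (inclFin K N O) (inclInf K N O)) ≤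
      Module.finrank K (Setting.holo K N) := by
  rw [Module.finrank_eq_card_basis b, Fintype.card_fin]
  exact CechGeneric.le_finrank_holoSpace K N O ↥(SigmaFin K N) ↥(Setting.Binf K N) ε b hb

variable [IsDiscreteValuationRing ↥O]

/-- **W5, `K`-half**: at a level `(K, O)`, `rank_O H¹ ≤ dim_K holo K N`. -/
theorem finrank_H1_le_finrank_holo {π : ↥O} (hπ : Irreducible π) (hN : IsUnit ((N : ℕ) : ↥O))
    (hstar : StarStatement K N O) :
    Module.finrank ↥O (Rmid K N O ⧸ chartSum (inclFin K N O) (inclInf K N O)) ≤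
      Module.finrank K (Setting.holo K N) := by
  obtain ⟨g, ε, b, hb⟩ := exists_basis_lift_N4 K N O hπ hN hstar
  exact finrank_H1_le_of_basis K N O ε b hb

end Fermat.Agent.S40.W.CechGenericLevel
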