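/-
S40 (row 38), (W3) of `moonshots` rows 63/64, leaf W-CECH-SP (helper9): **the special-fibre half of the
Čech ↔ Dedekind–Weber squeeze.**

Level `(K, O)`: `O ⊆ K` a discrete valuation ring with fraction field `K` of characteristic `0`,
`N` invertible in `O`, residue field `κ`.  The Čech `H¹ = Rmid ⧸ (Rfin + Rinf)` of the two-chart model
of `X₀(N)` over `O` is a free `O`-module with a basis lifted to `ε i : Rmid`
(`S19/Cech/TorsionFreeN4.exists_basis_lift_N4`).  Here:

* `redMid : Rmid K N O →+* FF κ N` : the Gauss reduction of the overlap chart, with values in the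
  function field of the special fibre (`rhoMid` of `TorsionFreeN4` lands in `FF κ N`), compatible with
  `redFin`, `redInf` of `N4F/C/ChartFibre` and with the residue map of `O`;
* `exists_decomp_special` : every `j̄⁻ᵐ · s`, `s ∈ SigmaFin κ N` (the integral closure of `κ[j̄]` in
  `FF κ N`), is `redFin x - redInf y + ∑ cᵢ • redMid (ε i)` — the decomposition of `H¹` of the model
  reduced modulo the maximal ideal (only the ONTO-ness `ChartFibre.exists_redFin_eq` of the reduction
  of the finite chart is used; the kernel of `redMid` is never needed);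
* `span_eq_top_special`, `finite_quot_special`, `finrank_quot_special_le` : for ANY `κ`-subspace
  `Binf'` of `FF κ N` containing `redInf (Rinf)` and such that `FF κ N = SigmaFin[j̄⁻¹] + Binf'`
  (hypothesis `hsur`; for `Binf'` = the integral closure of the local ring at `j̄ = ∞` of `κ(j̄)` this
  is `S40/W/CechDW.exists_mid_add_inf`), the quotient `FF κ N ⧸ (SigmaFin ⊔ Binf')` is spanned by the
  classes of the `redMid (ε i)`; hence it is finite-dimensional of dimension
  `≤ finrank_O (Rmid ⧸ (Rfin + Rinf))`.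
-/
import Mathlib
import Fermat.Agent.S19.Cech.TorsionFreeN4

set_option autoImplicit false
set_option linter.unusedSectionVars false
set_option linter.style.haveILetI false
set_option synthInstance.maxHeartbeats 400000
set_option maxHeartbeats 800000

namespace Fermat.Agent.S40.W.CechRank

open ModularCurve Fermat.Agent.N4.Chart Fermat.Agent.N4.Setting Fermat.Agent.N4.FibreEmbedding
  Fermat.Agent.N4.FormalFunctions Fermat.Agent.N4F.C.ChartFibre Fermat.Agent.S19.Cech
  Fermat.Agent.S19.Cech.TorsionFreeN4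

/-! ### Abstract linear algebra -/

section Abstract

variable {k V : Type*} [Field k] [AddCommGroup V] [Module k V]

/-- If every vector is `u + w + ∑ cᵢ • eᵢ` with `u ∈ S`, `w ∈ T`, the classes of the `eᵢ` span
`V ⧸ (S ⊔ T)`. -/
theorem span_mkQ_eq_top (S T : Submodule k V) {g : ℕ} (e : Fin g → V)
    (h : ∀ z : V, ∃ u ∈ S, ∃ w ∈ T, ∃ c : Fin g → k, z = u + w + ∑ i, c i • e i) :
    Submodule.span k (Set.range fun i => (S ⊔ T).mkQ (e i)) = ⊤ := by
  rw [eq_top_iff]
  intro v _
  obtain ⟨z, rfl⟩ := Submodule.mkQ_surjective _ v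
  obtain ⟨u, hu, w, hw, c, rfl⟩ := h z
  have e1 : (S ⊔ T).mkQ u = 0 := by
    rw [Submodule.mkQ_apply, Submodule.Quotient.mk_eq_zero]
    exact Submodule.mem_sup_left hu
  have e2 : (S ⊔ T).mkQ w = 0 := by
    rw [Submodule.mkQ_apply, Submodule.Quotient.mk_eq_zero]
    exact Submodule.mem_sup_right hw
  rw [map_add, map_add, e1, e2, zero_add, zero_add, map_sum]
  refine Submodule.sum_mem _ fun i _ => ?_
  rw [map_smul]
  exact Submodule.smul_mem _ _ (Submodule.subset_span ⟨i, rfl⟩)

/-- Same hypothesis: `V ⧸ (S ⊔ T)` is finite-dimensional of dimension `≤ g`. -/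
theorem finite_and_finrank_le (S T : Submodule k V) {g : ℕ} (e : Fin g → V)
    (h : ∀ z : V, ∃ u ∈ S, ∃ w ∈ T, ∃ c : Fin g → k, z = u + w + ∑ i, c i • e i) :
    Module.Finite k (V ⧸ (S ⊔ T)) ∧ Module.finrank k (V ⧸ (S ⊔ T)) ≤ g := by
  have hspan := span_mkQ_eq_top S T e h
  constructor
  · rw [Module.finite_def, ← hspan]
    exact Submodule.fg_span (Set.finite_range _)
  · have h1 := finrank_range_le_card (R := k) (fun i => (S ⊔ T).mkQ (e i))
    rw [Set.finrank, hspan, finrank_top, Fintype.card_fin] at h1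
    exact h1

end Abstract

variable (K : Type) [Field K] [CharZero K] (N : ℕ) [NeZero N] (O : Subring K)
  [IsDiscreteValuationRing ↥O] [IsFractionRing ↥O K]

set_option quotPrecheck false in
local notation "κ" => IsLocalRing.ResidueField ↥O

/-- Clearing the denominators `j⁻¹` : `Rmid = Rfin[j⁻¹]`. -/
theorem exists_pow_mul_eq_inclFin (z : Rmid K N O) :
    ∃ (n : ℕ) (x : Rfin K N O), inclFin K N O x = inclFin K N O (jFin K N O) ^ n * z := by
  have hz : (z : FF K N) ∈ chartAlg ↥O (FF K N) (insert (jF K N)⁻¹ {jF K N}) := by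
    have h : (insert (jF K N)⁻¹ {jF K N} : Set (FF K N)) = {jF K N, (jF K N)⁻¹} :=
      Set.pair_comm _ _
    rw [h]
    exact z.2
  obtain ⟨n, hn⟩ := exists_pow_mul_mem_chartAlg (O := ↥O) (Set.mem_singleton (jF K N))
    (jF_ne_zero K N) hz
  refine ⟨n, ⟨_, hn⟩, Subtype.ext ?_⟩
  rw [coe_chartIncl, Subalgebra.coe_mul, Subalgebra.coe_pow, coe_chartIncl, coe_jFin]

variable (hN : IsUnit ((N : ℕ) : ↥O))

theorem coe_jF_ne_zero : ((jF κ N : FF κ N) : LaurentSeries κ) ≠ 0 := fun h =>
  jF_ne_zero κ N (Subtype.ext h)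

include hN in
/-- The Gauss reduction of the overlap chart takes its values in the function field of the special
fibre. -/
theorem rhoMid_mem_full (z : Rmid K N O) :
    rhoMid K N O z ∈ modularFunctionFieldFullC κ N := by
  obtain ⟨n, x, hx⟩ := exists_pow_mul_eq_inclFin K N O z
  have h1 := congrArg (rhoMid K N O) hx
  rw [map_mul, map_pow, rhoMid_inclFin K N O hN, rhoMid_inclFin K N O hN, redFin_jFin] at h1
  have h2 : rhoMid K N O z = (((jF κ N : FF κ N) : LaurentSeries κ) ^ n)⁻¹ *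
      ((redFin K N O hN x : FF κ N) : LaurentSeries κ) := by
    rw [h1, inv_mul_cancel_left₀ (pow_ne_zero n (coe_jF_ne_zero K N O))]
  rw [h2]
  exact mul_mem (inv_mem (pow_mem (jF κ N).2 n)) (redFin K N O hN x).2

/-- **The reduction of the overlap chart**, with values in `FF κ N`. -/
noncomputable def redMid : Rmid K N O →+* FF κ N :=
  (rhoMid K N O).codRestrict (modularFunctionFieldFullC κ N) (rhoMid_mem_full K N O hN)

theorem coe_redMid (z : Rmid K N O) :
    ((redMid K N O hN z : FF κ N) : LaurentSeries κ) = rhoMid K N O z := rfl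

theorem redMid_inclFin (x : Rfin K N O) :
    redMid K N O hN (inclFin K N O x) = redFin K N O hN x :=
  Subtype.ext (rhoMid_inclFin K N O hN x)

theorem redMid_inclInf (y : Rinf K N O) :
    redMid K N O hN (inclInf K N O y) = redInf K N O hN y :=
  Subtype.ext (rhoMid_inclInf K N O hN y)

theorem redMid_algebraMap (a : ↥O) :
    redMid K N O hN (algebraMap ↥O (Rmid K N O) a) =
      algebraMap κ (FF κ N) (IsLocalRing.residue ↥O a) := by
  rw [← (inclFin K N O).commutes a, redMid_inclFin, redFin_algebraMap]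

theorem redMid_smul (a : ↥O) (z : Rmid K N O) :
    redMid K N O hN (a • z) = IsLocalRing.residue ↥O a • redMid K N O hN z := by
  rw [Algebra.smul_def, map_mul, redMid_algebraMap, Algebra.smul_def]

/-- `j⁻¹` as an element of the overlap chart reduces to `j̄⁻¹`. -/
theorem redMid_jInv :
    redMid K N O hN (inclInf K N O (jInvInf K N O)) = (jF κ N)⁻¹ := by
  rw [redMid_inclInf, redInf_jInvInf]

section Decomp

/-- **The decomposition of `H¹` of the model, reduced to the special fibre**: every element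
`j̄⁻ᵐ · s`, `s` in the integral closure `SigmaFin κ N` of `κ[j̄]`, is
`redFin x - redInf y + ∑ cᵢ • redMid (ε i)`. -/
theorem exists_decomp_special (hprime : (fibreIdeal K N O (Rfin K N O)).IsPrime)
    (hDed : IsDedekindDomain (Rfin K N O ⧸ fibreIdeal K N O (Rfin K N O)))
    {g : ℕ} (ε : Fin g → Rmid K N O)
    (b : Module.Basis (Fin g) ↥O (Rmid K N O ⧸ chartSum (inclFin K N O) (inclInf K N O)))
    (hb : ∀ i, b i = Submodule.Quotient.mk (ε i))
    (m : ℕ) {s : FF κ N} (hs : s ∈ SigmaFin κ N) :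
    ∃ (x : Rfin K N O) (y : Rinf K N O) (c : Fin g → κ),
      (jF κ N)⁻¹ ^ m * s =
        redFin K N O hN x - redInf K N O hN y + ∑ i, c i • redMid K N O hN (ε i) := by
  obtain ⟨x₀, hx₀⟩ := exists_redFin_eq K N O hN hprime hDed hs
  obtain ⟨x, y, c, hz⟩ := TorsionFree.exists_decomp ε b hb
    (inclInf K N O (jInvInf K N O) ^ m * inclFin K N O x₀)
  refine ⟨x, y, fun i => IsLocalRing.residue ↥O (c i), ?_⟩
  have h := congrArg (redMid K N O hN) hz
  rw [map_mul, map_pow, redMid_jInv, redMid_inclFin, hx₀, map_add, map_sub, redMid_inclFin,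
    redMid_inclInf, map_sum] at h
  rw [h]
  congr 1
  exact Finset.sum_congr rfl fun i _ => redMid_smul K N O hN (c i) (ε i)

/-- Every element of `FF κ N` is `u + w + ∑ cᵢ • redMid (ε i)` with `u ∈ SigmaFin`, `w ∈ Binf'`. -/
theorem exists_decomp_quot (hprime : (fibreIdeal K N O (Rfin K N O)).IsPrime)
    (hDed : IsDedekindDomain (Rfin K N O ⧸ fibreIdeal K N O (Rfin K N O)))
    {g : ℕ} (ε : Fin g → Rmid K N O)
    (b : Module.Basis (Fin g) ↥O (Rmid K N O ⧸ chartSum (inclFin K N O) (inclInf K N O)))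
    (hb : ∀ i, b i = Submodule.Quotient.mk (ε i))
    (Binf' : Submodule κ (FF κ N)) (hInf : ∀ y : Rinf K N O, redInf K N O hN y ∈ Binf')
    (hsur : ∀ z : FF κ N, ∃ (m : ℕ) (s c : FF κ N), s ∈ SigmaFin κ N ∧ c ∈ Binf' ∧
      z = (jF κ N)⁻¹ ^ m * s + c) (z : FF κ N) :
    ∃ u ∈ Subalgebra.toSubmodule (SigmaFin κ N), ∃ w ∈ Binf', ∃ c : Fin g → κ,
      z = u + w + ∑ i, c i • redMid K N O hN (ε i) := by
  obtain ⟨m, s, c, hs, hc, rfl⟩ := hsur z
  obtain ⟨x, y, a, hxy⟩ := exists_decomp_special K N O hN hprime hDed ε b hb m hs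
  refine ⟨redFin K N O hN x, redFin_mem_SigmaFin K N O hN x, c - redInf K N O hN y,
    Binf'.sub_mem hc (hInf y), a, ?_⟩
  rw [hxy]
  abel

/-- The classes of the `redMid (ε i)` span `FF κ N ⧸ (SigmaFin ⊔ Binf')`. -/
theorem span_eq_top_special (hprime : (fibreIdeal K N O (Rfin K N O)).IsPrime)
    (hDed : IsDedekindDomain (Rfin K N O ⧸ fibreIdeal K N O (Rfin K N O)))
    {g : ℕ} (ε : Fin g → Rmid K N O)
    (b : Module.Basis (Fin g) ↥O (Rmid K N O ⧸ chartSum (inclFin K N O) (inclInf K N O)))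
    (hb : ∀ i, b i = Submodule.Quotient.mk (ε i))
    (Binf' : Submodule κ (FF κ N)) (hInf : ∀ y : Rinf K N O, redInf K N O hN y ∈ Binf')
    (hsur : ∀ z : FF κ N, ∃ (m : ℕ) (s c : FF κ N), s ∈ SigmaFin κ N ∧ c ∈ Binf' ∧
      z = (jF κ N)⁻¹ ^ m * s + c) :
    Submodule.span κ (Set.range fun i =>
      (Subalgebra.toSubmodule (SigmaFin κ N) ⊔ Binf').mkQ (redMid K N O hN (ε i))) = ⊤ :=
  span_mkQ_eq_top _ _ _ (exists_decomp_quot K N O hN hprime hDed ε b hb Binf' hInf hsur)

/-- `FF κ N ⧸ (SigmaFin ⊔ Binf')` is finite-dimensional of dimension `≤ g`. -/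
theorem finite_and_finrank_quot_special_le_card
    (hprime : (fibreIdeal K N O (Rfin K N O)).IsPrime)
    (hDed : IsDedekindDomain (Rfin K N O ⧸ fibreIdeal K N O (Rfin K N O)))
    {g : ℕ} (ε : Fin g → Rmid K N O)
    (b : Module.Basis (Fin g) ↥O (Rmid K N O ⧸ chartSum (inclFin K N O) (inclInf K N O)))
    (hb : ∀ i, b i = Submodule.Quotient.mk (ε i))
    (Binf' : Submodule κ (FF κ N)) (hInf : ∀ y : Rinf K N O, redInf K N O hN y ∈ Binf')
    (hsur : ∀ z : FF κ N, ∃ (m : ℕ) (s c : FF κ N), s ∈ SigmaFin κ N ∧ c ∈ Binf' ∧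
      z = (jF κ N)⁻¹ ^ m * s + c) :
    Module.Finite κ (FF κ N ⧸ (Subalgebra.toSubmodule (SigmaFin κ N) ⊔ Binf')) ∧
      Module.finrank κ (FF κ N ⧸ (Subalgebra.toSubmodule (SigmaFin κ N) ⊔ Binf')) ≤ g :=
  finite_and_finrank_le _ _ _ (exists_decomp_quot K N O hN hprime hDed ε b hb Binf' hInf hsur)

end Decomp

section Main

/-- **W-CECH-SP.**  The `H¹` of the special fibre (in Dedekind–Weber form `F̄ ⧸ (B̄ + B̄inf)`) is
finite-dimensional of dimension at most the rank of the free `O`-module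
`H¹ = Rmid ⧸ (Rfin + Rinf)` of the model. -/
theorem finite_and_finrank_quot_special_le {π : ↥O} (hπ : Irreducible π)
    (hstar : StarStatement K N O)
    (hDed : IsDedekindDomain (Rfin K N O ⧸ fibreIdeal K N O (Rfin K N O)))
    (Binf' : Submodule κ (FF κ N)) (hInf : ∀ y : Rinf K N O, redInf K N O hN y ∈ Binf')
    (hsur : ∀ z : FF κ N, ∃ (m : ℕ) (s c : FF κ N), s ∈ SigmaFin κ N ∧ c ∈ Binf' ∧
      z = (jF κ N)⁻¹ ^ m * s + c) :
    Module.Finite κ (FF κ N ⧸ (Subalgebra.toSubmodule (SigmaFin κ N) ⊔ Binf')) ∧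
      Module.finrank κ (FF κ N ⧸ (Subalgebra.toSubmodule (SigmaFin κ N) ⊔ Binf')) ≤
        Module.finrank ↥O (Rmid K N O ⧸ chartSum (inclFin K N O) (inclInf K N O)) := by
  obtain ⟨g, ε, b, hb⟩ := exists_basis_lift_N4 K N O hπ hN hstar
  have hprime := hstar.1.isPrime
  have h := finite_and_finrank_quot_special_le_card K N O hN hprime hDed ε b hb Binf' hInf hsur
  refine ⟨h.1, ?_⟩
  rw [Module.finrank_eq_card_basis b, Fintype.card_fin]
  exact h.2

end Main

end Fermat.Agent.S40.W.CechRank
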