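/-
S40 (row 38), (W3) of `moonshots` rows 63/64, leaf W5, special-fibre half in its final shape (helper9):

  `finrank κ (Setting.holo κ N) ≤ finrank_O (Rmid ⧸ (Rfin + Rinf))`

at a level `(K, O)` (`O ⊆ K` a discrete valuation ring with fraction field `K` of characteristic `0`,
`N` invertible in `O`, residue field `κ`), for the space `Setting.holo κ N` of regular differentials of
the special fibre `FF κ N` of `X₀(N)` (helper14's `S40/W/Setting`).

It is `S40/W/CechRank.finite_and_finrank_quot_special_le` (helper9) for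
`Binf' := Binfsub κ (FF κ N) (Setting.Binf κ N)`, with

* `hsur` := `S40/W/CechDW.exists_mid_add_inf` (helper22), `x = jF κ N`;
* `hInf` := `ChartFibre.redInf_mem_SigmaInf` + `S40/W/CechDWRank.mem_Binfsub_of_mem_chartAlg_inv`;
* `Bsub κ (FF κ N) (SigmaFin κ N) = SigmaFin κ N` as `κ`-subspaces (`bsub_eq`);
* Dedekind–Weber duality `S40/W/DWDuality.finrank_quot_eq_finrank_holoSpace` (helper2).

The finiteness and separability of `FF κ N / κ(j̄)` are instance hypotheses, as in `S40/W/Setting`.
-/
import Mathlib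
import Fermat.Agent.S40.W.CechRank
import Fermat.Agent.S40.W.CechDWRank
import Fermat.Agent.S40.W.Setting

set_option autoImplicit false
set_option linter.unusedSectionVars false
set_option linter.style.haveILetI false
set_option synthInstance.maxHeartbeats 400000
set_option maxHeartbeats 800000

open ModularCurve Polynomial
open Fermat.Agent.N4.Chart Fermat.Agent.N4.Setting Fermat.Agent.N4.FormalFunctions
  Fermat.Agent.N4F.C.ChartFibre Fermat.Agent.M2
open scoped Fermat.Agent.S40.W.FFSetting Fermat.Agent.S40.W.Setting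

noncomputable section

namespace Fermat.Agent.S40.W.CechRankLevel

open Fermat.Agent.S40.W.DWDuality Fermat.Agent.S40.W.Setting

/-! ### Any field `k`: the vocabulary at the level -/

section Field

variable (k : Type) [Field k] (N : ℕ)
variable [FiniteDimensional (RatFunc k) (FF k N)] [Algebra.IsSeparable (RatFunc k) (FF k N)]

/-- `Bsub` for `B = SigmaFin k N` is `SigmaFin k N` itself. -/
theorem bsub_eq :
    Bsub k (FF k N) ↥(SigmaFin k N) = Subalgebra.toSubmodule (SigmaFin k N) := by
  ext h
  rw [mem_Bsub_iff_exists, Subalgebra.mem_toSubmodule]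
  constructor
  · rintro ⟨b, rfl⟩
    exact b.2
  · intro hh
    exact ⟨⟨h, hh⟩, rfl⟩

/-- `SigmaInf k N ⊆ Binf k N`. -/
theorem mem_binfsub_of_mem_SigmaInf {h : FF k N} (hh : h ∈ SigmaInf k N) :
    h ∈ Binfsub k (FF k N) ↥(Binf k N) := by
  apply CechDWRank.mem_Binfsub_of_mem_chartAlg_inv k (FF k N) ↥(Binf k N)
  rw [FFSetting.algebraMap_ratFunc_X]
  exact hh

/-- (SUR) at the level: `FF k N = SigmaFin[1/j] + Binf`. -/
theorem exists_mid_add_binf (z : FF k N) :
    ∃ (m : ℕ) (s c : FF k N), s ∈ SigmaFin k N ∧ c ∈ Binfsub k (FF k N) ↥(Binf k N) ∧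
      z = (jF k N)⁻¹ ^ m * s + c := by
  obtain ⟨m, b, c, h⟩ := CechDW.exists_mid_add_inf k (FF k N) ↥(SigmaFin k N) ↥(Binf k N) z
  rw [FFSetting.algebraMap_ratFunc_X] at h
  exact ⟨m, (b : FF k N), algebraMap ↥(Binf k N) (FF k N) c, b.2,
    mem_Binfsub_iff_exists.mpr ⟨c, rfl⟩, h⟩

/-- Dedekind–Weber duality at the level. -/
theorem finrank_quot_eq_finrank_holo :
    Module.finrank k (FF k N ⧸ (Subalgebra.toSubmodule (SigmaFin k N) ⊔
      Binfsub k (FF k N) ↥(Binf k N))) = Module.finrank k (holo k N) := by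
  rw [← bsub_eq]
  exact finrank_quot_eq_finrank_holoSpace k (FF k N) ↥(SigmaFin k N) ↥(Binf k N)

end Field

/-! ### The special fibre of a level `(K, O)` -/

section Level

variable (K : Type) [Field K] [CharZero K] (N : ℕ) [NeZero N]
variable (O : Subring K) [IsDiscreteValuationRing ↥O] [IsFractionRing ↥O K]

set_option quotPrecheck false in
local notation "κ" => IsLocalRing.ResidueField ↥O

/-- **W5, special-fibre half.**  The space of regular differentials of the special fibre has
dimension at most the rank of the free `O`-module `H¹ = Rmid ⧸ (Rfin + Rinf)`. -/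
theorem finrank_holo_special_le
    [FiniteDimensional (RatFunc κ) (FF κ N)] [Algebra.IsSeparable (RatFunc κ) (FF κ N)]
    (hN : IsUnit ((N : ℕ) : ↥O)) {π : ↥O} (hπ : Irreducible π) (hstar : StarStatement K N O)
    (hDed : IsDedekindDomain (Rfin K N O ⧸ fibreIdeal K N O (Rfin K N O))) :
    Module.finrank κ (holo κ N) ≤
      Module.finrank ↥O (Rmid K N O ⧸ chartSum (inclFin K N O) (inclInf K N O)) := by
  rw [← finrank_quot_eq_finrank_holo]
  exact (CechRank.finite_and_finrank_quot_special_le K N O hN hπ hstar hDed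
    (Binfsub κ (FF κ N) ↥(Binf κ N))
    (fun y => mem_binfsub_of_mem_SigmaInf κ N (redInf_mem_SigmaInf K N O hN y))
    (exists_mid_add_binf κ N)).2

end Level

end Fermat.Agent.S40.W.CechRankLevel
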