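/-
S40 / (W3), leaf W2, chart form at infinity (helper2).

`S40/W/DlogHolo.dlog_mem_holoSpace` asks for `IsLocPthPowerOn K Binf p g`, `Binf` = the integral
closure of `O_∞` in `K`.  The level statement `(F4)` (`S40/W/F4Level.f4_inf`) speaks about the CHART
at infinity instead: the integral closure `C₋` of `k[1/x]` in `K` (`SigmaInf κ N` at the level).
Here we transfer: the maximal ideals of `Binf` contract to maximal ideals of `C₋` (containing
`1/x`), because `Binf` is the localisation of `C₋` at `{S(1/x) | S(0) ≠ 0}`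
(`CechDW.exists_den_isIntegral`).  Hence

* `IsLocPthPowerOn.of_chart_inf : IsLocPthPowerOn K C₋ p g → IsLocPthPowerOn K Binf p g`;
* **`dlog_mem_holoSpace_of_charts`** : `g ≠ 0`, `IsLocPthPowerOn K B p g`,
  `IsLocPthPowerOn K C₋ p g` ⟹ `(dg/dx)/g ∈ holoSpace k K B Binf`.
-/
import Fermat.Agent.S40.W.DlogHolo
import Fermat.Agent.S40.W.CechDW
import Fermat.Agent.S40.W.InfChart

set_option autoImplicit false
set_option linter.unusedSectionVars false
set_option linter.style.haveILetI false

open Polynomial Module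

namespace Fermat.Agent.S40.W.DlogChart

open Fermat.Agent.M2.DW Fermat.Agent.S40.W.DerivX Fermat.Agent.S40.W.DlogHolo

noncomputable section

/-- A ring homomorphism between two orders of `K`, from an inclusion of their images. -/
theorem exists_ringHom_of_range_le {C C' K : Type*} [CommRing C] [CommRing C'] [Field K]
    [Algebra C K] [Algebra C' K] (hinj : Function.Injective (algebraMap C' K))
    (hmem : ∀ c : C, algebraMap C K c ∈ (algebraMap C' K).range) :
    ∃ φ : C →+* C', ∀ c, algebraMap C' K (φ c) = algebraMap C K c := by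
  let e : C' ≃+* (algebraMap C' K).range :=
    RingEquiv.ofLeftInverse (g := Function.invFun (algebraMap C' K))
      (Function.leftInverse_invFun hinj)
  refine ⟨e.symm.toRingHom.comp ((algebraMap C K).codRestrict (algebraMap C' K).range hmem), ?_⟩
  intro c
  have h1 : ∀ y : (algebraMap C' K).range, algebraMap C' K (e.symm y) = (y : K) := fun y => by
    have := congrArg Subtype.val (e.apply_symm_apply y)
    exact this
  exact h1 _

variable (k : Type*) [Field k]
variable (K : Type*) [Field K] [Algebra (RatFunc k) K] [FiniteDimensional (RatFunc k) K]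
  [Algebra.IsSeparable (RatFunc k) K]
variable [Algebra k[X] K] [IsScalarTower k[X] (RatFunc k) K]
variable [Algebra k K] [IsScalarTower k (RatFunc k) K]
variable (B : Type*) [CommRing B] [Algebra k[X] B] [Algebra B K] [IsScalarTower k[X] B K]
  [IsIntegralClosure B k[X] K]
variable (Binf : Type*) [CommRing Binf] [Algebra (Oinf k) Binf] [Algebra Binf K]
  [IsScalarTower (Oinf k) Binf K] [IsIntegralClosure Binf (Oinf k) K]
/- the chart at infinity: any order whose image in `K` is the integral closure of `k[1/x]` -/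
variable (Cm : Type*) [CommRing Cm] [Algebra Cm K] [Algebra k Cm] [IsScalarTower k Cm K]

local notation "tK" => (algebraMap (RatFunc k) K (RatFunc.X : RatFunc k))⁻¹

include K in
/-- `1/x` lies in every maximal ideal of `Binf`. -/
theorem algebraMap_piInf_mem (𝔮 : Ideal Binf) (h𝔮 : 𝔮.IsMaximal) :
    algebraMap (Oinf k) Binf (piInf k) ∈ 𝔮 := by
  haveI : Algebra.IsIntegral (Oinf k) Binf := IsIntegralClosure.isIntegral_algebra (Oinf k) K
  haveI := h𝔮
  have hm : (𝔮.comap (algebraMap (Oinf k) Binf)).IsMaximal :=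
    Ideal.isMaximal_comap_of_isIntegral_of_isMaximal 𝔮
  have h1 : 𝔮.comap (algebraMap (Oinf k) Binf) = IsLocalRing.maximalIdeal (Oinf k) :=
    IsLocalRing.eq_maximalIdeal hm
  have h2 : piInf k ∈ 𝔮.comap (algebraMap (Oinf k) Binf) := by
    rw [h1, maximalIdeal_Oinf_eq]
    exact Ideal.mem_span_singleton_self _
  exact h2

theorem algebraMap_algebraMap_piInf :
    algebraMap Binf K (algebraMap (Oinf k) Binf (piInf k)) = tK := by
  rw [← IsScalarTower.algebraMap_apply (Oinf k) Binf K]
  show algebraMap (RatFunc k) K ((piInf k : Oinf k) : RatFunc k) = _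
  rw [coe_piInf, map_inv₀]

/-- **Maximal ideals of `Binf` contract to maximal ideals of the chart at infinity.** -/
theorem isMaximal_comap_chart_inf
    (hCm : ∀ y : K, IsIntegral (Algebra.adjoin k {tK}) y ↔ ∃ c : Cm, algebraMap Cm K c = y)
    (φ : Cm →+* Binf) (hφ : ∀ c, algebraMap Binf K (φ c) = algebraMap Cm K c)
    (𝔮 : Ideal Binf) (h𝔮 : 𝔮.IsMaximal) : (𝔮.comap φ).IsMaximal := by
  have hinj : Function.Injective (algebraMap Binf K) :=
    IsIntegralClosure.algebraMap_injective Binf (Oinf k) K
  -- the element `1/x` of the chart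
  obtain ⟨tC, htC⟩ := (hCm tK).mp
    (CechDW.isIntegral_of_mem_adjoin_inv k K (Algebra.self_mem_adjoin_singleton k _))
  have htq : tC ∈ 𝔮.comap φ := by
    rw [Ideal.mem_comap]
    have : φ tC = algebraMap (Oinf k) Binf (piInf k) := by
      apply hinj
      rw [hφ, htC, algebraMap_algebraMap_piInf]
    rw [this]
    exact algebraMap_piInf_mem k K Binf 𝔮 h𝔮
  rw [Ideal.isMaximal_iff]
  refine ⟨?_, ?_⟩
  · rw [Ideal.mem_comap, map_one]
    exact fun h => h𝔮.ne_top ((Ideal.eq_top_iff_one _).mpr h)
  · intro J c hJ hc hcJ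
    rw [Ideal.mem_comap] at hc
    obtain ⟨b, i, hi, hbi⟩ := h𝔮.exists_inv hc
    obtain ⟨S, hS0, hSint⟩ := CechDW.exists_den_isIntegral k K Binf b
    obtain ⟨c₁, hc₁⟩ := (hCm _).mp hSint
    set sC : Cm := aeval tC S with hsC
    have hsCK : algebraMap Cm K sC = aeval tK S := by
      rw [hsC, ← aeval_algebraMap_apply, htC]
    have hφc₁ : φ c₁ = φ sC * b := by
      apply hinj
      rw [hφ, map_mul, hφ, hc₁, hsCK]
    have hmem : c₁ * c - sC ∈ 𝔮.comap φ := by
      rw [Ideal.mem_comap, map_sub, map_mul, hφc₁]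
      have : φ sC * b * φ c - φ sC = -(φ sC * i) := by
        have hb : b * φ c = 1 - i := by rw [← hbi]; ring
        rw [mul_assoc, hb]; ring
      rw [this]
      exact neg_mem (𝔮.mul_mem_left _ hi)
    have hsJ : sC ∈ J := by
      have h1 : c₁ * c ∈ J := J.mul_mem_left _ hcJ
      have h2 := J.sub_mem h1 (hJ hmem)
      rwa [sub_sub_cancel] at h2
    -- `S(1/x) = S(0) + (1/x)·(…)`
    have hdecomp : sC = aeval tC S.divX * tC + algebraMap k Cm (S.coeff 0) := by
      conv_lhs => rw [hsC, ← Polynomial.divX_mul_X_add S]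
      rw [map_add, map_mul, aeval_X, aeval_C]
    have h0J : algebraMap k Cm (S.coeff 0) ∈ J := by
      have h1 : aeval tC S.divX * tC ∈ J := J.mul_mem_left _ (hJ htq)
      have h2 := J.sub_mem hsJ h1
      rwa [hdecomp, add_sub_cancel_left] at h2
    have hunit : IsUnit (algebraMap k Cm (S.coeff 0)) := (isUnit_iff_ne_zero.mpr hS0).map _
    rw [← Ideal.eq_top_iff_one]
    exact Ideal.eq_top_of_isUnit_mem _ h0J hunit

variable {K}

/-- **Transfer from the chart at infinity to `Binf`.** -/
theorem IsLocPthPowerOn.of_chart_inf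
    (hCm : ∀ y : K, IsIntegral (Algebra.adjoin k {tK}) y ↔ ∃ c : Cm, algebraMap Cm K c = y)
    {p : ℕ} {g : K} (h : IsLocPthPowerOn K Cm p g) : IsLocPthPowerOn K Binf p g := by
  have hinj : Function.Injective (algebraMap Binf K) :=
    IsIntegralClosure.algebraMap_injective Binf (Oinf k) K
  obtain ⟨φ, hφ⟩ := exists_ringHom_of_range_le (C := Cm) (C' := Binf) (K := K) hinj (fun c => by
    rw [RingHom.mem_range]
    exact (IsIntegralClosure.isIntegral_iff (A := Binf)).mp
      (InfChart.isIntegral_Oinf_of_isIntegral_adjoin_inv ((hCm _).mpr ⟨c, rfl⟩)))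
  exact h.of_ringHom φ hφ (isMaximal_comap_chart_inf k K Binf Cm hCm φ hφ)

variable (K)

/-- **The logarithmic derivative of a local `p`-th power is a regular differential** — chart
form: the hypotheses are on the two affine charts `Spec B` (`x ≠ ∞`) and `Spec C₋` (`x ≠ 0`). -/
theorem dlog_mem_holoSpace_of_charts
    (hCm : ∀ y : K, IsIntegral (Algebra.adjoin k {tK}) y ↔ ∃ c : Cm, algebraMap Cm K c = y)
    (p : ℕ) [CharP k p] {g : K} (hg : g ≠ 0) (hfin : IsLocPthPowerOn K B p g)
    (hinf : IsLocPthPowerOn K Cm p g) : derivX k K g / g ∈ holoSpace k K B Binf :=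
  dlog_mem_holoSpace k K B Binf p hg ⟨hfin, IsLocPthPowerOn.of_chart_inf k Binf Cm hCm hinf⟩

end

end Fermat.Agent.S40.W.DlogChart
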