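/-
S40 / (W3), leaf W2, valuation / `Place` form (helper2).

`S40/W/DlogHolo.IsLocPthPowerOn K C p g` (at every maximal ideal `𝔮` of the order `C`:
`g = u s^p`, `u = r / a`, `a, r ∈ C ∖ 𝔮`) from divisibility of the orders of `g`:

* `isLocPthPowerOn_of_forall_heightOne` : `C` Dedekind with fraction field `K`,
  `p ∣ log (w.valuation K g)` for all `w : HeightOneSpectrum C`;
* `isLocPthPowerOn_of_forall_place'` / `isLocPthPowerOn_of_forall_place` : the same with the prelude
  places `AlgebraicCurve.Place k K` (only the places containing `C` are used);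
* `isLocPthPower_of_forall_place` : in the Dedekind–Weber setting `(k, K, B, Binf)`,
  `(∀ s : Place k K, p ∣ s.ord g) → IsLocPthPower K B Binf p g`;
* **`dlog_mem_holoSpace_of_forall_place`** : `g ≠ 0`, `∀ s : Place k K, p ∣ s.ord g` ⟹
  `(dg/dx)/g ∈ holoSpace k K B Binf`   (char `k = p`).
-/
import Fermat.Agent.S40.W.DlogHolo
import Fermat.Agent.S24.PlaceDict

set_option autoImplicit false
set_option linter.unusedSectionVars false
set_option linter.style.haveILetI false

open Polynomial Module IsDedekindDomain AlgebraicCurve WithZero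

namespace Fermat.Agent.S40.W.DlogPlace

open Fermat.Agent.M2.DW Fermat.Agent.S40.W.DerivX Fermat.Agent.S40.W.DlogHolo

noncomputable section

section Dedekind

variable {K : Type*} [Field K] {C : Type*} [CommRing C] [IsDedekindDomain C] [Algebra C K]
  [IsFractionRing C K]

/-- A `w`-adic unit of `K` is a quotient of two elements of `C` outside `w`. -/
theorem exists_div_of_valuation_eq_one (w : HeightOneSpectrum C) {u : K}
    (hu : w.valuation K u = 1) :
    ∃ a r : C, a ∉ w.asIdeal ∧ r ∉ w.asIdeal ∧ u * algebraMap C K a = algebraMap C K r := by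
  obtain ⟨n, d, hnd⟩ := w.exists_primeCompl_mul_eq_of_integer u hu.le
  refine ⟨d, n, d.2, ?_, hnd⟩
  have h1 : w.valuation K (algebraMap C K n) = 1 := by
    rw [← hnd, map_mul, hu, one_mul, HeightOneSpectrum.valuation_of_algebraMap,
      (w.intValuation_eq_one_iff_mem_primeCompl d).mpr d.2]
  rw [HeightOneSpectrum.valuation_of_algebraMap,
    HeightOneSpectrum.intValuation_eq_one_iff_mem_primeCompl] at h1
  exact h1

/-- **Valuation form.**  If `p` divides the order of `g` at every nonzero prime of the Dedekind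
order `C`, then `g` is locally on `Spec C` a unit times a `p`-th power. -/
theorem isLocPthPowerOn_of_forall_heightOne {p : ℕ} {g : K} (hg : g ≠ 0)
    (h : ∀ w : HeightOneSpectrum C, (p : ℤ) ∣ log (w.valuation K g)) :
    IsLocPthPowerOn K C p g := by
  intro 𝔮 h𝔮
  by_cases hbot : 𝔮 = ⊥
  · obtain ⟨r, a, ha, hra⟩ := IsFractionRing.div_surjective (A := C) g
    have ha0 : algebraMap C K a ≠ 0 :=
      (map_ne_zero_iff _ (IsFractionRing.injective C K)).mpr (nonZeroDivisors.ne_zero ha)
    refine ⟨g, 1, a, r, ?_, ?_, by rw [one_pow, mul_one], ?_⟩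
    · rw [hbot, Ideal.mem_bot]; exact nonZeroDivisors.ne_zero ha
    · rw [hbot, Ideal.mem_bot]
      rintro rfl
      rw [map_zero, zero_div] at hra
      exact hg hra.symm
    · rw [← hra, div_mul_cancel₀ _ ha0]
  · let w : HeightOneSpectrum C := ⟨𝔮, h𝔮.isPrime, hbot⟩
    obtain ⟨m, hm⟩ := h w
    obtain ⟨π, hπ⟩ := w.intValuation_exists_uniformizer
    have hπ0 : algebraMap C K π ≠ 0 := by
      intro h0
      have : w.valuation K (algebraMap C K π) = 0 := by rw [h0, map_zero]
      rw [HeightOneSpectrum.valuation_of_algebraMap, hπ] at this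
      exact WithZero.exp_ne_zero this
    set s : K := (algebraMap C K π) ^ (-m) with hs
    have hs0 : s ≠ 0 := zpow_ne_zero _ hπ0
    have hvs : w.valuation K s = exp m := by
      rw [hs, map_zpow₀, HeightOneSpectrum.valuation_of_algebraMap, hπ, ← WithZero.exp_zsmul]
      simp
    have hvg : w.valuation K g = exp ((p : ℤ) * m) := by
      rw [← hm, WithZero.exp_log ((Valuation.ne_zero_iff _).mpr hg)]
    have hvu : w.valuation K (g / s ^ p) = 1 := by
      rw [map_div₀, map_pow, hvs, hvg, ← WithZero.exp_nsmul, nsmul_eq_mul]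
      exact div_self WithZero.exp_ne_zero
    obtain ⟨a, r, ha, hr, e⟩ := exists_div_of_valuation_eq_one w hvu
    exact ⟨g / s ^ p, s, a, r, ha, hr, (div_mul_cancel₀ _ (pow_ne_zero _ hs0)).symm, e⟩

variable (k : Type*) [Field k] [Algebra k K] [Algebra k C] [IsScalarTower k C K]

/-- **`Place` form** (only the places containing `C` are used). -/
theorem isLocPthPowerOn_of_forall_place' {p : ℕ} {g : K} (hg : g ≠ 0)
    (h : ∀ s : Place k K, (∀ c : C, algebraMap C K c ∈ s.toValuationSubring) →
      (p : ℤ) ∣ s.ord g) : IsLocPthPowerOn K C p g :=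
  isLocPthPowerOn_of_forall_heightOne hg fun w => by
    have h1 := h (Place.ofHeightOneSpectrum (K := k) w)
      (S24.algebraMap_mem_ofHeightOneSpectrum (K := k) w)
    rwa [S24.ord_ofHeightOneSpectrum, dvd_neg] at h1

theorem isLocPthPowerOn_of_forall_place {p : ℕ} {g : K} (hg : g ≠ 0)
    (h : ∀ s : Place k K, (p : ℤ) ∣ s.ord g) : IsLocPthPowerOn K C p g :=
  isLocPthPowerOn_of_forall_place' k hg fun s _ => h s

end Dedekind

/-! ### the Dedekind–Weber setting -/

variable (k : Type*) [Field k]
variable (K : Type*) [Field K] [Algebra (RatFunc k) K] [FiniteDimensional (RatFunc k) K]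
  [Algebra.IsSeparable (RatFunc k) K]
variable [Algebra k[X] K] [IsScalarTower k[X] (RatFunc k) K]
variable [Algebra k K] [IsScalarTower k (RatFunc k) K]
variable (B : Type*) [CommRing B] [Algebra k[X] B] [Algebra B K] [IsScalarTower k[X] B K]
  [IsIntegralClosure B k[X] K]
variable (Binf : Type*) [CommRing Binf] [Algebra (Oinf k) Binf] [Algebra Binf K]
  [IsScalarTower (Oinf k) Binf K] [IsIntegralClosure Binf (Oinf k) K]

attribute [local instance] isScalarTower_poly isScalarTower_Oinf

/-- Finite places. -/
theorem isLocPthPowerOn_B_of_forall_place {p : ℕ} {g : K} (hg : g ≠ 0)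
    (h : ∀ s : Place k K, (∀ b : B, algebraMap B K b ∈ s.toValuationSubring) →
      (p : ℤ) ∣ s.ord g) : IsLocPthPowerOn K B p g := by
  haveI : IsDomain B := (IsIntegralClosure.algebraMap_injective B k[X] K).isDomain
  haveI : IsDedekindDomain B := IsIntegralClosure.isDedekindDomain k[X] (RatFunc k) K B
  haveI : IsFractionRing B K :=
    IsIntegralClosure.isFractionRing_of_finite_extension k[X] (RatFunc k) K B
  letI : Algebra k B := ((algebraMap k[X] B).comp (algebraMap k k[X])).toAlgebra
  haveI : IsScalarTower k B K := IsScalarTower.of_algebraMap_eq fun c => by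
    rw [RingHom.algebraMap_toAlgebra, RingHom.comp_apply,
      ← IsScalarTower.algebraMap_apply k[X] B K, ← IsScalarTower.algebraMap_apply k k[X] K]
  exact isLocPthPowerOn_of_forall_place' k hg h

/-- The places at infinity. -/
theorem isLocPthPowerOn_Binf_of_forall_place {p : ℕ} {g : K} (hg : g ≠ 0)
    (h : ∀ s : Place k K, (∀ b : Binf, algebraMap Binf K b ∈ s.toValuationSubring) →
      (p : ℤ) ∣ s.ord g) : IsLocPthPowerOn K Binf p g := by
  haveI : IsDomain Binf := (IsIntegralClosure.algebraMap_injective Binf (Oinf k) K).isDomain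
  haveI : IsDedekindDomain Binf :=
    IsIntegralClosure.isDedekindDomain (Oinf k) (RatFunc k) K Binf
  haveI : IsFractionRing Binf K :=
    IsIntegralClosure.isFractionRing_of_finite_extension (Oinf k) (RatFunc k) K Binf
  letI : Algebra k Binf := ((algebraMap (Oinf k) Binf).comp (algebraMap k (Oinf k))).toAlgebra
  haveI : IsScalarTower k Binf K := IsScalarTower.of_algebraMap_eq fun c => by
    rw [RingHom.algebraMap_toAlgebra, RingHom.comp_apply,
      ← IsScalarTower.algebraMap_apply (Oinf k) Binf K,
      ← IsScalarTower.algebraMap_apply k (Oinf k) K]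
  exact isLocPthPowerOn_of_forall_place' k hg h

/-- **`p ∣ ord_s g` at every place `s` of `K / k` ⟹ `g` is everywhere locally a unit times a
`p`-th power.** -/
theorem isLocPthPower_of_forall_place {p : ℕ} {g : K} (hg : g ≠ 0)
    (h : ∀ s : Place k K, (p : ℤ) ∣ s.ord g) : IsLocPthPower K B Binf p g :=
  ⟨isLocPthPowerOn_B_of_forall_place k K B hg fun s _ => h s,
    isLocPthPowerOn_Binf_of_forall_place k K Binf hg fun s _ => h s⟩

/-- **`div g ∈ p · Div` ⟹ `dg/g` is a regular differential** (characteristic `p`), in the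
vocabulary of the prelude places. -/
theorem dlog_mem_holoSpace_of_forall_place (p : ℕ) [CharP k p] {g : K} (hg : g ≠ 0)
    (h : ∀ s : Place k K, (p : ℤ) ∣ s.ord g) : derivX k K g / g ∈ holoSpace k K B Binf :=
  dlog_mem_holoSpace k K B Binf p hg (isLocPthPower_of_forall_place k K B Binf hg h)

end

end Fermat.Agent.S40.W.DlogPlace
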