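/-
S40 / (W3), node (D′)/(★), coefficient transfer on the GAUSS RING (helper15; extension of helper4's
`S40/W/HeckeStar.lean`).

A function `f` of level `N` over `Q̄` which is a unit for the Gauss valuation of `A ⊂ Q̄` need NOT
have a `q`-expansion with coefficients in `A` (`1 / (1 + ϖ j)` is a Gauss unit whose `q`-expansion
has unbounded denominators): its `q`-expansion is only a QUOTIENT `a / b` of series over `A` with
`b̄ ≠ 0`, i.e. an element of the Gauss ring `GaussBar.gaussBar A Q̄`, and its reduction is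
`N4F.C.thetaBar A N f = ā / b̄`.  This file redoes the coefficient transfer of `HeckeStar` on the
Gauss ring:

* `qG k`, `tG u`, `cG a` : `qExpand`, `twist` by a unit of `A`, constants of `A`, as maps of the
  Gauss ring `gaussA A`, and the compatibility of the reduction `GaussBar.thetaBar` with them
  (`thetaBar_qG`, `thetaBar_tG`, `thetaBar_cG`);
* `prod_identity_residue_gauss` : the product identity
  `F(t^{ℓ²}) ∏_{i<ℓ} F(ζ^i t) = c · F(t^ℓ)^m · E(t^ℓ)^p` for `F`, `E` in the Gauss ring with nonzero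
  reductions reduces to the same identity for `F̄`, `Ē`;
* **`hecke_coeff_of_normBeta_gauss`** : `N_α(β f) = c · f^m · e^p`, `f, e ∈ gaussSub A N` with
  `thetaBar f ≠ 0`, `thetaBar e ≠ 0`, `b · thetaBar f = θ (thetaBar f)` ⇒
  `b_{ℓ n} + ℓ b_{n/ℓ} = m b_n` for all `n`.
-/
import Mathlib
import Fermat.Agent.S40.W.HeckeStar
import Fermat.Agent.N4F.C.Base

set_option autoImplicit false
set_option linter.unusedSectionVars false

open HahnSeries ModularCurve
open Fermat.Agent.N4.TwistSeries Fermat.Agent.S36.R3.PiSeries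
open Fermat.Agent.S40.W.HeckeDlog Fermat.Agent.S40.W.NormQExp Fermat.Agent.S40.W.HeckeStar
open Fermat.Agent.N4F.C

namespace Fermat.Agent.S40.W.HeckeStarGauss

noncomputable section

section Gauss

variable {Q : Type*} [Field Q] (A : ValuationSubring Q)

local notation "κA" => IsLocalRing.ResidueField A

/-- The Gauss ring of a valuation subring `A ⊂ Q`. -/
abbrev gaussA : Subring (LaurentSeries Q) := GaussBar.gaussBar (↥A) Q

variable {A}

theorem redBar_qExpand (k : ℕ) [NeZero k] (b : LaurentSeries A) :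
    GaussBar.redBar ↥A (qExpand A k b) = qExpand κA k (GaussBar.redBar ↥A b) :=
  coeffMap_qExpand _ k b

theorem embBar_qExpand (k : ℕ) [NeZero k] (b : LaurentSeries A) :
    GaussBar.embBar ↥A Q (qExpand A k b) = qExpand Q k (GaussBar.embBar ↥A Q b) :=
  coeffMap_qExpand _ k b

theorem redBar_qExpand_ne_zero (k : ℕ) [NeZero k] {b : LaurentSeries A}
    (hb : GaussBar.redBar ↥A b ≠ 0) : GaussBar.redBar ↥A (qExpand A k b) ≠ 0 := by
  rw [redBar_qExpand]
  exact fun h => hb (qExpand_injective (R := κA) k (h.trans (map_zero _).symm))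

theorem qExpand_mem_gaussBar (k : ℕ) [NeZero k] {x : LaurentSeries Q} (hx : x ∈ gaussA A) :
    qExpand Q k x ∈ gaussA A := by
  obtain ⟨a, b, hb, hab⟩ := hx
  refine ⟨qExpand A k a, qExpand A k b, redBar_qExpand_ne_zero k hb, ?_⟩
  rw [embBar_qExpand, embBar_qExpand, ← map_mul]
  exact congrArg _ hab

/-- `qExpand` on the Gauss ring. -/
def qG (k : ℕ) [NeZero k] (x : gaussA A) : gaussA A :=
  ⟨qExpand Q k (x : LaurentSeries Q), qExpand_mem_gaussBar k x.2⟩

theorem coe_qG (k : ℕ) [NeZero k] (x : gaussA A) :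
    ((qG k x : gaussA A) : LaurentSeries Q) = qExpand Q k (x : LaurentSeries Q) := rfl

theorem thetaBar_qG (k : ℕ) [NeZero k] (x : gaussA A) :
    GaussBar.thetaBar (qG k x) = qExpand κA k (GaussBar.thetaBar x) := by
  obtain ⟨a, b, hb, hab⟩ := x.2
  have hab' : ((qG k x : gaussA A) : LaurentSeries Q) * GaussBar.embBar ↥A Q (qExpand A k b) =
      GaussBar.embBar ↥A Q (qExpand A k a) := by
    rw [coe_qG, embBar_qExpand, embBar_qExpand, ← map_mul]
    exact congrArg _ hab
  rw [GaussBar.thetaBar_eq _ (redBar_qExpand_ne_zero k hb) hab', GaussBar.thetaBar_eq x hb hab,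
    redBar_qExpand, redBar_qExpand, map_div₀]

theorem redBar_twist (u : Aˣ) (b : LaurentSeries A) :
    GaussBar.redBar ↥A (twist u b) =
      twist (Units.map (IsLocalRing.residue A : A →* κA) u) (GaussBar.redBar ↥A b) :=
  coeffMap_twist _ u b

theorem embBar_twist (u : Aˣ) (b : LaurentSeries A) :
    GaussBar.embBar ↥A Q (twist u b) =
      twist (Units.map (A.subtype : A →* Q) u) (GaussBar.embBar ↥A Q b) :=
  coeffMap_twist _ u b

theorem redBar_twist_ne_zero (u : Aˣ) {b : LaurentSeries A}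
    (hb : GaussBar.redBar ↥A b ≠ 0) : GaussBar.redBar ↥A (twist u b) ≠ 0 := by
  rw [redBar_twist]
  exact fun h => hb (twist_injective _ (h.trans (map_zero _).symm))

theorem twist_mem_gaussBar (u : Aˣ) {x : LaurentSeries Q} (hx : x ∈ gaussA A) :
    twist (Units.map (A.subtype : A →* Q) u) x ∈ gaussA A := by
  obtain ⟨a, b, hb, hab⟩ := hx
  refine ⟨twist u a, twist u b, redBar_twist_ne_zero u hb, ?_⟩
  rw [embBar_twist, embBar_twist, ← map_mul]
  exact congrArg _ hab

/-- `twist` by a unit of `A` on the Gauss ring. -/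
def tG (u : Aˣ) (x : gaussA A) : gaussA A :=
  ⟨twist (Units.map (A.subtype : A →* Q) u) (x : LaurentSeries Q), twist_mem_gaussBar u x.2⟩

theorem coe_tG (u : Aˣ) (x : gaussA A) :
    ((tG u x : gaussA A) : LaurentSeries Q) =
      twist (Units.map (A.subtype : A →* Q) u) (x : LaurentSeries Q) := rfl

theorem thetaBar_tG (u : Aˣ) (x : gaussA A) :
    GaussBar.thetaBar (tG u x) =
      twist (Units.map (IsLocalRing.residue A : A →* κA) u) (GaussBar.thetaBar x) := by
  obtain ⟨a, b, hb, hab⟩ := x.2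
  have hab' : ((tG u x : gaussA A) : LaurentSeries Q) * GaussBar.embBar ↥A Q (twist u b) =
      GaussBar.embBar ↥A Q (twist u a) := by
    rw [coe_tG, embBar_twist, embBar_twist, ← map_mul]
    exact congrArg _ hab
  rw [GaussBar.thetaBar_eq _ (redBar_twist_ne_zero u hb) hab', GaussBar.thetaBar_eq x hb hab,
    redBar_twist, redBar_twist, map_div₀]

theorem embBar_C (a : A) : GaussBar.embBar ↥A Q (HahnSeries.C a) = HahnSeries.C (a : Q) :=
  incA_C A a

theorem redBar_C (a : A) :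
    GaussBar.redBar ↥A (HahnSeries.C a) = HahnSeries.C (IsLocalRing.residue A a) :=
  redA_C A a

theorem C_mem_gaussBar (a : A) : (HahnSeries.C (a : Q) : LaurentSeries Q) ∈ gaussA A := by
  refine ⟨HahnSeries.C a, 1, ?_, ?_⟩
  · rw [map_one]; exact one_ne_zero
  · rw [map_one, mul_one, embBar_C]

/-- constants of `A` in the Gauss ring -/
def cG (a : A) : gaussA A := ⟨HahnSeries.C (a : Q), C_mem_gaussBar a⟩

theorem coe_cG (a : A) : ((cG a : gaussA A) : LaurentSeries Q) = HahnSeries.C (a : Q) := rfl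

theorem thetaBar_cG (a : A) :
    GaussBar.thetaBar (cG a) = HahnSeries.C (IsLocalRing.residue A a) := by
  have h1 : GaussBar.redBar ↥A (1 : LaurentSeries A) ≠ 0 := by
    rw [map_one]; exact one_ne_zero
  have h2 : ((cG a : gaussA A) : LaurentSeries Q) * GaussBar.embBar ↥A Q 1 =
      GaussBar.embBar ↥A Q (HahnSeries.C a) := by
    rw [map_one, mul_one, embBar_C, coe_cG]
  rw [GaussBar.thetaBar_eq _ h1 h2, map_one, div_one, redBar_C]

/-- **Reduction of the product identity, on the Gauss ring.** -/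
theorem prod_identity_residue_gauss (ℓ p m : ℕ) [NeZero ℓ] (ζ : Qˣ) (hζ : ζ ^ ℓ = 1)
    (F E : gaussA A) (c : Q) (hF0 : GaussBar.thetaBar F ≠ 0) (hE0 : GaussBar.thetaBar E ≠ 0)
    (hid : qExpand Q (ℓ * ℓ) (F : LaurentSeries Q) *
        ∏ i ∈ Finset.range ℓ, twist (ζ ^ i) (F : LaurentSeries Q) =
      HahnSeries.C c * qExpand Q ℓ (F : LaurentSeries Q) ^ m *
        qExpand Q ℓ (E : LaurentSeries Q) ^ p) :
    ∃ (ζ' : κAˣ) (c' : κA), ζ' ^ ℓ = 1 ∧
      qExpand κA (ℓ * ℓ) (GaussBar.thetaBar F) *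
          ∏ i ∈ Finset.range ℓ, twist (ζ' ^ i) (GaussBar.thetaBar F) =
        HahnSeries.C c' * qExpand κA ℓ (GaussBar.thetaBar F) ^ m *
          qExpand κA ℓ (GaussBar.thetaBar E) ^ p := by
  have : NeZero (ℓ * ℓ) := ⟨Nat.mul_ne_zero (NeZero.ne ℓ) (NeZero.ne ℓ)⟩
  obtain ⟨u, hu⟩ := exists_unit_of_pow_eq_one A (NeZero.ne ℓ) ζ hζ
  set ζ' : κAˣ := Units.map (IsLocalRing.residue A : A →* κA) u with hζ'
  have hu1 : u ^ ℓ = 1 := by
    apply Units.map_injective (f := (A.subtype : A →* Q)) Subtype.val_injective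
    rw [map_pow, hu, hζ, map_one]
  have hζ'1 : ζ' ^ ℓ = 1 := by rw [hζ', ← map_pow, hu1, map_one]
  -- the two sides, as elements of the Gauss ring
  set P : gaussA A := qG (ℓ * ℓ) F * ∏ i ∈ Finset.range ℓ, tG (u ^ i) F with hP
  set R : gaussA A := qG ℓ F ^ m * qG ℓ E ^ p with hR
  have hcoeP : (P : LaurentSeries Q) = qExpand Q (ℓ * ℓ) (F : LaurentSeries Q) *
      ∏ i ∈ Finset.range ℓ, twist (ζ ^ i) (F : LaurentSeries Q) := by
    rw [hP, Subring.coe_mul, coe_qG, SubmonoidClass.coe_finsetProd]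
    congr 1
    refine Finset.prod_congr rfl fun i _ => ?_
    rw [coe_tG, map_pow, hu]
  have hcoeR : (R : LaurentSeries Q) = qExpand Q ℓ (F : LaurentSeries Q) ^ m *
      qExpand Q ℓ (E : LaurentSeries Q) ^ p := by
    rw [hR, Subring.coe_mul, Subring.coe_pow, Subring.coe_pow, coe_qG, coe_qG]
  have hredP : GaussBar.thetaBar P = qExpand κA (ℓ * ℓ) (GaussBar.thetaBar F) *
      ∏ i ∈ Finset.range ℓ, twist (ζ' ^ i) (GaussBar.thetaBar F) := by
    rw [hP, map_mul, map_prod, thetaBar_qG]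
    congr 1
    refine Finset.prod_congr rfl fun i _ => ?_
    rw [thetaBar_tG, hζ', map_pow]
  have hredR : GaussBar.thetaBar R = qExpand κA ℓ (GaussBar.thetaBar F) ^ m *
      qExpand κA ℓ (GaussBar.thetaBar E) ^ p := by
    rw [hR, map_mul, map_pow, map_pow, thetaBar_qG, thetaBar_qG]
  have hredR0 : GaussBar.thetaBar R ≠ 0 := by
    rw [hredR]
    refine mul_ne_zero (pow_ne_zero _ ?_) (pow_ne_zero _ ?_)
    · exact fun h => hF0 (qExpand_injective (R := κA) ℓ (h.trans (map_zero _).symm))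
    · exact fun h => hE0 (qExpand_injective (R := κA) ℓ (h.trans (map_zero _).symm))
  rw [← hcoeP, mul_assoc, ← hcoeR] at hid
  clear_value P R
  by_cases hcA : c ∈ A
  · refine ⟨ζ', IsLocalRing.residue A ⟨c, hcA⟩, hζ'1, ?_⟩
    have h1 : P = cG ⟨c, hcA⟩ * R := Subtype.ext hid
    rw [← hredP, mul_assoc, ← hredR, h1, map_mul, thetaBar_cG]
  · exfalso
    have hc : c⁻¹ ∈ A := (A.mem_or_inv_mem c).resolve_left hcA
    have hc0 : c ≠ 0 := fun h => hcA (by rw [h]; exact A.zero_mem)
    have hres : IsLocalRing.residue A ⟨c⁻¹, hc⟩ = 0 := by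
      rw [IsLocalRing.residue_eq_zero_iff, IsLocalRing.mem_maximalIdeal, mem_nonunits_iff]
      intro hunit
      obtain ⟨w, hw⟩ := hunit.exists_right_inv
      have h3 : c⁻¹ * (w : Q) = 1 := by
        have := congrArg (fun z : A => (z : Q)) hw
        simpa using this
      have h4 : (w : Q) = c := by
        field_simp at h3
        exact h3
      exact hcA (h4 ▸ w.2)
    have h1 : cG ⟨c⁻¹, hc⟩ * P = R := by
      apply Subtype.ext
      rw [Subring.coe_mul, coe_cG, hid, ← mul_assoc, ← map_mul]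
      show HahnSeries.C (c⁻¹ * c) * (R : LaurentSeries Q) = (R : LaurentSeries Q)
      rw [inv_mul_cancel₀ hc0, map_one, one_mul]
    apply hredR0
    rw [← h1, map_mul, thetaBar_cG, hres, map_zero, zero_mul]

end Gauss

/-! ### The assembled statement -/

section Assembled

open Fermat.Agent.N4F.Tors

variable (N ℓ p : ℕ) [NeZero N] [Fact ℓ.Prime] (A : ValuationSubring Qb)

local notation "κA" => IsLocalRing.ResidueField A

/-- **(D′) assembled, on the Gauss ring.** If `N_α(β f) = c · f^m · e^p` in `F₀(N)`, `f`, `e` are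
in the Gauss ring of `A` with nonzero reductions, and `b · f̄ = θ f̄`, then
`b_{ℓ n} + ℓ b_{n/ℓ} = m b_n` for all `n`. -/
theorem hecke_coeff_of_normBeta_gauss [CharP κA p] (hℓN : ¬ ℓ ∣ N) (hℓp : ((ℓ : ℕ) : κA) ≠ 0)
    (f e : Fb N) (c : Qb) (m : ℕ)
    (hstar : HeckeDiv.normBeta N ℓ f =
      algebraMap Qb (modularFunctionFieldBar N) c * f ^ m * e ^ p)
    (hf : f ∈ gaussSub A N) (he : e ∈ gaussSub A N)
    (hf0 : thetaBar A N f ≠ 0) (he0 : thetaBar A N e ≠ 0)
    (b : LaurentSeries κA) (hb : HasDlog (thetaBar A N f) b) (n : ℤ) :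
    b.coeff ((ℓ : ℤ) * n) + (ℓ : κA) * (if (ℓ : ℤ) ∣ n then b.coeff (n / ℓ) else 0) =
      (m : κA) * b.coeff n := by
  obtain ⟨ζ, hζ1, -, hζ⟩ := exists_zeta_normBeta_qexp N ℓ hℓN
  have h1 := hζ f
  rw [hstar] at h1
  have hcoe : ((algebraMap Qb (modularFunctionFieldBar N) c * f ^ m * e ^ p :
      modularFunctionFieldBar N) : LaurentSeries Qb) =
      HahnSeries.C c * (f : LaurentSeries Qb) ^ m * (e : LaurentSeries Qb) ^ p := by
    push_cast
    congr 2
    have h1 : algebraMap Qb (PowerSeries Qb) c = PowerSeries.C c := by simp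
    rw [HahnSeries.algebraMap_apply', h1, HahnSeries.ofPowerSeries_C]
  rw [hcoe, map_mul, map_mul, map_pow, map_pow] at h1
  have hC : qExpand Qb ℓ (HahnSeries.C c) = HahnSeries.C c := qExpand_C ℓ c
  rw [hC] at h1
  have hF : thetaBar A N f = GaussBar.thetaBar (gaussSubIncl A N ⟨f, hf⟩) := thetaBar_of_mem hf
  have hE : thetaBar A N e = GaussBar.thetaBar (gaussSubIncl A N ⟨e, he⟩) := thetaBar_of_mem he
  rw [hF] at hf0 hb
  rw [hE] at he0
  obtain ⟨ζ', c', hζ'1, hid⟩ := prod_identity_residue_gauss ℓ p m ζ hζ1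
    (gaussSubIncl A N ⟨f, hf⟩) (gaussSubIncl A N ⟨e, he⟩) c hf0 he0 h1.symm
  exact hecke_coeff p ℓ hℓp ζ' hζ'1 _ _ b hf0 hb c' m hid n

end Assembled

end
end Fermat.Agent.S40.W.HeckeStarGauss
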