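/-
S40 (row 38), (W3) leaf W-DESC, generic form (helper6): **descent of `holoSpace` along a finite
extension of degree prime to the characteristic.**

`K ⊆ K'` finite extensions of `RatFunc k` in the Dedekind–Weber setting of `M2/DWMain`
(`(K, B, Binf)`, `(K', B', Binf')`, with `B → B'`, `Binf → Binf'`), `[K' : K]` invertible in `k`.
If `h ∈ K` and its image in `K'` lies in `holoSpace k K' B' Binf'`, then `h ∈ holoSpace k K B Binf`
(`mem_holoSpace_of_algebraMap_mem`): `Tr_{K'/F} (h b) = [K' : K] · Tr_{K/F} (h b)`.

Use: `K = FF κ M'`, `K' = FF κ N_aux` (`N_aux = lcm(4, M')`, degree `∈ {1, 2, 6}`, `p ≥ 5`): a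
differential of the small level which is regular on the auxiliary level is regular.
-/
import Mathlib
import Fermat.Agent.M2.DWMain

set_option autoImplicit false
set_option linter.unusedSectionVars false
set_option linter.style.longLine false
set_option linter.style.haveILetI false

open Polynomial Module

namespace Fermat.Agent.S40.W.HoloDescent

open Fermat.Agent.M2.DW

/-! ### Trace duals -/

section TraceDual

variable {A F K K' B B' : Type*} [CommRing A] [Field F] [Field K] [Field K'] [CommRing B]
  [CommRing B'] [Algebra A F] [Algebra F K] [Algebra F K'] [Algebra K K'] [IsScalarTower F K K']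
  [Algebra A K] [IsScalarTower A F K] [Algebra A K'] [IsScalarTower A F K']
  [Algebra B K] [Algebra A B] [IsScalarTower A B K]
  [Algebra B' K'] [Algebra A B'] [IsScalarTower A B' K']
  [FiniteDimensional F K] [FiniteDimensional K K']

/-- `Tr_{K'/F} (x) = [K' : K] · Tr_{K/F} (x)` for `x ∈ K`. -/
theorem trace_algebraMap_tower (x : K) :
    Algebra.trace F K' (algebraMap K K' x) = finrank K K' • Algebra.trace F K x := by
  rw [← Algebra.trace_trace (S := K), Algebra.trace_algebraMap, map_nsmul]

/-- **Descent of trace duals** along `K ⊆ K'` when `[K' : K]` is invertible in `A`. -/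
theorem mem_traceDual_of_algebraMap_mem (I : Submodule B K) (I' : Submodule B' K')
    (hI : ∀ a ∈ I, algebraMap K K' a ∈ I') (u : A)
    (hu : algebraMap A F u * ((finrank K K' : ℕ) : F) = 1) {h : K}
    (hh : algebraMap K K' h ∈ Submodule.traceDual A F I') : h ∈ Submodule.traceDual A F I := by
  rw [Submodule.mem_traceDual] at hh ⊢
  intro a ha
  obtain ⟨r, hr⟩ := hh _ (hI a ha)
  refine ⟨u * r, ?_⟩
  rw [Algebra.traceForm_apply] at hr ⊢
  rw [← map_mul, trace_algebraMap_tower, nsmul_eq_mul] at hr
  rw [map_mul, hr, ← mul_assoc, hu, one_mul]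

end TraceDual

/-! ### Integral closures in a tower -/

section IntClosure

/-- The integral closure of `A` in `K` maps into the integral closure of `A` in `K' ⊇ K`. -/
theorem exists_algebraMap_eq_of_isIntegralClosure (A : Type*) {K K' B B' : Type*} [CommRing A]
    [Field K] [Field K'] [CommRing B] [CommRing B']
    [Algebra A K] [Algebra A K'] [Algebra K K'] [IsScalarTower A K K']
    [Algebra A B] [Algebra B K] [IsScalarTower A B K] [IsIntegralClosure B A K]
    [Algebra A B'] [Algebra B' K'] [IsScalarTower A B' K'] [IsIntegralClosure B' A K'] (b : B) :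
    ∃ b' : B', algebraMap B' K' b' = algebraMap K K' (algebraMap B K b) := by
  have h1 : IsIntegral A (algebraMap B K b) :=
    IsIntegralClosure.isIntegral_iff (A := B).mpr ⟨b, rfl⟩
  have h2 : IsIntegral A (algebraMap K K' (algebraMap B K b)) :=
    h1.map (IsScalarTower.toAlgHom A K K')
  exact IsIntegralClosure.isIntegral_iff.mp h2

/-- Transitivity of towers through a middle field. -/
theorem isScalarTower_of_mid (A F K K' : Type*) [CommRing A] [Field F] [Field K] [Field K']
    [Algebra A F] [Algebra F K] [Algebra F K'] [Algebra A K] [Algebra A K'] [Algebra K K']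
    [IsScalarTower A F K] [IsScalarTower A F K'] [IsScalarTower F K K'] : IsScalarTower A K K' := by
  refine IsScalarTower.of_algebraMap_eq fun x => ?_
  rw [IsScalarTower.algebraMap_apply A F K', IsScalarTower.algebraMap_apply F K K',
    ← IsScalarTower.algebraMap_apply A F K]

end IntClosure

/-! ### The Dedekind–Weber setting -/

section DW

variable (k : Type*) [Field k]
variable (K : Type*) [Field K] [Algebra (RatFunc k) K] [FiniteDimensional (RatFunc k) K]
  [Algebra.IsSeparable (RatFunc k) K]
variable [Algebra k[X] K] [IsScalarTower k[X] (RatFunc k) K]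
variable (B : Type*) [CommRing B] [Algebra k[X] B] [Algebra B K] [IsScalarTower k[X] B K]
  [IsIntegralClosure B k[X] K]
variable (Binf : Type*) [CommRing Binf] [Algebra (Oinf k) Binf] [Algebra Binf K]
  [IsScalarTower (Oinf k) Binf K] [IsIntegralClosure Binf (Oinf k) K]
variable [Algebra k K] [IsScalarTower k (RatFunc k) K]
variable (K' : Type*) [Field K'] [Algebra (RatFunc k) K'] [FiniteDimensional (RatFunc k) K']
  [Algebra.IsSeparable (RatFunc k) K']
variable [Algebra k[X] K'] [IsScalarTower k[X] (RatFunc k) K']
variable (B' : Type*) [CommRing B'] [Algebra k[X] B'] [Algebra B' K'] [IsScalarTower k[X] B' K']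
  [IsIntegralClosure B' k[X] K']
variable (Binf' : Type*) [CommRing Binf'] [Algebra (Oinf k) Binf'] [Algebra Binf' K']
  [IsScalarTower (Oinf k) Binf' K'] [IsIntegralClosure Binf' (Oinf k) K']
variable [Algebra k K'] [IsScalarTower k (RatFunc k) K']
variable [Algebra K K'] [IsScalarTower (RatFunc k) K K']

/-- **W-DESC, generic form.** -/
theorem mem_holoSpace_of_algebraMap_mem
    (hB : ∀ b : B, ∃ b' : B', algebraMap B' K' b' = algebraMap K K' (algebraMap B K b))
    (hBinf : ∀ c : Binf, ∃ c' : Binf', algebraMap Binf' K' c' = algebraMap K K' (algebraMap Binf K c))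
    (hd : ((finrank K K' : ℕ) : k) ≠ 0) {h : K}
    (hh : algebraMap K K' h ∈ holoSpace k K' B' Binf') : h ∈ holoSpace k K B Binf := by
  haveI : FiniteDimensional K K' := FiniteDimensional.right (RatFunc k) K K'
  rw [mem_holoSpace_iff] at hh ⊢
  obtain ⟨h1, h2⟩ := hh
  have hcast : ((finrank K K' : ℕ) : RatFunc k) = RatFunc.C ((finrank K K' : ℕ) : k) := by
    rw [map_natCast]
  constructor
  · refine mem_traceDual_of_algebraMap_mem (A := k[X]) (F := RatFunc k) (1 : Submodule B K)
      (1 : Submodule B' K') ?_ (Polynomial.C (((finrank K K' : ℕ) : k)⁻¹)) ?_ h1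
    · intro a ha
      obtain ⟨b, rfl⟩ := Submodule.mem_one.1 ha
      obtain ⟨b', hb'⟩ := hB b
      rw [← hb']
      exact Submodule.mem_one.2 ⟨b', rfl⟩
    · rw [hcast, RatFunc.algebraMap_C, ← map_mul, inv_mul_cancel₀ hd, map_one]
  · have h3 : algebraMap K K' ((RatFunc.X : RatFunc k) ^ (2 : ℤ) • h) =
        (RatFunc.X : RatFunc k) ^ (2 : ℤ) • algebraMap K K' h := by
      rw [Algebra.smul_def, Algebra.smul_def, map_mul, ← IsScalarTower.algebraMap_apply]
    rw [← h3] at h2
    refine mem_traceDual_of_algebraMap_mem (A := Oinf k) (F := RatFunc k) (1 : Submodule Binf K)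
      (1 : Submodule Binf' K') ?_ (algebraMap k (Oinf k) (((finrank K K' : ℕ) : k)⁻¹)) ?_ h2
    · intro a ha
      obtain ⟨c, rfl⟩ := Submodule.mem_one.1 ha
      obtain ⟨c', hc'⟩ := hBinf c
      rw [← hc']
      exact Submodule.mem_one.2 ⟨c', rfl⟩
    · rw [hcast]
      show RatFunc.C (((finrank K K' : ℕ) : k)⁻¹) * RatFunc.C ((finrank K K' : ℕ) : k) = 1
      rw [← map_mul, inv_mul_cancel₀ hd, map_one]

/-- **W-DESC, generic form**, the inclusions `B → B'`, `Binf → Binf'` being automatic. -/
theorem mem_holoSpace_of_algebraMap_mem' (hd : ((finrank K K' : ℕ) : k) ≠ 0) {h : K}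
    (hh : algebraMap K K' h ∈ holoSpace k K' B' Binf') : h ∈ holoSpace k K B Binf := by
  haveI : IsScalarTower k[X] K K' := isScalarTower_of_mid k[X] (RatFunc k) K K'
  haveI : IsScalarTower (Oinf k) K K' := isScalarTower_of_mid (Oinf k) (RatFunc k) K K'
  exact mem_holoSpace_of_algebraMap_mem k K B Binf K' B' Binf'
    (fun b => exists_algebraMap_eq_of_isIntegralClosure k[X] b)
    (fun c => exists_algebraMap_eq_of_isIntegralClosure (Oinf k) c) hd hh

end DW

end Fermat.Agent.S40.W.HoloDescent
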