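/-
S40 (row 38), (W3) leaf W8b = input **HB** of W10, FINAL form (helper13).

For every field `K` of characteristic zero with an embedding `ι : K →+* ℂ`:

    `finrank K (Setting.holo K N) ≤ finrank ℂ (CuspForm (Gamma0 N) 2)`.

`S40/W/HoloLeAbs.finrank_holo_le` (abstract bridge; valuation route `S40/W/ValRestrict`) instantiated
with helper27's coefficientwise bridge `FormsHoloAlg.embQ K ι N : FF K N →+* WHField (Gamma0 N)`
(`qexpField (embQ h) = coeffMap ι h`); linear disjointness is `S24/LaurentDisjoint.linearIndependent_mapL`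
read through the injective `ℂ`-linear `q`-expansion `S24.FieldIso.qexpField`.
-/
import Mathlib
import Fermat.Agent.S40.W.HoloLeAbs
import Fermat.Agent.S40.W.FormsHoloAlg
import Fermat.Agent.S24.LaurentDisjoint

set_option autoImplicit false
set_option linter.unusedSectionVars false
set_option linter.style.haveILetI false

open ModularCurve Polynomial CongruenceSubgroup
open Fermat.Agent.N4.Setting Fermat.Agent.M2 Fermat.Agent.S24.FieldIso
open scoped Fermat.Agent.S40.W.FFSetting Fermat.Agent.S40.W.Setting

noncomputable section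

namespace Fermat.Agent.S40.W.HoloLeFinal

variable (K : Type) [Field K] [CharZero K] (ι : K →+* ℂ) (N : ℕ) [NeZero N]

section Bridge

variable (φ : FF K N →+* WHField (Gamma0 N))
  (hφq : ∀ h : FF K N, qexpField N (φ h) = coeffMap ι ((h : FF K N) : LaurentSeries K))

include hφq

/-- A `q`-expansion compatible bridge maps `j` to `j`. -/
theorem map_jF : φ (jF K N) = HoloRangeFinal.xK N := by
  rw [← FFSetting.algebraMap_poly_X K N, FormsHoloAlg.map_algebraMap_poly K ι N φ hφq,
    Polynomial.map_X, HoloRangeFinal.algebraMap_poly_X]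

omit hφq in
/-- `FF K N ⊆ K((q))` is compatible with scalars (`K((q))` with its coefficientwise action). -/
theorem coe_smul_FF (c : K) (g : FF K N) :
    ((c • g : FF K N) : LaurentSeries K) = c • ((g : FF K N) : LaurentSeries K) := by
  rw [Algebra.smul_def c g, ← HahnSeries.C_mul_eq_smul, MulMemClass.coe_mul]
  congr 1
  exact Fermat.Agent.S40.W.ThetaLog.algebraMap_eq_C K c

omit hφq in
theorem linearIndependent_coe {σ : Type*} (w : σ → FF K N) (hw : LinearIndependent K w) :
    LinearIndependent K fun i => ((w i : FF K N) : LaurentSeries K) := by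
  classical
  rw [linearIndependent_iff'] at hw ⊢
  intro s g hg i hi
  refine hw s g ?_ i hi
  apply Subtype.val_injective
  rw [ZeroMemClass.coe_zero, ← hg, AddSubmonoidClass.coe_finsetSum]
  exact Finset.sum_congr rfl fun i _ => coe_smul_FF K N (g i) (w i)

/-- A `q`-expansion compatible bridge preserves linear independence (`FF K N` and `ℂ` are linearly
disjoint over `K`). -/
theorem linearIndependent_map {σ : Type*} (w : σ → FF K N) (hw : LinearIndependent K w) :
    LinearIndependent ℂ fun i => φ (w i) := by
  classical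
  letI : Algebra K ℂ := ι.toAlgebra
  have h2 := Fermat.Agent.S24.LaurentDisjoint.linearIndependent_mapL (L := ℂ) _
    (linearIndependent_coe K N w hw)
  rw [linearIndependent_iff'] at h2 ⊢
  intro s g hg i hi
  refine h2 s g ?_ i hi
  have h3 := congrArg (qexpField N) hg
  rw [map_sum, map_zero] at h3
  rw [← h3]
  refine Finset.sum_congr rfl fun i _ => ?_
  rw [Algebra.smul_def, map_mul, AlgHom.commutes, hφq, ← HahnSeries.C_mul_eq_smul,
    Fermat.Agent.S40.W.ThetaLog.algebraMap_eq_C]
  rfl

end Bridge

variable [FiniteDimensional (RatFunc K) (FF K N)] [Algebra.IsSeparable (RatFunc K) (FF K N)]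

include ι

/-- **HB (W8b)**: `dim_K holo(K, N) ≤ dim_ℂ S₂(Γ₀(N))` for every field `K` of characteristic zero
embedded in `ℂ`. -/
theorem finrank_holo_le :
    Module.finrank K (Setting.holo K N) ≤ Module.finrank ℂ (CuspForm (Gamma0 N) 2) :=
  HoloLeAbs.finrank_holo_le K N ι (FormsHoloAlg.embQ K ι N)
    (FormsHoloAlg.map_algebraMap_const K ι N _ (FormsHoloAlg.qexpField_embQ K ι N))
    (map_jF K ι N _ (FormsHoloAlg.qexpField_embQ K ι N))
    (fun _ w hw => linearIndependent_map K ι N _ (FormsHoloAlg.qexpField_embQ K ι N) w hw)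

/-- `φ h = f / j'` for a cusp form `f`, for the bridge `embQ`. -/
theorem embQ_mem_range_toKW {h : FF K N} (hh : h ∈ Setting.holo K N) :
    FormsHoloAlg.embQ K ι N h ∈ LinearMap.range (HoloRangeFinal.toKW N) :=
  HoloLeAbs.map_mem_range_toKW K N ι (FormsHoloAlg.embQ K ι N)
    (FormsHoloAlg.map_algebraMap_const K ι N _ (FormsHoloAlg.qexpField_embQ K ι N))
    (map_jF K ι N _ (FormsHoloAlg.qexpField_embQ K ι N)) hh

end Fermat.Agent.S40.W.HoloLeFinal
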