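/-
S40 / (W3), leaf W7, final form (helper27): **the reduction of an integral cusp form of weight two is
`θ(j̄)` times an element of `holo κ N`**, given its characteristic-zero counterpart (W8a).

Level `(K, O)` as in `S40/W/FormsReduce` (`N` invertible in `O`, `StarStatement`, `SmoothStatement`).
With the vocabulary of record: `Setting.holo k N` (helper14), `ThetaLog.thetaD` (helper3),
`CuspSpan.redHom` (helper28).

* `theta_mem_holo` : `h ∈ holo K N` Gauss-integral ⇒ `thetaFF h ∈ holo κ N`
  (`FormsReduce.theta_mem_holoSpace` for `B = SigmaFin`, `Binf = Setting.Binf`);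
* `coe_thetaFF_mul_theta` : if `h · θ(j) = redHom N K f` in `K((q))` then
  `thetaFF h · θ(j̄) = redHom N κ f` in `κ((q))`;
* **`exists_holo_residue`** : the shape (C) consumed by `S40/W/Main` (W10):
  `(∃ h ∈ holo K N, h ∈ gaussSubalgebra K N O ∧ h · θ(j) = redHom N K f) →
   ∃ h̄ ∈ holo κ N, h̄ · θ(j̄) = redHom N κ f`.
-/
import Mathlib
import Fermat.Agent.S40.W.FormsReduce
import Fermat.Agent.S40.W.Setting
import Fermat.Agent.S40.W.CuspSpan

set_option autoImplicit false
set_option linter.unusedSectionVars false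
set_option linter.style.haveILetI false
set_option linter.style.longLine false
set_option synthInstance.maxHeartbeats 400000
set_option maxHeartbeats 800000

open Polynomial IsLocalRing

namespace Fermat.Agent.S40.W.HoloReduce

open CuspForm ModularCurve Fermat.Agent.S28.Gauss Fermat.Agent.N4.Chart Fermat.Agent.N4.Setting
  Fermat.Agent.N4.FibreEmbedding Fermat.Agent.N4F.C.ChartFibre Fermat.Agent.M2
  Fermat.Agent.S40.W.FormsReduce Fermat.Agent.S40.W.Setting Fermat.Agent.S40.W.ThetaLog
  Fermat.Agent.S40.W.CuspSpan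

open scoped Fermat.Agent.S40.W.FFSetting Fermat.Agent.S40.W.Setting

noncomputable section

variable (K : Type) [Field K] [CharZero K] (N : ℕ) [NeZero N] (O : Subring K)
  [IsDiscreteValuationRing ↥O] [IsFractionRing ↥O K]

variable (hN : IsUnit ((N : ℕ) : ↥O)) (hstar : StarStatement K N O)
  (hsm : SmoothStatement K N O)

variable [FiniteDimensional (RatFunc K) (FF K N)] [Algebra.IsSeparable (RatFunc K) (FF K N)]
  [FiniteDimensional (RatFunc (IsLocalRing.ResidueField ↥O)) (FF (IsLocalRing.ResidueField ↥O) N)]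
  [Algebra.IsSeparable (RatFunc (IsLocalRing.ResidueField ↥O))
    (FF (IsLocalRing.ResidueField ↥O) N)]

include hsm in
/-- **(C)** in the vocabulary of `Setting`: the Gauss reduction maps `holo K N ∩ (Gauss ring)` into
`holo κ N`. -/
theorem theta_mem_holo {h : FF K N} (hh : h ∈ holo K N) (hg : h ∈ gaussSubalgebra K N O) :
    FormsReduce.thetaFF K N O hN hstar.1.isPrime ⟨h, hg⟩ ∈
      holo (IsLocalRing.ResidueField ↥O) N :=
  theta_mem_holoSpace_of_star K N O hN ↥(SigmaFin K N) ↥(Setting.Binf K N)
    ↥(SigmaFin (IsLocalRing.ResidueField ↥O) N) ↥(Setting.Binf (IsLocalRing.ResidueField ↥O) N)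
    hstar hsm hh hg

omit [FiniteDimensional (RatFunc K) (FF K N)] [Algebra.IsSeparable (RatFunc K) (FF K N)]
  [FiniteDimensional (RatFunc (IsLocalRing.ResidueField ↥O)) (FF (IsLocalRing.ResidueField ↥O) N)]
  [Algebra.IsSeparable (RatFunc (IsLocalRing.ResidueField ↥O))
    (FF (IsLocalRing.ResidueField ↥O) N)] in
/-- The `q`-expansion identity `h · θ(j) = f` reduces to `h̄ · θ(j̄) = f̄`. -/
theorem coe_thetaFF_mul_theta (hprime : (fibreIdeal K N O (Rfin K N O)).IsPrime)
    (f : ↥(intLattice N 2)) {h : FF K N} (hg : h ∈ gaussSubalgebra K N O)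
    (hq : (h : LaurentSeries K) * thetaD K ((jF K N : FF K N) : LaurentSeries K) =
      redHom N K f) :
    ((FormsReduce.thetaFF K N O hN hprime ⟨h, hg⟩ : FF (IsLocalRing.ResidueField ↥O) N) :
        LaurentSeries (IsLocalRing.ResidueField ↥O)) *
      thetaD (IsLocalRing.ResidueField ↥O)
        ((jF (IsLocalRing.ResidueField ↥O) N : FF (IsLocalRing.ResidueField ↥O) N) :
          LaurentSeries (IsLocalRing.ResidueField ↥O)) =
      redHom N (IsLocalRing.ResidueField ↥O) f := by
  -- everything is the image of an `O`-integral series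
  have h1 : thetaD K ((jF K N : FF K N) : LaurentSeries K) =
      emb ↥O K (thetaD ↥O (jqModC ↥O)) := by
    rw [coe_jF, ← emb_jqModC K O]
    exact thetaD_coeffMap ↥O (algebraMap ↥O K) (jqModC ↥O)
  have h2 : redHom N K f = emb ↥O K (redHom N ↥O f) :=
    (coeffMap_redHom N (algebraMap ↥O K) f).symm
  have h3 : thetaD (IsLocalRing.ResidueField ↥O)
      ((jF (IsLocalRing.ResidueField ↥O) N : FF (IsLocalRing.ResidueField ↥O) N) :
        LaurentSeries (IsLocalRing.ResidueField ↥O)) = red ↥O (thetaD ↥O (jqModC ↥O)) := by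
    rw [coe_jF, ← red_jqModC K O]
    exact thetaD_coeffMap ↥O (IsLocalRing.residue ↥O) (jqModC ↥O)
  have h4 : redHom N (IsLocalRing.ResidueField ↥O) f = red ↥O (redHom N ↥O f) :=
    (coeffMap_redHom N (IsLocalRing.residue ↥O) f).symm
  rw [h1, h2] at hq
  rw [h3, h4, coe_thetaFF, theta_apply, ← gaussRed_emb (Q := K), ← gaussRed_emb (Q := K),
    ← map_mul]
  congr 1
  exact Subtype.ext hq

include hN hstar hsm in
/-- **The shape (C) consumed by W10**: a characteristic-zero solution `h` of `h · θ(j) = f` in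
`holo K N`, Gauss-integral, reduces to a solution in `holo κ N`. -/
theorem exists_holo_residue (f : ↥(intLattice N 2))
    (hK : ∃ h : FF K N, h ∈ holo K N ∧ h ∈ gaussSubalgebra K N O ∧
      (h : LaurentSeries K) * thetaD K ((jF K N : FF K N) : LaurentSeries K) = redHom N K f) :
    ∃ hb : FF (IsLocalRing.ResidueField ↥O) N, hb ∈ holo (IsLocalRing.ResidueField ↥O) N ∧
      (hb : LaurentSeries (IsLocalRing.ResidueField ↥O)) *
        thetaD (IsLocalRing.ResidueField ↥O)
          ((jF (IsLocalRing.ResidueField ↥O) N : FF (IsLocalRing.ResidueField ↥O) N) :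
            LaurentSeries (IsLocalRing.ResidueField ↥O)) =
        redHom N (IsLocalRing.ResidueField ↥O) f := by
  obtain ⟨h, hh, hg, hq⟩ := hK
  exact ⟨_, theta_mem_holo K N O hN hstar hsm hh hg,
    coe_thetaFF_mul_theta K N O hN hstar.1.isPrime f hg hq⟩

end

end Fermat.Agent.S40.W.HoloReduce
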