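/-
S40 / S44 (row 38), (W3) of `moonshots` rows 63/64, leaf **W5** in its final shape (helper9; glue of
helper9's `S40/W/CechRankLevel` and helper11's `S40/W/CechGeneric`):

  `finrank κ (Setting.holo κ N) ≤ finrank K (Setting.holo K N)`

at a level `(K, O)` (`O ⊆ K` a discrete valuation ring with fraction field `K` of characteristic `0`,
`N` invertible in `O`, residue field `κ`): the space of regular differentials of the special fibre of
`X₀(N)` is not bigger than the one of the generic fibre.

Proof: `H¹ = Rmid ⧸ (Rfin + Rinf)` is `O`-free of some rank `g` with a basis lifted to `Rmid`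
(`S19/Cech/TorsionFreeN4.exists_basis_lift_N4`); `dim_κ holo κ N ≤ g`
(`CechRankLevel.finrank_holo_special_le`, special fibre: ONTO) and `g ≤ dim_K holo K N`
(`CechGeneric.le_finrank_holoSpace`, generic fibre: independence).
-/
import Mathlib
import Fermat.Agent.S40.W.CechRankLevel
import Fermat.Agent.S40.W.CechGeneric

set_option autoImplicit false
set_option linter.unusedSectionVars false
set_option linter.style.haveILetI false
set_option synthInstance.maxHeartbeats 400000
set_option maxHeartbeats 800000

open ModularCurve Polynomial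
open Fermat.Agent.N4.Chart Fermat.Agent.N4.Setting Fermat.Agent.N4.FormalFunctions
  Fermat.Agent.N4F.C.ChartFibre Fermat.Agent.M2
open scoped Fermat.Agent.S40.W.FFSetting Fermat.Agent.S40.W.Setting

noncomputable section

namespace Fermat.Agent.S40.W.HoloResidueLe

open Fermat.Agent.S40.W.Setting Fermat.Agent.S19.Cech.TorsionFreeN4

variable (K : Type) [Field K] [CharZero K] (N : ℕ) [NeZero N]
variable (O : Subring K) [IsDiscreteValuationRing ↥O] [IsFractionRing ↥O K]

set_option quotPrecheck false in
local notation "κ" => IsLocalRing.ResidueField ↥O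

/-- The rank of the free `O`-module `H¹ = Rmid ⧸ (Rfin + Rinf)` is at most the dimension of the
space of regular differentials of the generic fibre. -/
theorem finrank_cech_le_finrank_holo
    [FiniteDimensional (RatFunc K) (FF K N)] [Algebra.IsSeparable (RatFunc K) (FF K N)]
    (hN : IsUnit ((N : ℕ) : ↥O)) {π : ↥O} (hπ : Irreducible π) (hstar : StarStatement K N O) :
    Module.finrank ↥O (Rmid K N O ⧸ chartSum (inclFin K N O) (inclInf K N O)) ≤
      Module.finrank K (holo K N) := by
  obtain ⟨g, ε, b, hb⟩ := exists_basis_lift_N4 K N O hπ hN hstar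
  rw [Module.finrank_eq_card_basis b, Fintype.card_fin]
  exact CechGeneric.le_finrank_holoSpace K N O ↥(SigmaFin K N) ↥(Binf K N) ε b hb

/-- **W5.**  `dim_κ holo κ N ≤ dim_K holo K N`. -/
theorem finrank_holo_residue_le
    [FiniteDimensional (RatFunc K) (FF K N)] [Algebra.IsSeparable (RatFunc K) (FF K N)]
    [FiniteDimensional (RatFunc κ) (FF κ N)] [Algebra.IsSeparable (RatFunc κ) (FF κ N)]
    (hN : IsUnit ((N : ℕ) : ↥O)) {π : ↥O} (hπ : Irreducible π) (hstar : StarStatement K N O)
    (hDed : IsDedekindDomain (Rfin K N O ⧸ fibreIdeal K N O (Rfin K N O))) :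
    Module.finrank κ (holo κ N) ≤ Module.finrank K (holo K N) :=
  le_trans (CechRankLevel.finrank_holo_special_le K N O hN hπ hstar hDed)
    (finrank_cech_le_finrank_holo K N O hN hπ hstar)

end Fermat.Agent.S40.W.HoloResidueLe
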