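/-
S40 (row 38), (W3) sub-row, leaf W10 (helper28): **the squeeze and the interface `(DLOG)`**.

For a field `k` and `N` with the Dedekind–Weber structure of `S40/W/Setting` on `FF k N ⊆ k((q))`:

* `mulTheta k N : FF k N →ₗ[k] k((q))`, `h ↦ h · θ(j)` — the `q`-expansion of the differential
  `h dj` in the coordinate `dq/q`; injective;
* `dlog_eq_mulTheta` : `θ(g)/g = mulTheta (Dj g / g)` (chain rule `Setting.theta_eq`);
* **`map_holo_eq_cuspSpan`** (the squeeze): if every reduction of an integral cusp form is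
  `mulTheta` of a regular differential `(hC)` and `dim holo ≤ rank Λ` `(hR)`, then
  `mulTheta (holo k N) = cuspSpan N k`;
* **`dlog_mem_cuspSpan`** `(DLOG)`: for `g ≠ 0` everywhere locally a unit times a `p`-th power,
  `θ(g)/g ∈ cuspSpan N k` — the span of the reductions of the integral weight-two cusp forms;
* `dlog_eq_zero_iff` : `θ(g)/g = 0 ↔ g` is a `p`-th power in `FF k N` (`k` perfect).

Level part (`K`, `O`, `κ`): `hC` from (W8a) + `FormsReduce.theta_mem_holoSpace_of_star` (W7), `hR`
from `CechRank` (special fibre) + (W-CECH-GEN) + (W8b) + `DWDuality`.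
-/
import Mathlib
import Fermat.Agent.S40.W.Setting
import Fermat.Agent.S40.W.DlogHolo
import Fermat.Agent.S40.W.DWDuality
import Fermat.Agent.S40.W.CuspSpan
import Fermat.Agent.S40.W.FormsReduce
import Fermat.Agent.S40.W.CechRank
import Fermat.Agent.S40.W.CechDWRank
import Fermat.Prelude.Thm_ModularCurve_coeff_jqModC_neg_one

set_option autoImplicit false
set_option linter.unusedSectionVars false
set_option linter.style.haveILetI false
set_option linter.style.longLine false
set_option synthInstance.maxHeartbeats 400000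
set_option maxHeartbeats 800000

open ModularCurve Polynomial Module
open Fermat.Agent.N4.Setting Fermat.Agent.N4.Chart Fermat.Agent.N4F.C.ChartFibre
open Fermat.Agent.M2 Fermat.Agent.S40.W.DerivX Fermat.Agent.S40.W.ThetaLog
open Fermat.Agent.S40.W.Setting Fermat.Agent.S40.W.CuspSpan Fermat.Agent.S40.W.DlogHolo
open scoped Fermat.Agent.S40.W.FFSetting Fermat.Agent.S40.W.Setting

noncomputable section

namespace Fermat.Agent.S40.W.Main

section Field

variable (k : Type) [Field k] (N : ℕ)

/-- `θ(j) ≠ 0` in `k((q))`: the coefficient of `q⁻¹` is `-1`. -/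
theorem thetaD_jF_ne_zero : thetaD k ((jF k N : FF k N) : LaurentSeries k) ≠ 0 := by
  intro h
  have h1 := congrArg (fun x : LaurentSeries k => x.coeff (-1 : ℤ)) h
  simp only [HahnSeries.coeff_zero] at h1
  rw [thetaD_coeff, coe_jF, coeff_jqModC_neg_one] at h1
  simp at h1

attribute [local instance] isScalarTower_k_FF_laurent

/-- `h ↦ h · θ(j)`: the `q`-expansion (in the coordinate `dq/q`) of the differential `h dj`. -/
def mulTheta : FF k N →ₗ[k] LaurentSeries k where
  toFun h := (h : LaurentSeries k) * thetaD k ((jF k N : FF k N) : LaurentSeries k)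
  map_add' a b := by
    show ((a + b : FF k N) : LaurentSeries k) * _ = _
    rw [AddMemClass.coe_add, add_mul]
  map_smul' c a := by
    exact smul_assoc c a (thetaD k ((jF k N : FF k N) : LaurentSeries k))

theorem mulTheta_apply (h : FF k N) :
    mulTheta k N h = (h : LaurentSeries k) * thetaD k ((jF k N : FF k N) : LaurentSeries k) := rfl

theorem mulTheta_injective : Function.Injective (mulTheta k N) := by
  intro a b hab
  rw [mulTheta_apply, mulTheta_apply] at hab
  exact Subtype.ext (mul_right_cancel₀ (thetaD_jF_ne_zero k N) hab)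

section Holo

variable [FiniteDimensional (RatFunc k) (FF k N)] [Algebra.IsSeparable (RatFunc k) (FF k N)]

/-- **Chain rule for the logarithmic derivative**: `θ(g)/g = θ(j) · (dg/dj)/g`. -/
theorem dlog_eq_mulTheta (g : FF k N) :
    dlog k ((g : FF k N) : LaurentSeries k) = mulTheta k N (Dj k N g / g) := by
  rw [dlog_def, theta_eq k N g, mulTheta_apply]
  have h : ((Dj k N g / g : FF k N) : LaurentSeries k) =
      ((Dj k N g : FF k N) : LaurentSeries k) / ((g : FF k N) : LaurentSeries k) := rfl
  rw [h]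
  ring

/-- `θ(g) = 0 ↔ dg/dj = 0`. -/
theorem thetaD_eq_zero_iff_Dj (g : FF k N) :
    thetaD k ((g : FF k N) : LaurentSeries k) = 0 ↔ Dj k N g = 0 := by
  rw [theta_eq k N g, mul_eq_zero]
  constructor
  · rintro (h | h)
    · exact absurd h (thetaD_jF_ne_zero k N)
    · exact Subtype.ext h
  · intro h
    right
    rw [h]
    rfl

variable [NeZero N]

/-- **The squeeze.**  If the reduction of every integral cusp form is the `q`-expansion of a
regular differential and `dim holo ≤ rank Λ`, then the `q`-expansions of the regular differentials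
are exactly the span of the reductions of the integral cusp forms. -/
theorem map_holo_eq_cuspSpan (p : ℕ) [Fact p.Prime] [CharP k p]
    (hC : ∀ f : ↥(CuspForm.intLattice N 2), ∃ h ∈ holo k N, mulTheta k N h = redHom N k f)
    (hR : finrank k (holo k N) ≤ finrank ℤ ↥(CuspForm.intLattice N 2)) :
    (holo k N).map (mulTheta k N) = cuspSpan N k := by
  haveI : Module.Finite k (holo k N) :=
    DWDuality.finite_holoSpace k (FF k N) ↥(SigmaFin k N) ↥(Binf k N)
  apply map_eq_of_le_of_finrank_le
  · refine Submodule.span_le.2 ?_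
    rintro _ ⟨f, rfl⟩
    obtain ⟨h, hh, hf⟩ := hC f
    exact ⟨h, hh, hf⟩
  · rw [finrank_cuspSpan N k p]
    exact hR

/-- **(DLOG)** For `g ≠ 0` in `FF k N` which is everywhere locally a unit times a `p`-th power, the
logarithmic derivative `θ(g)/g` lies in the span of the reductions of the integral weight-two cusp
forms of level `N`. -/
theorem dlog_mem_cuspSpan (p : ℕ) [Fact p.Prime] [CharP k p]
    (hC : ∀ f : ↥(CuspForm.intLattice N 2), ∃ h ∈ holo k N, mulTheta k N h = redHom N k f)
    (hR : finrank k (holo k N) ≤ finrank ℤ ↥(CuspForm.intLattice N 2))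
    {g : FF k N} (hg : g ≠ 0)
    (h : IsLocPthPower (FF k N) ↥(SigmaFin k N) ↥(Binf k N) p g) :
    dlog k ((g : FF k N) : LaurentSeries k) ∈ cuspSpan N k := by
  rw [← map_holo_eq_cuspSpan k N p hC hR, dlog_eq_mulTheta]
  exact Submodule.mem_map_of_mem
    (dlog_mem_holoSpace k (FF k N) ↥(SigmaFin k N) ↥(Binf k N) p hg h)

/-- `θ(g)/g = 0` iff `g` is a `p`-th power in `FF k N` (`k` perfect of characteristic `p`). -/
theorem dlog_eq_zero_iff (p : ℕ) [Fact p.Prime] [CharP k p] [PerfectField k]
    {g : FF k N} (hg : g ≠ 0) :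
    dlog k ((g : FF k N) : LaurentSeries k) = 0 ↔ ∃ e : FF k N, g = e ^ p := by
  have hg' : ((g : FF k N) : LaurentSeries k) ≠ 0 := fun h => hg (Subtype.ext h)
  rw [ThetaLog.dlog_eq_zero_iff k hg', thetaD_eq_zero_iff_Dj]
  exact derivX_eq_zero_iff k (FF k N) p

end Holo

end Field

/-! ### The level `(K, O)` -/

section Level

open Fermat.Agent.S28.Gauss Fermat.Agent.N4.FibreEmbedding Fermat.Agent.S19.Cech.TorsionFreeN4
  Fermat.Agent.N4.FormalFunctions

variable (K : Type) [Field K] [CharZero K] (N : ℕ) [NeZero N] (O : Subring K)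
  [IsDiscreteValuationRing ↥O] [IsFractionRing ↥O K]

set_option quotPrecheck false in
local notation "κ" => IsLocalRing.ResidueField ↥O

variable (hN : IsUnit ((N : ℕ) : ↥O))

variable [FiniteDimensional (RatFunc K) (FF K N)] [Algebra.IsSeparable (RatFunc K) (FF K N)]
  [FiniteDimensional (RatFunc (IsLocalRing.ResidueField ↥O)) (FF (IsLocalRing.ResidueField ↥O) N)]
  [Algebra.IsSeparable (RatFunc (IsLocalRing.ResidueField ↥O))
    (FF (IsLocalRing.ResidueField ↥O) N)]

/-- The Gauss reduction of a product `h · emb a = emb b` in `K((q))`. -/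
theorem theta_mul_red (h : gaussSubalgebra K N O) (a b : LaurentSeries ↥O)
    (hab : ((h : FF K N) : LaurentSeries K) * emb ↥O K a = emb ↥O K b) :
    theta K N O h * red ↥O a = red ↥O b := by
  rw [theta_apply, ← gaussRed_emb (A := ↥O) (Q := K) a, ← gaussRed_emb (A := ↥O) (Q := K) b,
    ← map_mul]
  congr 1
  exact Subtype.ext hab

include hN in
/-- **(C)** from (W8a) + (W7): the reduction of every integral cusp form is the `q`-expansion of a
regular differential of the special fibre. -/
theorem hC_of_forms (hstar : StarStatement K N O) (hsm : SmoothStatement K N O)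
    (HA : ∀ f : ↥(CuspForm.intLattice N 2), ∃ h : FF K N, h ∈ holo K N ∧
      h ∈ gaussSubalgebra K N O ∧ mulTheta K N h = redHom N K f)
    (f : ↥(CuspForm.intLattice N 2)) :
    ∃ h ∈ holo κ N, mulTheta κ N h = redHom N κ f := by
  obtain ⟨h, hh, hg, hf⟩ := HA f
  refine ⟨FormsReduce.thetaFF K N O hN hstar.1.isPrime ⟨h, hg⟩,
    FormsReduce.theta_mem_holoSpace_of_star K N O hN ↥(SigmaFin K N) ↥(Binf K N)
      ↥(SigmaFin κ N) ↥(Binf κ N) hstar hsm hh hg, ?_⟩
  rw [mulTheta_apply, FormsReduce.coe_thetaFF, coe_jF]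
  rw [mulTheta_apply, coe_jF] at hf
  have h1 : thetaD K (jqModC K) = emb ↥O K (thetaD ↥O (jqModC ↥O)) := by
    rw [← emb_jqModC K O]
    exact (thetaD_coeffMap ↥O (algebraMap ↥O K) (jqModC ↥O))
  have h2 : redHom N K f = emb ↥O K (redHom N ↥O f) :=
    (coeffMap_redHom N (algebraMap ↥O K) f).symm
  have h3 : thetaD κ (jqModC κ) = red ↥O (thetaD ↥O (jqModC ↥O)) := by
    rw [← red_jqModC K O]
    exact (thetaD_coeffMap ↥O (IsLocalRing.residue ↥O) (jqModC ↥O))
  have h4 : redHom N κ f = red ↥O (redHom N ↥O f) :=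
    (coeffMap_redHom N (IsLocalRing.residue ↥O) f).symm
  rw [h3, h4]
  apply theta_mul_red K N O ⟨h, hg⟩
  rw [← h1, ← h2]
  exact hf

/-- `SigmaFin κ N` as a `κ`-subspace is the `Bsub` of the Dedekind–Weber duality. -/
theorem toSubmodule_SigmaFin_eq (k : Type) [Field k] (M : ℕ)
    [FiniteDimensional (RatFunc k) (FF k M)] [Algebra.IsSeparable (RatFunc k) (FF k M)] :
    Subalgebra.toSubmodule (SigmaFin k M) = DWDuality.Bsub k (FF k M) ↥(SigmaFin k M) := by
  ext z
  rw [Subalgebra.mem_toSubmodule, DWDuality.mem_Bsub_iff_exists]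
  constructor
  · intro hz
    exact ⟨⟨z, hz⟩, rfl⟩
  · rintro ⟨b, rfl⟩
    exact b.2

include hN in
/-- **Special fibre**: `dim_κ holo κ N ≤ rank_O H¹` (Čech rank of the two-chart model). -/
theorem finrank_holo_residue_le {π : ↥O} (hπ : Irreducible π) (hstar : StarStatement K N O)
    (hsm : SmoothStatement K N O) :
    finrank κ (holo κ N) ≤
      finrank ↥O (Rmid K N O ⧸ chartSum (inclFin K N O) (inclInf K N O)) := by
  have hInf : ∀ y : Rinf K N O, redInf K N O hN y ∈
      DWDuality.Binfsub κ (FF κ N) ↥(Binf κ N) := by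
    intro y
    apply CechDWRank.mem_Binfsub_of_mem_chartAlg_inv κ (FF κ N) ↥(Binf κ N)
    rw [FFSetting.algebraMap_ratFunc_X]
    exact redInf_mem_SigmaInf K N O hN y
  have hsur : ∀ z : FF κ N, ∃ (m : ℕ) (s c : FF κ N), s ∈ SigmaFin κ N ∧
      c ∈ DWDuality.Binfsub κ (FF κ N) ↥(Binf κ N) ∧ z = (jF κ N)⁻¹ ^ m * s + c := by
    intro z
    obtain ⟨m, b, c, hz⟩ := CechDW.exists_mid_add_inf κ (FF κ N) ↥(SigmaFin κ N) ↥(Binf κ N) z
    rw [FFSetting.algebraMap_ratFunc_X] at hz
    exact ⟨m, b, algebraMap ↥(Binf κ N) (FF κ N) c, b.2,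
      DWDuality.mem_Binfsub_iff_exists.2 ⟨c, rfl⟩, hz⟩
  have h := (CechRank.finite_and_finrank_quot_special_le K N O hN hπ hstar hsm.1
    (DWDuality.Binfsub κ (FF κ N) ↥(Binf κ N)) hInf hsur).2
  rw [toSubmodule_SigmaFin_eq κ N] at h
  have h2 := DWDuality.finrank_quot_eq_finrank_holoSpace κ (FF κ N) ↥(SigmaFin κ N) ↥(Binf κ N)
  rw [← show DW.holoSpace κ (FF κ N) ↥(SigmaFin κ N) ↥(Binf κ N) = holo κ N from rfl, ← h2]
  exact h

include hN in
/-- **(R)** from `CechRank` + (W-CECH-GEN) + (W8b). -/
theorem hR_of_bounds {π : ↥O} (hπ : Irreducible π) (hstar : StarStatement K N O)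
    (hsm : SmoothStatement K N O)
    (HG : finrank ↥O (Rmid K N O ⧸ chartSum (inclFin K N O) (inclInf K N O)) ≤
      finrank K (holo K N))
    (HB : finrank K (holo K N) ≤ finrank ℤ ↥(CuspForm.intLattice N 2)) :
    finrank κ (holo κ N) ≤ finrank ℤ ↥(CuspForm.intLattice N 2) :=
  ((finrank_holo_residue_le K N O hN hπ hstar hsm).trans HG).trans HB

include hN in
/-- **The squeeze at a level**: the `q`-expansions of the regular differentials of the special fibre
are the span of the reductions of the integral weight-two cusp forms. -/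
theorem map_holo_eq_cuspSpan_level (p : ℕ) [Fact p.Prime]
    [CharP (IsLocalRing.ResidueField ↥O) p] {π : ↥O} (hπ : Irreducible π)
    (hstar : StarStatement K N O) (hsm : SmoothStatement K N O)
    (HA : ∀ f : ↥(CuspForm.intLattice N 2), ∃ h : FF K N, h ∈ holo K N ∧
      h ∈ gaussSubalgebra K N O ∧ mulTheta K N h = redHom N K f)
    (HG : finrank ↥O (Rmid K N O ⧸ chartSum (inclFin K N O) (inclInf K N O)) ≤
      finrank K (holo K N))
    (HB : finrank K (holo K N) ≤ finrank ℤ ↥(CuspForm.intLattice N 2)) :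
    (holo κ N).map (mulTheta κ N) = cuspSpan N κ :=
  map_holo_eq_cuspSpan κ N p (hC_of_forms K N O hN hstar hsm HA)
    (hR_of_bounds K N O hN hπ hstar hsm HG HB)

include hN in
/-- **(DLOG) at a level.**  For `g ≠ 0` in the function field `FF κ N` of the special fibre which
is everywhere locally a unit times a `p`-th power, `θ(g)/g` lies in the span of the reductions of
the integral weight-two cusp forms of level `N`. -/
theorem dlog_mem_cuspSpan_level (p : ℕ) [Fact p.Prime]
    [CharP (IsLocalRing.ResidueField ↥O) p] {π : ↥O} (hπ : Irreducible π)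
    (hstar : StarStatement K N O) (hsm : SmoothStatement K N O)
    (HA : ∀ f : ↥(CuspForm.intLattice N 2), ∃ h : FF K N, h ∈ holo K N ∧
      h ∈ gaussSubalgebra K N O ∧ mulTheta K N h = redHom N K f)
    (HG : finrank ↥O (Rmid K N O ⧸ chartSum (inclFin K N O) (inclInf K N O)) ≤
      finrank K (holo K N))
    (HB : finrank K (holo K N) ≤ finrank ℤ ↥(CuspForm.intLattice N 2))
    {g : FF κ N} (hg : g ≠ 0)
    (h : IsLocPthPower (FF κ N) ↥(SigmaFin κ N) ↥(Binf κ N) p g) :
    dlog κ ((g : FF κ N) : LaurentSeries κ) ∈ cuspSpan N κ :=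
  dlog_mem_cuspSpan κ N p (hC_of_forms K N O hN hstar hsm HA)
    (hR_of_bounds K N O hN hπ hstar hsm HG HB) hg h

end Level

end Fermat.Agent.S40.W.Main
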