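/-
S40 (row 38), (W3) sub-row, leaf W10 (helper28), chart form: **`(DLOG)` in the shape consumed by the
`J`-side** — hypotheses on the two affine charts `SigmaFin κ N` (`j ≠ ∞`) and `SigmaInf κ N`
(`j ≠ 0`) of the special fibre, which is the shape of the output of `(F4)` (`S40/W/F4Level`), with

* the finiteness/separability instances discharged (`S40/W/Sep`, any perfect field), and
* the generic-fibre Čech bound `(HG)` discharged (`S40/W/HoloResidueLe`).

Remaining named inputs (the `K → ℂ` bridge W8): `HA` (forms give regular differentials over `K`)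
and `HB` (`dim_K holo K N ≤ dim_ℂ S₂(Γ₀(N))`).
-/
import Mathlib
import Fermat.Agent.S40.W.Main
import Fermat.Agent.S40.W.HoloResidueLe
import Fermat.Agent.S40.W.Sep
import Fermat.Agent.S40.W.DlogChart
import Fermat.Agent.S23

set_option autoImplicit false
set_option linter.unusedSectionVars false
set_option linter.style.haveILetI false
set_option linter.style.longLine false
set_option synthInstance.maxHeartbeats 400000
set_option maxHeartbeats 800000

open ModularCurve Polynomial Module
open Fermat.Agent.N4.Setting Fermat.Agent.N4.Chart Fermat.Agent.N4F.C.ChartFibre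
open Fermat.Agent.N4.FibreEmbedding
open Fermat.Agent.M2 Fermat.Agent.S40.W.DerivX Fermat.Agent.S40.W.ThetaLog
open Fermat.Agent.S40.W.Setting Fermat.Agent.S40.W.CuspSpan Fermat.Agent.S40.W.DlogHolo
open Fermat.Agent.S40.W.Main
open scoped Fermat.Agent.S40.W.FFSetting Fermat.Agent.S40.W.Setting

noncomputable section

namespace Fermat.Agent.S40.W.MainCharts

attribute [local instance] Sep.finiteDimensional_ratFunc Sep.isSeparable_ratFunc

section Field

variable (k : Type) [Field k] [PerfectField k] (N : ℕ) [NeZero N]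

/-- The logarithmic derivative of a function which is a local `p`-th power on both affine charts
is a regular differential. -/
theorem Dj_div_mem_holo (p : ℕ) [CharP k p] {g : FF k N} (hg : g ≠ 0)
    (hfin : IsLocPthPowerOn (FF k N) ↥(SigmaFin k N) p g)
    (hinf : IsLocPthPowerOn (FF k N) ↥(SigmaInf k N) p g) :
    Dj k N g / g ∈ holo k N := by
  refine DlogChart.dlog_mem_holoSpace_of_charts k (FF k N) ↥(SigmaFin k N) ↥(Binf k N)
    ↥(SigmaInf k N) ?_ p hg hfin hinf
  intro y
  rw [FFSetting.algebraMap_ratFunc_X]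
  exact ⟨fun h => ⟨⟨y, h⟩, rfl⟩, fun ⟨c, hc⟩ => hc ▸ c.2⟩

/-- **(DLOG), chart form, abstract**: from `(hC)` and `(hR)`. -/
theorem dlog_mem_cuspSpan_of_charts (p : ℕ) [Fact p.Prime] [CharP k p]
    (hC : ∀ f : ↥(CuspForm.intLattice N 2), ∃ h ∈ holo k N, mulTheta k N h = redHom N k f)
    (hR : finrank k (holo k N) ≤ finrank ℤ ↥(CuspForm.intLattice N 2))
    {g : FF k N} (hg : g ≠ 0)
    (hfin : IsLocPthPowerOn (FF k N) ↥(SigmaFin k N) p g)
    (hinf : IsLocPthPowerOn (FF k N) ↥(SigmaInf k N) p g) :
    dlog k ((g : FF k N) : LaurentSeries k) ∈ cuspSpan N k := by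
  rw [← map_holo_eq_cuspSpan k N p hC hR, dlog_eq_mulTheta]
  exact Submodule.mem_map_of_mem (Dj_div_mem_holo k N p hg hfin hinf)

end Field

section Level

variable (K : Type) [Field K] [CharZero K] (N : ℕ) [NeZero N] (O : Subring K)
  [IsDiscreteValuationRing ↥O] [IsFractionRing ↥O K]

set_option quotPrecheck false in
local notation "κ" => IsLocalRing.ResidueField ↥O

variable (hN : IsUnit ((N : ℕ) : ↥O)) [PerfectField (IsLocalRing.ResidueField ↥O)]

include hN in
/-- **(DLOG) at a level, chart form.**  `g ≠ 0` in the function field of the special fibre of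
`X₀(N)` over `O`, a local `p`-th power (times a unit) at every closed point of both affine charts:
then `θ(g)/g` is in the span of the reductions of the integral weight-two cusp forms of level `N`.
Inputs still named: `HA`, `HB` (the `K → ℂ` bridge). -/
theorem dlog_mem_cuspSpan_level_of_charts (p : ℕ) [Fact p.Prime]
    [CharP (IsLocalRing.ResidueField ↥O) p]
    (hstar : StarStatement K N O) (hsm : SmoothStatement K N O)
    (HA : ∀ f : ↥(CuspForm.intLattice N 2), ∃ h : FF K N, h ∈ holo K N ∧
      h ∈ gaussSubalgebra K N O ∧ mulTheta K N h = redHom N K f)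
    (HB : finrank K (holo K N) ≤
      finrank ℂ (CuspForm (CongruenceSubgroup.Gamma0 N) 2))
    {g : FF κ N} (hg : g ≠ 0)
    (hfin : IsLocPthPowerOn (FF κ N) ↥(SigmaFin κ N) p g)
    (hinf : IsLocPthPowerOn (FF κ N) ↥(SigmaInf κ N) p g) :
    dlog κ ((g : FF κ N) : LaurentSeries κ) ∈ cuspSpan N κ := by
  obtain ⟨π, hπ⟩ := IsDiscreteValuationRing.exists_irreducible ↥O
  have HB' : finrank K (holo K N) ≤ finrank ℤ ↥(CuspForm.intLattice N 2) := by
    rw [finrank_intLattice_eq N (Fermat.Agent.S23.result N)]
    exact HB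
  have HG := HoloResidueLe.finrank_cech_le_finrank_holo K N O hN hπ hstar
  exact dlog_mem_cuspSpan_of_charts κ N p (hC_of_forms K N O hN hstar hsm HA)
    (hR_of_bounds K N O hN hπ hstar hsm HG HB') hg hfin hinf

include hN in
/-- The squeeze at a level, with `(HG)` and the instances discharged. -/
theorem map_holo_eq_cuspSpan_level' (p : ℕ) [Fact p.Prime]
    [CharP (IsLocalRing.ResidueField ↥O) p]
    (hstar : StarStatement K N O) (hsm : SmoothStatement K N O)
    (HA : ∀ f : ↥(CuspForm.intLattice N 2), ∃ h : FF K N, h ∈ holo K N ∧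
      h ∈ gaussSubalgebra K N O ∧ mulTheta K N h = redHom N K f)
    (HB : finrank K (holo K N) ≤
      finrank ℂ (CuspForm (CongruenceSubgroup.Gamma0 N) 2)) :
    (holo κ N).map (mulTheta κ N) = cuspSpan N κ := by
  obtain ⟨π, hπ⟩ := IsDiscreteValuationRing.exists_irreducible ↥O
  have HB' : finrank K (holo K N) ≤ finrank ℤ ↥(CuspForm.intLattice N 2) := by
    rw [finrank_intLattice_eq N (Fermat.Agent.S23.result N)]
    exact HB
  have HG := HoloResidueLe.finrank_cech_le_finrank_holo K N O hN hπ hstar
  exact map_holo_eq_cuspSpan κ N p (hC_of_forms K N O hN hstar hsm HA)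
    (hR_of_bounds K N O hN hπ hstar hsm HG HB')

end Level

end Fermat.Agent.S40.W.MainCharts
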