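/-
S40 / S44 (row 38), (W3) sub-row, leaf W10 (helper28), FINAL form: **`(DLOG)` and the squeeze with no
hypothesis beyond the level data and an embedding `ι : K →+* ℂ`.**

`MainCharts.dlog_mem_cuspSpan_level_of_charts` with its two named inputs discharged:
`HA := FormsHoloAlg.hA K ι N O` (W8a, helper27/helper14/helper10) and
`HB := HoloLeQ.finrank_holo_le K ι N` (W8b, helper13/helper27).

* `dlog_mem_cuspSpan` : at a level `(K, O)` (`K` of characteristic zero embedded in `ℂ`, `O` a DVR of
  `K` with perfect residue field `κ` of characteristic `p`, `N` invertible in `O`, the two charts of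
  `X₀(N)/O` with prime (`StarStatement`) and Dedekind (`SmoothStatement`) special fibres): for
  `g ≠ 0` in `FF κ N` which at every closed point of both affine charts `SigmaFin κ N`, `SigmaInf κ N`
  is a unit times a `p`-th power, the series `θ(g)/g ∈ κ((q))` lies in `cuspSpan N κ`, the `κ`-span
  of the reductions of the integral weight-two cusp forms of level `N`.
* `map_holo_eq_cuspSpan` : the regular differentials of the special fibre have as `q`-expansions
  exactly `cuspSpan N κ`.
-/
import Mathlib
import Fermat.Agent.S40.W.MainCharts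
import Fermat.Agent.S40.W.FormsHoloAlg
import Fermat.Agent.S40.W.HoloLeQ

set_option autoImplicit false
set_option linter.unusedSectionVars false
set_option linter.style.haveILetI false
set_option linter.style.longLine false
set_option synthInstance.maxHeartbeats 400000
set_option maxHeartbeats 800000

open ModularCurve Polynomial Module
open Fermat.Agent.N4.Setting Fermat.Agent.N4.Chart Fermat.Agent.N4F.C.ChartFibre
open Fermat.Agent.N4.FibreEmbedding
open Fermat.Agent.S40.W.ThetaLog
open Fermat.Agent.S40.W.Setting Fermat.Agent.S40.W.CuspSpan Fermat.Agent.S40.W.DlogHolo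
open Fermat.Agent.S40.W.Main
open scoped Fermat.Agent.S40.W.FFSetting Fermat.Agent.S40.W.Setting

noncomputable section

namespace Fermat.Agent.S40.W.MainFinal

attribute [local instance] Sep.finiteDimensional_ratFunc Sep.isSeparable_ratFunc

variable (K : Type) [Field K] [CharZero K] (ι : K →+* ℂ) (N : ℕ) [NeZero N] (O : Subring K)
  [IsDiscreteValuationRing ↥O] [IsFractionRing ↥O K]

set_option quotPrecheck false in
local notation "κ" => IsLocalRing.ResidueField ↥O

variable (hN : IsUnit ((N : ℕ) : ↥O)) [PerfectField (IsLocalRing.ResidueField ↥O)]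

include ι hN in
/-- **(DLOG), final form.** -/
theorem dlog_mem_cuspSpan (p : ℕ) [Fact p.Prime] [CharP (IsLocalRing.ResidueField ↥O) p]
    (hstar : StarStatement K N O) (hsm : SmoothStatement K N O)
    {g : FF κ N} (hg : g ≠ 0)
    (hfin : IsLocPthPowerOn (FF κ N) ↥(SigmaFin κ N) p g)
    (hinf : IsLocPthPowerOn (FF κ N) ↥(SigmaInf κ N) p g) :
    dlog κ ((g : FF κ N) : LaurentSeries κ) ∈ cuspSpan N κ :=
  MainCharts.dlog_mem_cuspSpan_level_of_charts K N O hN p hstar hsm
    (FormsHoloAlg.hA K ι N O) (HoloLeQ.finrank_holo_le K ι N) hg hfin hinf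

include ι hN in
/-- **The squeeze, final form**: the `q`-expansions `h · θ(j)` of the regular differentials `h dj`
of the special fibre are exactly the span of the reductions of the integral cusp forms. -/
theorem map_holo_eq_cuspSpan (p : ℕ) [Fact p.Prime] [CharP (IsLocalRing.ResidueField ↥O) p]
    (hstar : StarStatement K N O) (hsm : SmoothStatement K N O) :
    (holo κ N).map (mulTheta κ N) = cuspSpan N κ :=
  MainCharts.map_holo_eq_cuspSpan_level' K N O hN p hstar hsm
    (FormsHoloAlg.hA K ι N O) (HoloLeQ.finrank_holo_le K ι N)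

include ι hN in
/-- `dim_κ holo κ N = rank Λ = dim_ℂ S₂(Γ₀(N))`: the genus does not drop in the special fibre. -/
theorem finrank_holo_residue (p : ℕ) [Fact p.Prime] [CharP (IsLocalRing.ResidueField ↥O) p]
    (hstar : StarStatement K N O) (hsm : SmoothStatement K N O) :
    finrank κ (holo κ N) = finrank ℂ (CuspForm (CongruenceSubgroup.Gamma0 N) 2) := by
  have h1 := map_holo_eq_cuspSpan K ι N O hN p hstar hsm
  have h2 : finrank κ ((holo κ N).map (mulTheta κ N)) = finrank κ (holo κ N) :=
    (Submodule.equivMapOfInjective (mulTheta κ N) (mulTheta_injective κ N) (holo κ N)).finrank_eq.symm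
  rw [← h2, h1, finrank_cuspSpan N κ p, finrank_intLattice_eq N (Fermat.Agent.S23.result N)]

end Fermat.Agent.S40.W.MainFinal
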