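/-
S40/S44 (row 38), (W3), **(DLOG) at a `P3G` good level, hypothesis-free** (helper27).

For a place `A ∣ p` of `Q̄`, a good level `K` (`IsGoodLevel A p K`, `baseRing A K` a DVR) and a level
`M` prime to `p`: a non-zero function `g` of the special fibre `FF κ M` (`κ` the residue field of
`baseRing A K`) which is, at every closed point of the two affine charts `SigmaFin κ M`,
`SigmaInf κ M`, a unit times a `p`-th power, has `θ(g)/g` in the span of the mod `p` reductions of
the integral cusp forms of weight two and level `M`.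

This is `MainCharts.dlog_mem_cuspSpan_level_of_charts` (helper28, W10) with every hypothesis
discharged: `HA` = `FormsHoloAlg.hA` (W8a), `HB` = `HoloLeQ.finrank_holo_le` (W8b), the level facts
from `LevelStatements.starStatement_lvl / smoothStatement_lvl` (as in `F4Good.levelFacts_good`), the
embedding `ι = GammaV2.lvlToComplex K`.  It is the single named input of T5′ (`S40/New/T5`).
-/
import Mathlib
import Fermat.Agent.S40.W.MainCharts
import Fermat.Agent.S40.W.FormsHoloAlg
import Fermat.Agent.S40.W.HoloLeQ
import Fermat.Agent.S40.W.F4Good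

set_option autoImplicit false
set_option linter.unusedSectionVars false
set_option linter.style.haveILetI false
set_option linter.style.longLine false
set_option synthInstance.maxHeartbeats 400000
set_option maxHeartbeats 1600000

open ModularCurve Polynomial Module

noncomputable section

namespace Fermat.Agent.S40.W.MainGood

open Fermat.Agent.N4.Setting Fermat.Agent.N4.Chart Fermat.Agent.N4.S18Glue Fermat.Agent.N4.BigDVR
  Fermat.Agent.N4.FibreEmbedding
  Fermat.Agent.P3G.Assembly.StepOfLevel Fermat.Agent.P3G.Assembly.LevelStep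
  Fermat.Agent.N4F.C Fermat.Agent.N4F.C.Levels Fermat.Agent.N4F.C.Galois
  Fermat.Agent.N4F.E.GaussDVR Fermat.Agent.S33.L.Contracts
  Fermat.Agent.N4F.C.ChartFibre Fermat.Agent.P3G
  Fermat.Agent.S40.W.ThetaLog Fermat.Agent.S40.W.CuspSpan Fermat.Agent.S40.W.DlogHolo

open scoped Fermat.Agent.S40.W.FFSetting Fermat.Agent.S40.W.Setting

local notation "Qbar" => AlgebraicClosure ℚ

/-- **(DLOG) at a good level.** -/
theorem dlog_mem_cuspSpan_good (M p : ℕ) [NeZero M] [Fact p.Prime] (hpM : ¬ p ∣ M)
    (A : ValuationSubring Qbar) (hA : A.LiesOverPrime p)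
    (K : IntermediateField ℚ Qbar) (hK : IsGoodLevel A p K)
    [IsDiscreteValuationRing ↥(baseRing A K)]
    {g : FF (IsLocalRing.ResidueField ↥(baseRing A K)) M} (hg : g ≠ 0)
    (hfin : IsLocPthPowerOn (FF (IsLocalRing.ResidueField ↥(baseRing A K)) M)
      ↥(SigmaFin (IsLocalRing.ResidueField ↥(baseRing A K)) M) p g)
    (hinf : IsLocPthPowerOn (FF (IsLocalRing.ResidueField ↥(baseRing A K)) M)
      ↥(SigmaInf (IsLocalRing.ResidueField ↥(baseRing A K)) M) p g) :
    dlog (IsLocalRing.ResidueField ↥(baseRing A K))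
        ((g : FF (IsLocalRing.ResidueField ↥(baseRing A K)) M) :
          LaurentSeries (IsLocalRing.ResidueField ↥(baseRing A K))) ∈
      cuspSpan M (IsLocalRing.ResidueField ↥(baseRing A K)) := by
  have hq : p.Prime := Fact.out
  haveI : IsAlgClosed (IsLocalRing.ResidueField ↥(baseRing A K)) := hK.algClosed
  haveI : CharP (IsLocalRing.ResidueField ↥(baseRing A K)) p :=
    F4Good.charP_good M p hpM A K hK
  have hGB : GoodBase (Lvl K) M (baseRing A K) p := ⟨hq, hpM, inferInstance, hK.not_unit⟩
  have hstar := LevelStatements.starStatement_lvl hq hA K hGB hK.roots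
  have hsmooth := LevelStatements.smoothStatement_lvl hq hA hpM K hGB hK.roots
  have hN : IsUnit ((M : ℕ) : ↥(baseRing A K)) :=
    Fermat.Agent.P3G.GammaUnits.isUnit_natCast_baseRing K hq hA hpM
  haveI : FiniteDimensional (RatFunc (Lvl K)) (FF (Lvl K) M) :=
    Fermat.Agent.S40.W.FFSetting.finiteDimensional_ratFunc_of_charZero (Lvl K) M
  haveI : Algebra.IsSeparable (RatFunc (Lvl K)) (FF (Lvl K) M) :=
    Fermat.Agent.S40.W.FFSetting.isSeparable_ratFunc_of_charZero (Lvl K) M
  exact MainCharts.dlog_mem_cuspSpan_level_of_charts (Lvl K) M (baseRing A K) hN p hstar hsmooth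
    (FormsHoloAlg.hA (Lvl K) (Fermat.Agent.P3G.GammaV2.lvlToComplex K) M (baseRing A K))
    (HoloLeQ.finrank_holo_le (Lvl K) (Fermat.Agent.P3G.GammaV2.lvlToComplex K) M) hg hfin hinf

end Fermat.Agent.S40.W.MainGood
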