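/-
S40 (row 38), (W3) leaf W-C / W6, generic half (helper6): **trace, norm and multiplication matrices
commute with a "Gauss reduction"** — the orthonormal-basis argument, Mathlib only.

`F₀ ⊆ L` a finite field extension ("`K(j) ⊆ F_K`"), `k₀ ⊆ l` a finite field extension
("`κ(j̄) ⊆ F̄`") of the SAME degree, `S ≤ L` a subring with a surjective ring homomorphism
`θ : S → l` ("Gauss ring and its reduction"), `S₀ ≤ F₀` a subring with `θ₀ : S₀ → k₀` compatible with
`θ`, and `ϖ ∈ S₀`, `θ₀ ϖ = 0`, such that every `a ≠ 0` of `F₀` is `ϖ ^ m * u` with `u ∈ S₀`,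
`θ₀ u ≠ 0` (`m : ℤ`; "content of a rational function").  Then:

* `RedData.linearIndependent_of_map` : a family of `S` whose reduction is `k₀`-independent is
  `F₀`-independent;
* `RedData.exists_basis_lift` : there is an `F₀`-basis `b` of `L` inside `S` reducing to a `k₀`-basis
  `b̄` of `l`;
* `RedData.exists_repr` : the coordinates of an element of `S` in such a basis lie in `S₀`, and
  they reduce to the coordinates of the reduction;
* `RedData.exists_leftMulMatrix` : the same for multiplication matrices;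
* `RedData.trace_mem_and_map`, `RedData.norm_mem_and_map` : **`Tr_{L/F₀} y ∈ S₀` and
  `θ₀ (Tr_{L/F₀} y) = Tr_{l/k₀} (θ y)`**, same for the norm (`RedData.trace_mem`,
  `RedData.map_trace`, `RedData.norm_mem`, `RedData.map_norm` are the unbundled forms).

No integral closure, no Dedekind domain, no completion.
-/
import Mathlib

set_option autoImplicit false
set_option linter.unusedSectionVars false
set_option linter.style.longLine false

namespace Fermat.Agent.S40.W.TraceRedAbs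

open Module

/-- The data of a "Gauss reduction" of a finite field extension `L/F₀` onto `l/k₀`. -/
structure RedData (F₀ L k₀ l : Type*) [Field F₀] [Field L] [Algebra F₀ L] [Field k₀] [Field l]
    [Algebra k₀ l] where
  /-- the Gauss ring of `L` -/
  S : Subring L
  /-- the Gauss ring of `F₀` -/
  S₀ : Subring F₀
  /-- the reduction on `L` -/
  θ : S →+* l
  /-- the reduction on `F₀` -/
  θ₀ : S₀ →+* k₀
  /-- the uniformiser -/
  ϖ : F₀
  map_mem : ∀ a : S₀, algebraMap F₀ L a ∈ S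
  compat : ∀ a : S₀, θ ⟨algebraMap F₀ L a, map_mem a⟩ = algebraMap k₀ l (θ₀ a)
  surj : Function.Surjective θ
  ϖ_ne : ϖ ≠ 0
  ϖ_mem : ϖ ∈ S₀
  θ₀_ϖ : θ₀ ⟨ϖ, ϖ_mem⟩ = 0
  unif : ∀ a : F₀, a ≠ 0 → ∃ (m : ℤ) (u : S₀), a = ϖ ^ m * u ∧ θ₀ u ≠ 0
  deg : finrank k₀ l = finrank F₀ L

namespace RedData

variable {F₀ L k₀ l : Type*} [Field F₀] [Field L] [Algebra F₀ L] [Field k₀] [Field l]
  [Algebra k₀ l] (R : RedData F₀ L k₀ l)

/-- The image of `S₀` in `S`. -/
def incl : R.S₀ →+* R.S where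
  toFun a := ⟨algebraMap F₀ L a, R.map_mem a⟩
  map_one' := Subtype.ext (by simp)
  map_mul' a b := Subtype.ext (by simp)
  map_zero' := Subtype.ext (by simp)
  map_add' a b := Subtype.ext (by simp)

@[simp] theorem coe_incl (a : R.S₀) : ((R.incl a : R.S) : L) = algebraMap F₀ L a := rfl

theorem θ_incl (a : R.S₀) : R.θ (R.incl a) = algebraMap k₀ l (R.θ₀ a) := R.compat a

theorem ϖ_pow_mem (n : ℕ) : R.ϖ ^ n ∈ R.S₀ := R.S₀.pow_mem R.ϖ_mem n

theorem θ₀_ϖ_pow {n : ℕ} (hn : 0 < n) : R.θ₀ ⟨R.ϖ ^ n, R.ϖ_pow_mem n⟩ = 0 := by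
  have h : (⟨R.ϖ ^ n, R.ϖ_pow_mem n⟩ : R.S₀) = (⟨R.ϖ, R.ϖ_mem⟩ : R.S₀) ^ n := Subtype.ext rfl
  rw [h, map_pow, R.θ₀_ϖ, zero_pow hn.ne']

/-- **The scaling lemma**: a finite family of `F₀`, not all zero, can be scaled by a power of `ϖ`
into `S₀` with a member of nonzero reduction; moreover if the power is positive-direction
(`n₂ = 0` means we multiplied) the bookkeeping is explicit: `ϖ ^ n₁ * c i = ϖ ^ n₂ * d i`. -/
theorem exists_scale {ι : Type*} [Fintype ι] (c : ι → F₀) (hc : ∃ i, c i ≠ 0) :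
    ∃ (n₁ n₂ : ℕ) (d : ι → R.S₀), (n₁ = 0 ∨ n₂ = 0) ∧ (∀ i, R.ϖ ^ n₁ * c i = R.ϖ ^ n₂ * d i) ∧
      ∃ i, R.θ₀ (d i) ≠ 0 := by
  classical
  -- exponents of the nonzero members
  choose! m u hmu hu0 using fun i (hi : c i ≠ 0) => R.unif (c i) hi
  let T : Finset ι := Finset.univ.filter fun i => c i ≠ 0
  have hT : T.Nonempty := by
    obtain ⟨i, hi⟩ := hc
    exact ⟨i, Finset.mem_filter.2 ⟨Finset.mem_univ _, hi⟩⟩
  obtain ⟨i₀, hi₀T, hmin⟩ := Finset.exists_min_image T m hT
  have hi₀ : c i₀ ≠ 0 := (Finset.mem_filter.1 hi₀T).2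
  -- `d i := ϖ ^ (m i - m i₀) * u i` for `c i ≠ 0`, `0` otherwise
  have hnn : ∀ i, c i ≠ 0 → 0 ≤ m i - m i₀ := fun i hi =>
    sub_nonneg.2 (hmin i (Finset.mem_filter.2 ⟨Finset.mem_univ _, hi⟩))
  let d : ι → R.S₀ := fun i =>
    if hi : c i ≠ 0 then ⟨R.ϖ ^ (m i - m i₀).toNat, R.ϖ_pow_mem _⟩ * u i else 0
  have hd : ∀ i, c i = R.ϖ ^ (m i₀) * (d i : F₀) := by
    intro i
    by_cases hi : c i ≠ 0
    · have h1 : (d i : F₀) = R.ϖ ^ (m i - m i₀).toNat * (u i : F₀) := by
        simp only [d, dif_pos hi]; rfl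
      rw [h1, ← mul_assoc, ← zpow_natCast, Int.toNat_of_nonneg (hnn i hi), ← zpow_add₀ R.ϖ_ne]
      rw [show m i₀ + (m i - m i₀) = m i by ring]
      exact hmu i hi
    · have h1 : (d i : F₀) = 0 := by simp only [d, dif_neg hi]; rfl
      rw [h1, mul_zero]
      exact not_not.1 hi
  have hd₀ : R.θ₀ (d i₀) ≠ 0 := by
    have h1 : d i₀ = u i₀ := by
      apply Subtype.ext
      simp only [d, dif_pos hi₀, sub_self, Int.toNat_zero, pow_zero]
      show (1 : F₀) * (u i₀ : F₀) = u i₀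
      rw [one_mul]
    rw [h1]
    exact hu0 i₀ hi₀
  rcases le_total 0 (m i₀) with h | h
  · -- `c i = ϖ ^ k * d i`, `k ≥ 0`
    refine ⟨0, (m i₀).toNat, d, Or.inl rfl, fun i => ?_, i₀, hd₀⟩
    rw [pow_zero, one_mul, hd i, ← zpow_natCast, Int.toNat_of_nonneg h]
  · -- `ϖ ^ k * c i = d i`, `k = - m i₀ ≥ 0`
    refine ⟨(-m i₀).toNat, 0, d, Or.inr rfl, fun i => ?_, i₀, hd₀⟩
    rw [pow_zero, one_mul, hd i, ← mul_assoc, ← zpow_natCast,
      Int.toNat_of_nonneg (neg_nonneg.2 h), ← zpow_add₀ R.ϖ_ne, neg_add_cancel, zpow_zero, one_mul]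

/-- A finite family of `S` whose reduction is `k₀`-linearly independent is `F₀`-linearly
independent. -/
theorem linearIndependent_of_map {ι : Type*} [Fintype ι] (b : ι → R.S)
    (hb : LinearIndependent k₀ fun i => R.θ (b i)) :
    LinearIndependent F₀ fun i => ((b i : R.S) : L) := by
  classical
  rw [Fintype.linearIndependent_iff]
  intro c hc
  by_contra hne
  push Not at hne
  obtain ⟨n₁, n₂, d, -, hd, i₀, hi₀⟩ := R.exists_scale c hne
  -- `Σ d i • b i = 0` in `S`
  have h1 : ∑ i, R.incl (d i) * b i = 0 := by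
    apply Subtype.ext
    have hϖ : (algebraMap F₀ L (R.ϖ ^ n₂)) ≠ 0 := by
      rw [Ne, map_eq_zero]; exact pow_ne_zero _ R.ϖ_ne
    rw [ZeroMemClass.coe_zero]
    apply mul_left_cancel₀ hϖ
    rw [mul_zero]
    have : algebraMap F₀ L (R.ϖ ^ n₂) * ((∑ i, R.incl (d i) * b i : R.S) : L) =
        algebraMap F₀ L (R.ϖ ^ n₁) * ∑ i, c i • ((b i : R.S) : L) := by
      rw [AddSubmonoidClass.coe_finsetSum, Finset.mul_sum, Finset.mul_sum]
      refine Finset.sum_congr rfl fun i _ => ?_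
      rw [Subring.coe_mul, coe_incl, Algebra.smul_def, ← mul_assoc, ← mul_assoc, ← map_mul,
        ← map_mul, hd i]
    rw [this, hc, mul_zero]
  have h2 := congrArg R.θ h1
  rw [map_sum, map_zero] at h2
  simp only [map_mul, θ_incl] at h2
  have h3 : ∑ i, R.θ₀ (d i) • R.θ (b i) = 0 := by
    rw [← h2]
    refine Finset.sum_congr rfl fun i _ => ?_
    rw [Algebra.smul_def]
  exact hi₀ (Fintype.linearIndependent_iff.1 hb _ h3 i₀)

variable [FiniteDimensional F₀ L] [FiniteDimensional k₀ l]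

/-- **A basis of `L/F₀` inside `S` lifting a basis of `l/k₀`.** -/
theorem exists_basis_lift :
    ∃ (b : Basis (Fin (finrank F₀ L)) F₀ L) (bS : Fin (finrank F₀ L) → R.S)
      (b' : Basis (Fin (finrank F₀ L)) k₀ l), (∀ i, b i = (bS i : L)) ∧ ∀ i, R.θ (bS i) = b' i := by
  classical
  let b₀ : Basis (Fin (finrank k₀ l)) k₀ l := Module.finBasis k₀ l
  let b' : Basis (Fin (finrank F₀ L)) k₀ l := b₀.reindex (finCongr R.deg)
  choose bS hbS using fun i => R.surj (b' i)
  have hli : LinearIndependent F₀ fun i => ((bS i : R.S) : L) := by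
    apply R.linearIndependent_of_map bS
    have : (fun i => R.θ (bS i)) = b' := funext hbS
    rw [this]
    exact b'.linearIndependent
  have : Nonempty (Fin (finrank F₀ L)) := Fin.pos_iff_nonempty.1 Module.finrank_pos
  let b : Basis (Fin (finrank F₀ L)) F₀ L :=
    basisOfLinearIndependentOfCardEqFinrank hli (by simp)
  refine ⟨b, bS, b', fun i => ?_, hbS⟩
  simp [b]

section Basis

variable {ι : Type*} [Fintype ι] [DecidableEq ι] (b : Basis ι F₀ L) (bS : ι → R.S) (b' : Basis ι k₀ l)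
  (hb : ∀ i, b i = (bS i : L)) (hb' : ∀ i, R.θ (bS i) = b' i)

include hb hb' in
/-- **Coordinates of an element of `S` in a lifted basis lie in `S₀`, and reduce to the coordinates
of the reduction.** -/
theorem exists_repr (y : R.S) :
    ∃ c : ι → R.S₀, (∀ i, b.repr (y : L) i = (c i : F₀)) ∧ ∀ i, b'.repr (R.θ y) i = R.θ₀ (c i) := by
  classical
  by_cases hy : ∀ i, b.repr (y : L) i = 0
  · refine ⟨fun _ => 0, fun i => by rw [hy i]; rfl, fun i => ?_⟩
    have hy0 : (y : L) = 0 := by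
      have := b.sum_repr (y : L)
      rw [← this]
      exact Finset.sum_eq_zero fun i _ => by rw [hy i, zero_smul]
    have : y = 0 := Subtype.ext hy0
    rw [this, map_zero, map_zero]
    simp
  · push Not at hy
    obtain ⟨n₁, n₂, d, hn, hd, i₀, hi₀⟩ := R.exists_scale (fun i => b.repr (y : L) i) hy
    -- the relation `ϖ ^ n₁ * y = ϖ ^ n₂ * Σ d i • b i` in `S`
    have hrel : R.incl ⟨R.ϖ ^ n₁, R.ϖ_pow_mem n₁⟩ * y =
        R.incl ⟨R.ϖ ^ n₂, R.ϖ_pow_mem n₂⟩ * ∑ i, R.incl (d i) * bS i := by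
      apply Subtype.ext
      push_cast
      rw [coe_incl, coe_incl]
      conv_lhs => rw [← b.sum_repr (y : L)]
      rw [Finset.mul_sum, Finset.mul_sum]
      refine Finset.sum_congr rfl fun i _ => ?_
      rw [coe_incl, Algebra.smul_def, hb i, ← mul_assoc, ← mul_assoc, ← map_mul, ← map_mul]
      exact congrArg (fun z => algebraMap F₀ L z * ((bS i : R.S) : L)) (hd i)
    have hθrel := congrArg R.θ hrel
    simp only [map_mul, map_sum, θ_incl, hb'] at hθrel
    -- `n₁ = 0`: otherwise the reduction of the right hand side vanishes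
    have hn₁ : n₁ = 0 := by
      by_contra h1
      have hn₂ : n₂ = 0 := hn.resolve_left h1
      subst hn₂
      rw [R.θ₀_ϖ_pow (Nat.pos_of_ne_zero h1), map_zero, zero_mul] at hθrel
      have h2 : (⟨R.ϖ ^ 0, R.ϖ_pow_mem 0⟩ : R.S₀) = 1 := Subtype.ext (pow_zero _)
      rw [h2, map_one, map_one, one_mul] at hθrel
      have h3 : ∑ i, R.θ₀ (d i) • b' i = 0 := by
        rw [hθrel]
        refine Finset.sum_congr rfl fun i _ => ?_
        rw [Algebra.smul_def]
      exact hi₀ (Fintype.linearIndependent_iff.1 b'.linearIndependent _ h3 i₀)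
    subst hn₁
    refine ⟨fun i => ⟨R.ϖ ^ n₂, R.ϖ_pow_mem n₂⟩ * d i, fun i => ?_, fun i => ?_⟩
    · have := hd i
      rw [pow_zero, one_mul] at this
      rw [this]
      rfl
    · have h2 : (⟨R.ϖ ^ 0, R.ϖ_pow_mem 0⟩ : R.S₀) = 1 := Subtype.ext (pow_zero _)
      rw [h2, map_one, map_one, one_mul] at hθrel
      have h3 : R.θ y = ∑ j, R.θ₀ (⟨R.ϖ ^ n₂, R.ϖ_pow_mem n₂⟩ * d j) • b' j := by
        rw [hθrel, Finset.mul_sum]
        refine Finset.sum_congr rfl fun j _ => ?_
        rw [Algebra.smul_def, map_mul, map_mul, mul_assoc]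
      rw [h3, map_sum]
      simp only [map_smul, Basis.repr_self, Finsupp.smul_single, smul_eq_mul, mul_one]
      rw [Finset.sum_apply']
      simp [Finsupp.single_apply]

include hb hb' in
/-- **The multiplication matrix of an element of `S` in a lifted basis has entries in `S₀` and
reduces to the multiplication matrix of the reduction.** -/
theorem exists_leftMulMatrix (y : R.S) :
    ∃ M : Matrix ι ι R.S₀, Algebra.leftMulMatrix b (y : L) = M.map (fun a => (a : F₀)) ∧
      Algebra.leftMulMatrix b' (R.θ y) = M.map R.θ₀ := by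
  classical
  choose c hc hc' using fun j => R.exists_repr b bS b' hb hb' (y * bS j)
  refine ⟨Matrix.of fun i j => c j i, ?_, ?_⟩
  · ext i j
    rw [Algebra.leftMulMatrix_eq_repr_mul, Matrix.map_apply, Matrix.of_apply, ← hc j i, hb j]
    rfl
  · ext i j
    rw [Algebra.leftMulMatrix_eq_repr_mul, Matrix.map_apply, Matrix.of_apply, ← hc' j i,
      map_mul R.θ, hb' j]

include hb hb' in
/-- **Trace commutes with reduction.** -/
theorem exists_trace (y : R.S) :
    ∃ t : R.S₀, Algebra.trace F₀ L (y : L) = (t : F₀) ∧ Algebra.trace k₀ l (R.θ y) = R.θ₀ t := by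
  classical
  obtain ⟨M, hM, hM'⟩ := R.exists_leftMulMatrix b bS b' hb hb' y
  refine ⟨M.trace, ?_, ?_⟩
  · rw [Algebra.trace_eq_matrix_trace b, hM]
    simp only [Matrix.trace, Matrix.diag, Matrix.map_apply]
    push_cast
    rfl
  · rw [Algebra.trace_eq_matrix_trace b', hM']
    simp only [Matrix.trace, Matrix.diag, Matrix.map_apply, map_sum]

include hb hb' in
/-- **Norm commutes with reduction.** -/
theorem exists_norm (y : R.S) :
    ∃ t : R.S₀, Algebra.norm F₀ (y : L) = (t : F₀) ∧ Algebra.norm k₀ (R.θ y) = R.θ₀ t := by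
  classical
  obtain ⟨M, hM, hM'⟩ := R.exists_leftMulMatrix b bS b' hb hb' y
  refine ⟨M.det, ?_, ?_⟩
  · rw [Algebra.norm_eq_matrix_det b, hM]
    exact (RingHom.map_det R.S₀.subtype M).symm
  · rw [Algebra.norm_eq_matrix_det b', hM']
    exact (RingHom.map_det R.θ₀ M).symm

end Basis

/-- **Trace commutes with reduction** (no basis in the statement). -/
theorem trace_mem_and_map (y : R.S) :
    ∃ t : R.S₀, Algebra.trace F₀ L (y : L) = (t : F₀) ∧ Algebra.trace k₀ l (R.θ y) = R.θ₀ t := by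
  classical
  obtain ⟨b, bS, b', hb, hb'⟩ := R.exists_basis_lift
  exact R.exists_trace b bS b' hb hb' y

/-- **Norm commutes with reduction** (no basis in the statement). -/
theorem norm_mem_and_map (y : R.S) :
    ∃ t : R.S₀, Algebra.norm F₀ (y : L) = (t : F₀) ∧ Algebra.norm k₀ (R.θ y) = R.θ₀ t := by
  classical
  obtain ⟨b, bS, b', hb, hb'⟩ := R.exists_basis_lift
  exact R.exists_norm b bS b' hb hb' y

theorem trace_mem (y : R.S) : Algebra.trace F₀ L (y : L) ∈ R.S₀ := by
  obtain ⟨t, ht, -⟩ := R.trace_mem_and_map y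
  rw [ht]
  exact t.2

theorem map_trace (y : R.S) :
    R.θ₀ ⟨Algebra.trace F₀ L (y : L), R.trace_mem y⟩ = Algebra.trace k₀ l (R.θ y) := by
  obtain ⟨t, ht, ht'⟩ := R.trace_mem_and_map y
  rw [ht']
  exact congrArg R.θ₀ (Subtype.ext ht)

theorem norm_mem (y : R.S) : Algebra.norm F₀ (y : L) ∈ R.S₀ := by
  obtain ⟨t, ht, -⟩ := R.norm_mem_and_map y
  rw [ht]
  exact t.2

theorem map_norm (y : R.S) :
    R.θ₀ ⟨Algebra.norm F₀ (y : L), R.norm_mem y⟩ = Algebra.norm k₀ (R.θ y) := by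
  obtain ⟨t, ht, ht'⟩ := R.norm_mem_and_map y
  rw [ht']
  exact congrArg R.θ₀ (Subtype.ext ht)

/-- Membership form: if `y ∈ S` then the trace of `y` is in `S₀` and, for ANY proof of membership,
`θ₀` of it is the trace of `θ y`. -/
theorem map_trace' {y : L} (hy : y ∈ R.S) (ht : Algebra.trace F₀ L y ∈ R.S₀) :
    R.θ₀ ⟨Algebra.trace F₀ L y, ht⟩ = Algebra.trace k₀ l (R.θ ⟨y, hy⟩) :=
  R.map_trace ⟨y, hy⟩

end RedData

end Fermat.Agent.S40.W.TraceRedAbs
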